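import Mathlib

/-!
# Shapiro's lemma on explicit low-degree cochains (CFT brick [SH-core])

`G` a group, `U ≤ G` a subgroup, `A : Rep k U`, `M = Rep.coind U.subtype A` (functions
`f : G → A` with `f (u * x) = ρ(u) (f x)`, `G` acting by right translation).

* `Retr U` : a `U`-equivariant retraction `r : G → U` (`r (u * x) = u * r x`, `r 1 = 1`);
  `Retr.nonempty`.
* `sh₀ … sh₃` : evaluation at `1`, from cochains of `G` with values in `M` to cochains of `U`
  with values in `A`.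
* `ind₀ … ind₃` : the maps in the other direction attached to a retraction.
* `hom₀, hom₁, hom₂` : the prism homotopies.
* `sh_d`, `ind_d` : both are maps of complexes; `sh_ind` : `sh ∘ ind = id`;
  `ind_sh_sub` : `ind ∘ sh - id = d ∘ hom + hom ∘ d`.
* consequences for cocycles and coboundaries in degrees 1 and 2.
-/

set_option autoImplicit false

open groupCohomology

namespace Fermat.Agent.S55.Shapiro

variable {k : Type} [CommRing k] {G : Type} [Group G]

/-- A `U`-equivariant retraction `G → U`. -/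
structure Retr (U : Subgroup G) where
  /-- the retraction -/
  r : G → U
  map_mul' : ∀ (u : U) (x : G), r ((u : G) * x) = u * r x
  map_one' : r 1 = 1

namespace Retr

variable {U : Subgroup G} (R : Retr U)

theorem apply_coe (u : U) : R.r (u : G) = u := by
  have h := R.map_mul' u 1
  rw [mul_one, R.map_one', mul_one] at h
  exact h

/-- `t(x)⁻¹ = x⁻¹ * r x`. -/
def tinv (x : G) : G := x⁻¹ * (R.r x : G)

/-- `u(x, g) = (r x)⁻¹ * r (x * g)`. -/
def uu (x g : G) : U := (R.r x)⁻¹ * R.r (x * g)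

theorem mul_tinv (x : G) : x * R.tinv x = (R.r x : G) := by
  simp [tinv]

theorem tinv_smul (u : U) (x : G) : R.tinv ((u : G) * x) = R.tinv x := by
  simp [tinv, R.map_mul', mul_assoc]

theorem uu_smul (u : U) (x g : G) : R.uu ((u : G) * x) g = R.uu x g := by
  simp [uu, R.map_mul', mul_assoc]

theorem r_mul_uu (x g : G) : R.r x * R.uu x g = R.r (x * g) := by
  simp [uu]

theorem uu_mul_uu (x g h : G) : R.uu x g * R.uu (x * g) h = R.uu x (g * h) := by
  simp [uu, mul_assoc]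

theorem tinv_mul_uu (x g : G) : R.tinv x * (R.uu x g : G) = g * R.tinv (x * g) := by
  simp [tinv, uu, mul_assoc]

theorem uu_one_left (u : U) : R.uu 1 (u : G) = u := by
  simp [uu, R.map_one', R.apply_coe]

theorem uu_coe_left (u v : U) : R.uu (u : G) (v : G) = v := by
  have h : R.r ((u : G) * (v : G)) = u * v := by
    rw [R.map_mul', R.apply_coe]
  simp [uu, R.apply_coe, h]

end Retr

theorem Retr.nonempty (U : Subgroup G) : Nonempty (Retr U) := by
  classical
  let t₀ : G → G := fun x => (Quotient.mk (QuotientGroup.rightRel U) x).out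
  have ht₀ : ∀ x : G, x * (t₀ x)⁻¹ ∈ U := by
    intro x
    have h : (QuotientGroup.rightRel U) (t₀ x) x := Quotient.mk_out (s := QuotientGroup.rightRel U) x
    rwa [QuotientGroup.rightRel_apply] at h
  have ht₀' : ∀ (u : U) (x : G), t₀ ((u : G) * x) = t₀ x := by
    intro u x
    have h : (Quotient.mk (QuotientGroup.rightRel U) ((u : G) * x)) =
        Quotient.mk (QuotientGroup.rightRel U) x := by
      apply Quotient.sound
      show (QuotientGroup.rightRel U) ((u : G) * x) x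
      rw [QuotientGroup.rightRel_apply]
      have : x * ((u : G) * x)⁻¹ = ((u⁻¹ : U) : G) := by
        simp [mul_inv_rev]
      rw [this]
      exact (u⁻¹).2
    show (Quotient.mk (QuotientGroup.rightRel U) ((u : G) * x)).out =
      (Quotient.mk (QuotientGroup.rightRel U) x).out
    rw [h]
  let r₀ : G → U := fun x => ⟨x * (t₀ x)⁻¹, ht₀ x⟩
  have hr₀ : ∀ (u : U) (x : G), r₀ ((u : G) * x) = u * r₀ x := by
    intro u x
    apply Subtype.ext
    show (u : G) * x * (t₀ ((u : G) * x))⁻¹ = (u : G) * (x * (t₀ x)⁻¹)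
    rw [ht₀', mul_assoc]
  exact ⟨⟨fun x => r₀ x * (r₀ 1)⁻¹, fun u x => by rw [hr₀, mul_assoc], by simp⟩⟩

variable (U : Subgroup G) (A : Rep.{0} k U)

section Maps

/-- Evaluation at `1`, degree 0. -/
def sh₀ : (Rep.coind U.subtype A) →ₗ[k] A where
  toFun f := f.1 1
  map_add' _ _ := rfl
  map_smul' _ _ := rfl

/-- Evaluation at `1`, degree 1. -/
def sh₁ : (G → Rep.coind U.subtype A) →ₗ[k] (U → A) where
  toFun c u := (c (u : G)).1 1
  map_add' _ _ := rfl
  map_smul' _ _ := rfl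

/-- Evaluation at `1`, degree 2. -/
def sh₂ : (G × G → Rep.coind U.subtype A) →ₗ[k] (U × U → A) where
  toFun c p := (c ((p.1 : G), (p.2 : G))).1 1
  map_add' _ _ := rfl
  map_smul' _ _ := rfl

/-- Evaluation at `1`, degree 3. -/
def sh₃ : (G × G × G → Rep.coind U.subtype A) →ₗ[k] (U × U × U → A) where
  toFun c p := (c ((p.1 : G), (p.2.1 : G), (p.2.2 : G))).1 1
  map_add' _ _ := rfl
  map_smul' _ _ := rfl

variable {U} (R : Retr U)

/-- Induction of 0-cochains along a retraction. -/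
def ind₀ : A →ₗ[k] (Rep.coind U.subtype A) where
  toFun a := ⟨fun x => A.ρ (R.r x) a, fun u x => by
    show A.ρ (R.r ((u : G) * x)) a = A.ρ u (A.ρ (R.r x) a)
    rw [R.map_mul', map_mul]; rfl⟩
  map_add' a b := Subtype.ext (funext fun x => map_add _ a b)
  map_smul' c a := Subtype.ext (funext fun x => map_smul _ c a)

/-- Induction of 1-cochains along a retraction. -/
def ind₁ : (U → A) →ₗ[k] (G → Rep.coind U.subtype A) where
  toFun β g := ⟨fun x => A.ρ (R.r x) (β (R.uu x g)), fun u x => by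
    show A.ρ (R.r ((u : G) * x)) (β (R.uu ((u : G) * x) g)) = A.ρ u (A.ρ (R.r x) (β (R.uu x g)))
    rw [R.map_mul', map_mul, R.uu_smul]; rfl⟩
  map_add' a b := funext fun g => Subtype.ext (funext fun x => map_add _ _ _)
  map_smul' c a := funext fun g => Subtype.ext (funext fun x => map_smul _ c _)

/-- Induction of 2-cochains along a retraction. -/
def ind₂ : (U × U → A) →ₗ[k] (G × G → Rep.coind U.subtype A) where
  toFun β p := ⟨fun x => A.ρ (R.r x) (β (R.uu x p.1, R.uu (x * p.1) p.2)), fun u x => by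
    show A.ρ (R.r ((u : G) * x)) (β (R.uu ((u : G) * x) p.1, R.uu ((u : G) * x * p.1) p.2)) =
      A.ρ u (A.ρ (R.r x) (β (R.uu x p.1, R.uu (x * p.1) p.2)))
    rw [R.map_mul', map_mul, R.uu_smul, mul_assoc, R.uu_smul]; rfl⟩
  map_add' a b := funext fun g => Subtype.ext (funext fun x => map_add _ _ _)
  map_smul' c a := funext fun g => Subtype.ext (funext fun x => map_smul _ c _)

/-- Induction of 3-cochains along a retraction. -/
def ind₃ : (U × U × U → A) →ₗ[k] (G × G × G → Rep.coind U.subtype A) where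
  toFun β p := ⟨fun x => A.ρ (R.r x)
      (β (R.uu x p.1, R.uu (x * p.1) p.2.1, R.uu (x * p.1 * p.2.1) p.2.2)), fun u x => by
    show A.ρ (R.r ((u : G) * x)) (β (R.uu ((u : G) * x) p.1, R.uu ((u : G) * x * p.1) p.2.1,
        R.uu ((u : G) * x * p.1 * p.2.1) p.2.2)) =
      A.ρ u (A.ρ (R.r x) (β (R.uu x p.1, R.uu (x * p.1) p.2.1, R.uu (x * p.1 * p.2.1) p.2.2)))
    rw [R.map_mul', map_mul, R.uu_smul, mul_assoc (u : G) x p.1, R.uu_smul,
      mul_assoc (u : G) (x * p.1) p.2.1, R.uu_smul]; rfl⟩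
  map_add' a b := funext fun g => Subtype.ext (funext fun x => map_add _ _ _)
  map_smul' c a := funext fun g => Subtype.ext (funext fun x => map_smul _ c _)

/-- The prism homotopy, degree 1 → 0. -/
def hom₀ : (G → Rep.coind U.subtype A) →ₗ[k] (Rep.coind U.subtype A) where
  toFun c := ⟨fun x => (c (R.tinv x)).1 x, fun u x => by
    show (c (R.tinv ((u : G) * x))).1 ((u : G) * x) = A.ρ u ((c (R.tinv x)).1 x)
    rw [R.tinv_smul]; exact (c (R.tinv x)).2 u x⟩
  map_add' _ _ := rfl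
  map_smul' _ _ := rfl

/-- The prism homotopy, degree 2 → 1. -/
def hom₁ : (G × G → Rep.coind U.subtype A) →ₗ[k] (G → Rep.coind U.subtype A) where
  toFun c g := ⟨fun x => (c (R.tinv x, (R.uu x g : G))).1 x - (c (g, R.tinv (x * g))).1 x,
    fun u x => by
    show (c (R.tinv ((u : G) * x), (R.uu ((u : G) * x) g : G))).1 ((u : G) * x) -
        (c (g, R.tinv ((u : G) * x * g))).1 ((u : G) * x) =
      A.ρ u ((c (R.tinv x, (R.uu x g : G))).1 x - (c (g, R.tinv (x * g))).1 x)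
    rw [R.tinv_smul, R.uu_smul, mul_assoc, R.tinv_smul, map_sub]
    exact congrArg₂ (· - ·) ((c (R.tinv x, (R.uu x g : G))).2 u x)
      ((c (g, R.tinv (x * g))).2 u x)⟩
  map_add' a b := funext fun g => Subtype.ext (funext fun x => by
    show (a _ + b _).1 x - (a _ + b _).1 x = (a _).1 x - (a _).1 x + ((b _).1 x - (b _).1 x)
    simp only [Submodule.coe_add, Pi.add_apply]; abel)
  map_smul' r a := funext fun g => Subtype.ext (funext fun x => by
    show (r • a _).1 x - (r • a _).1 x = r • ((a _).1 x - (a _).1 x)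
    simp only [Submodule.coe_smul, Pi.smul_apply, smul_sub])

/-- The prism homotopy, degree 3 → 2. -/
def hom₂ : (G × G × G → Rep.coind U.subtype A) →ₗ[k] (G × G → Rep.coind U.subtype A) where
  toFun c p := ⟨fun x =>
      (c (R.tinv x, (R.uu x p.1 : G), (R.uu (x * p.1) p.2 : G))).1 x
      - (c (p.1, R.tinv (x * p.1), (R.uu (x * p.1) p.2 : G))).1 x
      + (c (p.1, p.2, R.tinv (x * p.1 * p.2))).1 x,
    fun u x => by
    show (c (R.tinv ((u : G) * x), (R.uu ((u : G) * x) p.1 : G),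
          (R.uu ((u : G) * x * p.1) p.2 : G))).1 ((u : G) * x)
        - (c (p.1, R.tinv ((u : G) * x * p.1), (R.uu ((u : G) * x * p.1) p.2 : G))).1 ((u : G) * x)
        + (c (p.1, p.2, R.tinv ((u : G) * x * p.1 * p.2))).1 ((u : G) * x) =
      A.ρ u ((c (R.tinv x, (R.uu x p.1 : G), (R.uu (x * p.1) p.2 : G))).1 x
        - (c (p.1, R.tinv (x * p.1), (R.uu (x * p.1) p.2 : G))).1 x
        + (c (p.1, p.2, R.tinv (x * p.1 * p.2))).1 x)
    rw [R.tinv_smul, R.uu_smul, mul_assoc (u : G) x p.1, R.uu_smul, R.tinv_smul,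
      mul_assoc (u : G) (x * p.1) p.2, R.tinv_smul, map_add, map_sub]
    exact congrArg₂ (· + ·) (congrArg₂ (· - ·) ((c _).2 u x) ((c _).2 u x)) ((c _).2 u x)⟩
  map_add' a b := funext fun g => Subtype.ext (funext fun x => by
    show (a _ + b _).1 x - (a _ + b _).1 x + (a _ + b _).1 x =
      (a _).1 x - (a _).1 x + (a _).1 x + ((b _).1 x - (b _).1 x + (b _).1 x)
    simp only [Submodule.coe_add, Pi.add_apply]; abel)
  map_smul' r a := funext fun g => Subtype.ext (funext fun x => by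
    show (r • a _).1 x - (r • a _).1 x + (r • a _).1 x = r • ((a _).1 x - (a _).1 x + (a _).1 x)
    simp only [Submodule.coe_smul, Pi.smul_apply, smul_sub, smul_add])

end Maps

section Identities

variable {U} {A}

theorem coind_ρ_apply (g : G) (f : Rep.coind U.subtype A) (x : G) :
    ((Rep.coind U.subtype A).ρ g f).1 x = f.1 (x * g) := rfl

theorem coind_apply_smul (f : Rep.coind U.subtype A) (u : U) (x : G) :
    f.1 ((u : G) * x) = A.ρ u (f.1 x) := f.2 u x

theorem coind_apply_coe (f : Rep.coind U.subtype A) (u : U) :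
    f.1 (u : G) = A.ρ u (f.1 1) := by
  have h := f.2 u 1
  rwa [show U.subtype u * 1 = (u : G) from mul_one _] at h

theorem coind_sub_apply (f f' : Rep.coind U.subtype A) (x : G) :
    (f - f').1 x = f.1 x - f'.1 x := rfl

theorem coind_add_apply (f f' : Rep.coind U.subtype A) (x : G) :
    (f + f').1 x = f.1 x + f'.1 x := rfl

/-! ### `sh` is a map of complexes -/

theorem sh₁_d₀₁ (m : Rep.coind U.subtype A) :
    sh₁ U A ((d₀₁ (Rep.coind U.subtype A)).hom m) = (d₀₁ A).hom (sh₀ U A m) := by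
  funext u
  show ((Rep.coind U.subtype A).ρ (u : G) m - m).1 1 = A.ρ u (m.1 1) - m.1 1
  rw [coind_sub_apply, coind_ρ_apply, one_mul, coind_apply_coe]

theorem sh₂_d₁₂ (c : G → Rep.coind U.subtype A) :
    sh₂ U A ((d₁₂ (Rep.coind U.subtype A)).hom c) = (d₁₂ A).hom (sh₁ U A c) := by
  funext p
  show ((Rep.coind U.subtype A).ρ (p.1 : G) (c (p.2 : G)) - c ((p.1 : G) * (p.2 : G))
      + c (p.1 : G)).1 1 =
    A.ρ p.1 ((c (p.2 : G)).1 1) - (c ((p.1 * p.2 : U) : G)).1 1 + (c (p.1 : G)).1 1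
  rw [coind_add_apply, coind_sub_apply, coind_ρ_apply, one_mul, coind_apply_coe]
  rfl

theorem sh₃_d₂₃ (c : G × G → Rep.coind U.subtype A) :
    sh₃ U A ((d₂₃ (Rep.coind U.subtype A)).hom c) = (d₂₃ A).hom (sh₂ U A c) := by
  funext p
  show ((Rep.coind U.subtype A).ρ (p.1 : G) (c ((p.2.1 : G), (p.2.2 : G)))
      - c ((p.1 : G) * (p.2.1 : G), (p.2.2 : G)) + c ((p.1 : G), (p.2.1 : G) * (p.2.2 : G))
      - c ((p.1 : G), (p.2.1 : G))).1 1 =
    A.ρ p.1 ((c ((p.2.1 : G), (p.2.2 : G))).1 1) - (c (((p.1 * p.2.1 : U) : G), (p.2.2 : G))).1 1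
      + (c ((p.1 : G), ((p.2.1 * p.2.2 : U) : G))).1 1 - (c ((p.1 : G), (p.2.1 : G))).1 1
  rw [coind_sub_apply, coind_add_apply, coind_sub_apply, coind_ρ_apply, one_mul, coind_apply_coe]
  rfl

/-! ### `ind` is a map of complexes -/

variable (R : Retr U)

theorem ind₁_d₀₁ (a : A) :
    ind₁ A R ((d₀₁ A).hom a) = (d₀₁ (Rep.coind U.subtype A)).hom (ind₀ A R a) := by
  funext g
  apply Subtype.ext
  funext x
  show A.ρ (R.r x) (A.ρ (R.uu x g) a - a) = A.ρ (R.r (x * g)) a - A.ρ (R.r x) a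
  rw [map_sub, ← R.r_mul_uu x g, map_mul]
  rfl

theorem ind₂_d₁₂ (β : U → A) :
    ind₂ A R ((d₁₂ A).hom β) = (d₁₂ (Rep.coind U.subtype A)).hom (ind₁ A R β) := by
  funext p
  apply Subtype.ext
  funext x
  show A.ρ (R.r x) (A.ρ (R.uu x p.1) (β (R.uu (x * p.1) p.2))
      - β (R.uu x p.1 * R.uu (x * p.1) p.2) + β (R.uu x p.1)) =
    A.ρ (R.r (x * p.1)) (β (R.uu (x * p.1) p.2)) - A.ρ (R.r x) (β (R.uu x (p.1 * p.2)))
      + A.ρ (R.r x) (β (R.uu x p.1))
  rw [map_add, map_sub, R.uu_mul_uu, ← R.r_mul_uu x p.1, map_mul]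
  rfl

theorem ind₃_d₂₃ (β : U × U → A) :
    ind₃ A R ((d₂₃ A).hom β) = (d₂₃ (Rep.coind U.subtype A)).hom (ind₂ A R β) := by
  funext p
  apply Subtype.ext
  funext x
  show A.ρ (R.r x) (A.ρ (R.uu x p.1) (β (R.uu (x * p.1) p.2.1, R.uu (x * p.1 * p.2.1) p.2.2))
      - β (R.uu x p.1 * R.uu (x * p.1) p.2.1, R.uu (x * p.1 * p.2.1) p.2.2)
      + β (R.uu x p.1, R.uu (x * p.1) p.2.1 * R.uu (x * p.1 * p.2.1) p.2.2)
      - β (R.uu x p.1, R.uu (x * p.1) p.2.1)) =
    A.ρ (R.r (x * p.1)) (β (R.uu (x * p.1) p.2.1, R.uu (x * p.1 * p.2.1) p.2.2))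
      - A.ρ (R.r x) (β (R.uu x (p.1 * p.2.1), R.uu (x * (p.1 * p.2.1)) p.2.2))
      + A.ρ (R.r x) (β (R.uu x p.1, R.uu (x * p.1) (p.2.1 * p.2.2)))
      - A.ρ (R.r x) (β (R.uu x p.1, R.uu (x * p.1) p.2.1))
  rw [map_sub, map_add, map_sub, R.uu_mul_uu, R.uu_mul_uu, ← R.r_mul_uu x p.1, map_mul,
    mul_assoc x p.1 p.2.1]
  rfl

/-! ### `sh ∘ ind = id` -/

theorem sh₀_ind₀ (a : A) : sh₀ U A (ind₀ A R a) = a := by
  show A.ρ (R.r 1) a = a
  rw [R.map_one', map_one]; rfl

theorem sh₁_ind₁ (β : U → A) : sh₁ U A (ind₁ A R β) = β := by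
  funext u
  show A.ρ (R.r 1) (β (R.uu 1 (u : G))) = β u
  rw [R.map_one', map_one, R.uu_one_left]; rfl

theorem sh₂_ind₂ (β : U × U → A) : sh₂ U A (ind₂ A R β) = β := by
  funext p
  show A.ρ (R.r 1) (β (R.uu 1 (p.1 : G), R.uu (1 * (p.1 : G)) (p.2 : G))) = β p
  rw [R.map_one', map_one, R.uu_one_left, one_mul, R.uu_coe_left]; rfl

theorem sh₃_ind₃ (β : U × U × U → A) : sh₃ U A (ind₃ A R β) = β := by
  funext p
  show A.ρ (R.r 1) (β (R.uu 1 (p.1 : G), R.uu (1 * (p.1 : G)) (p.2.1 : G),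
    R.uu (1 * (p.1 : G) * (p.2.1 : G)) (p.2.2 : G))) = β p
  have h : (1 : G) * (p.1 : G) * (p.2.1 : G) = ((p.1 * p.2.1 : U) : G) := by simp
  rw [R.map_one', map_one, R.uu_one_left, h, R.uu_coe_left, one_mul, R.uu_coe_left]; rfl

/-! ### `ind ∘ sh - id = d ∘ hom + hom ∘ d` -/

theorem ind₀_sh₀_sub (m : Rep.coind U.subtype A) :
    ind₀ A R (sh₀ U A m) - m = hom₀ A R ((d₀₁ (Rep.coind U.subtype A)).hom m) := by
  apply Subtype.ext
  funext x
  show A.ρ (R.r x) (m.1 1) - m.1 x = m.1 (x * R.tinv x) - m.1 x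
  rw [R.mul_tinv, coind_apply_coe]

theorem ind₁_sh₁_sub (c : G → Rep.coind U.subtype A) :
    ind₁ A R (sh₁ U A c) - c =
      (d₀₁ (Rep.coind U.subtype A)).hom (hom₀ A R c)
        + hom₁ A R ((d₁₂ (Rep.coind U.subtype A)).hom c) := by
  funext g
  apply Subtype.ext
  funext x
  show A.ρ (R.r x) ((c (R.uu x g : G)).1 1) - (c g).1 x =
    ((c (R.tinv (x * g))).1 (x * g) - (c (R.tinv x)).1 x)
    + (((c (R.uu x g : G)).1 (x * R.tinv x) - (c (R.tinv x * (R.uu x g : G))).1 x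
          + (c (R.tinv x)).1 x)
      - ((c (R.tinv (x * g))).1 (x * g) - (c (g * R.tinv (x * g))).1 x + (c g).1 x))
  rw [R.mul_tinv, R.tinv_mul_uu, coind_apply_coe]
  abel

theorem ind₂_sh₂_sub (c : G × G → Rep.coind U.subtype A) :
    ind₂ A R (sh₂ U A c) - c =
      (d₁₂ (Rep.coind U.subtype A)).hom (hom₁ A R c)
        + hom₂ A R ((d₂₃ (Rep.coind U.subtype A)).hom c) := by
  funext p
  obtain ⟨g, h⟩ := p
  apply Subtype.ext
  funext x
  show A.ρ (R.r x) ((c ((R.uu x g : G), (R.uu (x * g) h : G))).1 1) - (c (g, h)).1 x =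
    (((c (R.tinv (x * g), (R.uu (x * g) h : G))).1 (x * g)
        - (c (h, R.tinv (x * g * h))).1 (x * g))
      - ((c (R.tinv x, (R.uu x (g * h) : G))).1 x - (c (g * h, R.tinv (x * (g * h)))).1 x)
      + ((c (R.tinv x, (R.uu x g : G))).1 x - (c (g, R.tinv (x * g))).1 x))
    + ((((c ((R.uu x g : G), (R.uu (x * g) h : G))).1 (x * R.tinv x)
          - (c (R.tinv x * (R.uu x g : G), (R.uu (x * g) h : G))).1 x
          + (c (R.tinv x, (R.uu x g : G) * (R.uu (x * g) h : G))).1 x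
          - (c (R.tinv x, (R.uu x g : G))).1 x)
        - ((c (R.tinv (x * g), (R.uu (x * g) h : G))).1 (x * g)
          - (c (g * R.tinv (x * g), (R.uu (x * g) h : G))).1 x
          + (c (g, R.tinv (x * g) * (R.uu (x * g) h : G))).1 x
          - (c (g, R.tinv (x * g))).1 x))
      + ((c (h, R.tinv (x * g * h))).1 (x * g)
          - (c (g * h, R.tinv (x * g * h))).1 x
          + (c (g, h * R.tinv (x * g * h))).1 x
          - (c (g, h)).1 x))
  have e1 : (R.uu x g : G) * (R.uu (x * g) h : G) = (R.uu x (g * h) : G) := by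
    rw [← R.uu_mul_uu x g h]; rfl
  rw [R.mul_tinv, R.tinv_mul_uu, R.tinv_mul_uu, e1, coind_apply_coe, mul_assoc x g h]
  abel

end Identities

end Fermat.Agent.S55.Shapiro
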