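import Mathlib
import Fermat.Agent.S55.Shapiro.Core

/-!
# Shapiro on cochains: levels, cocycles, coboundaries (CFT brick [SH-level])

Continuation of `Shapiro/Core.lean`.  `RInv₁ N f`, `RInv₂ N f`, `RInv₃ N f` say that a cochain is
invariant under right multiplication of each variable by the subgroup `N`.  For `N` normal in `G`
and contained in `U`, all the maps `sh`, `ind`, `hom` respect right invariance (`N` on the `G`
side, `N.subgroupOf U` on the `U` side).  Consequences: Shapiro's lemma in degrees 1 and 2 with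
explicit primitives.
-/

set_option autoImplicit false

open groupCohomology

namespace Fermat.Agent.S55.Shapiro

/-- Right invariance of a 1-cochain under a subgroup. -/
def RInv₁ {H X : Type*} [Group H] (N : Subgroup H) (f : H → X) : Prop :=
  ∀ g s, s ∈ N → f (g * s) = f g

/-- Right invariance of a 2-cochain under a subgroup. -/
def RInv₂ {H X : Type*} [Group H] (N : Subgroup H) (f : H × H → X) : Prop :=
  ∀ g g' s s', s ∈ N → s' ∈ N → f (g * s, g' * s') = f (g, g')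

/-- Right invariance of a 3-cochain under a subgroup. -/
def RInv₃ {H X : Type*} [Group H] (N : Subgroup H) (f : H × H × H → X) : Prop :=
  ∀ g g' g'' s s' s'', s ∈ N → s' ∈ N → s'' ∈ N →
    f (g * s, g' * s', g'' * s'') = f (g, g', g'')

variable {k : Type} [CommRing k] {G : Type} [Group G]

section Retr

variable {U : Subgroup G} (R : Retr U) {N : Subgroup G} [hN : N.Normal] (hNU : N ≤ U)

include hN hNU

theorem Retr.r_mul_of_mem (x : G) {s : G} (hs : s ∈ N) :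
    ∃ v : U, (v : G) ∈ N ∧ (v : G) * x = x * s ∧ R.r (x * s) = v * R.r x := by
  have hv : x * s * x⁻¹ ∈ N := hN.conj_mem s hs x
  let v : U := ⟨x * s * x⁻¹, hNU hv⟩
  have hvx : (v : G) * x = x * s := by simp [v]
  refine ⟨v, hv, hvx, ?_⟩
  rw [← hvx, R.map_mul']

theorem Retr.uu_mem_of_mem (x : G) {s : G} (hs : s ∈ N) : (R.uu x s : G) ∈ N := by
  obtain ⟨v, hv, -, hr⟩ := R.r_mul_of_mem hNU x hs
  have h : (R.uu x s : G) = (R.r x : G)⁻¹ * (v : G) * ((R.r x : G)⁻¹)⁻¹ := by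
    simp [Retr.uu, hr, mul_assoc]
  rw [h]
  exact hN.conj_mem _ hv _

theorem Retr.tinv_mul_of_mem (x : G) {s : G} (hs : s ∈ N) : R.tinv (x * s) = R.tinv x := by
  obtain ⟨v, -, hv, hr⟩ := R.r_mul_of_mem hNU x hs
  have h : ((R.r (x * s) : U) : G) = x * s * x⁻¹ * (R.r x : G) := by
    rw [hr, Subgroup.coe_mul, ← mul_inv_eq_iff_eq_mul.mpr hv.symm]
  simp [Retr.tinv, h, mul_assoc]

theorem Retr.uu_mul_left_of_mem (x h : G) {s : G} (hs : s ∈ N) :
    R.uu (x * s) h = R.uu x h := by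
  obtain ⟨v, -, hv, hr⟩ := R.r_mul_of_mem hNU x hs
  have h2 : R.r (x * s * h) = v * R.r (x * h) := by
    rw [← hv, mul_assoc, R.map_mul']
  show (R.r (x * s))⁻¹ * R.r (x * s * h) = (R.r x)⁻¹ * R.r (x * h)
  rw [hr, h2]
  group

theorem Retr.uu_mul_right_of_mem (x g : G) {s : G} (hs : s ∈ N) :
    ∃ n : U, (n : G) ∈ N ∧ R.uu x (g * s) = R.uu x g * n :=
  ⟨R.uu (x * g) s, R.uu_mem_of_mem hNU (x * g) hs, (R.uu_mul_uu x g s).symm⟩

end Retr

variable (U : Subgroup G) (A : Rep.{0} k U)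

section LevelSh

variable {U} {A} {N : Subgroup G}

theorem rinv₁_sh₁ {c : G → Rep.coind U.subtype A} (hc : RInv₁ N c) :
    RInv₁ (N.subgroupOf U) (sh₁ U A c) := by
  intro u s hs
  show (c ((u * s : U) : G)).1 1 = (c (u : G)).1 1
  rw [Subgroup.coe_mul, hc _ _ (Subgroup.mem_subgroupOf.mp hs)]

theorem rinv₂_sh₂ {c : G × G → Rep.coind U.subtype A} (hc : RInv₂ N c) :
    RInv₂ (N.subgroupOf U) (sh₂ U A c) := by
  intro u u' s s' hs hs'
  show (c (((u * s : U) : G), ((u' * s' : U) : G))).1 1 = (c ((u : G), (u' : G))).1 1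
  rw [Subgroup.coe_mul, Subgroup.coe_mul,
    hc _ _ _ _ (Subgroup.mem_subgroupOf.mp hs) (Subgroup.mem_subgroupOf.mp hs')]

theorem rinv₃_sh₃ {c : G × G × G → Rep.coind U.subtype A} (hc : RInv₃ N c) :
    RInv₃ (N.subgroupOf U) (sh₃ U A c) := by
  intro u u' u'' s s' s'' hs hs' hs''
  show (c (((u * s : U) : G), ((u' * s' : U) : G), ((u'' * s'' : U) : G))).1 1 =
    (c ((u : G), (u' : G), (u'' : G))).1 1
  rw [Subgroup.coe_mul, Subgroup.coe_mul, Subgroup.coe_mul,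
    hc _ _ _ _ _ _ (Subgroup.mem_subgroupOf.mp hs) (Subgroup.mem_subgroupOf.mp hs')
      (Subgroup.mem_subgroupOf.mp hs'')]

end LevelSh

section LevelInd

variable {U} {A} (R : Retr U) {N : Subgroup G} [hN : N.Normal] (hNU : N ≤ U)

include hN hNU

theorem rinv₁_ind₁ {β : U → A} (hβ : RInv₁ (N.subgroupOf U) β) : RInv₁ N (ind₁ A R β) := by
  intro g s hs
  apply Subtype.ext
  funext x
  show A.ρ (R.r x) (β (R.uu x (g * s))) = A.ρ (R.r x) (β (R.uu x g))
  obtain ⟨n, hn, h⟩ := R.uu_mul_right_of_mem hNU x g hs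
  rw [h, hβ _ _ (Subgroup.mem_subgroupOf.mpr hn)]

theorem rinv₂_ind₂ {β : U × U → A} (hβ : RInv₂ (N.subgroupOf U) β) : RInv₂ N (ind₂ A R β) := by
  intro g g' s s' hs hs'
  apply Subtype.ext
  funext x
  show A.ρ (R.r x) (β (R.uu x (g * s), R.uu (x * (g * s)) (g' * s'))) =
    A.ρ (R.r x) (β (R.uu x g, R.uu (x * g) g'))
  obtain ⟨n, hn, h⟩ := R.uu_mul_right_of_mem hNU x g hs
  obtain ⟨n', hn', h'⟩ := R.uu_mul_right_of_mem hNU (x * g) g' hs'
  rw [h, ← mul_assoc x g s, R.uu_mul_left_of_mem hNU (x * g) (g' * s') hs, h',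
    hβ _ _ _ _ (Subgroup.mem_subgroupOf.mpr hn) (Subgroup.mem_subgroupOf.mpr hn')]

theorem rinv₃_ind₃ {β : U × U × U → A} (hβ : RInv₃ (N.subgroupOf U) β) :
    RInv₃ N (ind₃ A R β) := by
  intro g g' g'' s s' s'' hs hs' hs''
  apply Subtype.ext
  funext x
  show A.ρ (R.r x) (β (R.uu x (g * s), R.uu (x * (g * s)) (g' * s'),
      R.uu (x * (g * s) * (g' * s')) (g'' * s''))) =
    A.ρ (R.r x) (β (R.uu x g, R.uu (x * g) g', R.uu (x * g * g') g''))
  obtain ⟨n, hn, h⟩ := R.uu_mul_right_of_mem hNU x g hs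
  obtain ⟨n', hn', h'⟩ := R.uu_mul_right_of_mem hNU (x * g) g' hs'
  obtain ⟨n'', hn'', h''⟩ := R.uu_mul_right_of_mem hNU (x * g * g') g'' hs''
  have e1 : x * g * s * (g' * s') = x * g * g' * (g'⁻¹ * s * g' * s') := by group
  have hmem : g'⁻¹ * s * g' * s' ∈ N := by
    refine N.mul_mem ?_ hs'
    have := hN.conj_mem s hs g'⁻¹
    simpa using this
  rw [h, ← mul_assoc x g s, R.uu_mul_left_of_mem hNU (x * g) (g' * s') hs, h', e1,
    R.uu_mul_left_of_mem hNU (x * g * g') (g'' * s'') hmem, h'',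
    hβ _ _ _ _ _ _ (Subgroup.mem_subgroupOf.mpr hn) (Subgroup.mem_subgroupOf.mpr hn')
      (Subgroup.mem_subgroupOf.mpr hn'')]

theorem rinv₁_hom₁ {c : G × G → Rep.coind U.subtype A} (hc : RInv₂ N c) :
    RInv₁ N (hom₁ A R c) := by
  intro g s hs
  apply Subtype.ext
  funext x
  show (c (R.tinv x, (R.uu x (g * s) : G))).1 x - (c (g * s, R.tinv (x * (g * s)))).1 x =
    (c (R.tinv x, (R.uu x g : G))).1 x - (c (g, R.tinv (x * g))).1 x
  obtain ⟨n, hn, h⟩ := R.uu_mul_right_of_mem hNU x g hs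
  have h1 : c (R.tinv x, (R.uu x (g * s) : G)) = c (R.tinv x, (R.uu x g : G)) := by
    rw [h, Subgroup.coe_mul]
    have := hc (R.tinv x) (R.uu x g : G) 1 (n : G) N.one_mem hn
    rwa [mul_one] at this
  have h2 : c (g * s, R.tinv (x * (g * s))) = c (g, R.tinv (x * g)) := by
    rw [← mul_assoc x g s, R.tinv_mul_of_mem hNU (x * g) hs]
    have := hc g (R.tinv (x * g)) s 1 hs N.one_mem
    rwa [mul_one] at this
  rw [h1, h2]

theorem rinv₂_hom₂ {c : G × G × G → Rep.coind U.subtype A} (hc : RInv₃ N c) :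
    RInv₂ N (hom₂ A R c) := by
  intro g g' s s' hs hs'
  apply Subtype.ext
  funext x
  show (c (R.tinv x, (R.uu x (g * s) : G), (R.uu (x * (g * s)) (g' * s') : G))).1 x
      - (c (g * s, R.tinv (x * (g * s)), (R.uu (x * (g * s)) (g' * s') : G))).1 x
      + (c (g * s, g' * s', R.tinv (x * (g * s) * (g' * s')))).1 x =
    (c (R.tinv x, (R.uu x g : G), (R.uu (x * g) g' : G))).1 x
      - (c (g, R.tinv (x * g), (R.uu (x * g) g' : G))).1 x
      + (c (g, g', R.tinv (x * g * g'))).1 x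
  obtain ⟨n, hn, h⟩ := R.uu_mul_right_of_mem hNU x g hs
  obtain ⟨n', hn', h'⟩ := R.uu_mul_right_of_mem hNU (x * g) g' hs'
  have e1 : x * (g * s) * (g' * s') = x * g * g' * (g'⁻¹ * s * g' * s') := by group
  have hmem : g'⁻¹ * s * g' * s' ∈ N := by
    refine N.mul_mem ?_ hs'
    have := hN.conj_mem s hs g'⁻¹
    simpa using this
  have hu : R.uu (x * (g * s)) (g' * s') = R.uu (x * g) g' * n' := by
    rw [← mul_assoc x g s, R.uu_mul_left_of_mem hNU (x * g) (g' * s') hs, h']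
  have ht : R.tinv (x * (g * s)) = R.tinv (x * g) := by
    rw [← mul_assoc x g s, R.tinv_mul_of_mem hNU (x * g) hs]
  have ht' : R.tinv (x * (g * s) * (g' * s')) = R.tinv (x * g * g') := by
    rw [e1, R.tinv_mul_of_mem hNU (x * g * g') hmem]
  have h1 : c (R.tinv x, (R.uu x (g * s) : G), (R.uu (x * (g * s)) (g' * s') : G)) =
      c (R.tinv x, (R.uu x g : G), (R.uu (x * g) g' : G)) := by
    rw [h, hu, Subgroup.coe_mul, Subgroup.coe_mul]
    have := hc (R.tinv x) (R.uu x g : G) (R.uu (x * g) g' : G) 1 (n : G) (n' : G) N.one_mem hn hn'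
    rwa [mul_one] at this
  have h2 : c (g * s, R.tinv (x * (g * s)), (R.uu (x * (g * s)) (g' * s') : G)) =
      c (g, R.tinv (x * g), (R.uu (x * g) g' : G)) := by
    rw [ht, hu, Subgroup.coe_mul]
    have := hc g (R.tinv (x * g)) (R.uu (x * g) g' : G) s 1 (n' : G) hs N.one_mem hn'
    rwa [mul_one] at this
  have h3 : c (g * s, g' * s', R.tinv (x * (g * s) * (g' * s'))) =
      c (g, g', R.tinv (x * g * g')) := by
    rw [ht']
    have := hc g g' (R.tinv (x * g * g')) s s' 1 hs hs' N.one_mem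
    rwa [mul_one] at this
  rw [h1, h2, h3]

end LevelInd

section Cohomology

variable {U} {A}

theorem sh₁_mem_cocycles₁ {c : G → Rep.coind U.subtype A}
    (hc : c ∈ cocycles₁ (Rep.coind U.subtype A)) : sh₁ U A c ∈ cocycles₁ A := by
  have h : (d₁₂ (Rep.coind U.subtype A)).hom c = 0 := LinearMap.mem_ker.mp hc
  refine LinearMap.mem_ker.mpr ?_
  rw [← sh₂_d₁₂, h, map_zero]

theorem sh₂_mem_cocycles₂ {c : G × G → Rep.coind U.subtype A}
    (hc : c ∈ cocycles₂ (Rep.coind U.subtype A)) : sh₂ U A c ∈ cocycles₂ A := by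
  have h : (d₂₃ (Rep.coind U.subtype A)).hom c = 0 := LinearMap.mem_ker.mp hc
  refine LinearMap.mem_ker.mpr ?_
  rw [← sh₃_d₂₃, h, map_zero]

theorem sh₁_mem_coboundaries₁ {c : G → Rep.coind U.subtype A}
    (hc : c ∈ coboundaries₁ (Rep.coind U.subtype A)) : sh₁ U A c ∈ coboundaries₁ A := by
  obtain ⟨m, rfl⟩ := hc
  exact ⟨sh₀ U A m, (sh₁_d₀₁ m).symm⟩

theorem sh₂_mem_coboundaries₂ {c : G × G → Rep.coind U.subtype A}
    (hc : c ∈ coboundaries₂ (Rep.coind U.subtype A)) : sh₂ U A c ∈ coboundaries₂ A := by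
  obtain ⟨φ, rfl⟩ := hc
  exact ⟨sh₁ U A φ, (sh₂_d₁₂ φ).symm⟩

variable (R : Retr U)

theorem ind₁_mem_cocycles₁ {β : U → A} (hβ : β ∈ cocycles₁ A) :
    ind₁ A R β ∈ cocycles₁ (Rep.coind U.subtype A) := by
  have h : (d₁₂ A).hom β = 0 := LinearMap.mem_ker.mp hβ
  refine LinearMap.mem_ker.mpr ?_
  rw [← ind₂_d₁₂, h, map_zero]

theorem ind₂_mem_cocycles₂ {β : U × U → A} (hβ : β ∈ cocycles₂ A) :
    ind₂ A R β ∈ cocycles₂ (Rep.coind U.subtype A) := by
  have h : (d₂₃ A).hom β = 0 := LinearMap.mem_ker.mp hβ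
  refine LinearMap.mem_ker.mpr ?_
  rw [← ind₃_d₂₃, h, map_zero]

/-- **Shapiro, degree 1, explicit primitive.** -/
theorem d₀₁_ind₀_sub_hom₀ {c : G → Rep.coind U.subtype A}
    (hc : c ∈ cocycles₁ (Rep.coind U.subtype A)) {a : A} (ha : (d₀₁ A).hom a = sh₁ U A c) :
    (d₀₁ (Rep.coind U.subtype A)).hom (ind₀ A R a - hom₀ A R c) = c := by
  have h : (d₁₂ (Rep.coind U.subtype A)).hom c = 0 := LinearMap.mem_ker.mp hc
  have h1 := ind₁_sh₁_sub R c
  rw [h, map_zero, add_zero, ← ha, ind₁_d₀₁] at h1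
  rw [map_sub, ← h1]
  abel

/-- **Shapiro, degree 2, explicit primitive.** -/
theorem d₁₂_ind₁_sub_hom₁ {c : G × G → Rep.coind U.subtype A}
    (hc : c ∈ cocycles₂ (Rep.coind U.subtype A)) {γ : U → A}
    (hγ : (d₁₂ A).hom γ = sh₂ U A c) :
    (d₁₂ (Rep.coind U.subtype A)).hom (ind₁ A R γ - hom₁ A R c) = c := by
  have h : (d₂₃ (Rep.coind U.subtype A)).hom c = 0 := LinearMap.mem_ker.mp hc
  have h1 := ind₂_sh₂_sub R c
  rw [h, map_zero, add_zero, ← hγ, ind₂_d₁₂] at h1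
  rw [map_sub, ← h1]
  abel

omit R in
/-- **Shapiro's lemma in degree 1**: a 1-cocycle with values in `coind_U^G A` is a coboundary iff
its evaluation at `1` is. -/
theorem mem_coboundaries₁_iff_sh₁ {c : G → Rep.coind U.subtype A}
    (hc : c ∈ cocycles₁ (Rep.coind U.subtype A)) :
    c ∈ coboundaries₁ (Rep.coind U.subtype A) ↔ sh₁ U A c ∈ coboundaries₁ A := by
  refine ⟨sh₁_mem_coboundaries₁, ?_⟩
  rintro ⟨a, ha⟩
  obtain ⟨R⟩ := Retr.nonempty U
  exact ⟨_, d₀₁_ind₀_sub_hom₀ R hc ha⟩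

omit R in
/-- **Shapiro's lemma in degree 2**: a 2-cocycle with values in `coind_U^G A` is a coboundary iff
its evaluation at `1` is. -/
theorem mem_coboundaries₂_iff_sh₂ {c : G × G → Rep.coind U.subtype A}
    (hc : c ∈ cocycles₂ (Rep.coind U.subtype A)) :
    c ∈ coboundaries₂ (Rep.coind U.subtype A) ↔ sh₂ U A c ∈ coboundaries₂ A := by
  refine ⟨sh₂_mem_coboundaries₂, ?_⟩
  rintro ⟨γ, hγ⟩
  obtain ⟨R⟩ := Retr.nonempty U
  exact ⟨_, d₁₂_ind₁_sub_hom₁ R hc hγ⟩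

/-- Level version of Shapiro in degree 2: a right-`N`-invariant 2-cocycle whose evaluation at `1`
is the coboundary of a right-`N ⊓ U`-invariant cochain is the coboundary of a right-`N`-invariant
cochain. -/
theorem exists_rinv_primitive₂ {N : Subgroup G} [N.Normal] (hNU : N ≤ U)
    {c : G × G → Rep.coind U.subtype A} (hc : c ∈ cocycles₂ (Rep.coind U.subtype A))
    (hcN : RInv₂ N c) {γ : U → A} (hγN : RInv₁ (N.subgroupOf U) γ)
    (hγ : (d₁₂ A).hom γ = sh₂ U A c) :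
    ∃ φ : G → Rep.coind U.subtype A, RInv₁ N φ ∧ (d₁₂ (Rep.coind U.subtype A)).hom φ = c := by
  obtain ⟨R⟩ := Retr.nonempty U
  refine ⟨ind₁ A R γ - hom₁ A R c, ?_, d₁₂_ind₁_sub_hom₁ R hc hγ⟩
  intro g s hs
  show ind₁ A R γ (g * s) - hom₁ A R c (g * s) = ind₁ A R γ g - hom₁ A R c g
  rw [rinv₁_ind₁ R hNU hγN g s hs, rinv₁_hom₁ R hNU hcN g s hs]

end Cohomology

end Fermat.Agent.S55.Shapiro
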