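import Mathlib
import Fermat.Agent.S55.Shapiro.Level

/-!
# Mackey decomposition on explicit cochains (CFT brick [SH-mackey])

`G` a group, `U ≤ G`, `A : Rep k U`, `M = Rep.coind U.subtype A`, and `r : H →* G` a "local"
group.  For `g : G` put `H_g = conjSub U r g = {h | g * r h * g⁻¹ ∈ U}` with its homomorphism
`conjHom U r g : H_g →* U`, `h ↦ g * r h * g⁻¹`, and `A_g = locRep U A r g = Rep.res (conjHom ..) A`.

* `proj U A r g : Rep.res r M ⟶ Rep.coind H_g.subtype A_g`, `f ↦ (h ↦ f (g * r h))`.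
* `DRep U r J` : a system of representatives `τ : J → G` of the double cosets `U \ G / r(H)`;
  `DRep.nonempty`.
* `glue`, `mackeyEquiv` : `Res_r coind_U^G A ≃ ∏_j coind_{H_{τ j}}^H A_{τ j}`.
* `mk₀ … mk₂`, `unmk₀ … unmk₂`, `mhom₀, mhom₁` : cochain-level Mackey–Shapiro maps between
  cochains of `H` with values in `Res_r M` and families of cochains of the `H_{τ j}` with values
  in `A_{τ j}` (`mk j c (h, …) = c (h, …) (τ j)`), with the chain-map, section and homotopy
  identities and the level (right-invariance) lemmas.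
-/

set_option autoImplicit false

open groupCohomology CategoryTheory

namespace Fermat.Agent.S55.Shapiro

variable {k : Type} [CommRing k] {G : Type} [Group G] (U : Subgroup G) (A : Rep.{0} k U)
  {H : Type} [Group H] (r : H →* G)

/-- The subgroup `H_g = {h | g * r h * g⁻¹ ∈ U}` of `H`. -/
def conjSub (g : G) : Subgroup H where
  carrier := {h | g * r h * g⁻¹ ∈ U}
  one_mem' := by simp
  mul_mem' {a b} ha hb := by
    have h : g * r (a * b) * g⁻¹ = (g * r a * g⁻¹) * (g * r b * g⁻¹) := by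
      rw [map_mul]; group
    show g * r (a * b) * g⁻¹ ∈ U
    rw [h]
    exact U.mul_mem ha hb
  inv_mem' {a} ha := by
    have h : g * r a⁻¹ * g⁻¹ = (g * r a * g⁻¹)⁻¹ := by
      rw [map_inv]; group
    show g * r a⁻¹ * g⁻¹ ∈ U
    rw [h]
    exact U.inv_mem ha

theorem mem_conjSub {g : G} {h : H} : h ∈ conjSub U r g ↔ g * r h * g⁻¹ ∈ U := Iff.rfl

/-- `h ↦ g * r h * g⁻¹`, as a homomorphism `H_g →* U`. -/
def conjHom (g : G) : conjSub U r g →* U where
  toFun h := ⟨g * r h * g⁻¹, h.2⟩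
  map_one' := Subtype.ext (by simp)
  map_mul' a b := Subtype.ext (by
    show g * r ((a : H) * (b : H)) * g⁻¹ = (g * r a * g⁻¹) * (g * r b * g⁻¹)
    rw [map_mul]; group)

theorem conjHom_coe (g : G) (h : conjSub U r g) : (conjHom U r g h : G) = g * r h * g⁻¹ := rfl

/-- The coefficient module of the local group `H_g`. -/
noncomputable abbrev locRep (g : G) : Rep.{0} k (conjSub U r g) := Rep.res (conjHom U r g) A

/-- `f ↦ (h ↦ f (g * r h))`, linear part. -/
noncomputable def projLin (g : G) :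
    (Rep.coind U.subtype A) →ₗ[k] (Rep.coind (conjSub U r g).subtype (locRep U A r g)) where
  toFun f := ⟨fun h => f.1 (g * r h), fun h' h => by
    show f.1 (g * r ((h' : H) * h)) = A.ρ (conjHom U r g h') (f.1 (g * r h))
    have e : g * r ((h' : H) * h) = ((conjHom U r g h' : U) : G) * (g * r h) := by
      rw [map_mul, conjHom_coe]; group
    rw [e]
    exact f.2 (conjHom U r g h') (g * r h)⟩
  map_add' _ _ := rfl
  map_smul' _ _ := rfl

theorem projLin_apply (g : G) (f : Rep.coind U.subtype A) (h : H) :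
    (projLin U A r g f).1 h = f.1 (g * r h) := rfl

/-- The Mackey projection `Res_r coind_U^G A ⟶ coind_{H_g}^H A_g`. -/
noncomputable def proj (g : G) :
    Rep.res r (Rep.coind U.subtype A) ⟶
      Rep.coind (conjSub U r g).subtype (locRep U A r g) :=
  Rep.ofHom (LinearMap.intertwiningMap_of_isIntertwiningMap
    (Rep.res r (Rep.coind U.subtype A)).ρ
    (Rep.coind (conjSub U r g).subtype (locRep U A r g)).ρ (projLin U A r g) (fun h f => by
      apply Subtype.ext
      funext x
      show f.1 (g * r x * r h) = f.1 (g * r (x * h))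
      rw [map_mul, mul_assoc]))

theorem proj_apply (g : G) (f : Rep.coind U.subtype A) (h : H) :
    ((proj U A r g).hom f).1 h = f.1 (g * r h) := rfl

/-- A system of representatives `τ : J → G` of the double cosets `U \ G / r(H)`, with chosen
decompositions `x = u * τ j * r h`. -/
structure DRep (U : Subgroup G) (r : H →* G) (J : Type) where
  /-- the representatives -/
  τ : J → G
  /-- the index of the double coset of an element -/
  idx : G → J
  /-- the `U`-component of the chosen decomposition -/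
  uOf : G → U
  /-- the `H`-component of the chosen decomposition -/
  hOf : G → H
  spec : ∀ x, x = (uOf x : G) * τ (idx x) * r (hOf x)
  idx_mul : ∀ (u : U) (x : G) (h : H), idx ((u : G) * x * r h) = idx x
  idx_τ : ∀ j, idx (τ j) = j

theorem DRep.nonempty (U : Subgroup G) (r : H →* G) :
    Nonempty (DRep U r (DoubleCoset.Quotient (U : Set G) (r.range : Set G))) := by
  classical
  have hex : ∀ x : G, ∃ p : U × H,
      x = (p.1 : G) * (DoubleCoset.mk U r.range x).out * r p.2 := by
    intro x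
    obtain ⟨a, b, ha, hb, hab⟩ := DoubleCoset.mk_out_eq_mul U r.range x
    obtain ⟨h, rfl⟩ := hb
    refine ⟨(⟨a⁻¹, U.inv_mem ha⟩, h⁻¹), ?_⟩
    show x = a⁻¹ * (DoubleCoset.mk U r.range x).out * r h⁻¹
    rw [hab, map_inv]; group
  refine ⟨{
    τ := fun j => j.out
    idx := fun x => DoubleCoset.mk U r.range x
    uOf := fun x => (Classical.choose (hex x)).1
    hOf := fun x => (Classical.choose (hex x)).2
    spec := fun x => Classical.choose_spec (hex x)
    idx_mul := fun u x h => by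
      symm
      rw [DoubleCoset.eq]
      exact ⟨u, u.2, r h, ⟨h, rfl⟩, rfl⟩
    idx_τ := fun j => DoubleCoset.out_eq' U r.range j }⟩

namespace DRep

variable {U} {r} {J : Type} (D : DRep U r J)

theorem idx_mul_left (u : U) (x : G) : D.idx ((u : G) * x) = D.idx x := by
  have h := D.idx_mul u x 1
  rwa [map_one, mul_one] at h

theorem idx_mul_right (x : G) (h : H) : D.idx (x * r h) = D.idx x := by
  have h' := D.idx_mul 1 x h
  rwa [Subgroup.coe_one, one_mul] at h'

theorem idx_τ_mul (j : J) (h : H) : D.idx (D.τ j * r h) = j := by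
  rw [D.idx_mul_right, D.idx_τ]

end DRep

section Glue

variable {U} {r} {J : Type} (D : DRep U r J)

/-- Independence of the chosen decomposition. -/
theorem glue_aux (j : J) (φ : Rep.coind (conjSub U r (D.τ j)).subtype (locRep U A r (D.τ j)))
    (u u' : U) (h h' : H) (e : (u : G) * D.τ j * r h = (u' : G) * D.τ j * r h') :
    A.ρ u (φ.1 h) = A.ρ u' (φ.1 h') := by
  have hmem : h' * h⁻¹ ∈ conjSub U r (D.τ j) := by
    show D.τ j * r (h' * h⁻¹) * (D.τ j)⁻¹ ∈ U
    have e2 : D.τ j * r (h' * h⁻¹) * (D.τ j)⁻¹ = ((u'⁻¹ * u : U) : G) := by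
      rw [map_mul, map_inv, Subgroup.coe_mul, Subgroup.coe_inv]
      have e3 : D.τ j * r h' = (u' : G)⁻¹ * ((u : G) * D.τ j * r h) := by rw [e]; group
      calc D.τ j * (r h' * (r h)⁻¹) * (D.τ j)⁻¹
          = (D.τ j * r h') * (r h)⁻¹ * (D.τ j)⁻¹ := by group
        _ = (u' : G)⁻¹ * (u : G) := by rw [e3]; group
    rw [e2]
    exact (u'⁻¹ * u).2
  have hc : conjHom U r (D.τ j) ⟨h' * h⁻¹, hmem⟩ = u'⁻¹ * u := by
    apply Subtype.ext
    show D.τ j * r (h' * h⁻¹) * (D.τ j)⁻¹ = ((u'⁻¹ * u : U) : G)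
    rw [map_mul, map_inv, Subgroup.coe_mul, Subgroup.coe_inv]
    have e3 : D.τ j * r h' = (u' : G)⁻¹ * ((u : G) * D.τ j * r h) := by rw [e]; group
    calc D.τ j * (r h' * (r h)⁻¹) * (D.τ j)⁻¹
        = (D.τ j * r h') * (r h)⁻¹ * (D.τ j)⁻¹ := by group
      _ = (u' : G)⁻¹ * (u : G) := by rw [e3]; group
  have h1 : φ.1 h' = A.ρ (u'⁻¹ * u) (φ.1 h) := by
    have h2 := φ.2 ⟨h' * h⁻¹, hmem⟩ h
    have h3 : (conjSub U r (D.τ j)).subtype ⟨h' * h⁻¹, hmem⟩ * h = h' := by
      show h' * h⁻¹ * h = h'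
      group
    rw [h3] at h2
    rw [h2, ← hc]
    rfl
  rw [h1, ← Module.End.mul_apply, ← map_mul, mul_inv_cancel_left]

/-- Glue a family of elements of the local coinduced modules into an element of `coind_U^G A`:
`F (u * τ j * r h) = ρ(u) (φ j h)`. -/
noncomputable def glueLin :
    (∀ j : J, Rep.coind (conjSub U r (D.τ j)).subtype (locRep U A r (D.τ j))) →ₗ[k]
      (Rep.coind U.subtype A) where
  toFun φ := ⟨fun x => A.ρ (D.uOf x) ((φ (D.idx x)).1 (D.hOf x)), fun u x => by
    show A.ρ (D.uOf ((u : G) * x)) ((φ (D.idx ((u : G) * x))).1 (D.hOf ((u : G) * x))) =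
      A.ρ u (A.ρ (D.uOf x) ((φ (D.idx x)).1 (D.hOf x)))
    have hidx : D.idx ((u : G) * x) = D.idx x := D.idx_mul_left u x
    have e : ((D.uOf ((u : G) * x) : U) : G) * D.τ (D.idx x) * r (D.hOf ((u : G) * x)) =
        ((u * D.uOf x : U) : G) * D.τ (D.idx x) * r (D.hOf x) := by
      have h1 := D.spec ((u : G) * x)
      rw [hidx] at h1
      rw [← h1, Subgroup.coe_mul, mul_assoc (u : G), mul_assoc (u : G), ← D.spec x]
    rw [← Module.End.mul_apply, ← map_mul]
    -- rewrite the index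
    have key : ∀ (j : J) (hj : D.idx ((u : G) * x) = j)
        (e' : ((D.uOf ((u : G) * x) : U) : G) * D.τ j * r (D.hOf ((u : G) * x)) =
          ((u * D.uOf x : U) : G) * D.τ j * r (D.hOf x)),
        A.ρ (D.uOf ((u : G) * x)) ((φ (D.idx ((u : G) * x))).1 (D.hOf ((u : G) * x))) =
          A.ρ (u * D.uOf x) ((φ j).1 (D.hOf x)) := by
      intro j hj e'
      subst hj
      exact glue_aux A D _ (φ _) _ _ _ _ e'
    exact key (D.idx x) hidx e⟩
  map_add' φ ψ := Subtype.ext (funext fun x => map_add _ _ _)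
  map_smul' c φ := Subtype.ext (funext fun x => map_smul _ c _)

theorem glueLin_apply (φ : ∀ j : J, Rep.coind (conjSub U r (D.τ j)).subtype (locRep U A r (D.τ j)))
    (x : G) : (glueLin A D φ).1 x = A.ρ (D.uOf x) ((φ (D.idx x)).1 (D.hOf x)) := rfl

/-- `glue` is a section of the family of projections. -/
theorem projLin_glueLin
    (φ : ∀ j : J, Rep.coind (conjSub U r (D.τ j)).subtype (locRep U A r (D.τ j))) (j : J) :
    projLin U A r (D.τ j) (glueLin A D φ) = φ j := by
  apply Subtype.ext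
  funext h
  show A.ρ (D.uOf (D.τ j * r h)) ((φ (D.idx (D.τ j * r h))).1 (D.hOf (D.τ j * r h))) = (φ j).1 h
  have hidx : D.idx (D.τ j * r h) = j := D.idx_τ_mul j h
  have key : ∀ (i : J) (hi : D.idx (D.τ j * r h) = i)
      (e' : ((D.uOf (D.τ j * r h) : U) : G) * D.τ i * r (D.hOf (D.τ j * r h)) =
        ((1 : U) : G) * D.τ i * r h),
      A.ρ (D.uOf (D.τ j * r h)) ((φ (D.idx (D.τ j * r h))).1 (D.hOf (D.τ j * r h))) =
        A.ρ 1 ((φ i).1 h) := by
    intro i hi e'
    subst hi
    exact glue_aux A D _ (φ _) _ _ _ _ e'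
  have e : ((D.uOf (D.τ j * r h) : U) : G) * D.τ j * r (D.hOf (D.τ j * r h)) =
      ((1 : U) : G) * D.τ j * r h := by
    have h1 := D.spec (D.τ j * r h)
    rw [hidx] at h1
    rw [← h1, Subgroup.coe_one, one_mul]
  rw [key j hidx e, map_one]
  rfl

/-- The projections are jointly injective, and `glue` inverts them. -/
theorem glueLin_projLin (f : Rep.coind U.subtype A) :
    glueLin A D (fun j => projLin U A r (D.τ j) f) = f := by
  apply Subtype.ext
  funext x
  show A.ρ (D.uOf x) (f.1 (D.τ (D.idx x) * r (D.hOf x))) = f.1 x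
  have h1 := f.2 (D.uOf x) (D.τ (D.idx x) * r (D.hOf x))
  rw [← h1]
  have h2 := D.spec x
  rw [mul_assoc] at h2
  exact congrArg f.1 h2.symm

/-- **Mackey decomposition**: `Res_r coind_U^G A ≃ ∏_j coind_{H_{τ j}}^H A_{τ j}`. -/
noncomputable def mackeyEquiv :
    (Rep.coind U.subtype A) ≃ₗ[k]
      (∀ j : J, Rep.coind (conjSub U r (D.τ j)).subtype (locRep U A r (D.τ j))) where
  toFun f j := projLin U A r (D.τ j) f
  map_add' _ _ := rfl
  map_smul' _ _ := rfl
  invFun := glueLin A D
  left_inv f := glueLin_projLin A D f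
  right_inv φ := funext fun j => projLin_glueLin A D φ j

/-- `glue` is `H`-equivariant. -/
theorem glueLin_ρ (h : H)
    (φ : ∀ j : J, Rep.coind (conjSub U r (D.τ j)).subtype (locRep U A r (D.τ j))) :
    glueLin A D (fun j => (Rep.coind (conjSub U r (D.τ j)).subtype (locRep U A r (D.τ j))).ρ h (φ j))
      = (Rep.coind U.subtype A).ρ (r h) (glueLin A D φ) := by
  apply (mackeyEquiv A D).injective
  funext j
  show projLin U A r (D.τ j) (glueLin A D _) = projLin U A r (D.τ j) _
  rw [projLin_glueLin]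
  have h1 : projLin U A r (D.τ j) ((Rep.coind U.subtype A).ρ (r h) (glueLin A D φ)) =
      (Rep.coind (conjSub U r (D.τ j)).subtype (locRep U A r (D.τ j))).ρ h
        (projLin U A r (D.τ j) (glueLin A D φ)) := by
    apply Subtype.ext
    funext x
    show (glueLin A D φ).1 (D.τ j * r x * r h) = (glueLin A D φ).1 (D.τ j * r (x * h))
    rw [map_mul, mul_assoc]
  rw [h1, projLin_glueLin]

end Glue

/-! ### Cochain level: evaluation at `g` -/

section Mk

/-- Evaluation at `g`, degree 0. -/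
noncomputable def mk₀ (g : G) : (Rep.coind U.subtype A) →ₗ[k] (locRep U A r g) where
  toFun f := f.1 g
  map_add' _ _ := rfl
  map_smul' _ _ := rfl

/-- Evaluation at `g`, degree 1: `mk₁ g c h = c h g`. -/
noncomputable def mk₁ (g : G) :
    (H → Rep.coind U.subtype A) →ₗ[k] (conjSub U r g → locRep U A r g) where
  toFun c h := (c (h : H)).1 g
  map_add' _ _ := rfl
  map_smul' _ _ := rfl

/-- Evaluation at `g`, degree 2. -/
noncomputable def mk₂ (g : G) :
    (H × H → Rep.coind U.subtype A) →ₗ[k]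
      (conjSub U r g × conjSub U r g → locRep U A r g) where
  toFun c p := (c ((p.1 : H), (p.2 : H))).1 g
  map_add' _ _ := rfl
  map_smul' _ _ := rfl

/-- Evaluation at `g`, degree 3. -/
noncomputable def mk₃ (g : G) :
    (H × H × H → Rep.coind U.subtype A) →ₗ[k]
      (conjSub U r g × conjSub U r g × conjSub U r g → locRep U A r g) where
  toFun c p := (c ((p.1 : H), (p.2.1 : H), (p.2.2 : H))).1 g
  map_add' _ _ := rfl
  map_smul' _ _ := rfl

variable {U} {A} {r}

theorem apply_mul_r (f : Rep.coind U.subtype A) (g : G) (h : conjSub U r g) :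
    f.1 (g * r h) = A.ρ (conjHom U r g h) (f.1 g) := by
  have e : g * r h = ((conjHom U r g h : U) : G) * g := by
    rw [conjHom_coe]; group
  rw [e]
  exact f.2 (conjHom U r g h) g

theorem mk₀_eq (g : G) (f : Rep.coind U.subtype A) :
    mk₀ U A r g f = sh₀ (conjSub U r g) (locRep U A r g) (projLin U A r g f) := by
  show f.1 g = f.1 (g * r 1)
  rw [map_one, mul_one]

theorem mk₁_eq (g : G) (c : H → Rep.coind U.subtype A) :
    mk₁ U A r g c = sh₁ (conjSub U r g) (locRep U A r g) (fun h => projLin U A r g (c h)) := by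
  funext h
  show (c (h : H)).1 g = (c (h : H)).1 (g * r 1)
  rw [map_one, mul_one]

theorem mk₂_eq (g : G) (c : H × H → Rep.coind U.subtype A) :
    mk₂ U A r g c = sh₂ (conjSub U r g) (locRep U A r g) (fun p => projLin U A r g (c p)) := by
  funext p
  show (c ((p.1 : H), (p.2 : H))).1 g = (c ((p.1 : H), (p.2 : H))).1 (g * r 1)
  rw [map_one, mul_one]

theorem mk₃_eq (g : G) (c : H × H × H → Rep.coind U.subtype A) :
    mk₃ U A r g c = sh₃ (conjSub U r g) (locRep U A r g) (fun p => projLin U A r g (c p)) := by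
  funext p
  show (c ((p.1 : H), (p.2.1 : H), (p.2.2 : H))).1 g =
    (c ((p.1 : H), (p.2.1 : H), (p.2.2 : H))).1 (g * r 1)
  rw [map_one, mul_one]

/-- `projLin` commutes with `d₀₁`. -/
theorem projLin_d₀₁ (g : G) (m : Rep.coind U.subtype A) :
    (fun h => projLin U A r g ((d₀₁ (Rep.res r (Rep.coind U.subtype A))).hom m h)) =
      (d₀₁ (Rep.coind (conjSub U r g).subtype (locRep U A r g))).hom (projLin U A r g m) := by
  funext h
  apply Subtype.ext
  funext x
  show m.1 (g * r x * r h) - m.1 (g * r x) = m.1 (g * r (x * h)) - m.1 (g * r x)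
  rw [map_mul, mul_assoc]

/-- `projLin` commutes with `d₁₂`. -/
theorem projLin_d₁₂ (g : G) (c : H → Rep.coind U.subtype A) :
    (fun p => projLin U A r g ((d₁₂ (Rep.res r (Rep.coind U.subtype A))).hom c p)) =
      (d₁₂ (Rep.coind (conjSub U r g).subtype (locRep U A r g))).hom
        (fun h => projLin U A r g (c h)) := by
  funext p
  apply Subtype.ext
  funext x
  show (c p.2).1 (g * r x * r p.1) - (c (p.1 * p.2)).1 (g * r x) + (c p.1).1 (g * r x) =
    (c p.2).1 (g * r (x * p.1)) - (c (p.1 * p.2)).1 (g * r x) + (c p.1).1 (g * r x)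
  rw [map_mul, mul_assoc]

/-- `projLin` commutes with `d₂₃`. -/
theorem projLin_d₂₃ (g : G) (c : H × H → Rep.coind U.subtype A) :
    (fun p => projLin U A r g ((d₂₃ (Rep.res r (Rep.coind U.subtype A))).hom c p)) =
      (d₂₃ (Rep.coind (conjSub U r g).subtype (locRep U A r g))).hom
        (fun p => projLin U A r g (c p)) := by
  funext p
  apply Subtype.ext
  funext x
  show (c (p.2.1, p.2.2)).1 (g * r x * r p.1) - (c (p.1 * p.2.1, p.2.2)).1 (g * r x)
      + (c (p.1, p.2.1 * p.2.2)).1 (g * r x) - (c (p.1, p.2.1)).1 (g * r x) =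
    (c (p.2.1, p.2.2)).1 (g * r (x * p.1)) - (c (p.1 * p.2.1, p.2.2)).1 (g * r x)
      + (c (p.1, p.2.1 * p.2.2)).1 (g * r x) - (c (p.1, p.2.1)).1 (g * r x)
  rw [map_mul, mul_assoc]

/-- `mk` is a map of complexes, degree 0 → 1. -/
theorem mk₁_d₀₁ (g : G) (m : Rep.coind U.subtype A) :
    mk₁ U A r g ((d₀₁ (Rep.res r (Rep.coind U.subtype A))).hom m) =
      (d₀₁ (locRep U A r g)).hom (mk₀ U A r g m) := by
  rw [mk₁_eq, projLin_d₀₁, sh₁_d₀₁, mk₀_eq]

/-- `mk` is a map of complexes, degree 1 → 2. -/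
theorem mk₂_d₁₂ (g : G) (c : H → Rep.coind U.subtype A) :
    mk₂ U A r g ((d₁₂ (Rep.res r (Rep.coind U.subtype A))).hom c) =
      (d₁₂ (locRep U A r g)).hom (mk₁ U A r g c) := by
  rw [mk₂_eq, projLin_d₁₂, sh₂_d₁₂, mk₁_eq]

/-- `mk` is a map of complexes, degree 2 → 3. -/
theorem mk₃_d₂₃ (g : G) (c : H × H → Rep.coind U.subtype A) :
    mk₃ U A r g ((d₂₃ (Rep.res r (Rep.coind U.subtype A))).hom c) =
      (d₂₃ (locRep U A r g)).hom (mk₂ U A r g c) := by
  rw [mk₃_eq, projLin_d₂₃, sh₃_d₂₃, mk₂_eq]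

end Mk

/-! ### Cochain level: gluing back -/

section Unmk

variable {U} {r} {J : Type} (D : DRep U r J) (R : ∀ j : J, Retr (conjSub U r (D.τ j)))

/-- Glue local 0-cochains. -/
noncomputable def unmk₀ :
    (∀ j : J, locRep U A r (D.τ j)) →ₗ[k] (Rep.coind U.subtype A) where
  toFun a := glueLin A D (fun j => ind₀ (locRep U A r (D.τ j)) (R j) (a j))
  map_add' a a' := by
    rw [← map_add]; congr 1; funext j; simp [map_add]
  map_smul' c a := by
    rw [RingHom.id_apply, ← map_smul]; congr 1; funext j; simp [map_smul]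

/-- Glue local 1-cochains. -/
noncomputable def unmk₁ :
    (∀ j : J, conjSub U r (D.τ j) → locRep U A r (D.τ j)) →ₗ[k]
      (H → Rep.coind U.subtype A) where
  toFun b h := glueLin A D (fun j => ind₁ (locRep U A r (D.τ j)) (R j) (b j) h)
  map_add' b b' := funext fun h => by
    show glueLin A D (fun j => ind₁ (locRep U A r (D.τ j)) (R j) ((b + b') j) h) =
      glueLin A D (fun j => ind₁ (locRep U A r (D.τ j)) (R j) (b j) h)
        + glueLin A D (fun j => ind₁ (locRep U A r (D.τ j)) (R j) (b' j) h)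
    rw [← map_add]; congr 1; funext j; simp [map_add]
  map_smul' c b := funext fun h => by
    show glueLin A D (fun j => ind₁ (locRep U A r (D.τ j)) (R j) ((c • b) j) h) =
      c • glueLin A D (fun j => ind₁ (locRep U A r (D.τ j)) (R j) (b j) h)
    rw [← map_smul]; congr 1; funext j; simp [map_smul]

/-- Glue local 2-cochains. -/
noncomputable def unmk₂ :
    (∀ j : J, conjSub U r (D.τ j) × conjSub U r (D.τ j) → locRep U A r (D.τ j)) →ₗ[k]
      (H × H → Rep.coind U.subtype A) where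
  toFun b p := glueLin A D (fun j => ind₂ (locRep U A r (D.τ j)) (R j) (b j) p)
  map_add' b b' := funext fun p => by
    show glueLin A D (fun j => ind₂ (locRep U A r (D.τ j)) (R j) ((b + b') j) p) =
      glueLin A D (fun j => ind₂ (locRep U A r (D.τ j)) (R j) (b j) p)
        + glueLin A D (fun j => ind₂ (locRep U A r (D.τ j)) (R j) (b' j) p)
    rw [← map_add]; congr 1; funext j; simp [map_add]
  map_smul' c b := funext fun p => by
    show glueLin A D (fun j => ind₂ (locRep U A r (D.τ j)) (R j) ((c • b) j) p) =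
      c • glueLin A D (fun j => ind₂ (locRep U A r (D.τ j)) (R j) (b j) p)
    rw [← map_smul]; congr 1; funext j; simp [map_smul]

/-- The Mackey homotopy, degree 1 → 0. -/
noncomputable def mhom₀ : (H → Rep.coind U.subtype A) →ₗ[k] (Rep.coind U.subtype A) where
  toFun c := glueLin A D (fun j => hom₀ (locRep U A r (D.τ j)) (R j)
    (fun h => projLin U A r (D.τ j) (c h)))
  map_add' c c' := by
    rw [← map_add]; congr 1
  map_smul' a c := by
    rw [RingHom.id_apply, ← map_smul]; congr 1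

/-- The Mackey homotopy, degree 2 → 1. -/
noncomputable def mhom₁ : (H × H → Rep.coind U.subtype A) →ₗ[k] (H → Rep.coind U.subtype A) where
  toFun c h := glueLin A D (fun j => hom₁ (locRep U A r (D.τ j)) (R j)
    (fun p => projLin U A r (D.τ j) (c p)) h)
  map_add' c c' := funext fun h => by
    show glueLin A D (fun j => hom₁ (locRep U A r (D.τ j)) (R j)
        (fun p => projLin U A r (D.τ j) ((c + c') p)) h) =
      glueLin A D (fun j => hom₁ (locRep U A r (D.τ j)) (R j)
        (fun p => projLin U A r (D.τ j) (c p)) h)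
      + glueLin A D (fun j => hom₁ (locRep U A r (D.τ j)) (R j)
        (fun p => projLin U A r (D.τ j) (c' p)) h)
    rw [← map_add]; congr 1; funext j
    rw [Pi.add_apply, ← Pi.add_apply (hom₁ _ (R j) _) (hom₁ _ (R j) _) h, ← map_add]; congr 1
  map_smul' a c := funext fun h => by
    show glueLin A D (fun j => hom₁ (locRep U A r (D.τ j)) (R j)
        (fun p => projLin U A r (D.τ j) ((a • c) p)) h) =
      a • glueLin A D (fun j => hom₁ (locRep U A r (D.τ j)) (R j)
        (fun p => projLin U A r (D.τ j) (c p)) h)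
    rw [← map_smul]; congr 1; funext j
    rw [Pi.smul_apply, ← Pi.smul_apply a (hom₁ _ (R j) _) h, ← map_smul]; congr 1

/-- The Mackey homotopy, degree 3 → 2. -/
noncomputable def mhom₂ :
    (H × H × H → Rep.coind U.subtype A) →ₗ[k] (H × H → Rep.coind U.subtype A) where
  toFun c h := glueLin A D (fun j => hom₂ (locRep U A r (D.τ j)) (R j)
    (fun p => projLin U A r (D.τ j) (c p)) h)
  map_add' c c' := funext fun h => by
    show glueLin A D (fun j => hom₂ (locRep U A r (D.τ j)) (R j)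
        (fun p => projLin U A r (D.τ j) ((c + c') p)) h) =
      glueLin A D (fun j => hom₂ (locRep U A r (D.τ j)) (R j)
        (fun p => projLin U A r (D.τ j) (c p)) h)
      + glueLin A D (fun j => hom₂ (locRep U A r (D.τ j)) (R j)
        (fun p => projLin U A r (D.τ j) (c' p)) h)
    rw [← map_add]; congr 1; funext j
    rw [Pi.add_apply, ← Pi.add_apply (hom₂ _ (R j) _) (hom₂ _ (R j) _) h, ← map_add]; congr 1
  map_smul' a c := funext fun h => by
    show glueLin A D (fun j => hom₂ (locRep U A r (D.τ j)) (R j)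
        (fun p => projLin U A r (D.τ j) ((a • c) p)) h) =
      a • glueLin A D (fun j => hom₂ (locRep U A r (D.τ j)) (R j)
        (fun p => projLin U A r (D.τ j) (c p)) h)
    rw [← map_smul]; congr 1; funext j
    rw [Pi.smul_apply, ← Pi.smul_apply a (hom₂ _ (R j) _) h, ← map_smul]; congr 1

end Unmk

section Identities

variable {U} {A} {r} {J : Type} (D : DRep U r J) (R : ∀ j : J, Retr (conjSub U r (D.τ j)))

/-- Two elements of `coind_U^G A` with the same Mackey projections are equal. -/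
theorem coind_ext_proj {f f' : Rep.coind U.subtype A}
    (h : ∀ j, projLin U A r (D.τ j) f = projLin U A r (D.τ j) f') : f = f' :=
  (mackeyEquiv A D).injective (funext h)

theorem projLin_unmk₀ (a : ∀ j : J, locRep U A r (D.τ j)) (j : J) :
    projLin U A r (D.τ j) (unmk₀ A D R a) = ind₀ (locRep U A r (D.τ j)) (R j) (a j) :=
  projLin_glueLin A D (fun j => ind₀ (locRep U A r (D.τ j)) (R j) (a j)) j

theorem projLin_unmk₁ (b : ∀ j : J, conjSub U r (D.τ j) → locRep U A r (D.τ j)) (j : J) :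
    (fun h => projLin U A r (D.τ j) (unmk₁ A D R b h)) =
      ind₁ (locRep U A r (D.τ j)) (R j) (b j) :=
  funext fun h => projLin_glueLin A D (fun j => ind₁ (locRep U A r (D.τ j)) (R j) (b j) h) j

theorem projLin_unmk₂
    (b : ∀ j : J, conjSub U r (D.τ j) × conjSub U r (D.τ j) → locRep U A r (D.τ j)) (j : J) :
    (fun p => projLin U A r (D.τ j) (unmk₂ A D R b p)) =
      ind₂ (locRep U A r (D.τ j)) (R j) (b j) :=
  funext fun p => projLin_glueLin A D (fun j => ind₂ (locRep U A r (D.τ j)) (R j) (b j) p) j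

theorem projLin_mhom₀ (c : H → Rep.coind U.subtype A) (j : J) :
    projLin U A r (D.τ j) (mhom₀ A D R c) =
      hom₀ (locRep U A r (D.τ j)) (R j) (fun h => projLin U A r (D.τ j) (c h)) :=
  projLin_glueLin A D (fun j => hom₀ (locRep U A r (D.τ j)) (R j)
    (fun h => projLin U A r (D.τ j) (c h))) j

theorem projLin_mhom₁ (c : H × H → Rep.coind U.subtype A) (j : J) :
    (fun h => projLin U A r (D.τ j) (mhom₁ A D R c h)) =
      hom₁ (locRep U A r (D.τ j)) (R j) (fun p => projLin U A r (D.τ j) (c p)) :=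
  funext fun h => projLin_glueLin A D (fun j => hom₁ (locRep U A r (D.τ j)) (R j)
    (fun p => projLin U A r (D.τ j) (c p)) h) j

theorem projLin_mhom₂ (c : H × H × H → Rep.coind U.subtype A) (j : J) :
    (fun p => projLin U A r (D.τ j) (mhom₂ A D R c p)) =
      hom₂ (locRep U A r (D.τ j)) (R j) (fun p => projLin U A r (D.τ j) (c p)) :=
  funext fun q => projLin_glueLin A D (fun j => hom₂ (locRep U A r (D.τ j)) (R j)
    (fun p => projLin U A r (D.τ j) (c p)) q) j

/-! #### `mk ∘ unmk = id` -/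

theorem mk₀_unmk₀ (a : ∀ j : J, locRep U A r (D.τ j)) (j : J) :
    mk₀ U A r (D.τ j) (unmk₀ A D R a) = a j := by
  rw [mk₀_eq, projLin_unmk₀, sh₀_ind₀]

theorem mk₁_unmk₁ (b : ∀ j : J, conjSub U r (D.τ j) → locRep U A r (D.τ j)) (j : J) :
    mk₁ U A r (D.τ j) (unmk₁ A D R b) = b j := by
  rw [mk₁_eq, projLin_unmk₁, sh₁_ind₁]

theorem mk₂_unmk₂
    (b : ∀ j : J, conjSub U r (D.τ j) × conjSub U r (D.τ j) → locRep U A r (D.τ j)) (j : J) :
    mk₂ U A r (D.τ j) (unmk₂ A D R b) = b j := by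
  rw [mk₂_eq, projLin_unmk₂, sh₂_ind₂]

/-! #### `unmk` is a map of complexes -/

theorem unmk₁_d₀₁ (a : ∀ j : J, locRep U A r (D.τ j)) :
    unmk₁ A D R (fun j => (d₀₁ (locRep U A r (D.τ j))).hom (a j)) =
      (d₀₁ (Rep.res r (Rep.coind U.subtype A))).hom (unmk₀ A D R a) := by
  funext h
  apply coind_ext_proj D
  intro j
  have h1 := congrFun (projLin_unmk₁ D R (fun j => (d₀₁ (locRep U A r (D.τ j))).hom (a j)) j) h
  have h2 := congrFun (projLin_d₀₁ (r := r) (D.τ j) (unmk₀ A D R a)) h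
  have h3 := congrFun (ind₁_d₀₁ (R j) (a j)) h
  rw [projLin_unmk₀] at h2
  exact h1.trans (h3.trans h2.symm)

theorem unmk₂_d₁₂ (b : ∀ j : J, conjSub U r (D.τ j) → locRep U A r (D.τ j)) :
    unmk₂ A D R (fun j => (d₁₂ (locRep U A r (D.τ j))).hom (b j)) =
      (d₁₂ (Rep.res r (Rep.coind U.subtype A))).hom (unmk₁ A D R b) := by
  funext p
  apply coind_ext_proj D
  intro j
  have h1 := congrFun (projLin_unmk₂ D R (fun j => (d₁₂ (locRep U A r (D.τ j))).hom (b j)) j) p
  have h2 := congrFun (projLin_d₁₂ (r := r) (D.τ j) (unmk₁ A D R b)) p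
  have h3 := congrFun (ind₂_d₁₂ (R j) (b j)) p
  rw [projLin_unmk₁] at h2
  exact h1.trans (h3.trans h2.symm)

/-! #### `unmk ∘ mk - id = d ∘ mhom + mhom ∘ d` -/

theorem unmk₀_mk₀_sub (m : Rep.coind U.subtype A) :
    unmk₀ A D R (fun j => mk₀ U A r (D.τ j) m) - m =
      mhom₀ A D R ((d₀₁ (Rep.res r (Rep.coind U.subtype A))).hom m) := by
  apply coind_ext_proj D
  intro j
  rw [map_sub, projLin_unmk₀, projLin_mhom₀, projLin_d₀₁, mk₀_eq]
  exact ind₀_sh₀_sub (R j) (projLin U A r (D.τ j) m)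

theorem unmk₁_mk₁_sub (c : H → Rep.coind U.subtype A) :
    unmk₁ A D R (fun j => mk₁ U A r (D.τ j) c) - c =
      (d₀₁ (Rep.res r (Rep.coind U.subtype A))).hom (mhom₀ A D R c)
        + mhom₁ A D R ((d₁₂ (Rep.res r (Rep.coind U.subtype A))).hom c) := by
  funext h
  apply coind_ext_proj D
  intro j
  show projLin U A r (D.τ j) (unmk₁ A D R (fun j => mk₁ U A r (D.τ j) c) h - c h) =
    projLin U A r (D.τ j) ((d₀₁ (Rep.res r (Rep.coind U.subtype A))).hom (mhom₀ A D R c) h
      + mhom₁ A D R ((d₁₂ (Rep.res r (Rep.coind U.subtype A))).hom c) h)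
  rw [map_sub, map_add]
  have h1 : projLin U A r (D.τ j) (unmk₁ A D R (fun j => mk₁ U A r (D.τ j) c) h) =
      ind₁ (locRep U A r (D.τ j)) (R j)
        (sh₁ _ _ (fun h => projLin U A r (D.τ j) (c h))) h := by
    have h0 := congrFun (projLin_unmk₁ D R (fun j => mk₁ U A r (D.τ j) c) j) h
    rw [mk₁_eq] at h0
    exact h0
  have h2 : projLin U A r (D.τ j)
      ((d₀₁ (Rep.res r (Rep.coind U.subtype A))).hom (mhom₀ A D R c) h) =
      (d₀₁ _).hom (hom₀ (locRep U A r (D.τ j)) (R j)
        (fun h => projLin U A r (D.τ j) (c h))) h := by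
    have h0 := congrFun (projLin_d₀₁ (r := r) (D.τ j) (mhom₀ A D R c)) h
    rw [projLin_mhom₀] at h0
    exact h0
  have h3 : projLin U A r (D.τ j)
      (mhom₁ A D R ((d₁₂ (Rep.res r (Rep.coind U.subtype A))).hom c) h) =
      hom₁ (locRep U A r (D.τ j)) (R j)
        ((d₁₂ _).hom (fun h => projLin U A r (D.τ j) (c h))) h := by
    have h0 := congrFun (projLin_mhom₁ D R
      ((d₁₂ (Rep.res r (Rep.coind U.subtype A))).hom c) j) h
    rw [projLin_d₁₂] at h0
    exact h0
  rw [h1, h2, h3]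
  exact congrFun (ind₁_sh₁_sub (R j) (fun h => projLin U A r (D.τ j) (c h))) h

theorem unmk₂_mk₂_sub (c : H × H → Rep.coind U.subtype A) :
    unmk₂ A D R (fun j => mk₂ U A r (D.τ j) c) - c =
      (d₁₂ (Rep.res r (Rep.coind U.subtype A))).hom (mhom₁ A D R c)
        + mhom₂ A D R ((d₂₃ (Rep.res r (Rep.coind U.subtype A))).hom c) := by
  funext p
  apply coind_ext_proj D
  intro j
  show projLin U A r (D.τ j) (unmk₂ A D R (fun j => mk₂ U A r (D.τ j) c) p - c p) =
    projLin U A r (D.τ j) ((d₁₂ (Rep.res r (Rep.coind U.subtype A))).hom (mhom₁ A D R c) p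
      + mhom₂ A D R ((d₂₃ (Rep.res r (Rep.coind U.subtype A))).hom c) p)
  rw [map_sub, map_add]
  have h1 : projLin U A r (D.τ j) (unmk₂ A D R (fun j => mk₂ U A r (D.τ j) c) p) =
      ind₂ (locRep U A r (D.τ j)) (R j)
        (sh₂ _ _ (fun p => projLin U A r (D.τ j) (c p))) p := by
    have h0 := congrFun (projLin_unmk₂ D R (fun j => mk₂ U A r (D.τ j) c) j) p
    rw [mk₂_eq] at h0
    exact h0
  have h2 : projLin U A r (D.τ j)
      ((d₁₂ (Rep.res r (Rep.coind U.subtype A))).hom (mhom₁ A D R c) p) =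
      (d₁₂ _).hom (hom₁ (locRep U A r (D.τ j)) (R j)
        (fun p => projLin U A r (D.τ j) (c p))) p := by
    have h0 := congrFun (projLin_d₁₂ (r := r) (D.τ j) (mhom₁ A D R c)) p
    rw [projLin_mhom₁] at h0
    exact h0
  have h3 : projLin U A r (D.τ j)
      (mhom₂ A D R ((d₂₃ (Rep.res r (Rep.coind U.subtype A))).hom c) p) =
      hom₂ (locRep U A r (D.τ j)) (R j)
        ((d₂₃ _).hom (fun p => projLin U A r (D.τ j) (c p))) p := by
    have h0 := congrFun (projLin_mhom₂ D R
      ((d₂₃ (Rep.res r (Rep.coind U.subtype A))).hom c) j) p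
    rw [projLin_d₂₃] at h0
    exact h0
  rw [h1, h2, h3]
  exact congrFun (ind₂_sh₂_sub (R j) (fun p => projLin U A r (D.τ j) (c p))) p

end Identities

/-! ### Levels -/

section LevelMackey

variable {U} {A} {r} {V : Subgroup H}

theorem rinv₁_mk₁ (g : G) {c : H → Rep.coind U.subtype A} (hc : RInv₁ V c) :
    RInv₁ (V.subgroupOf (conjSub U r g)) (mk₁ U A r g c) := by
  intro h s hs
  show (c ((h * s : conjSub U r g) : H)).1 g = (c (h : H)).1 g
  rw [Subgroup.coe_mul, hc _ _ (Subgroup.mem_subgroupOf.mp hs)]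

theorem rinv₂_mk₂ (g : G) {c : H × H → Rep.coind U.subtype A} (hc : RInv₂ V c) :
    RInv₂ (V.subgroupOf (conjSub U r g)) (mk₂ U A r g c) := by
  intro h h' s s' hs hs'
  show (c (((h * s : conjSub U r g) : H), ((h' * s' : conjSub U r g) : H))).1 g =
    (c ((h : H), (h' : H))).1 g
  rw [Subgroup.coe_mul, Subgroup.coe_mul,
    hc _ _ _ _ (Subgroup.mem_subgroupOf.mp hs) (Subgroup.mem_subgroupOf.mp hs')]

variable {J : Type} (D : DRep U r J) (R : ∀ j : J, Retr (conjSub U r (D.τ j)))
  [hVn : V.Normal] (hV : ∀ j, V ≤ conjSub U r (D.τ j))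

include hVn hV

theorem rinv₁_unmk₁ {b : ∀ j : J, conjSub U r (D.τ j) → locRep U A r (D.τ j)}
    (hb : ∀ j, RInv₁ (V.subgroupOf (conjSub U r (D.τ j))) (b j)) :
    RInv₁ V (unmk₁ A D R b) := by
  intro h s hs
  show glueLin A D (fun j => ind₁ (locRep U A r (D.τ j)) (R j) (b j) (h * s)) =
    glueLin A D (fun j => ind₁ (locRep U A r (D.τ j)) (R j) (b j) h)
  congr 1
  funext j
  exact rinv₁_ind₁ (R j) (hV j) (hb j) h s hs

theorem rinv₂_unmk₂
    {b : ∀ j : J, conjSub U r (D.τ j) × conjSub U r (D.τ j) → locRep U A r (D.τ j)}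
    (hb : ∀ j, RInv₂ (V.subgroupOf (conjSub U r (D.τ j))) (b j)) :
    RInv₂ V (unmk₂ A D R b) := by
  intro h h' s s' hs hs'
  show glueLin A D (fun j => ind₂ (locRep U A r (D.τ j)) (R j) (b j) (h * s, h' * s')) =
    glueLin A D (fun j => ind₂ (locRep U A r (D.τ j)) (R j) (b j) (h, h'))
  congr 1
  funext j
  exact rinv₂_ind₂ (R j) (hV j) (hb j) h h' s s' hs hs'

theorem rinv₁_mhom₁ {c : H × H → Rep.coind U.subtype A} (hc : RInv₂ V c) :
    RInv₁ V (mhom₁ A D R c) := by
  intro h s hs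
  show glueLin A D (fun j => hom₁ (locRep U A r (D.τ j)) (R j)
      (fun p => projLin U A r (D.τ j) (c p)) (h * s)) =
    glueLin A D (fun j => hom₁ (locRep U A r (D.τ j)) (R j)
      (fun p => projLin U A r (D.τ j) (c p)) h)
  congr 1
  funext j
  have hcj : RInv₂ V (fun p => projLin U A r (D.τ j) (c p)) := by
    intro g g' t t' ht ht'
    show projLin U A r (D.τ j) (c (g * t, g' * t')) = projLin U A r (D.τ j) (c (g, g'))
    rw [hc g g' t t' ht ht']
  exact rinv₁_hom₁ (R j) (hV j) hcj h s hs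

theorem rinv₂_mhom₂ {c : H × H × H → Rep.coind U.subtype A} (hc : RInv₃ V c) :
    RInv₂ V (mhom₂ A D R c) := by
  intro h h' s s' hs hs'
  show glueLin A D (fun j => hom₂ (locRep U A r (D.τ j)) (R j)
      (fun p => projLin U A r (D.τ j) (c p)) (h * s, h' * s')) =
    glueLin A D (fun j => hom₂ (locRep U A r (D.τ j)) (R j)
      (fun p => projLin U A r (D.τ j) (c p)) (h, h'))
  congr 1
  funext j
  have hcj : RInv₃ V (fun p => projLin U A r (D.τ j) (c p)) := by
    intro g g' g'' t t' t'' ht ht' ht''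
    show projLin U A r (D.τ j) (c (g * t, g' * t', g'' * t'')) =
      projLin U A r (D.τ j) (c (g, g', g''))
    rw [hc g g' g'' t t' t'' ht ht' ht'']
  exact rinv₂_hom₂ (R j) (hV j) hcj h h' s s' hs hs'

end LevelMackey

/-! ### Consequences for cocycles and coboundaries of the local group -/

section CohomologyMackey

variable {U} {A} {r} {J : Type} (D : DRep U r J)

theorem mk₁_mem_cocycles₁ (g : G) {c : H → Rep.coind U.subtype A}
    (hc : c ∈ cocycles₁ (Rep.res r (Rep.coind U.subtype A))) :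
    mk₁ U A r g c ∈ cocycles₁ (locRep U A r g) := by
  have h : (d₁₂ (Rep.res r (Rep.coind U.subtype A))).hom c = 0 := LinearMap.mem_ker.mp hc
  refine LinearMap.mem_ker.mpr ?_
  rw [← mk₂_d₁₂, h, map_zero]

theorem mk₂_mem_cocycles₂ (g : G) {c : H × H → Rep.coind U.subtype A}
    (hc : c ∈ cocycles₂ (Rep.res r (Rep.coind U.subtype A))) :
    mk₂ U A r g c ∈ cocycles₂ (locRep U A r g) := by
  have h : (d₂₃ (Rep.res r (Rep.coind U.subtype A))).hom c = 0 := LinearMap.mem_ker.mp hc
  refine LinearMap.mem_ker.mpr ?_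
  rw [← mk₃_d₂₃, h, map_zero]

/-- **Mackey–Shapiro, degree 1**: a 1-cocycle of the local group with values in `Res_r coind_U^G A`
is a coboundary iff its evaluations at the double coset representatives are. -/
theorem mem_coboundaries₁_iff_mk₁ {c : H → Rep.coind U.subtype A}
    (hc : c ∈ cocycles₁ (Rep.res r (Rep.coind U.subtype A))) :
    c ∈ coboundaries₁ (Rep.res r (Rep.coind U.subtype A)) ↔
      ∀ j, mk₁ U A r (D.τ j) c ∈ coboundaries₁ (locRep U A r (D.τ j)) := by
  constructor
  · rintro ⟨m, rfl⟩ j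
    exact ⟨mk₀ U A r (D.τ j) m, (mk₁_d₀₁ (D.τ j) m).symm⟩
  · intro h
    choose a ha using h
    have R : ∀ j : J, Retr (conjSub U r (D.τ j)) := fun j => (Retr.nonempty _).some
    have hd : (d₁₂ (Rep.res r (Rep.coind U.subtype A))).hom c = 0 := LinearMap.mem_ker.mp hc
    have h1 := unmk₁_mk₁_sub D R c
    rw [hd, map_zero, add_zero] at h1
    have h2 : unmk₁ A D R (fun j => mk₁ U A r (D.τ j) c) =
        (d₀₁ (Rep.res r (Rep.coind U.subtype A))).hom (unmk₀ A D R a) := by
      rw [← unmk₁_d₀₁]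
      congr 1
      funext j
      exact (ha j).symm
    refine ⟨unmk₀ A D R a - mhom₀ A D R c, ?_⟩
    rw [map_sub, ← h2, ← h1]
    abel

/-- **Mackey–Shapiro, degree 2, with levels**: a right-`V`-invariant 2-cocycle of the local group
with values in `Res_r coind_U^G A` whose evaluations at the double coset representatives are
coboundaries of right-`V`-invariant cochains is the coboundary of a right-`V`-invariant cochain. -/
theorem exists_rinv_primitive₂_mackey {V : Subgroup H} [V.Normal]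
    (hV : ∀ j, V ≤ conjSub U r (D.τ j)) {c : H × H → Rep.coind U.subtype A}
    (hc : c ∈ cocycles₂ (Rep.res r (Rep.coind U.subtype A))) (hcV : RInv₂ V c)
    {γ : ∀ j : J, conjSub U r (D.τ j) → locRep U A r (D.τ j)}
    (hγV : ∀ j, RInv₁ (V.subgroupOf (conjSub U r (D.τ j))) (γ j))
    (hγ : ∀ j, (d₁₂ (locRep U A r (D.τ j))).hom (γ j) = mk₂ U A r (D.τ j) c) :
    ∃ φ : H → Rep.coind U.subtype A, RInv₁ V φ ∧
      (d₁₂ (Rep.res r (Rep.coind U.subtype A))).hom φ = c := by
  have R : ∀ j : J, Retr (conjSub U r (D.τ j)) := fun j => (Retr.nonempty _).some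
  have hd : (d₂₃ (Rep.res r (Rep.coind U.subtype A))).hom c = 0 := LinearMap.mem_ker.mp hc
  have h1 := unmk₂_mk₂_sub D R c
  rw [hd, map_zero, add_zero] at h1
  have h2 : unmk₂ A D R (fun j => mk₂ U A r (D.τ j) c) =
      (d₁₂ (Rep.res r (Rep.coind U.subtype A))).hom (unmk₁ A D R γ) := by
    rw [← unmk₂_d₁₂]
    congr 1
    funext j
    exact (hγ j).symm
  refine ⟨unmk₁ A D R γ - mhom₁ A D R c, ?_, ?_⟩
  · intro h s hs
    show unmk₁ A D R γ (h * s) - mhom₁ A D R c (h * s) = unmk₁ A D R γ h - mhom₁ A D R c h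
    rw [rinv₁_unmk₁ D R hV hγV h s hs, rinv₁_mhom₁ D R hV hcV h s hs]
  · rw [map_sub, ← h2, ← h1]
    abel

/-- The converse direction (no representatives needed): evaluation at any `g` of a coboundary of
a right-`V`-invariant cochain is the coboundary of a right-invariant cochain. -/
theorem mk₂_d₁₂_rinv {V : Subgroup H} (g : G) {φ : H → Rep.coind U.subtype A}
    (hφ : RInv₁ V φ) :
    RInv₁ (V.subgroupOf (conjSub U r g)) (mk₁ U A r g φ) ∧
      (d₁₂ (locRep U A r g)).hom (mk₁ U A r g φ) =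
        mk₂ U A r g ((d₁₂ (Rep.res r (Rep.coind U.subtype A))).hom φ) :=
  ⟨rinv₁_mk₁ g hφ, (mk₂_d₁₂ g φ).symm⟩

end CohomologyMackey

end Fermat.Agent.S55.Shapiro
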