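import Fermat.Agent.S55.Shapiro.AdapterHPQ
import Fermat.Agent.S55.Base.C4Shape

/-!
# (HPQ-AD), instance for the cone form of (c4)

The Hasse principle of `Shapiro/AdapterHPQ` in the literal shape `C4.Hasse I.datum N` of
`Base/C4Shape` (input (i) of `C4.ThetaFam.finrank_sha2_le`), for the evaluation datum of ANY
arithmetic input `I : EvalQ.ArithInput p S`, and `N = M0(K)`, `N = M0(K).dualTwist (cycloChar p)`.
-/

set_option autoImplicit false

open CategoryTheory groupCohomology ExtCitation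

namespace Fermat.Agent.S55.Shapiro.AdapterHPQ

open Fermat.Agent.S55.Abs Fermat.Agent.S55.Base Fermat.Agent.S55.Base.EvalQ

variable {p : ℕ} [Fact p.Prime] {S : Finset Nat.Primes}

/-- `HasseAt S N` implies `C4.Hasse I.datum N` (the two differ only in the order of the
existential quantifiers). -/
theorem HasseAt.c4 {N : Rep.{0} (ZMod p) GQ} (h : HasseAt S N) (I : ArithInput p S) :
    C4.Hasse I.datum N := fun a ha hloc => by
  obtain ⟨T, hST, c, hc, hd⟩ := h a ha hloc
  exact ⟨T, c, hST, hc, hd⟩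

variable (I : ArithInput p S) (hp2 : p ≠ 2) (hpS : pPrime p ∈ S)
  (K : IntermediateField ℚ (AlgebraicClosure ℚ)) (hK : K.IsUnramifiedOutside S)
  (hcyc : Glue.cycloField p ≤ K)

include hp2 hpS hK hcyc

/-- **(HPQ)**, `C4` shape, `N = M0(K)`. -/
theorem c4_hasse_M0 : C4.Hasse I.datum (M0 (ZMod p) K.fixingSubgroup) :=
  (hasseAt_M0 hp2 hpS K hK hcyc).c4 I

/-- **(HPQ)**, `C4` shape, `N = M0(K)'`. -/
theorem c4_hasse_M0_dualTwist :
    C4.Hasse I.datum ((M0 (ZMod p) K.fixingSubgroup).dualTwist (cycloChar p)) :=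
  (hasseAt_M0_dualTwist hp2 hpS K hK hcyc).c4 I

end Fermat.Agent.S55.Shapiro.AdapterHPQ
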