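import Mathlib
import Fermat.Agent.S55.Shapiro.Mackey

/-!
# Conjugation homotopy for Shapiro on explicit cochains (CFT brick [SH-conj])

`G` a group, `U ≤ G`, `A : Rep k U`, `M = Rep.coind U.subtype A`, `g : G`.

* `cj₀ … cj₃ U A g` : "conjugate by `g⁻¹`, then evaluate at `g`", from cochains of `G` with values
  in `M` to cochains of `U` with values in `A`:
  `cj₂ g c (x, y) = (c (g⁻¹ * x * g, g⁻¹ * y * g)).1 g`.  `cj_i 1 = sh_i`; each `cj_i g` is a map of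
  complexes (`cj₁_d₀₁`, `cj₂_d₁₂`, `cj₃_d₂₃`).
* `cjh₀, cjh₁, cjh₂ U A g` : the homotopy, `sh_i - cj_i g = d ∘ cjh_{i-1} + cjh_i ∘ d`
  (`sh₀_sub_cj₀`, `sh₁_sub_cj₁`, `sh₂_sub_cj₂`).
* levels: for `N` normal in `G`, `cj` and `cjh` send `RInv N` cochains to `RInv (N.subgroupOf U)`
  cochains.
* link with the Mackey evaluation maps of `Shapiro/Mackey.lean`: for `r : H →* G`,
  `mk_i U A r g (c ∘ r) = (cj_i U A g c) ∘ conjHom U r g`.
* consequences: the local dictionary "`c ∘ r` is a coboundary of `H` (values in `Res_r M`)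
  iff for every double coset `U g r(H)` the cochain `(sh c) ∘ conjHom U r g` is a coboundary of
  `conjSub U r g` (values in `A`)", in degrees 1 and 2, with levels.
-/

set_option autoImplicit false

open groupCohomology

namespace Fermat.Agent.S55.Shapiro

variable {k : Type} [CommRing k] {G : Type} [Group G] (U : Subgroup G) (A : Rep.{0} k U)

section Defs

/-- Evaluation at `g`, degree 0. -/
def cj₀ (g : G) : (Rep.coind U.subtype A) →ₗ[k] A where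
  toFun f := f.1 g
  map_add' _ _ := rfl
  map_smul' _ _ := rfl

/-- Conjugate by `g⁻¹` and evaluate at `g`, degree 1. -/
def cj₁ (g : G) : (G → Rep.coind U.subtype A) →ₗ[k] (U → A) where
  toFun c u := (c (g⁻¹ * (u : G) * g)).1 g
  map_add' _ _ := rfl
  map_smul' _ _ := rfl

/-- Conjugate by `g⁻¹` and evaluate at `g`, degree 2. -/
def cj₂ (g : G) : (G × G → Rep.coind U.subtype A) →ₗ[k] (U × U → A) where
  toFun c p := (c (g⁻¹ * (p.1 : G) * g, g⁻¹ * (p.2 : G) * g)).1 g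
  map_add' _ _ := rfl
  map_smul' _ _ := rfl

/-- Conjugate by `g⁻¹` and evaluate at `g`, degree 3. -/
def cj₃ (g : G) : (G × G × G → Rep.coind U.subtype A) →ₗ[k] (U × U × U → A) where
  toFun c p := (c (g⁻¹ * (p.1 : G) * g, g⁻¹ * (p.2.1 : G) * g, g⁻¹ * (p.2.2 : G) * g)).1 g
  map_add' _ _ := rfl
  map_smul' _ _ := rfl

/-- The conjugation homotopy, degree 1 → 0. -/
def cjh₀ (g : G) : (G → Rep.coind U.subtype A) →ₗ[k] A where
  toFun c := -(c g).1 1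
  map_add' a b := by
    show -((a g + b g).1 1) = -(a g).1 1 + -(b g).1 1
    rw [coind_add_apply]; abel
  map_smul' r a := by
    show -((r • a g).1 1) = r • -(a g).1 1
    rw [smul_neg]; rfl

/-- The conjugation homotopy, degree 2 → 1. -/
def cjh₁ (g : G) : (G × G → Rep.coind U.subtype A) →ₗ[k] (U → A) where
  toFun c x := (c ((x : G), g)).1 1 - (c (g, g⁻¹ * (x : G) * g)).1 1
  map_add' a b := funext fun x => by
    show (a _ + b _).1 1 - (a _ + b _).1 1 = (a _).1 1 - (a _).1 1 + ((b _).1 1 - (b _).1 1)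
    rw [coind_add_apply, coind_add_apply]; abel
  map_smul' r a := funext fun x => by
    show (r • a _).1 1 - (r • a _).1 1 = r • ((a _).1 1 - (a _).1 1)
    rw [smul_sub]; rfl

/-- The conjugation homotopy, degree 3 → 2. -/
def cjh₂ (g : G) : (G × G × G → Rep.coind U.subtype A) →ₗ[k] (U × U → A) where
  toFun c p := -((c ((p.1 : G), (p.2 : G), g)).1 1 - (c ((p.1 : G), g, g⁻¹ * (p.2 : G) * g)).1 1
    + (c (g, g⁻¹ * (p.1 : G) * g, g⁻¹ * (p.2 : G) * g)).1 1)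
  map_add' a b := funext fun p => by
    show -((a _ + b _).1 1 - (a _ + b _).1 1 + (a _ + b _).1 1) =
      -((a _).1 1 - (a _).1 1 + (a _).1 1) + -((b _).1 1 - (b _).1 1 + (b _).1 1)
    rw [coind_add_apply, coind_add_apply, coind_add_apply]; abel
  map_smul' r a := funext fun p => by
    show -((r • a _).1 1 - (r • a _).1 1 + (r • a _).1 1) =
      r • -((a _).1 1 - (a _).1 1 + (a _).1 1)
    rw [smul_neg, smul_add, smul_sub]; rfl

end Defs

section Identities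

variable {U} {A}

theorem cj₁_apply (g : G) (c : G → Rep.coind U.subtype A) (u : U) :
    cj₁ U A g c u = (c (g⁻¹ * (u : G) * g)).1 g := rfl

theorem cj₂_apply (g : G) (c : G × G → Rep.coind U.subtype A) (u v : U) :
    cj₂ U A g c (u, v) = (c (g⁻¹ * (u : G) * g, g⁻¹ * (v : G) * g)).1 g := rfl

theorem cjh₁_apply (g : G) (c : G × G → Rep.coind U.subtype A) (x : U) :
    cjh₁ U A g c x = (c ((x : G), g)).1 1 - (c (g, g⁻¹ * (x : G) * g)).1 1 := rfl

theorem cj₁_one (c : G → Rep.coind U.subtype A) : cj₁ U A 1 c = sh₁ U A c := by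
  funext u
  show (c (1⁻¹ * (u : G) * 1)).1 1 = (c (u : G)).1 1
  rw [inv_one, one_mul, mul_one]

theorem cj₂_one (c : G × G → Rep.coind U.subtype A) : cj₂ U A 1 c = sh₂ U A c := by
  funext p
  show (c (1⁻¹ * (p.1 : G) * 1, 1⁻¹ * (p.2 : G) * 1)).1 1 = (c ((p.1 : G), (p.2 : G))).1 1
  rw [inv_one, one_mul, mul_one, one_mul, mul_one]

/-! ### `cj g` is a map of complexes -/

theorem cj₁_d₀₁ (g : G) (m : Rep.coind U.subtype A) :
    cj₁ U A g ((d₀₁ (Rep.coind U.subtype A)).hom m) = (d₀₁ A).hom (cj₀ U A g m) := by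
  funext u
  show ((Rep.coind U.subtype A).ρ (g⁻¹ * (u : G) * g) m - m).1 g = A.ρ u (m.1 g) - m.1 g
  rw [coind_sub_apply, coind_ρ_apply, ← coind_apply_smul]
  congr 2
  group

theorem cj₂_d₁₂ (g : G) (c : G → Rep.coind U.subtype A) :
    cj₂ U A g ((d₁₂ (Rep.coind U.subtype A)).hom c) = (d₁₂ A).hom (cj₁ U A g c) := by
  funext p
  show ((Rep.coind U.subtype A).ρ (g⁻¹ * (p.1 : G) * g) (c (g⁻¹ * (p.2 : G) * g))
      - c (g⁻¹ * (p.1 : G) * g * (g⁻¹ * (p.2 : G) * g)) + c (g⁻¹ * (p.1 : G) * g)).1 g =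
    A.ρ p.1 ((c (g⁻¹ * (p.2 : G) * g)).1 g) - (c (g⁻¹ * ((p.1 * p.2 : U) : G) * g)).1 g
      + (c (g⁻¹ * (p.1 : G) * g)).1 g
  rw [coind_add_apply, coind_sub_apply, coind_ρ_apply, ← coind_apply_smul]
  have e1 : g * (g⁻¹ * (p.1 : G) * g) = (p.1 : G) * g := by group
  have e2 : g⁻¹ * (p.1 : G) * g * (g⁻¹ * (p.2 : G) * g) = g⁻¹ * ((p.1 * p.2 : U) : G) * g := by
    rw [Subgroup.coe_mul]; group
  rw [e1, e2]

theorem cj₃_d₂₃ (g : G) (c : G × G → Rep.coind U.subtype A) :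
    cj₃ U A g ((d₂₃ (Rep.coind U.subtype A)).hom c) = (d₂₃ A).hom (cj₂ U A g c) := by
  funext p
  show ((Rep.coind U.subtype A).ρ (g⁻¹ * (p.1 : G) * g)
        (c (g⁻¹ * (p.2.1 : G) * g, g⁻¹ * (p.2.2 : G) * g))
      - c (g⁻¹ * (p.1 : G) * g * (g⁻¹ * (p.2.1 : G) * g), g⁻¹ * (p.2.2 : G) * g)
      + c (g⁻¹ * (p.1 : G) * g, g⁻¹ * (p.2.1 : G) * g * (g⁻¹ * (p.2.2 : G) * g))
      - c (g⁻¹ * (p.1 : G) * g, g⁻¹ * (p.2.1 : G) * g)).1 g =
    A.ρ p.1 ((c (g⁻¹ * (p.2.1 : G) * g, g⁻¹ * (p.2.2 : G) * g)).1 g)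
      - (c (g⁻¹ * ((p.1 * p.2.1 : U) : G) * g, g⁻¹ * (p.2.2 : G) * g)).1 g
      + (c (g⁻¹ * (p.1 : G) * g, g⁻¹ * ((p.2.1 * p.2.2 : U) : G) * g)).1 g
      - (c (g⁻¹ * (p.1 : G) * g, g⁻¹ * (p.2.1 : G) * g)).1 g
  rw [coind_sub_apply, coind_add_apply, coind_sub_apply, coind_ρ_apply, ← coind_apply_smul]
  have e1 : g * (g⁻¹ * (p.1 : G) * g) = (p.1 : G) * g := by group
  have e2 : g⁻¹ * (p.1 : G) * g * (g⁻¹ * (p.2.1 : G) * g) = g⁻¹ * ((p.1 * p.2.1 : U) : G) * g := by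
    rw [Subgroup.coe_mul]; group
  have e3 : g⁻¹ * (p.2.1 : G) * g * (g⁻¹ * (p.2.2 : G) * g) =
      g⁻¹ * ((p.2.1 * p.2.2 : U) : G) * g := by
    rw [Subgroup.coe_mul]; group
  rw [e1, e2, e3]

/-! ### The homotopy `sh - cj g = d ∘ cjh + cjh ∘ d` -/

theorem sh₀_sub_cj₀ (g : G) (m : Rep.coind U.subtype A) :
    sh₀ U A m - cj₀ U A g m = cjh₀ U A g ((d₀₁ (Rep.coind U.subtype A)).hom m) := by
  show m.1 1 - m.1 g = -((Rep.coind U.subtype A).ρ g m - m).1 1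
  rw [coind_sub_apply, coind_ρ_apply, one_mul]
  abel

theorem sh₁_sub_cj₁ (g : G) (c : G → Rep.coind U.subtype A) :
    sh₁ U A c - cj₁ U A g c =
      (d₀₁ A).hom (cjh₀ U A g c) + cjh₁ U A g ((d₁₂ (Rep.coind U.subtype A)).hom c) := by
  funext x
  show (c (x : G)).1 1 - (c (g⁻¹ * (x : G) * g)).1 g =
    (A.ρ x (-(c g).1 1) - -(c g).1 1)
    + (((Rep.coind U.subtype A).ρ (x : G) (c g) - c ((x : G) * g) + c (x : G)).1 1
      - ((Rep.coind U.subtype A).ρ g (c (g⁻¹ * (x : G) * g)) - c (g * (g⁻¹ * (x : G) * g))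
          + c g).1 1)
  have e1 : g * (g⁻¹ * (x : G) * g) = (x : G) * g := by group
  rw [coind_add_apply, coind_sub_apply, coind_add_apply, coind_sub_apply, coind_ρ_apply,
    coind_ρ_apply, one_mul, one_mul, e1, coind_apply_coe, map_neg]
  abel

theorem d₀₁_coind_apply (m : Rep.coind U.subtype A) (a z : G) :
    ((d₀₁ (Rep.coind U.subtype A)).hom m a).1 z = m.1 (z * a) - m.1 z := rfl

theorem d₁₂_coind_apply (c : G → Rep.coind U.subtype A) (a b z : G) :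
    ((d₁₂ (Rep.coind U.subtype A)).hom c (a, b)).1 z =
      (c b).1 (z * a) - (c (a * b)).1 z + (c a).1 z := rfl

theorem d₂₃_coind_apply (c : G × G → Rep.coind U.subtype A) (a b e z : G) :
    ((d₂₃ (Rep.coind U.subtype A)).hom c (a, b, e)).1 z =
      (c (b, e)).1 (z * a) - (c (a * b, e)).1 z + (c (a, b * e)).1 z - (c (a, b)).1 z := rfl

theorem sh₂_sub_cj₂ (g : G) (c : G × G → Rep.coind U.subtype A) :
    sh₂ U A c - cj₂ U A g c =
      (d₁₂ A).hom (cjh₁ U A g c) + cjh₂ U A g ((d₂₃ (Rep.coind U.subtype A)).hom c) := by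
  funext p
  obtain ⟨x, y⟩ := p
  show (c ((x : G), (y : G))).1 1 - (c (g⁻¹ * (x : G) * g, g⁻¹ * (y : G) * g)).1 g =
    (A.ρ x ((c ((y : G), g)).1 1 - (c (g, g⁻¹ * (y : G) * g)).1 1)
      - ((c (((x * y : U) : G), g)).1 1 - (c (g, g⁻¹ * ((x * y : U) : G) * g)).1 1)
      + ((c ((x : G), g)).1 1 - (c (g, g⁻¹ * (x : G) * g)).1 1))
    + -((((d₂₃ (Rep.coind U.subtype A)).hom c ((x : G), (y : G), g)).1 1)
        - (((d₂₃ (Rep.coind U.subtype A)).hom c ((x : G), g, g⁻¹ * (y : G) * g)).1 1)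
        + (((d₂₃ (Rep.coind U.subtype A)).hom c
            (g, g⁻¹ * (x : G) * g, g⁻¹ * (y : G) * g)).1 1))
  have e1 : g * (g⁻¹ * (x : G) * g) = (x : G) * g := by group
  have e2 : g * (g⁻¹ * (y : G) * g) = (y : G) * g := by group
  have e3 : g⁻¹ * (x : G) * g * (g⁻¹ * (y : G) * g) = g⁻¹ * ((x * y : U) : G) * g := by
    rw [Subgroup.coe_mul]; group
  rw [d₂₃_coind_apply, d₂₃_coind_apply, d₂₃_coind_apply, one_mul, one_mul, e1, e2, e3,
    map_sub, coind_apply_coe (c ((y : G), g)) x, coind_apply_coe (c (g, g⁻¹ * (y : G) * g)) x,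
    Subgroup.coe_mul]
  abel

/-- On `2`-cocycles, `sh₂ c - cj₂ g c` is the coboundary of `cjh₁ g c`. -/
theorem sh₂_sub_cj₂_of_mem_cocycles₂ (g : G) {c : G × G → Rep.coind U.subtype A}
    (hc : c ∈ cocycles₂ (Rep.coind U.subtype A)) :
    sh₂ U A c - cj₂ U A g c = (d₁₂ A).hom (cjh₁ U A g c) := by
  have h : (d₂₃ (Rep.coind U.subtype A)).hom c = 0 := hc
  rw [sh₂_sub_cj₂, h, map_zero, add_zero]

/-- On `1`-cocycles, `sh₁ c - cj₁ g c` is the coboundary of `cjh₀ g c = -(c g) 1`. -/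
theorem sh₁_sub_cj₁_of_mem_cocycles₁ (g : G) {c : G → Rep.coind U.subtype A}
    (hc : c ∈ cocycles₁ (Rep.coind U.subtype A)) :
    sh₁ U A c - cj₁ U A g c = (d₀₁ A).hom (cjh₀ U A g c) := by
  have h : (d₁₂ (Rep.coind U.subtype A)).hom c = 0 := hc
  rw [sh₁_sub_cj₁, h, map_zero, add_zero]

end Identities

/-! ### Levels -/

section LevelCj

variable {U} {A} {N : Subgroup G} [hN : N.Normal]

include hN

theorem rinv₁_cj₁ (g : G) {c : G → Rep.coind U.subtype A} (hc : RInv₁ N c) :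
    RInv₁ (N.subgroupOf U) (cj₁ U A g c) := by
  intro u s hs
  show (c (g⁻¹ * ((u * s : U) : G) * g)).1 g = (c (g⁻¹ * (u : G) * g)).1 g
  have e : g⁻¹ * ((u * s : U) : G) * g = g⁻¹ * (u : G) * g * (g⁻¹ * (s : G) * g⁻¹⁻¹) := by
    rw [Subgroup.coe_mul]; group
  rw [e, hc _ _ (hN.conj_mem _ (Subgroup.mem_subgroupOf.mp hs) g⁻¹)]

theorem rinv₂_cj₂ (g : G) {c : G × G → Rep.coind U.subtype A} (hc : RInv₂ N c) :
    RInv₂ (N.subgroupOf U) (cj₂ U A g c) := by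
  intro u u' s s' hs hs'
  show (c (g⁻¹ * ((u * s : U) : G) * g, g⁻¹ * ((u' * s' : U) : G) * g)).1 g =
    (c (g⁻¹ * (u : G) * g, g⁻¹ * (u' : G) * g)).1 g
  have e : g⁻¹ * ((u * s : U) : G) * g = g⁻¹ * (u : G) * g * (g⁻¹ * (s : G) * g⁻¹⁻¹) := by
    rw [Subgroup.coe_mul]; group
  have e' : g⁻¹ * ((u' * s' : U) : G) * g = g⁻¹ * (u' : G) * g * (g⁻¹ * (s' : G) * g⁻¹⁻¹) := by
    rw [Subgroup.coe_mul]; group
  rw [e, e', hc _ _ _ _ (hN.conj_mem _ (Subgroup.mem_subgroupOf.mp hs) g⁻¹)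
    (hN.conj_mem _ (Subgroup.mem_subgroupOf.mp hs') g⁻¹)]

theorem rinv₁_cjh₁ (g : G) {c : G × G → Rep.coind U.subtype A} (hc : RInv₂ N c) :
    RInv₁ (N.subgroupOf U) (cjh₁ U A g c) := by
  intro u s hs
  show (c (((u * s : U) : G), g)).1 1 - (c (g, g⁻¹ * ((u * s : U) : G) * g)).1 1 =
    (c ((u : G), g)).1 1 - (c (g, g⁻¹ * (u : G) * g)).1 1
  have e : g⁻¹ * ((u * s : U) : G) * g = g⁻¹ * (u : G) * g * (g⁻¹ * (s : G) * g⁻¹⁻¹) := by
    rw [Subgroup.coe_mul]; group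
  have h1 : c (((u * s : U) : G), g) = c ((u : G), g) := by
    have := hc (u : G) g (s : G) 1 (Subgroup.mem_subgroupOf.mp hs) N.one_mem
    rwa [mul_one] at this
  have h2 : c (g, g⁻¹ * (u : G) * g * (g⁻¹ * (s : G) * g⁻¹⁻¹)) = c (g, g⁻¹ * (u : G) * g) := by
    have := hc g (g⁻¹ * (u : G) * g) 1 (g⁻¹ * (s : G) * g⁻¹⁻¹) N.one_mem
      (hN.conj_mem _ (Subgroup.mem_subgroupOf.mp hs) g⁻¹)
    rwa [mul_one] at this
  rw [e, h1, h2]

end LevelCj

/-! ### Link with the Mackey evaluation maps -/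

section Local

variable {H : Type} [Group H] (r : H →* G)

/-- Pull-back of `1`-cochains of `U` to the local group `conjSub U r g` along `conjHom U r g`. -/
def lc₁ (g : G) : (U → A) →ₗ[k] (conjSub U r g → locRep U A r g) where
  toFun β h := β (conjHom U r g h)
  map_add' _ _ := rfl
  map_smul' _ _ := rfl

/-- Pull-back of `2`-cochains of `U` to the local group `conjSub U r g` along `conjHom U r g`. -/
def lc₂ (g : G) : (U × U → A) →ₗ[k] (conjSub U r g × conjSub U r g → locRep U A r g) where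
  toFun β p := β (conjHom U r g p.1, conjHom U r g p.2)
  map_add' _ _ := rfl
  map_smul' _ _ := rfl

variable {U} {A} {r}

@[simp] theorem lc₁_apply (g : G) (β : U → A) (h : conjSub U r g) :
    lc₁ U A r g β h = β (conjHom U r g h) := rfl

@[simp] theorem lc₂_apply (g : G) (β : U × U → A) (p : conjSub U r g × conjSub U r g) :
    lc₂ U A r g β p = β (conjHom U r g p.1, conjHom U r g p.2) := rfl

theorem lc₁_d₀₁ (g : G) (a : A) :
    lc₁ U A r g ((d₀₁ A).hom a) = (d₀₁ (locRep U A r g)).hom a := rfl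

theorem lc₂_d₁₂ (g : G) (β : U → A) :
    lc₂ U A r g ((d₁₂ A).hom β) = (d₁₂ (locRep U A r g)).hom (lc₁ U A r g β) := by
  funext p
  show A.ρ (conjHom U r g p.1) (β (conjHom U r g p.2))
      - β (conjHom U r g p.1 * conjHom U r g p.2) + β (conjHom U r g p.1) =
    A.ρ (conjHom U r g p.1) (β (conjHom U r g p.2)) - β (conjHom U r g (p.1 * p.2))
      + β (conjHom U r g p.1)
  rw [map_mul]

theorem conj_conjHom (g : G) (h : conjSub U r g) :
    g⁻¹ * ((conjHom U r g h : U) : G) * g = r h := by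
  rw [conjHom_coe]; group

/-- `mk₁ g (c ∘ r) = (cj₁ g c) ∘ conjHom`. -/
theorem mk₁_comp (g : G) (c : G → Rep.coind U.subtype A) :
    mk₁ U A r g (fun h => c (r h)) = lc₁ U A r g (cj₁ U A g c) := by
  funext h
  show (c (r h)).1 g = (c (g⁻¹ * ((conjHom U r g h : U) : G) * g)).1 g
  rw [conj_conjHom]

/-- `mk₂ g (c ∘ r) = (cj₂ g c) ∘ conjHom`. -/
theorem mk₂_comp (g : G) (c : G × G → Rep.coind U.subtype A) :
    mk₂ U A r g (fun p => c (r p.1, r p.2)) = lc₂ U A r g (cj₂ U A g c) := by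
  funext p
  show (c (r p.1, r p.2)).1 g =
    (c (g⁻¹ * ((conjHom U r g p.1 : U) : G) * g, g⁻¹ * ((conjHom U r g p.2 : U) : G) * g)).1 g
  rw [conj_conjHom, conj_conjHom]

/-- Restriction of `sh₁ c` to the local group of the double coset of `g`, in terms of the
Mackey evaluation of the restriction of `c` to `H`. -/
theorem lc₁_sh₁ (g : G) (c : G → Rep.coind U.subtype A) :
    lc₁ U A r g (sh₁ U A c) = mk₁ U A r g (fun h => c (r h))
      + (d₀₁ (locRep U A r g)).hom (cjh₀ U A g c)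
      + lc₁ U A r g (cjh₁ U A g ((d₁₂ (Rep.coind U.subtype A)).hom c)) := by
  have h := congrArg (lc₁ U A r g) (sh₁_sub_cj₁ g c)
  rw [map_sub, map_add, lc₁_d₀₁, ← mk₁_comp] at h
  rw [add_assoc, ← h, add_sub_cancel]

/-- Restriction of `sh₂ c` to the local group of the double coset of `g`. -/
theorem lc₂_sh₂ (g : G) (c : G × G → Rep.coind U.subtype A) :
    lc₂ U A r g (sh₂ U A c) = mk₂ U A r g (fun p => c (r p.1, r p.2))
      + (d₁₂ (locRep U A r g)).hom (lc₁ U A r g (cjh₁ U A g c))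
      + lc₂ U A r g (cjh₂ U A g ((d₂₃ (Rep.coind U.subtype A)).hom c)) := by
  have h := congrArg (lc₂ U A r g) (sh₂_sub_cj₂ g c)
  rw [map_sub, map_add, lc₂_d₁₂, ← mk₂_comp] at h
  rw [add_assoc, ← h, add_sub_cancel]

theorem lc₁_sh₁_of_mem_cocycles₁ (g : G) {c : G → Rep.coind U.subtype A}
    (hc : c ∈ cocycles₁ (Rep.coind U.subtype A)) :
    lc₁ U A r g (sh₁ U A c) = mk₁ U A r g (fun h => c (r h))
      + (d₀₁ (locRep U A r g)).hom (cjh₀ U A g c) := by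
  have h : (d₁₂ (Rep.coind U.subtype A)).hom c = 0 := hc
  rw [lc₁_sh₁, h, map_zero, map_zero, add_zero]

theorem lc₂_sh₂_of_mem_cocycles₂ (g : G) {c : G × G → Rep.coind U.subtype A}
    (hc : c ∈ cocycles₂ (Rep.coind U.subtype A)) :
    lc₂ U A r g (sh₂ U A c) = mk₂ U A r g (fun p => c (r p.1, r p.2))
      + (d₁₂ (locRep U A r g)).hom (lc₁ U A r g (cjh₁ U A g c)) := by
  have h : (d₂₃ (Rep.coind U.subtype A)).hom c = 0 := hc
  rw [lc₂_sh₂, h, map_zero, map_zero, add_zero]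

/-- Levels: `lc₁` of a cochain which is right invariant under `N.subgroupOf U`, `N` normal in
`G`, is right invariant under `(N.comap r).subgroupOf (conjSub U r g)`. -/
theorem rinv₁_lc₁ {N : Subgroup G} [hN : N.Normal] (g : G) {β : U → A}
    (hβ : RInv₁ (N.subgroupOf U) β) :
    RInv₁ ((N.comap r).subgroupOf (conjSub U r g)) (lc₁ U A r g β) := by
  intro h s hs
  show β (conjHom U r g (h * s)) = β (conjHom U r g h)
  rw [map_mul]
  refine hβ _ _ (Subgroup.mem_subgroupOf.mpr ?_)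
  rw [conjHom_coe]
  exact hN.conj_mem _ (Subgroup.mem_comap.mp (Subgroup.mem_subgroupOf.mp hs)) g

end Local

/-! ### The local dictionary: `Res_r coind_U^G A` on `H` versus `A` on the groups `conjSub U r g` -/

section Dictionary

variable {U} {A} {H : Type} [Group H] {r : H →* G}

theorem comp_mem_cocycles₁ {c : G → Rep.coind U.subtype A}
    (hc : c ∈ cocycles₁ (Rep.coind U.subtype A)) :
    (fun h => c (r h)) ∈ cocycles₁ (Rep.res r (Rep.coind U.subtype A)) := by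
  rw [mem_cocycles₁_iff] at hc ⊢
  intro h₁ h₂
  show c (r (h₁ * h₂)) = (Rep.coind U.subtype A).ρ (r h₁) (c (r h₂)) + c (r h₁)
  rw [map_mul]
  exact hc _ _

theorem comp_mem_cocycles₂ {c : G × G → Rep.coind U.subtype A}
    (hc : c ∈ cocycles₂ (Rep.coind U.subtype A)) :
    (fun p : H × H => c (r p.1, r p.2)) ∈ cocycles₂ (Rep.res r (Rep.coind U.subtype A)) := by
  rw [mem_cocycles₂_iff] at hc ⊢
  intro h₁ h₂ h₃
  show c (r (h₁ * h₂), r h₃) + c (r h₁, r h₂) =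
    (Rep.coind U.subtype A).ρ (r h₁) (c (r h₂, r h₃)) + c (r h₁, r (h₂ * h₃))
  rw [map_mul, map_mul]
  exact hc _ _ _

theorem rinv₁_comp {X : Type*} {N : Subgroup G} {c : G → X} (hc : RInv₁ N c) :
    RInv₁ (N.comap r) (fun h => c (r h)) := by
  intro h s hs
  show c (r (h * s)) = c (r h)
  rw [map_mul]
  exact hc _ _ hs

theorem rinv₂_comp {X : Type*} {N : Subgroup G} {c : G × G → X} (hc : RInv₂ N c) :
    RInv₂ (N.comap r) (fun p : H × H => c (r p.1, r p.2)) := by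
  intro h h' s s' hs hs'
  show c (r (h * s), r (h' * s')) = c (r h, r h')
  rw [map_mul, map_mul]
  exact hc _ _ _ _ hs hs'

theorem rinv₁_mono {X : Type*} {H' : Type*} [Group H'] {V V' : Subgroup H'} (h : V ≤ V')
    {f : H' → X} (hf : RInv₁ V' f) : RInv₁ V f :=
  fun g s hs => hf g s (h hs)

theorem rinv₂_mono {X : Type*} {H' : Type*} [Group H'] {V V' : Subgroup H'} (h : V ≤ V')
    {f : H' × H' → X} (hf : RInv₂ V' f) : RInv₂ V f :=
  fun g g' s s' hs hs' => hf g g' s s' (h hs) (h hs')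

/-- **Local dictionary, degree 1.**  For a `1`-cocycle `c` of `G` with values in `coind_U^G A`:
the restriction of `c` to `H` is a coboundary iff for every double coset `U (τ j) r(H)` the
restriction of `sh₁ c` to `conjSub U r (τ j)` (along `conjHom`) is a coboundary. -/
theorem comp_mem_coboundaries₁_iff {J : Type} (D : DRep U r J) {c : G → Rep.coind U.subtype A}
    (hc : c ∈ cocycles₁ (Rep.coind U.subtype A)) :
    (fun h => c (r h)) ∈ coboundaries₁ (Rep.res r (Rep.coind U.subtype A)) ↔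
      ∀ j, lc₁ U A r (D.τ j) (sh₁ U A c) ∈ coboundaries₁ (locRep U A r (D.τ j)) := by
  rw [mem_coboundaries₁_iff_mk₁ D (comp_mem_cocycles₁ hc)]
  refine forall_congr' fun j => ?_
  rw [lc₁_sh₁_of_mem_cocycles₁ (D.τ j) hc]
  have hb : (d₀₁ (locRep U A r (D.τ j))).hom (cjh₀ U A (D.τ j) c) ∈
      coboundaries₁ (locRep U A r (D.τ j)) := LinearMap.mem_range_self _ _
  exact (Submodule.add_mem_iff_left _ hb).symm

/-- **Local dictionary, degree 2, from `H` to the groups `conjSub U r g`** (any `g`). -/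
theorem exists_local_primitive₂ (g : G) {N : Subgroup G} [N.Normal] {V : Subgroup H}
    (hVN : V ≤ N.comap r) {c : G × G → Rep.coind U.subtype A}
    (hc : c ∈ cocycles₂ (Rep.coind U.subtype A)) (hcN : RInv₂ N c)
    {φ : H → Rep.coind U.subtype A} (hφV : RInv₁ V φ)
    (hφ : (d₁₂ (Rep.res r (Rep.coind U.subtype A))).hom φ = fun p => c (r p.1, r p.2)) :
    ∃ γ : conjSub U r g → locRep U A r g, RInv₁ (V.subgroupOf (conjSub U r g)) γ ∧
      (d₁₂ (locRep U A r g)).hom γ = lc₂ U A r g (sh₂ U A c) := by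
  refine ⟨mk₁ U A r g φ + lc₁ U A r g (cjh₁ U A g c), ?_, ?_⟩
  · intro h s hs
    have h1 := rinv₁_mk₁ g hφV h s hs
    have h2 := rinv₁_lc₁ (r := r) g (rinv₁_cjh₁ (U := U) (A := A) g hcN) h s
      (Subgroup.mem_subgroupOf.mpr (hVN (Subgroup.mem_subgroupOf.mp hs)))
    show mk₁ U A r g φ (h * s) + lc₁ U A r g (cjh₁ U A g c) (h * s) =
      mk₁ U A r g φ h + lc₁ U A r g (cjh₁ U A g c) h
    rw [h1, h2]
  · rw [map_add, ← mk₂_d₁₂, hφ, lc₂_sh₂_of_mem_cocycles₂ g hc]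

/-- **Local dictionary, degree 2, from the groups `conjSub U r (τ j)` to `H`.** -/
theorem exists_primitive₂_of_local {J : Type} (D : DRep U r J) {N : Subgroup G} [hN : N.Normal]
    (hNU : N ≤ U) {V : Subgroup H} [V.Normal] (hVN : V ≤ N.comap r)
    {c : G × G → Rep.coind U.subtype A}
    (hc : c ∈ cocycles₂ (Rep.coind U.subtype A)) (hcN : RInv₂ N c)
    {γ : ∀ j : J, conjSub U r (D.τ j) → locRep U A r (D.τ j)}
    (hγV : ∀ j, RInv₁ (V.subgroupOf (conjSub U r (D.τ j))) (γ j))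
    (hγ : ∀ j, (d₁₂ (locRep U A r (D.τ j))).hom (γ j) = lc₂ U A r (D.τ j) (sh₂ U A c)) :
    ∃ φ : H → Rep.coind U.subtype A, RInv₁ V φ ∧
      (d₁₂ (Rep.res r (Rep.coind U.subtype A))).hom φ = fun p => c (r p.1, r p.2) := by
  have hV : ∀ j, V ≤ conjSub U r (D.τ j) := fun j v hv =>
    hNU (hN.conj_mem _ (Subgroup.mem_comap.mp (hVN hv)) (D.τ j))
  refine exists_rinv_primitive₂_mackey D hV (comp_mem_cocycles₂ hc)
    (rinv₂_mono hVN (rinv₂_comp hcN))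
    (γ := fun j => γ j - lc₁ U A r (D.τ j) (cjh₁ U A (D.τ j) c)) ?_ ?_
  · intro j h s hs
    have h2 := rinv₁_lc₁ (r := r) (D.τ j) (rinv₁_cjh₁ (U := U) (A := A) (D.τ j) hcN) h s
      (Subgroup.mem_subgroupOf.mpr (hVN (Subgroup.mem_subgroupOf.mp hs)))
    show γ j (h * s) - lc₁ U A r (D.τ j) (cjh₁ U A (D.τ j) c) (h * s) =
      γ j h - lc₁ U A r (D.τ j) (cjh₁ U A (D.τ j) c) h
    rw [hγV j h s hs, h2]
  · intro j
    rw [map_sub, hγ j, lc₂_sh₂_of_mem_cocycles₂ (D.τ j) hc, add_sub_cancel_right]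

end Dictionary

/-! ### Descent to a subgroup `D' ≤ U` with `D' = U ∩ g r(H) g⁻¹` (shape (D)) -/

section Descent

variable {U} {A} {H : Type} [Group H] {r : H →* G}

/-- A cochain of `conjSub U r g` which is right invariant under a subgroup containing `ker r`
descends to the subgroup `D' = g r(H) g⁻¹ ∩ U` of `G`. -/
theorem exists_descent₁ (g : G) {D' : Subgroup G} (hDU : D' ≤ U)
    (hD : ∀ s ∈ D', ∃ h : H, g * r h * g⁻¹ = s) {X : Type*} {V : Subgroup H} (hV : r.ker ≤ V)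
    {γ : conjSub U r g → X} (hγ : RInv₁ (V.subgroupOf (conjSub U r g)) γ) :
    ∃ u : D' → X, ∀ (h : conjSub U r g) (hh : ((conjHom U r g h : U) : G) ∈ D'),
      γ h = u ⟨_, hh⟩ := by
  classical
  choose σ hσ using hD
  have hmem : ∀ s : D', σ s s.2 ∈ conjSub U r g := fun s => by
    show g * r (σ s s.2) * g⁻¹ ∈ U
    rw [hσ]; exact hDU s.2
  refine ⟨fun s => γ ⟨σ s s.2, hmem s⟩, fun h hh => ?_⟩
  set s : D' := ⟨_, hh⟩ with hs
  have h1 : r (σ s s.2) = r h := by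
    have h2 : g * r (σ s s.2) * g⁻¹ = g * r h * g⁻¹ := hσ _ hh
    exact mul_left_cancel (mul_right_cancel h2)
  have hk : ((σ s s.2)⁻¹ * (h : H)) ∈ V := hV (by
    rw [MonoidHom.mem_ker, map_mul, map_inv, h1, inv_mul_cancel])
  have hk' : ((σ s s.2)⁻¹ * (h : H)) ∈ conjSub U r g :=
    (conjSub U r g).mul_mem ((conjSub U r g).inv_mem (hmem s)) h.2
  have e : h = ⟨σ s s.2, hmem s⟩ * ⟨(σ s s.2)⁻¹ * (h : H), hk'⟩ := by
    apply Subtype.ext
    show (h : H) = σ s s.2 * ((σ s s.2)⁻¹ * (h : H))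
    rw [mul_inv_cancel_left]
  rw [e]
  exact hγ _ _ (Subgroup.mem_subgroupOf.mpr hk)

/-- The level of a descended cochain. -/
theorem rinv₁_of_descent {g : G} {D' : Subgroup G} (hDU : D' ≤ U)
    (hD : ∀ s ∈ D', ∃ h : H, g * r h * g⁻¹ = s) {X : Type*} {V : Subgroup H} {W : Subgroup G}
    (hW : ∀ h : H, g * r h * g⁻¹ ∈ W → h ∈ V)
    {γ : conjSub U r g → X} (hγ : RInv₁ (V.subgroupOf (conjSub U r g)) γ) {u : D' → X}
    (hu : ∀ (h : conjSub U r g) (hh : ((conjHom U r g h : U) : G) ∈ D'), γ h = u ⟨_, hh⟩) :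
    RInv₁ (W.subgroupOf D') u := by
  intro s w hw
  obtain ⟨h₁, e₁⟩ := hD s s.2
  obtain ⟨h₂, e₂⟩ := hD w w.2
  have m₁ : h₁ ∈ conjSub U r g := by
    show g * r h₁ * g⁻¹ ∈ U
    rw [e₁]; exact hDU s.2
  have m₂ : h₂ ∈ conjSub U r g := by
    show g * r h₂ * g⁻¹ ∈ U
    rw [e₂]; exact hDU w.2
  have hV₂ : h₂ ∈ V := hW h₂ (by rw [e₂]; exact Subgroup.mem_subgroupOf.mp hw)
  have c₁ : ((conjHom U r g ⟨h₁, m₁⟩ : U) : G) = (s : G) := e₁
  have c₁₂ : ((conjHom U r g (⟨h₁, m₁⟩ * ⟨h₂, m₂⟩) : U) : G) = ((s * w : D') : G) := by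
    rw [map_mul, Subgroup.coe_mul, Subgroup.coe_mul]
    show g * r h₁ * g⁻¹ * (g * r h₂ * g⁻¹) = (s : G) * (w : G)
    rw [e₁, e₂]
  have a₁ : γ ⟨h₁, m₁⟩ = u s := by
    have := hu ⟨h₁, m₁⟩ (by rw [c₁]; exact s.2)
    rw [this]; congr 1; exact Subtype.ext c₁
  have a₁₂ : γ (⟨h₁, m₁⟩ * ⟨h₂, m₂⟩) = u (s * w) := by
    have := hu (⟨h₁, m₁⟩ * ⟨h₂, m₂⟩) (by rw [c₁₂]; exact (s * w).2)
    rw [this]; congr 1; exact Subtype.ext c₁₂
  rw [← a₁₂, ← a₁]
  exact hγ _ _ (Subgroup.mem_subgroupOf.mpr hV₂)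

/-- A primitive on `conjSub U r g` of the pull-back of a `2`-cochain `β` of `U` descends to a
primitive of `β` on `D'`. -/
theorem d₁₂_of_descent {g : G} {D' : Subgroup G} (hDU : D' ≤ U)
    (hD : ∀ s ∈ D', ∃ h : H, g * r h * g⁻¹ = s) {β : U × U → A}
    {γ : conjSub U r g → locRep U A r g}
    (hγ : (d₁₂ (locRep U A r g)).hom γ = lc₂ U A r g β) {u : D' → A}
    (hu : ∀ (h : conjSub U r g) (hh : ((conjHom U r g h : U) : G) ∈ D'), γ h = u ⟨_, hh⟩)
    (s t : D') :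
    β (⟨s, hDU s.2⟩, ⟨t, hDU t.2⟩) = A.ρ ⟨s, hDU s.2⟩ (u t) - u (s * t) + u s := by
  obtain ⟨h₁, e₁⟩ := hD s s.2
  obtain ⟨h₂, e₂⟩ := hD t t.2
  have m₁ : h₁ ∈ conjSub U r g := by
    show g * r h₁ * g⁻¹ ∈ U
    rw [e₁]; exact hDU s.2
  have m₂ : h₂ ∈ conjSub U r g := by
    show g * r h₂ * g⁻¹ ∈ U
    rw [e₂]; exact hDU t.2
  have c₁ : conjHom U r g ⟨h₁, m₁⟩ = ⟨s, hDU s.2⟩ := Subtype.ext e₁
  have c₂ : conjHom U r g ⟨h₂, m₂⟩ = ⟨t, hDU t.2⟩ := Subtype.ext e₂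
  have c₁₂ : ((conjHom U r g (⟨h₁, m₁⟩ * ⟨h₂, m₂⟩) : U) : G) = ((s * t : D') : G) := by
    rw [map_mul, c₁, c₂]; rfl
  have a₁ : γ ⟨h₁, m₁⟩ = u s := by
    have := hu ⟨h₁, m₁⟩ (by rw [c₁]; exact s.2)
    rw [this]; congr 1; exact Subtype.ext e₁
  have a₂ : γ ⟨h₂, m₂⟩ = u t := by
    have := hu ⟨h₂, m₂⟩ (by rw [c₂]; exact t.2)
    rw [this]; congr 1; exact Subtype.ext e₂
  have a₁₂ : γ (⟨h₁, m₁⟩ * ⟨h₂, m₂⟩) = u (s * t) := by
    have := hu (⟨h₁, m₁⟩ * ⟨h₂, m₂⟩) (by rw [c₁₂]; exact (s * t).2)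
    rw [this]; congr 1; exact Subtype.ext c₁₂
  have key := congrFun hγ (⟨h₁, m₁⟩, ⟨h₂, m₂⟩)
  have key' : A.ρ (conjHom U r g ⟨h₁, m₁⟩) (γ ⟨h₂, m₂⟩) - γ (⟨h₁, m₁⟩ * ⟨h₂, m₂⟩) + γ ⟨h₁, m₁⟩ =
      β (conjHom U r g ⟨h₁, m₁⟩, conjHom U r g ⟨h₂, m₂⟩) := key
  rw [c₁, c₂, a₁, a₂, a₁₂] at key'
  exact key'.symm

/-- **Shape (D), degree 2.**  Let `c` be a `2`-cocycle of `G` with values in `coind_U^G A`, right
invariant under the normal subgroup `N`, whose restriction to `H` is the coboundary of a cochain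
`φ` right invariant under `r⁻¹ N`.  Then for every `g` the `2`-cocycle `sh₂ c` of `U` is, on the
subgroup `D' = g r(H) g⁻¹ ∩ U`, the coboundary of a cochain right invariant under `N`. -/
theorem sh₂_coboundary_on_subgroup (g : G) {D' : Subgroup G} (hDU : D' ≤ U)
    (hD : ∀ s ∈ D', ∃ h : H, g * r h * g⁻¹ = s) {N : Subgroup G} [hN : N.Normal]
    {c : G × G → Rep.coind U.subtype A}
    (hc : c ∈ cocycles₂ (Rep.coind U.subtype A)) (hcN : RInv₂ N c)
    {φ : H → Rep.coind U.subtype A} (hφN : RInv₁ (N.comap r) φ)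
    (hφ : (d₁₂ (Rep.res r (Rep.coind U.subtype A))).hom φ = fun p => c (r p.1, r p.2)) :
    ∃ u : D' → A, RInv₁ (N.subgroupOf D') u ∧ ∀ s t : D',
      sh₂ U A c (⟨s, hDU s.2⟩, ⟨t, hDU t.2⟩) = A.ρ ⟨s, hDU s.2⟩ (u t) - u (s * t) + u s := by
  obtain ⟨γ, hγN, hγ⟩ := exists_local_primitive₂ (r := r) g (le_refl (N.comap r)) hc hcN hφN hφ
  have hker : r.ker ≤ N.comap r := fun h hh => by
    rw [Subgroup.mem_comap, MonoidHom.mem_ker.mp hh]; exact N.one_mem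
  obtain ⟨u, hu⟩ := exists_descent₁ g hDU hD hker hγN
  refine ⟨u, rinv₁_of_descent hDU hD (fun h hh => ?_) hγN hu, d₁₂_of_descent hDU hD hγ hu⟩
  rw [Subgroup.mem_comap]
  have := hN.conj_mem _ hh g⁻¹
  have e : g⁻¹ * (g * r h * g⁻¹) * g⁻¹⁻¹ = r h := by group
  rwa [e] at this

/-- **Shape (D), degree 1.**  If the restriction to `H` of the `1`-cocycle `c` is the coboundary
of `m`, then `sh₁ c` is, on `D' = g r(H) g⁻¹ ∩ U`, the coboundary of `m g - (c g) 1`. -/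
theorem sh₁_coboundary_on_subgroup (g : G) {D' : Subgroup G} (hDU : D' ≤ U)
    (hD : ∀ s ∈ D', ∃ h : H, g * r h * g⁻¹ = s) {c : G → Rep.coind U.subtype A}
    (hc : c ∈ cocycles₁ (Rep.coind U.subtype A)) {m : Rep.coind U.subtype A}
    (hm : (d₀₁ (Rep.res r (Rep.coind U.subtype A))).hom m = fun h => c (r h)) (s : D') :
    sh₁ U A c ⟨s, hDU s.2⟩ =
      A.ρ ⟨s, hDU s.2⟩ (m.1 g - (c g).1 1) - (m.1 g - (c g).1 1) := by
  obtain ⟨h, e⟩ := hD s s.2
  have h1 := congrFun (sh₁_sub_cj₁_of_mem_cocycles₁ g hc) ⟨s, hDU s.2⟩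
  have h1' : sh₁ U A c ⟨s, hDU s.2⟩ - cj₁ U A g c ⟨s, hDU s.2⟩ =
      A.ρ ⟨s, hDU s.2⟩ (-(c g).1 1) - -(c g).1 1 := h1
  have h2 : cj₁ U A g c ⟨s, hDU s.2⟩ = A.ρ ⟨s, hDU s.2⟩ (m.1 g) - m.1 g := by
    show (c (g⁻¹ * (s : G) * g)).1 g = _
    have e' : g⁻¹ * (s : G) * g = r h := by rw [← e]; group
    have h3 := congrFun hm h
    have h3' : (Rep.coind U.subtype A).ρ (r h) m - m = c (r h) := h3
    rw [e', ← h3', coind_sub_apply, coind_ρ_apply]
    have e'' : g * r h = ((⟨s, hDU s.2⟩ : U) : G) * g := by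
      show g * r h = (s : G) * g
      rw [← e]; group
    rw [e'', coind_apply_smul]
  rw [sub_eq_iff_eq_add] at h1'
  rw [h1', h2, map_sub, map_neg]
  abel

/-- Pull-back from the subgroup model to the `conjSub` model. -/
theorem lc₂_eq_d₁₂_of_subgroup (g : G) {D' : Subgroup G} (hDU : D' ≤ U)
    (hD' : ∀ h : conjSub U r g, ((conjHom U r g h : U) : G) ∈ D') {β : U × U → A} {u : D' → A}
    (hu : ∀ s t : D', β (⟨s, hDU s.2⟩, ⟨t, hDU t.2⟩) = A.ρ ⟨s, hDU s.2⟩ (u t) - u (s * t) + u s) :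
    (d₁₂ (locRep U A r g)).hom (fun h => u ⟨_, hD' h⟩) = lc₂ U A r g β := by
  funext p
  have := hu ⟨_, hD' p.1⟩ ⟨_, hD' p.2⟩
  show A.ρ (conjHom U r g p.1) (u ⟨_, hD' p.2⟩) - u ⟨_, hD' (p.1 * p.2)⟩ + u ⟨_, hD' p.1⟩ =
    β (conjHom U r g p.1, conjHom U r g p.2)
  rw [this]
  congr 3
  apply Subtype.ext
  show ((conjHom U r g (p.1 * p.2) : U) : G) = _
  rw [map_mul]; rfl

end Descent

end Fermat.Agent.S55.Shapiro
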