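import Mathlib
import Fermat.Agent.S55.Shapiro.Conj
import Fermat.Agent.S55.Glue.LocalDegreePlaces
import Fermat.Agent.S55.Abs.Bridge

/-!
# Shape (D) over `ℚ`: local triviality of `sh c` on the groups `D(Av) ⊓ U` (CFT brick [SH-arithD])

Arithmetic instance of `Shapiro/Conj.lean` for `G = Gal(ℚ̄/ℚ)`, `r = primeLocalToGlobal q`.

* `exists_conj` : every valuation subring `Av` of `ℚ̄` over `q` is `g • primeLocalPlace q`, and
  `D(Av) = g · range (primeLocalToGlobal q) · g⁻¹`.
* `exists_normal_level₂` : a common finite NORMAL level for a global level-constant 2-cochain and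
  a local level-constant 1-cochain.
* `sh₂_locTriv` : for `U ≤ Gal(ℚ̄/ℚ)`, `A : Rep k U`, a level-constant 2-cocycle `a` of `G_ℚ` with
  values in `coind_U A` whose restriction to the local group at `q` is the coboundary of a
  level-constant 1-cochain: for EVERY `Av` over `q`, `sh₂ a` is on `D(Av) ⊓ U` the coboundary of
  a level-constant 1-cochain (shape (D), additive, any coefficients).
* `sh₂_locTriv_B2` : the same with the hypothesis in the vocabulary of `Abs` (`B2 (localLevel _)`).
* `sh₁_locTriv` : the degree-1 analogue.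
-/

set_option autoImplicit false

open groupCohomology ExtCitation
open scoped Pointwise

namespace Fermat.Agent.S55.Shapiro.ArithD

open Fermat.Agent.S55.Shapiro

local notation "Qb" => AlgebraicClosure ℚ
local notation "Gq" => (AlgebraicClosure ℚ ≃ₐ[ℚ] AlgebraicClosure ℚ)

attribute [local instance] Glue.isAlgebraicQbar_lg Glue.isAlgClosureQbar_lg Glue.normalQbar_lg

/-- The distinguished place over `q` lies over `q`. -/
theorem liesOverPrime_primeLocalPlace' (q : Nat.Primes) :
    (primeLocalPlace q).LiesOverPrime (q : ℕ) := by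
  have : Fact (q : ℕ).Prime := ⟨q.2⟩
  exact Glue.LocalDegree.liesOverPrime_padicPlace (q : ℕ)

/-- Every place over `q` is a translate `g • primeLocalPlace q`, and its decomposition group is
the conjugate by `g` of the image of the local Galois group. -/
theorem exists_conj (q : Nat.Primes) {Av : ValuationSubring Qb} (hAv : Av.LiesOverPrime (q : ℕ)) :
    ∃ g : Gq, g • primeLocalPlace q = Av ∧ ∀ s : Gq, s ∈ Av.decompositionSubgroup ℚ ↔
      ∃ h : primeLocalGaloisGroup q, g * primeLocalToGlobal q h * g⁻¹ = s := by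
  obtain ⟨g, rfl⟩ := Glue.PlacesAbove.exists_smul_eq q.2 (liesOverPrime_primeLocalPlace' q) hAv
  refine ⟨g, rfl, fun s => ?_⟩
  rw [Glue.PlacesAbove.mem_decompositionSubgroup_smul_iff,
    ← Glue.LocalRange.range_primeLocalToGlobal, MonoidHom.mem_range]
  constructor
  · rintro ⟨h, hh⟩
    exact ⟨h, by rw [hh]; group⟩
  · rintro ⟨h, rfl⟩
    exact ⟨h, by group⟩

/-- A finite normal level for a function which is level-constant. -/
theorem exists_normal_le (F : IntermediateField ℚ Qb) [FiniteDimensional ℚ F] :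
    ∃ F' : IntermediateField ℚ Qb, FiniteDimensional ℚ F' ∧ F'.fixingSubgroup.Normal ∧
      F'.fixingSubgroup ≤ F.fixingSubgroup := by
  have : Normal ℚ (IntermediateField.normalClosure ℚ F Qb) := normalClosure.normal ℚ _ _
  exact ⟨IntermediateField.normalClosure ℚ F Qb, inferInstance,
    (Abs.fixingSubgroup_normal_finiteIndex _).1,
    IntermediateField.fixingSubgroup_antitone (IntermediateField.le_normalClosure F)⟩

/-- A common finite normal level for a global level-constant 2-cochain and a local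
level-constant 1-cochain. -/
theorem exists_normal_level₂ {X Y : Type*} {a : Gq × Gq → X}
    (ha : IsLevelConstant₂ (MonoidHom.id Gq) a) {H : Type} [Group H] (r : H →* Gq)
    {φ : H → Y} (hφ : IsLevelConstant₁ r φ) :
    ∃ F : IntermediateField ℚ Qb, FiniteDimensional ℚ F ∧ F.fixingSubgroup.Normal ∧
      RInv₂ F.fixingSubgroup a ∧ RInv₁ (F.fixingSubgroup.comap r) φ := by
  obtain ⟨F₁, h₁, ha⟩ := ha
  obtain ⟨F₂, h₂, hφ⟩ := hφ
  have := h₁; have := h₂
  obtain ⟨F, hF, hFn, hle⟩ := exists_normal_le (F₁ ⊔ F₂)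
  have hle₁ : F.fixingSubgroup ≤ F₁.fixingSubgroup :=
    hle.trans (IntermediateField.fixingSubgroup_antitone le_sup_left)
  have hle₂ : F.fixingSubgroup ≤ F₂.fixingSubgroup :=
    hle.trans (IntermediateField.fixingSubgroup_antitone le_sup_right)
  exact ⟨F, hF, hFn, fun g g' s s' hs hs' => ha g g' s s' (hle₁ hs) (hle₁ hs'),
    fun g s hs => hφ g s (hle₂ (Subgroup.mem_comap.mp hs))⟩

section Main

variable {k : Type} [CommRing k] (U : Subgroup Gq) (A : Rep.{0} k U)

/-- **Shape (D), degree 2.**  Let `a` be a level-constant `2`-cocycle of `G_ℚ` with values in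
`coind_U A` whose restriction to the local Galois group at `q` is the coboundary of a
level-constant cochain `φ`.  Then for every valuation subring `Av` over `q`, the `2`-cocycle
`sh₂ a` of `U` is, on `D(Av) ⊓ U`, the coboundary of a level-constant cochain. -/
theorem sh₂_locTriv (a : Gq × Gq → Rep.coind U.subtype A)
    (ha : a ∈ cocycles₂ (Rep.coind U.subtype A))
    (hlev : IsLevelConstant₂ (MonoidHom.id Gq) a) (q : Nat.Primes)
    (φ : primeLocalGaloisGroup q → Rep.coind U.subtype A)
    (hφlev : IsLevelConstant₁ (primeLocalToGlobal q) φ)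
    (hφ : (d₁₂ (Rep.res (primeLocalToGlobal q) (Rep.coind U.subtype A))).hom φ =
      fun p => a (primeLocalToGlobal q p.1, primeLocalToGlobal q p.2))
    (Av : ValuationSubring Qb) (hAv : Av.LiesOverPrime (q : ℕ)) :
    ∃ t : ↥(Av.decompositionSubgroup ℚ ⊓ U) → A,
      IsLevelConstant₁ (Subgroup.subtype (Av.decompositionSubgroup ℚ ⊓ U)) t ∧
      ∀ s s' : ↥(Av.decompositionSubgroup ℚ ⊓ U),
        sh₂ U A a (⟨s, s.2.2⟩, ⟨s', s'.2.2⟩) = A.ρ ⟨s, s.2.2⟩ (t s') - t (s * s') + t s := by
  obtain ⟨g, -, hg⟩ := exists_conj q hAv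
  obtain ⟨F, hF, hFn, haF, hφF⟩ := exists_normal_level₂ hlev (primeLocalToGlobal q) hφlev
  have := hFn
  obtain ⟨u, hu, hd⟩ := sh₂_coboundary_on_subgroup (r := primeLocalToGlobal q) g
    (D' := Av.decompositionSubgroup ℚ ⊓ U) inf_le_right (fun s hs => (hg s).mp hs.1)
    ha haF hφF hφ
  exact ⟨u, ⟨F, hF, fun d s hs => hu d s (Subgroup.mem_subgroupOf.mpr hs)⟩, hd⟩

/-- **Shape (D), degree 1.**  If the restriction to the local Galois group at `q` of the
`1`-cocycle `c` is the coboundary of `m`, then for every `Av` over `q` there is `x : A` with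
`sh₁ c = d x` on `D(Av) ⊓ U`. -/
theorem sh₁_locTriv (c : Gq → Rep.coind U.subtype A)
    (hc : c ∈ cocycles₁ (Rep.coind U.subtype A)) (q : Nat.Primes) (m : Rep.coind U.subtype A)
    (hm : (d₀₁ (Rep.res (primeLocalToGlobal q) (Rep.coind U.subtype A))).hom m =
      fun h => c (primeLocalToGlobal q h))
    (Av : ValuationSubring Qb) (hAv : Av.LiesOverPrime (q : ℕ)) :
    ∃ x : A, ∀ s : ↥(Av.decompositionSubgroup ℚ ⊓ U),
      sh₁ U A c ⟨s, s.2.2⟩ = A.ρ ⟨s, s.2.2⟩ x - x := by
  obtain ⟨g, -, hg⟩ := exists_conj q hAv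
  exact ⟨m.1 g - (c g).1 1, fun s =>
    sh₁_coboundary_on_subgroup (r := primeLocalToGlobal q) g
      (D' := Av.decompositionSubgroup ℚ ⊓ U) inf_le_right (fun s hs => (hg s).mp hs.1) hc hm s⟩

end Main

section AbsForm

variable {k : Type} [Field k] (U : Subgroup Gq) (A : Rep.{0} k U)

/-- `sh₂_locTriv` with the hypothesis in the vocabulary of `Abs`: the restriction of `a` to the
local group at `q` is a level coboundary. -/
theorem sh₂_locTriv_B2 (a : Gq × Gq → Rep.coind U.subtype A)
    (ha : a ∈ cocycles₂ (Rep.coind U.subtype A))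
    (hlev : IsLevelConstant₂ (MonoidHom.id Gq) a) (q : Nat.Primes)
    (hq : (fun p : primeLocalGaloisGroup q × primeLocalGaloisGroup q =>
        a (primeLocalToGlobal q p.1, primeLocalToGlobal q p.2)) ∈
      Abs.B2 (Abs.localLevel (primeLocalToGlobal q))
        (Rep.res (primeLocalToGlobal q) (Rep.coind U.subtype A)))
    (Av : ValuationSubring Qb) (hAv : Av.LiesOverPrime (q : ℕ)) :
    ∃ t : ↥(Av.decompositionSubgroup ℚ ⊓ U) → A,
      IsLevelConstant₁ (Subgroup.subtype (Av.decompositionSubgroup ℚ ⊓ U)) t ∧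
      ∀ s s' : ↥(Av.decompositionSubgroup ℚ ⊓ U),
        sh₂ U A a (⟨s, s.2.2⟩, ⟨s', s'.2.2⟩) = A.ρ ⟨s, s.2.2⟩ (t s') - t (s * s') + t s := by
  obtain ⟨φ, hφC, hφ⟩ := hq
  exact sh₂_locTriv U A a ha hlev q φ
    ((Abs.isLevelConstant₁_iff (primeLocalToGlobal q) φ).mpr hφC) hφ Av hAv

end AbsForm

end Fermat.Agent.S55.Shapiro.ArithD
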