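import Mathlib
import Fermat.Agent.S55.Shapiro.Level

/-!
# The coefficient norm and corestriction on cochains (CFT brick [SH-norm])

`G` a group, `U ≤ G` of finite index, `C : Rep k G`, `RC := Rep.res U.subtype C`.

* `nrm U C : Rep.coind U.subtype RC →ₗ[k] C`, `f ↦ ∑_{Ux ∈ U \ G} C.ρ x⁻¹ (f x)` (the trace /
  coefficient norm); it is `G`-equivariant (`nrm_ρ`), and `nrm ∘ unit = index` (`nrm_unit`).
* `nrm₁, nrm₂, nrm₃` : the induced maps on cochains; they commute with the differentials.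
* `cores₀ … cores₃ U C R := nrm_i ∘ ind_i` : corestriction on cochains attached to a retraction;
  it commutes with the differentials on the nose, preserves levels, and
  `cores ∘ res = index` up to the explicit homotopy of `Shapiro/Core.lean`.
-/

set_option autoImplicit false

open groupCohomology

namespace Fermat.Agent.S55.Shapiro

variable {k : Type} [CommRing k] {G : Type} [Group G]

section Norm

variable (U : Subgroup G) (C : Rep.{0} k G)

/-- The summand of the norm attached to a right coset `U x`: `C.ρ x⁻¹ (f x)`. -/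
def nrmTerm (f : Rep.coind U.subtype (Rep.res U.subtype C))
    (q : Quotient (QuotientGroup.rightRel U)) : C :=
  Quotient.liftOn q (fun g => C.ρ g⁻¹ (f.1 g)) (by
    intro a b hab
    have hab' : b * a⁻¹ ∈ U := QuotientGroup.rightRel_apply.mp hab
    have hb : b = ((⟨b * a⁻¹, hab'⟩ : U) : G) * a := by simp
    have h1 : f.1 b = C.ρ (b * a⁻¹) (f.1 a) := by
      conv_lhs => rw [hb]
      exact coind_apply_smul f ⟨b * a⁻¹, hab'⟩ a
    show C.ρ a⁻¹ (f.1 a) = C.ρ b⁻¹ (f.1 b)
    rw [h1, ← Module.End.mul_apply, ← map_mul]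
    congr 2
    group)

@[simp] theorem nrmTerm_mk (f : Rep.coind U.subtype (Rep.res U.subtype C)) (g : G) :
    nrmTerm U C f (Quotient.mk (QuotientGroup.rightRel U) g) = C.ρ g⁻¹ (f.1 g) := rfl

theorem nrmTerm_add (f f' : Rep.coind U.subtype (Rep.res U.subtype C))
    (q : Quotient (QuotientGroup.rightRel U)) :
    nrmTerm U C (f + f') q = nrmTerm U C f q + nrmTerm U C f' q := by
  induction q using Quotient.inductionOn with | h g =>
  show C.ρ g⁻¹ ((f + f').1 g) = C.ρ g⁻¹ (f.1 g) + C.ρ g⁻¹ (f'.1 g)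
  rw [coind_add_apply, map_add]

theorem nrmTerm_smul (c : k) (f : Rep.coind U.subtype (Rep.res U.subtype C))
    (q : Quotient (QuotientGroup.rightRel U)) :
    nrmTerm U C (c • f) q = c • nrmTerm U C f q := by
  induction q using Quotient.inductionOn with | h g =>
  show C.ρ g⁻¹ ((c • f).1 g) = c • C.ρ g⁻¹ (f.1 g)
  rw [← map_smul]
  rfl

instance finite_rightQuotient [U.FiniteIndex] : Finite (Quotient (QuotientGroup.rightRel U)) :=
  Finite.of_equiv _ (QuotientGroup.quotientRightRelEquivQuotientLeftRel U).symm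

variable [U.FiniteIndex]

/-- The coefficient norm `coind_U^G (Res_U C) → C`, `f ↦ ∑_{Ux} C.ρ x⁻¹ (f x)`. -/
noncomputable def nrm : Rep.coind U.subtype (Rep.res U.subtype C) →ₗ[k] C where
  toFun f := ∑ᶠ q : Quotient (QuotientGroup.rightRel U), nrmTerm U C f q
  map_add' f f' := by
    rw [← finsum_add_distrib (Set.toFinite _) (Set.toFinite _)]
    exact finsum_congr (nrmTerm_add U C f f')
  map_smul' c f := by
    rw [RingHom.id_apply, smul_finsum' c (Set.toFinite _)]
    exact finsum_congr (nrmTerm_smul U C c f)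

theorem nrm_apply (f : Rep.coind U.subtype (Rep.res U.subtype C)) :
    nrm U C f = ∑ᶠ q : Quotient (QuotientGroup.rightRel U), nrmTerm U C f q := rfl

/-- Right multiplication on right cosets. -/
def rmulEquiv (g : G) :
    Quotient (QuotientGroup.rightRel U) ≃ Quotient (QuotientGroup.rightRel U) :=
  Quotient.congr (Equiv.mulRight g) (by
    intro a b
    rw [QuotientGroup.rightRel_apply, QuotientGroup.rightRel_apply]
    simp [mul_assoc])

omit [U.FiniteIndex] in
theorem nrmTerm_ρ (g : G) (f : Rep.coind U.subtype (Rep.res U.subtype C))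
    (q : Quotient (QuotientGroup.rightRel U)) :
    nrmTerm U C ((Rep.coind U.subtype (Rep.res U.subtype C)).ρ g f) q =
      C.ρ g (nrmTerm U C f (rmulEquiv U g q)) := by
  induction q using Quotient.inductionOn with | h x =>
  show C.ρ x⁻¹ (((Rep.coind U.subtype (Rep.res U.subtype C)).ρ g f).1 x) =
    C.ρ g (C.ρ (x * g)⁻¹ (f.1 (x * g)))
  rw [coind_ρ_apply, ← Module.End.mul_apply, ← map_mul]
  congr 2
  group

/-- The norm is `G`-equivariant. -/
theorem nrm_ρ (g : G) (f : Rep.coind U.subtype (Rep.res U.subtype C)) :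
    nrm U C ((Rep.coind U.subtype (Rep.res U.subtype C)).ρ g f) = C.ρ g (nrm U C f) := by
  rw [nrm_apply, nrm_apply, map_finsum _ (Set.toFinite _)]
  rw [finsum_congr (nrmTerm_ρ U C g f)]
  exact finsum_comp_equiv (rmulEquiv U g) (f := fun q => C.ρ g (nrmTerm U C f q))

/-- The unit `C → coind_U^G (Res_U C)`, `c ↦ (x ↦ C.ρ x c)`. -/
def unit : C →ₗ[k] Rep.coind U.subtype (Rep.res U.subtype C) where
  toFun c := ⟨fun x => C.ρ x c, fun u x => by
    show C.ρ ((u : G) * x) c = C.ρ (u : G) (C.ρ x c)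
    rw [map_mul]; rfl⟩
  map_add' c c' := Subtype.ext (funext fun x => map_add _ c c')
  map_smul' a c := Subtype.ext (funext fun x => map_smul _ a c)

omit [U.FiniteIndex] in
@[simp] theorem unit_apply (c : C) (x : G) : (unit U C c).1 x = C.ρ x c := rfl

omit [U.FiniteIndex] in
theorem unit_ρ (g : G) (c : C) :
    unit U C (C.ρ g c) = (Rep.coind U.subtype (Rep.res U.subtype C)).ρ g (unit U C c) := by
  apply Subtype.ext
  funext x
  rw [coind_ρ_apply, unit_apply, unit_apply, map_mul]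
  rfl

/-- `nrm ∘ unit = index`. -/
theorem nrm_unit (c : C) : nrm U C (unit U C c) = (U.index : k) • c := by
  classical
  have hterm : ∀ q : Quotient (QuotientGroup.rightRel U), nrmTerm U C (unit U C c) q = c := by
    intro q
    induction q using Quotient.inductionOn with | h x =>
    show C.ρ x⁻¹ (C.ρ x c) = c
    rw [← Module.End.mul_apply, ← map_mul, inv_mul_cancel, map_one]
    rfl
  have : Fintype (Quotient (QuotientGroup.rightRel U)) := Fintype.ofFinite _
  rw [nrm_apply, finsum_eq_sum_of_fintype, Finset.sum_congr rfl (fun q _ => hterm q),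
    Finset.sum_const, Finset.card_univ, ← Nat.card_eq_fintype_card,
    Nat.card_congr (QuotientGroup.quotientRightRelEquivQuotientLeftRel U), ← Subgroup.index,
    Nat.cast_smul_eq_nsmul]

/-! ### The norm on cochains -/

/-- The norm on `1`-cochains. -/
noncomputable def nrm₁ : (G → Rep.coind U.subtype (Rep.res U.subtype C)) →ₗ[k] (G → C) :=
  (nrm U C).compLeft G

/-- The norm on `2`-cochains. -/
noncomputable def nrm₂ : (G × G → Rep.coind U.subtype (Rep.res U.subtype C)) →ₗ[k] (G × G → C) :=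
  (nrm U C).compLeft (G × G)

/-- The norm on `3`-cochains. -/
noncomputable def nrm₃ :
    (G × G × G → Rep.coind U.subtype (Rep.res U.subtype C)) →ₗ[k] (G × G × G → C) :=
  (nrm U C).compLeft (G × G × G)

@[simp] theorem nrm₁_apply (c : G → Rep.coind U.subtype (Rep.res U.subtype C)) (g : G) :
    nrm₁ U C c g = nrm U C (c g) := rfl

@[simp] theorem nrm₂_apply (c : G × G → Rep.coind U.subtype (Rep.res U.subtype C))
    (p : G × G) : nrm₂ U C c p = nrm U C (c p) := rfl

@[simp] theorem nrm₃_apply (c : G × G × G → Rep.coind U.subtype (Rep.res U.subtype C))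
    (p : G × G × G) : nrm₃ U C c p = nrm U C (c p) := rfl

theorem nrm₁_d₀₁ (m : Rep.coind U.subtype (Rep.res U.subtype C)) :
    nrm₁ U C ((d₀₁ (Rep.coind U.subtype (Rep.res U.subtype C))).hom m) =
      (d₀₁ C).hom (nrm U C m) := by
  funext g
  rw [nrm₁_apply, d₀₁_hom_apply, d₀₁_hom_apply, map_sub, nrm_ρ]

theorem nrm₂_d₁₂ (c : G → Rep.coind U.subtype (Rep.res U.subtype C)) :
    nrm₂ U C ((d₁₂ (Rep.coind U.subtype (Rep.res U.subtype C))).hom c) =
      (d₁₂ C).hom (nrm₁ U C c) := by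
  funext p
  rw [nrm₂_apply, d₁₂_hom_apply, d₁₂_hom_apply, map_add, map_sub, nrm_ρ]
  rfl

theorem nrm₃_d₂₃ (c : G × G → Rep.coind U.subtype (Rep.res U.subtype C)) :
    nrm₃ U C ((d₂₃ (Rep.coind U.subtype (Rep.res U.subtype C))).hom c) =
      (d₂₃ C).hom (nrm₂ U C c) := by
  funext p
  rw [nrm₃_apply, d₂₃_hom_apply, d₂₃_hom_apply, map_sub, map_add, map_sub, nrm_ρ]
  rfl

omit [U.FiniteIndex] in
theorem rinv₁_compLeft {X Y : Type*} {N : Subgroup G} (φ : X → Y) {c : G → X}
    (hc : RInv₁ N c) : RInv₁ N (fun g => φ (c g)) :=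
  fun g s hs => by simp only [hc g s hs]

omit [U.FiniteIndex] in
theorem rinv₂_compLeft {X Y : Type*} {N : Subgroup G} (φ : X → Y) {c : G × G → X}
    (hc : RInv₂ N c) : RInv₂ N (fun p => φ (c p)) :=
  fun g g' s s' hs hs' => by simp only [hc g g' s s' hs hs']

omit [U.FiniteIndex] in
theorem rinv₃_compLeft {X Y : Type*} {N : Subgroup G} (φ : X → Y) {c : G × G × G → X}
    (hc : RInv₃ N c) : RInv₃ N (fun p => φ (c p)) :=
  fun g g' g'' s s' s'' hs hs' hs'' => by simp only [hc g g' g'' s s' s'' hs hs' hs'']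

/-! ### Corestriction on cochains -/

variable {U} (R : Retr U)

/-- Corestriction in degree `0`. -/
noncomputable def cores₀ : Rep.res U.subtype C →ₗ[k] C :=
  nrm U C ∘ₗ ind₀ (Rep.res U.subtype C) R

/-- Corestriction of `1`-cochains. -/
noncomputable def cores₁ : (U → Rep.res U.subtype C) →ₗ[k] (G → C) :=
  nrm₁ U C ∘ₗ ind₁ (Rep.res U.subtype C) R

/-- Corestriction of `2`-cochains. -/
noncomputable def cores₂ : (U × U → Rep.res U.subtype C) →ₗ[k] (G × G → C) :=
  nrm₂ U C ∘ₗ ind₂ (Rep.res U.subtype C) R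

/-- Corestriction of `3`-cochains. -/
noncomputable def cores₃ : (U × U × U → Rep.res U.subtype C) →ₗ[k] (G × G × G → C) :=
  nrm₃ U C ∘ₗ ind₃ (Rep.res U.subtype C) R

theorem cores₁_apply (β : U → Rep.res U.subtype C) :
    cores₁ C R β = nrm₁ U C (ind₁ (Rep.res U.subtype C) R β) := rfl

theorem cores₂_apply (β : U × U → Rep.res U.subtype C) :
    cores₂ C R β = nrm₂ U C (ind₂ (Rep.res U.subtype C) R β) := rfl

theorem cores₃_apply (β : U × U × U → Rep.res U.subtype C) :
    cores₃ C R β = nrm₃ U C (ind₃ (Rep.res U.subtype C) R β) := rfl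

/-- Corestriction commutes with the differential, degree `0 → 1`. -/
theorem cores₁_d₀₁ (a : Rep.res U.subtype C) :
    cores₁ C R ((d₀₁ (Rep.res U.subtype C)).hom a) = (d₀₁ C).hom (cores₀ C R a) := by
  rw [cores₁_apply, ind₁_d₀₁, nrm₁_d₀₁]
  rfl

/-- Corestriction commutes with the differential, degree `1 → 2`. -/
theorem cores₂_d₁₂ (β : U → Rep.res U.subtype C) :
    cores₂ C R ((d₁₂ (Rep.res U.subtype C)).hom β) = (d₁₂ C).hom (cores₁ C R β) := by
  rw [cores₂_apply, ind₂_d₁₂, nrm₂_d₁₂]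
  rfl

/-- Corestriction commutes with the differential, degree `2 → 3`. -/
theorem cores₃_d₂₃ (β : U × U → Rep.res U.subtype C) :
    cores₃ C R ((d₂₃ (Rep.res U.subtype C)).hom β) = (d₂₃ C).hom (cores₂ C R β) := by
  rw [cores₃_apply, ind₃_d₂₃, nrm₃_d₂₃]
  rfl

/-- Corestriction of a `2`-cocycle is a `2`-cocycle. -/
theorem cores₂_mem_cocycles₂ {β : U × U → Rep.res U.subtype C}
    (hβ : β ∈ cocycles₂ (Rep.res U.subtype C)) : cores₂ C R β ∈ cocycles₂ C := by
  have h : (d₂₃ (Rep.res U.subtype C)).hom β = 0 := hβ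
  show (d₂₃ C).hom (cores₂ C R β) = 0
  rw [← cores₃_d₂₃, h, map_zero]

/-- Corestriction of a `1`-cocycle is a `1`-cocycle. -/
theorem cores₁_mem_cocycles₁ {β : U → Rep.res U.subtype C}
    (hβ : β ∈ cocycles₁ (Rep.res U.subtype C)) : cores₁ C R β ∈ cocycles₁ C := by
  have h : (d₁₂ (Rep.res U.subtype C)).hom β = 0 := hβ
  show (d₁₂ C).hom (cores₁ C R β) = 0
  rw [← cores₂_d₁₂, h, map_zero]

/-- Corestriction of a `2`-coboundary is a `2`-coboundary. -/
theorem cores₂_mem_coboundaries₂ {β : U × U → Rep.res U.subtype C}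
    (hβ : β ∈ coboundaries₂ (Rep.res U.subtype C)) : cores₂ C R β ∈ coboundaries₂ C := by
  obtain ⟨γ, rfl⟩ := hβ
  exact ⟨cores₁ C R γ, (cores₂_d₁₂ C R γ).symm⟩

section Levels

variable {N : Subgroup G} [hN : N.Normal] (hNU : N ≤ U)

include hN hNU

theorem rinv₁_cores₁ {β : U → Rep.res U.subtype C} (hβ : RInv₁ (N.subgroupOf U) β) :
    RInv₁ N (cores₁ C R β) :=
  rinv₁_compLeft (nrm U C) (rinv₁_ind₁ R hNU hβ)

theorem rinv₂_cores₂ {β : U × U → Rep.res U.subtype C} (hβ : RInv₂ (N.subgroupOf U) β) :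
    RInv₂ N (cores₂ C R β) :=
  rinv₂_compLeft (nrm U C) (rinv₂_ind₂ R hNU hβ)

theorem rinv₃_cores₃ {β : U × U × U → Rep.res U.subtype C} (hβ : RInv₃ (N.subgroupOf U) β) :
    RInv₃ N (cores₃ C R β) :=
  rinv₃_compLeft (nrm U C) (rinv₃_ind₃ R hNU hβ)

end Levels

/-! ### `cores ∘ res = index` -/

/-- Restriction of `1`-cochains to `U`. -/
def rest₁ : (G → C) →ₗ[k] (U → Rep.res U.subtype C) where
  toFun c u := c (u : G)
  map_add' _ _ := rfl
  map_smul' _ _ := rfl

/-- Restriction of `2`-cochains to `U`. -/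
def rest₂ : (G × G → C) →ₗ[k] (U × U → Rep.res U.subtype C) where
  toFun c p := c ((p.1 : G), (p.2 : G))
  map_add' _ _ := rfl
  map_smul' _ _ := rfl

/-- The unit on `1`-cochains. -/
def unit₁ : (G → C) →ₗ[k] (G → Rep.coind U.subtype (Rep.res U.subtype C)) :=
  (unit U C).compLeft G

/-- The unit on `2`-cochains. -/
def unit₂ : (G × G → C) →ₗ[k] (G × G → Rep.coind U.subtype (Rep.res U.subtype C)) :=
  (unit U C).compLeft (G × G)

/-- The unit on `3`-cochains. -/
def unit₃ : (G × G × G → C) →ₗ[k] (G × G × G → Rep.coind U.subtype (Rep.res U.subtype C)) :=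
  (unit U C).compLeft (G × G × G)

omit [U.FiniteIndex] in
theorem unit₂_d₁₂ (c : G → C) :
    unit₂ (U := U) C ((d₁₂ C).hom c) =
      (d₁₂ (Rep.coind U.subtype (Rep.res U.subtype C))).hom (unit₁ C c) := by
  funext p
  show unit U C ((d₁₂ C).hom c p) = _
  rw [d₁₂_hom_apply, d₁₂_hom_apply, map_add, map_sub, unit_ρ]
  rfl

omit [U.FiniteIndex] in
theorem unit₃_d₂₃ (c : G × G → C) :
    unit₃ (U := U) C ((d₂₃ C).hom c) =
      (d₂₃ (Rep.coind U.subtype (Rep.res U.subtype C))).hom (unit₂ C c) := by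
  funext p
  show unit U C ((d₂₃ C).hom c p) = _
  rw [d₂₃_hom_apply, d₂₃_hom_apply, map_sub, map_add, map_sub, unit_ρ]
  rfl

omit [U.FiniteIndex] in
theorem sh₁_unit₁ (c : G → C) : sh₁ U (Rep.res U.subtype C) (unit₁ C c) = rest₁ C c := by
  funext u
  show C.ρ 1 (c (u : G)) = c (u : G)
  rw [map_one]; rfl

omit [U.FiniteIndex] in
theorem sh₂_unit₂ (c : G × G → C) : sh₂ U (Rep.res U.subtype C) (unit₂ C c) = rest₂ C c := by
  funext p
  show C.ρ 1 (c ((p.1 : G), (p.2 : G))) = c ((p.1 : G), (p.2 : G))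
  rw [map_one]; rfl

theorem nrm₁_unit₁ (c : G → C) : nrm₁ U C (unit₁ C c) = (U.index : k) • c := by
  funext g
  exact nrm_unit U C (c g)

theorem nrm₂_unit₂ (c : G × G → C) : nrm₂ U C (unit₂ C c) = (U.index : k) • c := by
  funext p
  exact nrm_unit U C (c p)

/-- `cores ∘ res = index` on `1`-cochains, up to the explicit homotopy. -/
theorem cores₁_rest₁_sub (c : G → C) :
    cores₁ C R (rest₁ C c) - (U.index : k) • c =
      (d₀₁ C).hom (nrm U C (hom₀ (Rep.res U.subtype C) R (unit₁ C c))) +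
        nrm₁ U C (hom₁ (Rep.res U.subtype C) R (unit₂ C ((d₁₂ C).hom c))) := by
  have h := congrArg (nrm₁ U C) (ind₁_sh₁_sub R (unit₁ (U := U) C c))
  rw [map_sub, map_add, sh₁_unit₁, nrm₁_unit₁, nrm₁_d₀₁, ← unit₂_d₁₂] at h
  exact h

/-- `cores ∘ res = index` on `2`-cochains, up to the explicit homotopy. -/
theorem cores₂_rest₂_sub (c : G × G → C) :
    cores₂ C R (rest₂ C c) - (U.index : k) • c =
      (d₁₂ C).hom (nrm₁ U C (hom₁ (Rep.res U.subtype C) R (unit₂ C c))) +
        nrm₂ U C (hom₂ (Rep.res U.subtype C) R (unit₃ C ((d₂₃ C).hom c))) := by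
  have h := congrArg (nrm₂ U C) (ind₂_sh₂_sub R (unit₂ (U := U) C c))
  rw [map_sub, map_add, sh₂_unit₂, nrm₂_unit₂, nrm₂_d₁₂, ← unit₃_d₂₃] at h
  exact h

/-- `cores ∘ res = index` on `2`-cocycles: the difference is an explicit coboundary. -/
theorem cores₂_rest₂_sub_of_mem_cocycles₂ {c : G × G → C} (hc : c ∈ cocycles₂ C) :
    cores₂ C R (rest₂ C c) - (U.index : k) • c =
      (d₁₂ C).hom (nrm₁ U C (hom₁ (Rep.res U.subtype C) R (unit₂ C c))) := by
  have h : (d₂₃ C).hom c = 0 := hc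
  rw [cores₂_rest₂_sub, h, map_zero, map_zero, map_zero, add_zero]

end Norm

end Fermat.Agent.S55.Shapiro
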