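import Mathlib
import Fermat.Agent.S55.Shapiro.Norm

/-!
# Add-ons to `Shapiro/Norm.lean` (CFT brick [SH-norm-nat])

Everything is stated on the names of `Shapiro/Norm.lean` (`nrm`, `cores_i`, `rest_i`).

* `d₀₁_comp, d₁₂_comp, d₂₃_comp` : the differentials commute with additive equivariant maps of
  coefficients (the two coefficient rings may differ, e.g. `ZMod p` and `ℤ`).
* `rest₂_d₁₂`, `rest₃`, `rest₃_d₂₃`, `rest_i_mem_cocycles_i`, `rinv_i_rest_i` : restriction is a map
  of complexes and preserves levels.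
* `exists_rinv_cores₂_rest₂` (+ `_nsmul`) : **`cores ∘ res = index` on 2-cocycles, level form**:
  for a right-`N`-invariant 2-cocycle `c`, `cores₂ (rest₂ c) = index • c + d w` with `w`
  right-`N`-invariant.
* `nrm_comp`, `cores₀_comp … cores₃_comp` : **naturality of corestriction in the coefficients** for
  an additive equivariant map `i : T →+ A` (different coefficient rings allowed).
-/

set_option autoImplicit false

open groupCohomology

namespace Fermat.Agent.S55.Shapiro

variable {k : Type} [CommRing k] {G : Type} [Group G]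

/-! ### Differentials commute with equivariant maps -/

section Equivariant

variable {k' : Type} [CommRing k'] {A : Rep.{0} k G} {B : Rep.{0} k' G} (φ : A →+ B)
  (hφ : ∀ (g : G) (a : A), φ (A.ρ g a) = B.ρ g (φ a))

include hφ

theorem d₀₁_comp (a : A) : (d₀₁ B).hom (φ a) = fun g => φ ((d₀₁ A).hom a g) := by
  funext g
  simp only [d₀₁_hom_apply, map_sub, hφ]

theorem d₁₂_comp (c : G → A) :
    (d₁₂ B).hom (fun g => φ (c g)) = fun p => φ ((d₁₂ A).hom c p) := by
  funext p
  simp only [d₁₂_hom_apply, map_sub, map_add, hφ]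

theorem d₂₃_comp (c : G × G → A) :
    (d₂₃ B).hom (fun p => φ (c p)) = fun p => φ ((d₂₃ A).hom c p) := by
  funext p
  simp only [d₂₃_hom_apply, map_sub, map_add, hφ]

end Equivariant

/-! ### Restriction -/

section Rest

variable {U : Subgroup G} (C : Rep.{0} k G)

theorem rest₁_apply (c : G → C) (u : U) : rest₁ (U := U) C c u = c (u : G) := rfl

theorem rest₂_apply (c : G × G → C) (p : U × U) :
    rest₂ (U := U) C c p = c ((p.1 : G), (p.2 : G)) := rfl

/-- Restriction of `3`-cochains to `U`. -/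
def rest₃ : (G × G × G → C) →ₗ[k] (U × U × U → Rep.res U.subtype C) where
  toFun c p := c ((p.1 : G), (p.2.1 : G), (p.2.2 : G))
  map_add' _ _ := rfl
  map_smul' _ _ := rfl

theorem rest₃_apply (c : G × G × G → C) (p : U × U × U) :
    rest₃ (U := U) C c p = c ((p.1 : G), (p.2.1 : G), (p.2.2 : G)) := rfl

theorem rest₁_d₀₁ (m : C) :
    rest₁ (U := U) C ((d₀₁ C).hom m) = (d₀₁ (Rep.res U.subtype C)).hom m := by
  funext u
  simp only [rest₁_apply, d₀₁_hom_apply]
  rfl

theorem rest₂_d₁₂ (c : G → C) :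
    rest₂ (U := U) C ((d₁₂ C).hom c) = (d₁₂ (Rep.res U.subtype C)).hom (rest₁ C c) := by
  funext p
  simp only [rest₂_apply, d₁₂_hom_apply, rest₁_apply]
  rfl

theorem rest₃_d₂₃ (c : G × G → C) :
    rest₃ (U := U) C ((d₂₃ C).hom c) = (d₂₃ (Rep.res U.subtype C)).hom (rest₂ C c) := by
  funext p
  simp only [rest₃_apply, d₂₃_hom_apply, rest₂_apply]
  rfl

theorem rest₂_mem_cocycles₂ {c : G × G → C} (hc : c ∈ cocycles₂ C) :
    rest₂ (U := U) C c ∈ cocycles₂ (Rep.res U.subtype C) := by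
  have h : (d₂₃ C).hom c = 0 := hc
  show (d₂₃ (Rep.res U.subtype C)).hom (rest₂ C c) = 0
  rw [← rest₃_d₂₃, h, map_zero]

theorem rest₁_mem_cocycles₁ {c : G → C} (hc : c ∈ cocycles₁ C) :
    rest₁ (U := U) C c ∈ cocycles₁ (Rep.res U.subtype C) := by
  have h : (d₁₂ C).hom c = 0 := hc
  show (d₁₂ (Rep.res U.subtype C)).hom (rest₁ C c) = 0
  rw [← rest₂_d₁₂, h, map_zero]

theorem rest₂_mem_coboundaries₂ {c : G × G → C} (hc : c ∈ coboundaries₂ C) :
    rest₂ (U := U) C c ∈ coboundaries₂ (Rep.res U.subtype C) := by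
  obtain ⟨γ, rfl⟩ := hc
  exact ⟨rest₁ C γ, (rest₂_d₁₂ C γ).symm⟩

theorem rinv₁_rest₁ {N : Subgroup G} {c : G → C} (hc : RInv₁ N c) :
    RInv₁ (N.subgroupOf U) (rest₁ (U := U) C c) :=
  fun g s hs => hc (g : G) (s : G) (Subgroup.mem_subgroupOf.1 hs)

theorem rinv₂_rest₂ {N : Subgroup G} {c : G × G → C} (hc : RInv₂ N c) :
    RInv₂ (N.subgroupOf U) (rest₂ (U := U) C c) :=
  fun g g' s s' hs hs' => hc (g : G) (g' : G) (s : G) (s' : G)
    (Subgroup.mem_subgroupOf.1 hs) (Subgroup.mem_subgroupOf.1 hs')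

end Rest

/-! ### `cores ∘ res = index`, level form -/

section CoresRes

variable {U : Subgroup G} [U.FiniteIndex] (C : Rep.{0} k G) (R : Retr U)

/-- `cores ∘ res = index` on `2`-cocycles: the difference is a coboundary. -/
theorem cores₂_rest₂_sub_mem_coboundaries₂ {c : G × G → C} (hc : c ∈ cocycles₂ C) :
    cores₂ C R (rest₂ C c) - (U.index : k) • c ∈ coboundaries₂ C :=
  ⟨_, (cores₂_rest₂_sub_of_mem_cocycles₂ C R hc).symm⟩

variable {N : Subgroup G} [hN : N.Normal] (hNU : N ≤ U)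

include hN hNU

/-- The homotopy of `cores ∘ res = index` preserves levels. -/
theorem rinv₁_nrm₁_hom₁_unit₂ {c : G × G → C} (hc : RInv₂ N c) :
    RInv₁ N (nrm₁ U C (hom₁ (Rep.res U.subtype C) R (unit₂ C c))) :=
  rinv₁_compLeft (nrm U C)
    (rinv₁_hom₁ R hNU (rinv₂_compLeft (unit U C) hc))

/-- **`cores ∘ res = index` on `2`-cocycles, level form**: for a right-`N`-invariant 2-cocycle `c`
of `G` (`N ≤ U` normal in `G`), `cores₂ (rest₂ c) = [G : U] • c + d w` with `w` a
right-`N`-invariant 1-cochain. -/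
theorem exists_rinv_cores₂_rest₂ {c : G × G → C} (hc : c ∈ cocycles₂ C) (hcN : RInv₂ N c) :
    ∃ w : G → C, RInv₁ N w ∧
      cores₂ C R (rest₂ C c) = (U.index : k) • c + (d₁₂ C).hom w :=
  ⟨_, rinv₁_nrm₁_hom₁_unit₂ C R hNU hcN, by
    rw [← cores₂_rest₂_sub_of_mem_cocycles₂ C R hc]; abel⟩

/-- The same with the index acting by `ℕ`-multiples. -/
theorem exists_rinv_cores₂_rest₂_nsmul {c : G × G → C} (hc : c ∈ cocycles₂ C)
    (hcN : RInv₂ N c) :
    ∃ w : G → C, RInv₁ N w ∧ cores₂ C R (rest₂ C c) = U.index • c + (d₁₂ C).hom w := by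
  obtain ⟨w, hw, h⟩ := exists_rinv_cores₂_rest₂ C R hNU hc hcN
  exact ⟨w, hw, by rw [h, Nat.cast_smul_eq_nsmul]⟩

end CoresRes

/-! ### Naturality of the norm and of corestriction in the coefficients -/

section Natural

variable {k' : Type} [CommRing k'] {U : Subgroup G} [U.FiniteIndex]
  {T : Rep.{0} k G} {A : Rep.{0} k' G} (i : T →+ A)
  (hi : ∀ (g : G) (t : T), i (T.ρ g t) = A.ρ g (i t))

include hi

/-- Naturality of the norm: if `f'` is `i ∘ f` pointwise then `nrm f' = i (nrm f)`. -/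
theorem nrm_comp (f : Rep.coind U.subtype (Rep.res U.subtype T))
    (f' : Rep.coind U.subtype (Rep.res U.subtype A)) (h : ∀ x : G, f'.1 x = i (f.1 x)) :
    nrm U A f' = i (nrm U T f) := by
  rw [nrm_apply, nrm_apply, i.map_finsum (Set.toFinite _)]
  refine finsum_congr fun q => ?_
  induction q using Quotient.inductionOn with | h g =>
  show A.ρ g⁻¹ (f'.1 g) = i (T.ρ g⁻¹ (f.1 g))
  rw [h, hi]

variable (R : Retr U)

theorem cores₀_comp (a : Rep.res U.subtype T) :
    cores₀ A R (i a) = i (cores₀ T R a) :=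
  nrm_comp i hi _ _ fun x => (hi (R.r x : G) a).symm

theorem cores₁_comp (β : U → Rep.res U.subtype T) (g : G) :
    cores₁ A R (fun u => i (β u)) g = i (cores₁ T R β g) :=
  nrm_comp i hi _ _ fun x => (hi (R.r x : G) _).symm

theorem cores₂_comp (β : U × U → Rep.res U.subtype T) (p : G × G) :
    cores₂ A R (fun q => i (β q)) p = i (cores₂ T R β p) :=
  nrm_comp i hi _ _ fun x => (hi (R.r x : G) _).symm

theorem cores₃_comp (β : U × U × U → Rep.res U.subtype T) (p : G × G × G) :
    cores₃ A R (fun q => i (β q)) p = i (cores₃ T R β p) :=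
  nrm_comp i hi _ _ fun x => (hi (R.r x : G) _).symm

/-- Function form of `cores₂_comp`. -/
theorem cores₂_comp' (β : U × U → Rep.res U.subtype T) :
    cores₂ A R (fun q => i (β q)) = fun p => i (cores₂ T R β p) :=
  funext (cores₂_comp i hi R β)

end Natural

end Fermat.Agent.S55.Shapiro
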