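import Mathlib
import Fermat.Agent.S55.Shapiro.Level
import Fermat.Agent.S55.Abs.Level

/-!
# Shapiro's lemma in the vocabulary of the abstract layer

`𝒰 : Abs.LevelFamily G` a family of "open" subgroups, `U ≤ G` a subgroup, `A : Rep k U`,
`M := Rep.coind U.subtype A`.

* `subLevel 𝒰 U` : the level family `{W ⊓ U}` induced on `U`;
* `isLev_i_sh_i`, `isLev_i_ind_i`, `isLev_i_hom_i` : the Shapiro maps of `Shapiro/Core` and the
  homotopy preserve level cochains (`ind`, `hom` need `U` open: `∃ W ∈ 𝒰.sets, W ≤ U`);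
* `sh₁_mem_Z1`, `sh₂_mem_Z2`, `sh₂_mem_B2`, `ind₁_mem_Z1`, `ind₂_mem_Z2`, `ind₂_mem_B2`;
* `mem_B2_iff_sh₂` : a level 2-cocycle with values in `M` is a level coboundary iff its
  evaluation at `1` is a level coboundary on `U`;
* `shH1`, `shH2` : the induced maps `H^i_𝒰(G, M) → H^i_{𝒰|U}(U, A)`, and the **Shapiro
  isomorphisms** `shEquivH1`, `shEquivH2` (inverse: `ind`), `shInv` in degree `0`.
-/

set_option autoImplicit false

open groupCohomology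

namespace Fermat.Agent.S55.Shapiro

open Fermat.Agent.S55.Abs

variable {G : Type} [Group G]

/-- The level family induced on a subgroup `U`: the traces `W ⊓ U` of the members. -/
def subLevel (𝒰 : LevelFamily G) (U : Subgroup G) : LevelFamily ↥U where
  sets := {V | ∃ W ∈ 𝒰.sets, V = W.subgroupOf U}
  nonempty := by
    obtain ⟨W, hW⟩ := 𝒰.nonempty
    exact ⟨_, W, hW, rfl⟩
  inter := by
    rintro _ ⟨W, hW, rfl⟩ _ ⟨W', hW', rfl⟩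
    obtain ⟨W'', hW'', hle⟩ := 𝒰.inter W hW W' hW'
    refine ⟨_, ⟨W'', hW'', rfl⟩, ?_⟩
    intro x hx
    have h := hle (Subgroup.mem_subgroupOf.mp hx)
    exact ⟨Subgroup.mem_subgroupOf.mpr h.1, Subgroup.mem_subgroupOf.mpr h.2⟩
  normal := by
    rintro _ ⟨W, hW, rfl⟩
    obtain ⟨W', hW', hle, hn⟩ := 𝒰.normal W hW
    refine ⟨_, ⟨W', hW', rfl⟩, ?_, ?_⟩
    · intro x hx
      exact Subgroup.mem_subgroupOf.mpr (hle (Subgroup.mem_subgroupOf.mp hx))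
    · have := hn
      infer_instance
  finiteIndex := by
    rintro _ ⟨W, hW, rfl⟩
    have := 𝒰.finiteIndex W hW
    infer_instance

theorem subgroupOf_mem_subLevel {𝒰 : LevelFamily G} (U : Subgroup G) {W : Subgroup G}
    (hW : W ∈ 𝒰.sets) : W.subgroupOf U ∈ (subLevel 𝒰 U).sets :=
  ⟨W, hW, rfl⟩

/-- Below any member of the family there is a normal member contained in the open subgroup
`U`. -/
theorem exists_normal_le (𝒰 : LevelFamily G) {U : Subgroup G} (hU : ∃ W ∈ 𝒰.sets, W ≤ U)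
    {W : Subgroup G} (hW : W ∈ 𝒰.sets) : ∃ N ∈ 𝒰.sets, N.Normal ∧ N ≤ U ∧ N ≤ W := by
  obtain ⟨W₀, hW₀, hW₀U⟩ := hU
  obtain ⟨W₁, hW₁, hle⟩ := 𝒰.inter W hW W₀ hW₀
  obtain ⟨N, hN, hNW₁, hNn⟩ := 𝒰.normal W₁ hW₁
  exact ⟨N, hN, hNn, (hNW₁.trans hle).trans (inf_le_right.trans hW₀U),
    (hNW₁.trans hle).trans inf_le_left⟩

section Dictionary

variable {𝒰 : LevelFamily G} {U : Subgroup G}

theorem isLev₁_subLevel_iff {X : Type*} (β : U → X) :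
    IsLev₁ (subLevel 𝒰 U) β ↔
      ∃ W ∈ 𝒰.sets, ∀ g s : U, (s : G) ∈ W → β (g * s) = β g := by
  constructor
  · rintro ⟨_, ⟨W, hW, rfl⟩, h⟩
    exact ⟨W, hW, fun g s hs => h g s (Subgroup.mem_subgroupOf.mpr hs)⟩
  · rintro ⟨W, hW, h⟩
    exact ⟨_, ⟨W, hW, rfl⟩, fun g s hs => h g s (Subgroup.mem_subgroupOf.mp hs)⟩

theorem isLev₂_subLevel_iff {X : Type*} (β : U × U → X) :
    IsLev₂ (subLevel 𝒰 U) β ↔
      ∃ W ∈ 𝒰.sets, ∀ g g' s s' : U, (s : G) ∈ W → (s' : G) ∈ W →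
        β (g * s, g' * s') = β (g, g') := by
  constructor
  · rintro ⟨_, ⟨W, hW, rfl⟩, h⟩
    exact ⟨W, hW, fun g g' s s' hs hs' =>
      h g g' s s' (Subgroup.mem_subgroupOf.mpr hs) (Subgroup.mem_subgroupOf.mpr hs')⟩
  · rintro ⟨W, hW, h⟩
    exact ⟨_, ⟨W, hW, rfl⟩, fun g g' s s' hs hs' =>
      h g g' s s' (Subgroup.mem_subgroupOf.mp hs) (Subgroup.mem_subgroupOf.mp hs')⟩

theorem isLev₃_subLevel_iff {X : Type*} (β : U × U × U → X) :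
    IsLev₃ (subLevel 𝒰 U) β ↔
      ∃ W ∈ 𝒰.sets, ∀ g g' g'' s s' s'' : U, (s : G) ∈ W → (s' : G) ∈ W → (s'' : G) ∈ W →
        β (g * s, g' * s', g'' * s'') = β (g, g', g'') := by
  constructor
  · rintro ⟨_, ⟨W, hW, rfl⟩, h⟩
    exact ⟨W, hW, fun g g' g'' s s' s'' hs hs' hs'' =>
      h g g' g'' s s' s'' (Subgroup.mem_subgroupOf.mpr hs) (Subgroup.mem_subgroupOf.mpr hs')
        (Subgroup.mem_subgroupOf.mpr hs'')⟩
  · rintro ⟨W, hW, h⟩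
    exact ⟨_, ⟨W, hW, rfl⟩, fun g g' g'' s s' s'' hs hs' hs'' =>
      h g g' g'' s s' s'' (Subgroup.mem_subgroupOf.mp hs) (Subgroup.mem_subgroupOf.mp hs')
        (Subgroup.mem_subgroupOf.mp hs'')⟩

/-- Restricting a level cochain of `G` to `U` gives a level cochain of `U`. -/
theorem isLev₁_restrict {X : Type*} {f : G → X} (hf : IsLev₁ 𝒰 f) :
    IsLev₁ (subLevel 𝒰 U) (fun u : U => f (u : G)) := by
  obtain ⟨W, hW, h⟩ := hf
  exact ⟨_, ⟨W, hW, rfl⟩, fun g s hs => h _ _ (Subgroup.mem_subgroupOf.mp hs)⟩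

theorem isLev₂_restrict {X : Type*} {f : G × G → X} (hf : IsLev₂ 𝒰 f) :
    IsLev₂ (subLevel 𝒰 U) (fun p : U × U => f ((p.1 : G), (p.2 : G))) := by
  obtain ⟨W, hW, h⟩ := hf
  exact ⟨_, ⟨W, hW, rfl⟩, fun g g' s s' hs hs' =>
    h _ _ _ _ (Subgroup.mem_subgroupOf.mp hs) (Subgroup.mem_subgroupOf.mp hs')⟩

theorem isLev₃_restrict {X : Type*} {f : G × G × G → X} (hf : IsLev₃ 𝒰 f) :
    IsLev₃ (subLevel 𝒰 U) (fun p : U × U × U => f ((p.1 : G), (p.2.1 : G), (p.2.2 : G))) := by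
  obtain ⟨W, hW, h⟩ := hf
  exact ⟨_, ⟨W, hW, rfl⟩, fun g g' g'' s s' s'' hs hs' hs'' =>
    h _ _ _ _ _ _ (Subgroup.mem_subgroupOf.mp hs) (Subgroup.mem_subgroupOf.mp hs')
      (Subgroup.mem_subgroupOf.mp hs'')⟩

end Dictionary

variable {k : Type} [Field k] {𝒰 : LevelFamily G} {U : Subgroup G} {A : Rep.{0} k U}

/-! ### Levels -/

section Levels

theorem isLev₁_sh₁ {c : G → Rep.coind U.subtype A} (hc : IsLev₁ 𝒰 c) :
    IsLev₁ (subLevel 𝒰 U) (sh₁ U A c) := by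
  obtain ⟨W, hW, h⟩ := hc
  exact ⟨_, ⟨W, hW, rfl⟩, rinv₁_sh₁ (N := W) h⟩

theorem isLev₂_sh₂ {c : G × G → Rep.coind U.subtype A} (hc : IsLev₂ 𝒰 c) :
    IsLev₂ (subLevel 𝒰 U) (sh₂ U A c) := by
  obtain ⟨W, hW, h⟩ := hc
  exact ⟨_, ⟨W, hW, rfl⟩, rinv₂_sh₂ (N := W) h⟩

theorem isLev₃_sh₃ {c : G × G × G → Rep.coind U.subtype A} (hc : IsLev₃ 𝒰 c) :
    IsLev₃ (subLevel 𝒰 U) (sh₃ U A c) := by
  obtain ⟨W, hW, h⟩ := hc
  exact ⟨_, ⟨W, hW, rfl⟩, rinv₃_sh₃ (N := W) h⟩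

variable (R : Retr U) (hU : ∃ W ∈ 𝒰.sets, W ≤ U)

include hU

theorem isLev₁_ind₁ {β : U → A} (hβ : IsLev₁ (subLevel 𝒰 U) β) : IsLev₁ 𝒰 (ind₁ A R β) := by
  obtain ⟨_, ⟨W, hW, rfl⟩, h⟩ := hβ
  obtain ⟨N, hN, hNn, hNU, hNW⟩ := exists_normal_le 𝒰 hU hW
  have := hNn
  refine ⟨N, hN, rinv₁_ind₁ R hNU ?_⟩
  intro g s hs
  exact h g s (Subgroup.mem_subgroupOf.mpr (hNW (Subgroup.mem_subgroupOf.mp hs)))

theorem isLev₂_ind₂ {β : U × U → A} (hβ : IsLev₂ (subLevel 𝒰 U) β) : IsLev₂ 𝒰 (ind₂ A R β) := by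
  obtain ⟨_, ⟨W, hW, rfl⟩, h⟩ := hβ
  obtain ⟨N, hN, hNn, hNU, hNW⟩ := exists_normal_le 𝒰 hU hW
  have := hNn
  refine ⟨N, hN, rinv₂_ind₂ R hNU ?_⟩
  intro g g' s s' hs hs'
  exact h g g' s s' (Subgroup.mem_subgroupOf.mpr (hNW (Subgroup.mem_subgroupOf.mp hs)))
    (Subgroup.mem_subgroupOf.mpr (hNW (Subgroup.mem_subgroupOf.mp hs')))

theorem isLev₃_ind₃ {β : U × U × U → A} (hβ : IsLev₃ (subLevel 𝒰 U) β) :
    IsLev₃ 𝒰 (ind₃ A R β) := by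
  obtain ⟨_, ⟨W, hW, rfl⟩, h⟩ := hβ
  obtain ⟨N, hN, hNn, hNU, hNW⟩ := exists_normal_le 𝒰 hU hW
  have := hNn
  refine ⟨N, hN, rinv₃_ind₃ R hNU ?_⟩
  intro g g' g'' s s' s'' hs hs' hs''
  exact h g g' g'' s s' s'' (Subgroup.mem_subgroupOf.mpr (hNW (Subgroup.mem_subgroupOf.mp hs)))
    (Subgroup.mem_subgroupOf.mpr (hNW (Subgroup.mem_subgroupOf.mp hs')))
    (Subgroup.mem_subgroupOf.mpr (hNW (Subgroup.mem_subgroupOf.mp hs'')))

theorem isLev₁_hom₁ {c : G × G → Rep.coind U.subtype A} (hc : IsLev₂ 𝒰 c) :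
    IsLev₁ 𝒰 (hom₁ A R c) := by
  obtain ⟨W, hW, h⟩ := hc
  obtain ⟨N, hN, hNn, hNU, hNW⟩ := exists_normal_le 𝒰 hU hW
  have := hNn
  refine ⟨N, hN, rinv₁_hom₁ R hNU ?_⟩
  intro g g' s s' hs hs'
  exact h g g' s s' (hNW hs) (hNW hs')

theorem isLev₂_hom₂ {c : G × G × G → Rep.coind U.subtype A} (hc : IsLev₃ 𝒰 c) :
    IsLev₂ 𝒰 (hom₂ A R c) := by
  obtain ⟨W, hW, h⟩ := hc
  obtain ⟨N, hN, hNn, hNU, hNW⟩ := exists_normal_le 𝒰 hU hW
  have := hNn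
  refine ⟨N, hN, rinv₂_hom₂ R hNU ?_⟩
  intro g g' g'' s s' s'' hs hs' hs''
  exact h g g' g'' s s' s'' (hNW hs) (hNW hs') (hNW hs'')

end Levels

/-! ### Cocycles and coboundaries -/

section Cocycles

theorem sh₁_mem_Z1 {c : G → Rep.coind U.subtype A} (hc : c ∈ Z1 𝒰 (Rep.coind U.subtype A)) :
    sh₁ U A c ∈ Z1 (subLevel 𝒰 U) A :=
  ⟨isLev₁_sh₁ hc.1, sh₁_mem_cocycles₁ hc.2⟩

theorem sh₂_mem_Z2 {c : G × G → Rep.coind U.subtype A}
    (hc : c ∈ Z2 𝒰 (Rep.coind U.subtype A)) : sh₂ U A c ∈ Z2 (subLevel 𝒰 U) A :=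
  ⟨isLev₂_sh₂ hc.1, sh₂_mem_cocycles₂ hc.2⟩

theorem sh₂_mem_B2 {c : G × G → Rep.coind U.subtype A}
    (hc : c ∈ B2 𝒰 (Rep.coind U.subtype A)) : sh₂ U A c ∈ B2 (subLevel 𝒰 U) A := by
  obtain ⟨φ, hφ, rfl⟩ := hc
  exact ⟨sh₁ U A φ, isLev₁_sh₁ hφ, (sh₂_d₁₂ φ).symm⟩

variable (R : Retr U) (hU : ∃ W ∈ 𝒰.sets, W ≤ U)

include hU

theorem ind₁_mem_Z1 {β : U → A} (hβ : β ∈ Z1 (subLevel 𝒰 U) A) :
    ind₁ A R β ∈ Z1 𝒰 (Rep.coind U.subtype A) :=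
  ⟨isLev₁_ind₁ R hU hβ.1, ind₁_mem_cocycles₁ R hβ.2⟩

theorem ind₂_mem_Z2 {β : U × U → A} (hβ : β ∈ Z2 (subLevel 𝒰 U) A) :
    ind₂ A R β ∈ Z2 𝒰 (Rep.coind U.subtype A) :=
  ⟨isLev₂_ind₂ R hU hβ.1, ind₂_mem_cocycles₂ R hβ.2⟩

theorem ind₂_mem_B2 {β : U × U → A} (hβ : β ∈ B2 (subLevel 𝒰 U) A) :
    ind₂ A R β ∈ B2 𝒰 (Rep.coind U.subtype A) := by
  obtain ⟨γ, hγ, rfl⟩ := hβ
  exact ⟨ind₁ A R γ, isLev₁_ind₁ R hU hγ, (ind₂_d₁₂ R γ).symm⟩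

/-- Explicit level primitive: if `sh₂ c = d γ` with `γ` a level cochain of `U`, then the level
cocycle `c` is `d (ind₁ γ - hom₁ c)`. -/
theorem ind₁_sub_hom₁_mem_C1 {c : G × G → Rep.coind U.subtype A}
    (hc : IsLev₂ 𝒰 c) {γ : U → A} (hγ : IsLev₁ (subLevel 𝒰 U) γ) :
    ind₁ A R γ - hom₁ A R c ∈ C1 𝒰 (Rep.coind U.subtype A) :=
  (C1 𝒰 (Rep.coind U.subtype A)).sub_mem (isLev₁_ind₁ R hU hγ) (isLev₁_hom₁ R hU hc)

omit R in
/-- **Shapiro's lemma in degree 2, level form**: a level 2-cocycle with values in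
`coind_U^G A` is the coboundary of a level cochain iff its evaluation at `1` is the coboundary of
a level cochain of `U`. -/
theorem mem_B2_iff_sh₂ {c : G × G → Rep.coind U.subtype A}
    (hc : c ∈ Z2 𝒰 (Rep.coind U.subtype A)) :
    c ∈ B2 𝒰 (Rep.coind U.subtype A) ↔ sh₂ U A c ∈ B2 (subLevel 𝒰 U) A := by
  refine ⟨sh₂_mem_B2, ?_⟩
  rintro ⟨γ, hγ, hγc⟩
  obtain ⟨R⟩ := Retr.nonempty U
  exact ⟨ind₁ A R γ - hom₁ A R c, ind₁_sub_hom₁_mem_C1 R hU hc.1 hγ,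
    d₁₂_ind₁_sub_hom₁ R hc.2 hγc⟩

end Cocycles

/-! ### The maps on level cohomology -/

section Cohomology

variable (𝒰 U A)

/-- Shapiro's map on level `H¹`: evaluation at `1`. -/
noncomputable def shH1 : H1 𝒰 (Rep.coind U.subtype A) →ₗ[k] H1 (subLevel 𝒰 U) A :=
  Submodule.mapQ _ _ ((sh₁ U A).restrict fun _ hc => sh₁_mem_Z1 hc) fun _ hc =>
    sh₁_mem_coboundaries₁ hc

/-- Shapiro's map on level `H²`: evaluation at `1`. -/
noncomputable def shH2 : H2 𝒰 (Rep.coind U.subtype A) →ₗ[k] H2 (subLevel 𝒰 U) A :=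
  Submodule.mapQ _ _ ((sh₂ U A).restrict fun _ hc => sh₂_mem_Z2 hc) fun _ hc =>
    sh₂_mem_B2 hc

variable {𝒰 U A}

@[simp] theorem shH1_mk (c : ↥(Z1 𝒰 (Rep.coind U.subtype A))) :
    shH1 𝒰 U A (Submodule.Quotient.mk c) =
      Submodule.Quotient.mk ⟨sh₁ U A c.1, sh₁_mem_Z1 c.2⟩ := rfl

@[simp] theorem shH2_mk (c : ↥(Z2 𝒰 (Rep.coind U.subtype A))) :
    shH2 𝒰 U A (Submodule.Quotient.mk c) =
      Submodule.Quotient.mk ⟨sh₂ U A c.1, sh₂_mem_Z2 c.2⟩ := rfl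

theorem shH1_injective : Function.Injective (shH1 𝒰 U A) := by
  rw [injective_iff_map_eq_zero]
  intro x hx
  induction x using Submodule.Quotient.induction_on with
  | _ c =>
    rw [shH1_mk, Submodule.Quotient.mk_eq_zero] at hx
    rw [Submodule.Quotient.mk_eq_zero]
    exact (mem_coboundaries₁_iff_sh₁ c.2.2).2 hx

variable (hU : ∃ W ∈ 𝒰.sets, W ≤ U)

include hU

theorem shH1_surjective : Function.Surjective (shH1 𝒰 U A) := by
  intro y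
  obtain ⟨R⟩ := Retr.nonempty U
  induction y using Submodule.Quotient.induction_on with
  | _ β =>
    refine ⟨Submodule.Quotient.mk ⟨ind₁ A R β.1, ind₁_mem_Z1 R hU β.2⟩, ?_⟩
    rw [shH1_mk]
    congr 1
    exact Subtype.ext (sh₁_ind₁ R β.1)

theorem shH2_injective : Function.Injective (shH2 𝒰 U A) := by
  rw [injective_iff_map_eq_zero]
  intro x hx
  induction x using Submodule.Quotient.induction_on with
  | _ c =>
    rw [shH2_mk, Submodule.Quotient.mk_eq_zero] at hx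
    rw [Submodule.Quotient.mk_eq_zero]
    exact (mem_B2_iff_sh₂ hU c.2).2 hx

theorem shH2_surjective : Function.Surjective (shH2 𝒰 U A) := by
  intro y
  obtain ⟨R⟩ := Retr.nonempty U
  induction y using Submodule.Quotient.induction_on with
  | _ β =>
    refine ⟨Submodule.Quotient.mk ⟨ind₂ A R β.1, ind₂_mem_Z2 R hU β.2⟩, ?_⟩
    rw [shH2_mk]
    congr 1
    exact Subtype.ext (sh₂_ind₂ R β.1)

variable (𝒰 U A)

/-- **Shapiro's isomorphism on level `H¹`.** -/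
noncomputable def shEquivH1 : H1 𝒰 (Rep.coind U.subtype A) ≃ₗ[k] H1 (subLevel 𝒰 U) A :=
  LinearEquiv.ofBijective (shH1 𝒰 U A) ⟨shH1_injective, shH1_surjective hU⟩

/-- **Shapiro's isomorphism on level `H²`.** -/
noncomputable def shEquivH2 : H2 𝒰 (Rep.coind U.subtype A) ≃ₗ[k] H2 (subLevel 𝒰 U) A :=
  LinearEquiv.ofBijective (shH2 𝒰 U A) ⟨shH2_injective hU, shH2_surjective hU⟩

variable {𝒰 U A}

@[simp] theorem shEquivH1_apply (x : H1 𝒰 (Rep.coind U.subtype A)) :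
    shEquivH1 𝒰 U A hU x = shH1 𝒰 U A x := rfl

@[simp] theorem shEquivH2_apply (x : H2 𝒰 (Rep.coind U.subtype A)) :
    shEquivH2 𝒰 U A hU x = shH2 𝒰 U A x := rfl

theorem shEquivH1_symm_mk (R : Retr U) (β : ↥(Z1 (subLevel 𝒰 U) A)) :
    (shEquivH1 𝒰 U A hU).symm (Submodule.Quotient.mk β) =
      Submodule.Quotient.mk ⟨ind₁ A R β.1, ind₁_mem_Z1 R hU β.2⟩ := by
  rw [LinearEquiv.symm_apply_eq, shEquivH1_apply, shH1_mk]
  congr 1
  exact Subtype.ext (sh₁_ind₁ R β.1).symm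

theorem shEquivH2_symm_mk (R : Retr U) (β : ↥(Z2 (subLevel 𝒰 U) A)) :
    (shEquivH2 𝒰 U A hU).symm (Submodule.Quotient.mk β) =
      Submodule.Quotient.mk ⟨ind₂ A R β.1, ind₂_mem_Z2 R hU β.2⟩ := by
  rw [LinearEquiv.symm_apply_eq, shEquivH2_apply, shH2_mk]
  congr 1
  exact Subtype.ext (sh₂_ind₂ R β.1).symm

end Cohomology

/-! ### Degree 0 -/

section Invariants

variable (U A)

/-- **Shapiro in degree 0**: the `G`-invariants of `coind_U^G A` are the `U`-invariants of `A`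
(evaluation at `1`; inverse: constant functions). -/
noncomputable def shInv :
    ↥((Rep.coind U.subtype A).ρ.invariants) ≃ₗ[k] ↥(A.ρ.invariants) where
  toFun m := ⟨sh₀ U A m.1, fun u => by
    have h1 : ((Rep.coind U.subtype A).ρ (u : G) m.1) = m.1 := m.2 (u : G)
    have h2 : m.1.1 ((1 : G) * (u : G)) = m.1.1 1 := by
      rw [← coind_ρ_apply (u : G) m.1 1, h1]
    show A.ρ u (m.1.1 1) = m.1.1 1
    rw [← coind_apply_coe m.1 u, ← h2, one_mul]⟩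
  map_add' _ _ := rfl
  map_smul' _ _ := rfl
  invFun a := ⟨⟨fun _ => a.1, fun u _ => (a.2 u).symm⟩, fun _ => rfl⟩
  left_inv m := by
    apply Subtype.ext
    apply Subtype.ext
    funext x
    have h1 : ((Rep.coind U.subtype A).ρ x m.1) = m.1 := m.2 x
    show m.1.1 1 = m.1.1 x
    rw [← h1, coind_ρ_apply, one_mul, h1]
  right_inv _ := rfl

variable {U A}

@[simp] theorem shInv_apply_coe (m : ↥((Rep.coind U.subtype A).ρ.invariants)) :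
    (shInv U A m : A) = m.1.1 1 := rfl

@[simp] theorem shInv_symm_apply_coe (a : ↥(A.ρ.invariants)) (x : G) :
    ((shInv U A).symm a).1.1 x = a.1 := rfl

end Invariants

end Fermat.Agent.S55.Shapiro
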