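import Mathlib
import Fermat.Agent.S55.Shapiro.Mackey

/-!
# Mackey's decomposition in degree 0

`r : H →* G`, `U ≤ G`, `A : Rep k U`, `M := coind_U^G A`, `D : DRep U r J` a system of
representatives of `U \ G / r(H)`, `V_j := conjSub U r (D.τ j)`, `A_j := locRep U A r (D.τ j)`.

* `mkH0 D : (Res_r M)^H ≃ₗ ∏_j (A_j)^{V_j}`, `m ↦ (m(τ_j))_j` (no finiteness of `J`);
* trivial coefficients: `mkH0Triv D : (Res_r coind_U^G V)^H ≃ₗ (J → V)`, hence
  `finrank_invariants_res_coind_trivial : dim (Res_r coind_U^G k)^H = #J`;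
* the same for any module `N` with an equivariant linear equivalence `coind_U^G k ≃ₗ N`
  (`finrank_invariants_res_of_equiv`).

(`Abs.H0 M` is reducibly `↥(M.ρ.invariants)`.)
-/

set_option autoImplicit false

open groupCohomology

namespace Fermat.Agent.S55.Shapiro

variable {k : Type} [CommRing k] {G : Type} [Group G] {H : Type} [Group H]

/-- An element is invariant iff its coboundary vanishes. -/
theorem mem_invariants_iff_d₀₁ (M : Rep.{0} k H) (m : M) :
    m ∈ M.ρ.invariants ↔ (d₀₁ M).hom m = 0 := by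
  constructor
  · intro hm
    funext g
    rw [d₀₁_hom_apply, hm g]
    exact sub_self m
  · intro h g
    have hg := congrFun h g
    rw [d₀₁_hom_apply] at hg
    exact sub_eq_zero.mp hg

variable {U : Subgroup G} {A : Rep.{0} k U} {r : H →* G}

theorem mk₀_mem_invariants (g : G) {m : Rep.coind U.subtype A}
    (hm : m ∈ (Rep.res r (Rep.coind U.subtype A)).ρ.invariants) :
    mk₀ U A r g m ∈ (locRep U A r g).ρ.invariants := by
  intro h
  have h1 : (Rep.res r (Rep.coind U.subtype A)).ρ (h : H) m = m := hm (h : H)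
  have h2 : m.1 (g * r (h : H)) = ((Rep.res r (Rep.coind U.subtype A)).ρ (h : H) m).1 g := rfl
  show A.ρ (conjHom U r g h) (m.1 g) = m.1 g
  rw [← apply_mul_r m g h, h2, h1]

variable {J : Type} (D : DRep U r J)

theorem unmk₀_mem_invariants (R : ∀ j : J, Retr (conjSub U r (D.τ j)))
    {a : ∀ j : J, locRep U A r (D.τ j)}
    (ha : ∀ j, a j ∈ (locRep U A r (D.τ j)).ρ.invariants) :
    unmk₀ A D R a ∈ (Rep.res r (Rep.coind U.subtype A)).ρ.invariants := by
  rw [mem_invariants_iff_d₀₁, ← unmk₁_d₀₁]
  have h0 : (fun j => (d₀₁ (locRep U A r (D.τ j))).hom (a j)) = 0 :=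
    funext fun j => (mem_invariants_iff_d₀₁ _ _).1 (ha j)
  rw [h0, map_zero]

/-- **Mackey in degree 0**: the invariants of the local group in `Res_r coind_U^G A` are the
product over the double cosets of the invariants of `V_j` in `A_j`. -/
noncomputable def mkH0 :
    ↥((Rep.res r (Rep.coind U.subtype A)).ρ.invariants) ≃ₗ[k]
      ∀ j : J, ↥((locRep U A r (D.τ j)).ρ.invariants) where
  toFun m j := ⟨mk₀ U A r (D.τ j) m.1, mk₀_mem_invariants (D.τ j) m.2⟩
  map_add' _ _ := rfl
  map_smul' _ _ := rfl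
  invFun a := ⟨unmk₀ A D (fun j => (Retr.nonempty _).some) (fun j => (a j).1),
    unmk₀_mem_invariants D _ fun j => (a j).2⟩
  left_inv m := by
    apply Subtype.ext
    have h := unmk₀_mk₀_sub D (fun j => (Retr.nonempty (conjSub U r (D.τ j))).some) m.1
    rw [(mem_invariants_iff_d₀₁ _ _).1 m.2, map_zero, sub_eq_zero] at h
    exact h
  right_inv a := by
    funext j
    apply Subtype.ext
    exact mk₀_unmk₀ D _ (fun j => (a j).1) j

@[simp] theorem mkH0_apply_coe (m : ↥((Rep.res r (Rep.coind U.subtype A)).ρ.invariants))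
    (j : J) : (mkH0 D m j : locRep U A r (D.τ j)) = m.1.1 (D.τ j) := rfl

/-! ### Trivial coefficients -/

section Trivial

variable (V : Type) [AddCommGroup V] [Module k V]

/-- For trivial coefficients every element of `A_j` is invariant. -/
noncomputable def trivInvEquiv (g : G) :
    ↥((locRep U (Rep.trivial k U V) r g).ρ.invariants) ≃ₗ[k] V where
  toFun a := a.1
  map_add' _ _ := rfl
  map_smul' _ _ := rfl
  invFun x := ⟨x, fun _ => rfl⟩
  left_inv _ := rfl
  right_inv _ := rfl

/-- **Mackey in degree 0, trivial coefficients**: `(Res_r coind_U^G V)^H ≃ (J → V)`,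
`m ↦ (m(τ_j))_j`. -/
noncomputable def mkH0Triv :
    ↥((Rep.res r (Rep.coind U.subtype (Rep.trivial k U V))).ρ.invariants) ≃ₗ[k] (J → V) :=
  mkH0 (A := Rep.trivial k U V) D ≪≫ₗ
    LinearEquiv.piCongrRight fun j => trivInvEquiv (U := U) (r := r) V (D.τ j)

@[simp] theorem mkH0Triv_apply
    (m : ↥((Rep.res r (Rep.coind U.subtype (Rep.trivial k U V))).ρ.invariants)) (j : J) :
    mkH0Triv D V m j = m.1.1 (D.τ j) := rfl

end Trivial

section Finrank

variable {F : Type} [Field F] {U' : Subgroup G} {r' : H →* G} {J' : Type} [Finite J']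

/-- `dim (Res_r coind_U^G k)^H = #(U \ G / r(H))`. -/
theorem finrank_invariants_res_coind_trivial (D' : DRep U' r' J') :
    Module.finrank F
        ↥((Rep.res r' (Rep.coind U'.subtype (Rep.trivial F U' F))).ρ.invariants) =
      Nat.card J' := by
  have := Fintype.ofFinite J'
  rw [(mkH0Triv D' F).finrank_eq, Module.finrank_pi, Nat.card_eq_fintype_card]

/-- The same for any module `N` equivariantly isomorphic to `coind_U^G k`. -/
theorem finrank_invariants_res_of_equiv (D' : DRep U' r' J') (N : Rep.{0} F G)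
    (T : (Rep.coind U'.subtype (Rep.trivial F U' F)) ≃ₗ[F] N)
    (hT : ∀ g m, T ((Rep.coind U'.subtype (Rep.trivial F U' F)).ρ g m) = N.ρ g (T m)) :
    Module.finrank F ↥((Rep.res r' N).ρ.invariants) = Nat.card J' := by
  rw [← finrank_invariants_res_coind_trivial (F := F) D']
  refine LinearEquiv.finrank_eq
    { toFun := fun n => ⟨T.symm n.1, fun h => ?_⟩
      map_add' := fun _ _ => Subtype.ext (map_add T.symm _ _)
      map_smul' := fun _ _ => Subtype.ext (map_smul T.symm _ _)
      invFun := fun m => ⟨T m.1, fun h => ?_⟩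
      left_inv := fun n => Subtype.ext (T.apply_symm_apply n.1)
      right_inv := fun m => Subtype.ext (T.symm_apply_apply m.1) }
  · have h1 : N.ρ (r' h) n.1 = n.1 := n.2 h
    show (Rep.coind U'.subtype (Rep.trivial F U' F)).ρ (r' h) (T.symm n.1) = T.symm n.1
    apply T.injective
    rw [hT, T.apply_symm_apply, h1]
  · have h1 : (Rep.coind U'.subtype (Rep.trivial F U' F)).ρ (r' h) m.1 = m.1 := m.2 h
    show N.ρ (r' h) (T m.1) = T m.1
    rw [← hT, h1]

end Finrank

end Fermat.Agent.S55.Shapiro
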