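import Mathlib
import Fermat.Agent.S55.Shapiro.MackeyH0
import Fermat.Agent.S55.Shapiro.AbsLevel
import Fermat.Agent.S55.Glue.LocalDegreeMackey

/-!
# Small arithmetic / level corollaries of the Shapiro–Mackey files

* `comp_mem_B2`, `comp_mem_Z2`, `comp_mem_C1`, `comp_mem_C2` : restriction along a level map
  preserves level cochains, cocycles and coboundaries;
* `ind₂_d₁₂_comp_mem_B2` : for `w` a level 1-cochain of the open subgroup `U`, the restriction to
  a local group of `ind₂ (d w)` is a level coboundary (`= d (res (ind₁ w))`);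
* `finrank_invariants_primeLocal` : `dim H⁰(G_q, Res N) = #{places of K above q}` for
  `N ≅ coind_{G_K}^{G_ℚ} k`.
-/

set_option autoImplicit false

open groupCohomology

namespace Fermat.Agent.S55.Shapiro.ArithFacts

open Fermat.Agent.S55.Abs Fermat.Agent.S55.Shapiro

section Restriction

variable {k : Type} [Field k] {G : Type} [Group G] {H : Type} [Group H]
  {𝒰 : LevelFamily G} {𝒱 : LevelFamily H} {r : H →* G} (hr : IsLevelMap 𝒱 𝒰 r)
  (M : Rep.{0} k G)

include hr

theorem comp_mem_C1 {c : G → M} (hc : c ∈ C1 𝒰 M) :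
    (fun h => c (r h)) ∈ C1 𝒱 (Rep.res r M) :=
  IsLev₁.precomp hr hc

theorem comp_mem_C2 {c : G × G → M} (hc : c ∈ C2 𝒰 M) :
    (fun p : H × H => c (r p.1, r p.2)) ∈ C2 𝒱 (Rep.res r M) :=
  IsLev₂.precomp hr hc

omit hr in
theorem d₁₂_comp (c : G → M) :
    (d₁₂ (Rep.res r M)).hom (fun h => c (r h)) =
      fun p : H × H => (d₁₂ M).hom c (r p.1, r p.2) := by
  funext p
  show M.ρ (r p.1) (c (r p.2)) - c (r (p.1 * p.2)) + c (r p.1) =
    M.ρ (r p.1) (c (r p.2)) - c (r p.1 * r p.2) + c (r p.1)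
  rw [map_mul]

omit hr in
theorem d₂₃_comp (c : G × G → M) :
    (d₂₃ (Rep.res r M)).hom (fun p : H × H => c (r p.1, r p.2)) =
      fun p : H × H × H => (d₂₃ M).hom c (r p.1, r p.2.1, r p.2.2) := by
  funext p
  show M.ρ (r p.1) (c (r p.2.1, r p.2.2)) - c (r (p.1 * p.2.1), r p.2.2)
      + c (r p.1, r (p.2.1 * p.2.2)) - c (r p.1, r p.2.1) =
    M.ρ (r p.1) (c (r p.2.1, r p.2.2)) - c (r p.1 * r p.2.1, r p.2.2)
      + c (r p.1, r p.2.1 * r p.2.2) - c (r p.1, r p.2.1)
  rw [map_mul, map_mul]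

/-- Restriction of a level coboundary is a level coboundary. -/
theorem comp_mem_B2 {c : G × G → M} (hc : c ∈ B2 𝒰 M) :
    (fun p : H × H => c (r p.1, r p.2)) ∈ B2 𝒱 (Rep.res r M) := by
  obtain ⟨φ, hφ, rfl⟩ := hc
  exact ⟨fun h => φ (r h), comp_mem_C1 hr M hφ, d₁₂_comp M φ⟩

/-- Restriction of a level cocycle is a level cocycle. -/
theorem comp_mem_Z2 {c : G × G → M} (hc : c ∈ Z2 𝒰 M) :
    (fun p : H × H => c (r p.1, r p.2)) ∈ Z2 𝒱 (Rep.res r M) := by
  refine ⟨comp_mem_C2 hr M hc.1, LinearMap.mem_ker.mpr ?_⟩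
  have h0 : (d₂₃ M).hom c = 0 := LinearMap.mem_ker.mp hc.2
  rw [d₂₃_comp, h0]
  rfl

end Restriction

section Ind

variable {k : Type} [Field k] {G : Type} [Group G] {H : Type} [Group H]
  {𝒰 : LevelFamily G} {𝒱 : LevelFamily H} {r : H →* G} (hr : IsLevelMap 𝒱 𝒰 r)
  {U : Subgroup G} {A : Rep.{0} k U} (R : Retr U) (hU : ∃ W ∈ 𝒰.sets, W ≤ U)

include hr hU

/-- For `w` a level cochain of the open subgroup `U`, the restriction to the local group of
`ind₂ (d w)` is the coboundary of the level cochain `res (ind₁ w)`. -/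
theorem ind₂_d₁₂_comp_mem_B2 {w : U → A} (hw : IsLev₁ (subLevel 𝒰 U) w) :
    (fun p : H × H => ind₂ A R ((d₁₂ A).hom w) (r p.1, r p.2)) ∈
      B2 𝒱 (Rep.res r (Rep.coind U.subtype A)) := by
  refine comp_mem_B2 hr (Rep.coind U.subtype A) ?_
  exact ⟨ind₁ A R w, isLev₁_ind₁ R hU hw, (ind₂_d₁₂ R w).symm⟩

/-- The restriction to the local group of `ind₂ y`, `y` a level cocycle of `U`, is a level
cocycle. -/
theorem ind₂_comp_mem_Z2 {y : U × U → A} (hy : y ∈ Z2 (subLevel 𝒰 U) A) :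
    (fun p : H × H => ind₂ A R y (r p.1, r p.2)) ∈
      Z2 𝒱 (Rep.res r (Rep.coind U.subtype A)) :=
  comp_mem_Z2 hr (Rep.coind U.subtype A) (ind₂_mem_Z2 R hU hy)

end Ind

section Places

open Fermat.Agent.S55.Glue Fermat.Agent.S55.Glue.LocalDegree Fermat.Agent.S55.Glue.PlacesAbove
  ExtCitation

local notation "Qb" => AlgebraicClosure ℚ
local notation "GQ" => (AlgebraicClosure ℚ ≃ₐ[ℚ] AlgebraicClosure ℚ)

variable {F : Type} [Field F] (K : IntermediateField ℚ Qb) [NumberField K] (q : Nat.Primes)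

/-- `dim H⁰(G_q, Res N) = #{places of K above q}` for `N ≅ coind_{G_K}^{G_ℚ} F`. -/
theorem finrank_invariants_primeLocal (N : Rep.{0} F GQ)
    (T : (Rep.coind K.fixingSubgroup.subtype (Rep.trivial F K.fixingSubgroup F)) ≃ₗ[F] N)
    (hT : ∀ g m, T ((Rep.coind K.fixingSubgroup.subtype
      (Rep.trivial F K.fixingSubgroup F)).ρ g m) = N.ρ g (T m)) :
    Module.finrank F ↥((Rep.res (primeLocalToGlobal q) N).ρ.invariants) =
      Nat.card (PlacesOver K (q : ℕ)) := by
  have : Fact (q : ℕ).Prime := ⟨q.2⟩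
  obtain ⟨D⟩ := DRep.nonempty K.fixingSubgroup (primeLocalToGlobal q)
  have := drep_finite D
  rw [finrank_invariants_res_of_equiv D N T hT]
  exact drep_card_eq_card_placesOver (q : ℕ) K D

/-- `dim H⁰(G_q, Res coind_{G_K}^{G_ℚ} F) = #{places of K above q}`. -/
theorem finrank_invariants_primeLocal_coind :
    Module.finrank F ↥((Rep.res (primeLocalToGlobal q)
      (Rep.coind K.fixingSubgroup.subtype (Rep.trivial F K.fixingSubgroup F))).ρ.invariants) =
      Nat.card (PlacesOver K (q : ℕ)) :=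
  finrank_invariants_primeLocal K q _ (LinearEquiv.refl F _) (fun _ _ => rfl)

end Places

end Fermat.Agent.S55.Shapiro.ArithFacts
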