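import Fermat.Agent.S55.Shapiro.Level
import Fermat.Agent.S55.Glue.LocalRange
import Fermat.Agent.S55.Glue.PlacesAbove
import Fermat.Agent.S55.Abs.Bridge
import Fermat.Agent.CFT.Global.G4Q

/-!
# (HPQ), local half: local triviality on every decomposition group

`Gq = Gal(Qb/ℚ)`, `M : Rep k Gq` any coefficient module.

* `conj_cocycle₂` : the conjugation homotopy in degree 2 (any group): for a 2-cocycle `a`,
  `a (x, y) = g • a (g⁻¹ x g, g⁻¹ y g) + d (conjPrim a g) (x, y)`.
* `IsCobOn M D a` : on the subgroup `D ≤ Gq`, the 2-cochain `a` is the coboundary of a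
  level-constant 1-cochain of `D` with values in `M`.
* `isCobOn_of_place` : for a level-constant 2-cocycle, `IsCobOn` on the decomposition group of
  one place over `ℓ` implies `IsCobOn` on the decomposition group of every place over `ℓ`.
* `isCobOn_of_local` : a local coboundary along the Prelude's `primeLocalToGlobal q` gives
  `IsCobOn` on `D(Av)` for every place `Av` of `Qb` over `q`.
* `sh₂_isCobOn`, `sh₂_locTriv`, `sh₂_locTriv_of_mem_B2` : for `M = coind_U A`, evaluation at `1`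
  turns this into the local hypothesis (shape (D)) of the Hasse principle over the fixed field
  of `U`, for the cocycle `sh₂ a` of `U`.
-/

set_option autoImplicit false

open CategoryTheory groupCohomology ExtCitation
open scoped Pointwise

namespace Fermat.Agent.S55.Shapiro.HPQLocal

attribute [local instance] Glue.isAlgebraicQbar_lg Glue.isAlgClosureQbar_lg Glue.normalQbar_lg

section Conj

variable {k G : Type} [CommRing k] [Group G] (M : Rep.{0} k G)

/-- The primitive of the conjugation homotopy in degree 2. -/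
def conjPrim (a : G × G → M) (g : G) : G → M :=
  fun x => M.ρ g (a (g⁻¹, x) - a (g⁻¹ * x * g, g⁻¹))

theorem conjPrim_apply (a : G × G → M) (g x : G) :
    conjPrim M a g x = M.ρ g (a (g⁻¹, x) - a (g⁻¹ * x * g, g⁻¹)) := rfl

/-- **Conjugation homotopy in degree 2.** A 2-cocycle differs from its conjugate by an explicit
coboundary. -/
theorem conj_cocycle₂ {a : G × G → M} (ha : a ∈ cocycles₂ M) (g x y : G) :
    a (x, y) = M.ρ g (a (g⁻¹ * x * g, g⁻¹ * y * g)) +
      (M.ρ x (conjPrim M a g y) - conjPrim M a g (x * y) + conjPrim M a g x) := by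
  have hcoc := (mem_cocycles₂_iff a).1 ha
  have e1 := hcoc g⁻¹ x y
  have e2 := hcoc (g⁻¹ * x * g) g⁻¹ y
  have e3 := hcoc (g⁻¹ * x * g) (g⁻¹ * y * g) g⁻¹
  have r1 : g⁻¹ * x * g * g⁻¹ = g⁻¹ * x := by group
  have r2 : g⁻¹ * y * g * g⁻¹ = g⁻¹ * y := by group
  have r3 : g⁻¹ * x * g * (g⁻¹ * y * g) = g⁻¹ * (x * y) * g := by group
  rw [r1] at e2
  rw [r3, r2] at e3
  -- apply `ρ g` to the three identities
  have hgg : ∀ m : M, M.ρ g (M.ρ g⁻¹ m) = m := fun m => by
    rw [← Module.End.mul_apply, ← map_mul, mul_inv_cancel, map_one, Module.End.one_apply]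
  have hxg : ∀ m : M, M.ρ x (M.ρ g m) = M.ρ g (M.ρ (g⁻¹ * x * g) m) := fun m => by
    rw [← Module.End.mul_apply, ← map_mul, ← Module.End.mul_apply, ← map_mul]
    congr 2
    group
  have f1 := congrArg (M.ρ g) e1
  have f2 := congrArg (M.ρ g) e2
  have f3 := congrArg (M.ρ g) e3
  simp only [map_add, hgg] at f1 f2 f3
  simp only [conjPrim_apply, map_sub, hxg]
  linear_combination (norm := abel) -f1 + f2 - f3

end Conj

local notation "Qb" => AlgebraicClosure ℚ
local notation "Gq" => (AlgebraicClosure ℚ ≃ₐ[ℚ] AlgebraicClosure ℚ)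

section Place

variable {k : Type} [CommRing k] (M : Rep.{0} k Gq)

/-- The 2-cochain `a` of `Gq` is, on the subgroup `D`, the coboundary of a level-constant
1-cochain of `D` with values in `M`. -/
def IsCobOn (D : Subgroup Gq) (a : Gq × Gq → M) : Prop :=
  ∃ y : D → M, IsLevelConstant₁ D.subtype y ∧
    ∀ s t : D, a ((s : Gq), (t : Gq)) = M.ρ (s : Gq) (y t) - y (s * t) + y s

variable {M}

/-- Local triviality on a decomposition group passes to the conjugate decomposition groups. -/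
theorem isCobOn_smul {a : Gq × Gq → M} (ha : a ∈ cocycles₂ M)
    (hlev : IsLevelConstant₂ (MonoidHom.id Gq) a) (A : ValuationSubring Qb) (g : Gq)
    (h : IsCobOn M (A.decompositionSubgroup ℚ) a) :
    IsCobOn M ((g • A).decompositionSubgroup ℚ) a := by
  obtain ⟨y, ⟨Fy, hFy, hy⟩, hd⟩ := h
  obtain ⟨Fa, hFa, hla⟩ := hlev
  have := hFy; have := hFa
  -- a normal common level
  set F : IntermediateField ℚ Qb := IntermediateField.normalClosure ℚ (Fa ⊔ Fy : IntermediateField ℚ Qb) Qb
    with hF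
  have : Normal ℚ F := normalClosure.normal ℚ _ _
  have hFn : F.fixingSubgroup.Normal := (Abs.fixingSubgroup_normal_finiteIndex F).1
  have hFle : ∀ n : Gq, n ∈ F.fixingSubgroup → n ∈ Fa.fixingSubgroup ∧ n ∈ Fy.fixingSubgroup := by
    intro n hn
    have h1 : (Fa ⊔ Fy : IntermediateField ℚ Qb) ≤ F := IntermediateField.le_normalClosure _
    have h2 := IntermediateField.fixingSubgroup_antitone h1 hn
    exact ⟨IntermediateField.fixingSubgroup_antitone le_sup_left h2,
      IntermediateField.fixingSubgroup_antitone le_sup_right h2⟩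
  -- conjugation into the decomposition group of `A`
  let cj : ↥((g • A).decompositionSubgroup ℚ) → ↥(A.decompositionSubgroup ℚ) := fun σ =>
    ⟨g⁻¹ * (σ : Gq) * g, (Glue.PlacesAbove.mem_decompositionSubgroup_smul_iff A g σ).1 σ.2⟩
  have hcj_mul : ∀ σ τ, cj (σ * τ) = cj σ * cj τ := by
    intro σ τ
    apply Subtype.ext
    show g⁻¹ * ((σ : Gq) * (τ : Gq)) * g = (g⁻¹ * (σ : Gq) * g) * (g⁻¹ * (τ : Gq) * g)
    group
  have hgρ : ∀ (σ : Gq) (m : M), M.ρ g (M.ρ (g⁻¹ * σ * g) m) = M.ρ σ (M.ρ g m) := by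
    intro σ m
    rw [← Module.End.mul_apply, ← map_mul, ← Module.End.mul_apply, ← map_mul]
    congr 2
    group
  refine ⟨fun σ => M.ρ g (y (cj σ)) + conjPrim M a g (σ : Gq), ⟨F, inferInstance, ?_⟩, ?_⟩
  · intro σ n hn
    have hn' : g⁻¹ * (n : Gq) * g ∈ F.fixingSubgroup := by
      have := hFn.conj_mem (n : Gq) hn g⁻¹
      simpa using this
    have hn1 := (hFle _ hn').1
    have hn2 := (hFle _ hn').2
    have hnA := (hFle _ hn).1
    have e1 : y (cj (σ * n)) = y (cj σ) := by
      rw [hcj_mul]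
      exact hy (cj σ) (cj n) hn2
    have e2 : a (g⁻¹, (σ : Gq) * (n : Gq)) = a (g⁻¹, (σ : Gq)) := by
      have := hla g⁻¹ (σ : Gq) 1 (n : Gq) (one_mem _) hnA
      rwa [mul_one] at this
    have e3 : a (g⁻¹ * ((σ : Gq) * (n : Gq)) * g, g⁻¹) = a (g⁻¹ * (σ : Gq) * g, g⁻¹) := by
      have := hla (g⁻¹ * (σ : Gq) * g) g⁻¹ (g⁻¹ * (n : Gq) * g) 1 hn1 (one_mem _)
      rw [mul_one] at this
      rw [← this]
      congr 2
      group
    show M.ρ g (y (cj (σ * n))) + conjPrim M a g ((σ : Gq) * (n : Gq)) =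
      M.ρ g (y (cj σ)) + conjPrim M a g (σ : Gq)
    rw [e1, conjPrim_apply, conjPrim_apply, e2, e3]
  · intro σ τ
    have h1 := conj_cocycle₂ M ha g (σ : Gq) (τ : Gq)
    have h2 := hd (cj σ) (cj τ)
    have h3 : a (g⁻¹ * (σ : Gq) * g, g⁻¹ * (τ : Gq) * g) =
        M.ρ (g⁻¹ * (σ : Gq) * g) (y (cj τ)) - y (cj (σ * τ)) + y (cj σ) := by
      rw [hcj_mul]; exact h2
    rw [h1, h3]
    simp only [map_add, map_sub, hgρ]
    rw [Subgroup.coe_mul]
    abel

/-- Local triviality on the decomposition group of one place over `ℓ` gives local triviality on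
the decomposition group of every place over `ℓ`. -/
theorem isCobOn_of_place {a : Gq × Gq → M} (ha : a ∈ cocycles₂ M)
    (hlev : IsLevelConstant₂ (MonoidHom.id Gq) a) {ℓ : ℕ} (hℓ : ℓ.Prime)
    {A A' : ValuationSubring Qb} (hA : A.LiesOverPrime ℓ) (hA' : A'.LiesOverPrime ℓ)
    (h : IsCobOn M (A.decompositionSubgroup ℚ) a) :
    IsCobOn M (A'.decompositionSubgroup ℚ) a := by
  obtain ⟨g, rfl⟩ := Glue.PlacesAbove.exists_smul_eq hℓ hA hA'
  exact isCobOn_smul ha hlev A g h

/-- A local coboundary along `r` is a coboundary of a level-constant cochain on the range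
of `r`. -/
theorem isCobOn_range {H : Type} [Group H] (r : H →* Gq) {a : Gq × Gq → M}
    (h : ∃ b : H → M, IsLevelConstant₁ r b ∧
      ∀ x x' : H, a (r x, r x') = M.ρ (r x) (b x') - b (x * x') + b x) :
    IsCobOn M r.range a := by
  obtain ⟨b, hb, hd⟩ := h
  refine ⟨Glue.LocalRange.descendRange r b, Glue.LocalRange.isLevelConstant₁_descendRange r hb,
    fun d e => ?_⟩
  have e1 := Glue.LocalRange.descendRange_eq r hb d _ (Glue.LocalRange.map_choose_range r d)
  have e2 := Glue.LocalRange.descendRange_eq r hb e _ (Glue.LocalRange.map_choose_range r e)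
  have e3 := Glue.LocalRange.descendRange_eq r hb (d * e)
    (Classical.choose d.2 * Classical.choose e.2)
    (by rw [map_mul, Glue.LocalRange.map_choose_range, Glue.LocalRange.map_choose_range]; rfl)
  have := hd (Classical.choose d.2) (Classical.choose e.2)
  rw [Glue.LocalRange.map_choose_range, Glue.LocalRange.map_choose_range] at this
  rw [e1, e2, e3]
  exact this

/-- A local coboundary at the prime `q` (Prelude's local group) is a coboundary of a
level-constant cochain on the decomposition group of EVERY place of `Qb` over `q`. -/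
theorem isCobOn_of_local {a : Gq × Gq → M} (ha : a ∈ cocycles₂ M)
    (hlev : IsLevelConstant₂ (MonoidHom.id Gq) a) (q : Nat.Primes)
    (h : ∃ b : primeLocalGaloisGroup q → M, IsLevelConstant₁ (primeLocalToGlobal q) b ∧
      ∀ x x' : primeLocalGaloisGroup q, a (primeLocalToGlobal q x, primeLocalToGlobal q x') =
        M.ρ (primeLocalToGlobal q x) (b x') - b (x * x') + b x)
    (Av : ValuationSubring Qb) (hAv : Av.LiesOverPrime (q : ℕ)) :
    IsCobOn M (Av.decompositionSubgroup ℚ) a := by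
  have h0 : IsCobOn M ((primeLocalPlace q).decompositionSubgroup ℚ) a := by
    rw [← Glue.LocalRange.range_primeLocalToGlobal]
    exact isCobOn_range (primeLocalToGlobal q) h
  exact isCobOn_of_place ha hlev q.2 (CFT.Global.G4Q.liesOverPrime_primeLocalPlace q) hAv h0

end Place

section Coind

variable {k : Type} [CommRing k] (U : Subgroup Gq) (A : Rep.{0} k U)

/-- Evaluation at `1`: if `a` is a level coboundary on `D`, then `sh₂ a` is a level coboundary on
`D ⊓ U` (shape (D) of the Hasse principle over the fixed field of `U`). -/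
theorem sh₂_isCobOn {a : Gq × Gq → Rep.coind U.subtype A} (D : Subgroup Gq)
    (h : IsCobOn (Rep.coind U.subtype A) D a) :
    ∃ t : ↥(D ⊓ U) → A, IsLevelConstant₁ (Subgroup.subtype (D ⊓ U)) t ∧
      ∀ s s' : ↥(D ⊓ U), sh₂ U A a (⟨s, s.2.2⟩, ⟨s', s'.2.2⟩) =
        A.ρ ⟨s, s.2.2⟩ (t s') - t (s * s') + t s := by
  obtain ⟨y, ⟨F, hF, hy⟩, hd⟩ := h
  refine ⟨fun s => (y ⟨s, s.2.1⟩).1 1, ⟨F, hF, fun s n hn => ?_⟩, fun s s' => ?_⟩
  · have := hy ⟨s, s.2.1⟩ ⟨n, n.2.1⟩ hn
    show (y ⟨((s * n : ↥(D ⊓ U)) : Gq), _⟩).1 1 = (y ⟨s, s.2.1⟩).1 1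
    exact congrArg (fun f : Rep.coind U.subtype A => f.1 1) this
  · have h1 := hd ⟨s, s.2.1⟩ ⟨s', s'.2.1⟩
    have h2 : sh₂ U A a (⟨s, s.2.2⟩, ⟨s', s'.2.2⟩) = (a ((s : Gq), (s' : Gq))).1 1 := rfl
    have h3 : ((Rep.coind U.subtype A).ρ (s : Gq) (y ⟨s', s'.2.1⟩)).1 1 =
        A.ρ ⟨s, s.2.2⟩ ((y ⟨s', s'.2.1⟩).1 1) := by
      rw [coind_ρ_apply, one_mul]
      exact coind_apply_coe (y ⟨s', s'.2.1⟩) ⟨(s : Gq), s.2.2⟩
    rw [h2, h1, coind_add_apply, coind_sub_apply, h3]
    rfl

/-- **(HPQ), local half.** Let `a` be a level-constant 2-cocycle of `Gq` with values in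
`coind_U A` which is a local coboundary at the prime `q`.  Then for every place `Av` of `Qb` over
`q`, the cocycle `sh₂ a` of `U` is, on `D(Av) ⊓ U`, the coboundary of a level-constant cochain. -/
theorem sh₂_locTriv {a : Gq × Gq → Rep.coind U.subtype A}
    (ha : a ∈ cocycles₂ (Rep.coind U.subtype A))
    (hlev : IsLevelConstant₂ (MonoidHom.id Gq) a) (q : Nat.Primes)
    (h : ∃ b : primeLocalGaloisGroup q → Rep.coind U.subtype A,
      IsLevelConstant₁ (primeLocalToGlobal q) b ∧
      ∀ x x' : primeLocalGaloisGroup q, a (primeLocalToGlobal q x, primeLocalToGlobal q x') =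
        (Rep.coind U.subtype A).ρ (primeLocalToGlobal q x) (b x') - b (x * x') + b x)
    (Av : ValuationSubring Qb) (hAv : Av.LiesOverPrime (q : ℕ)) :
    ∃ t : ↥(Av.decompositionSubgroup ℚ ⊓ U) → A,
      IsLevelConstant₁ (Subgroup.subtype (Av.decompositionSubgroup ℚ ⊓ U)) t ∧
      ∀ s s' : ↥(Av.decompositionSubgroup ℚ ⊓ U), sh₂ U A a (⟨s, s.2.2⟩, ⟨s', s'.2.2⟩) =
        A.ρ ⟨s, s.2.2⟩ (t s') - t (s * s') + t s :=
  sh₂_isCobOn U A _ (isCobOn_of_local ha hlev q h Av hAv)

end Coind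

/-! ### The same in the vocabulary of the abstract layer (`Abs.Z2`, `Abs.B2`, `Abs.res₂`) -/

section AbsForm

variable {k : Type} [Field k]

/-- A level cochain for `globalLevel S` is level-constant in the Prelude's sense. -/
theorem isLevelConstant₂_of_isLev₂ (S : Finset Nat.Primes) {X : Type*} {a : Gq × Gq → X}
    (h : Abs.IsLev₂ (Abs.globalLevel S) a) : IsLevelConstant₂ (MonoidHom.id Gq) a := by
  obtain ⟨_, ⟨F, hF, rfl⟩, h⟩ := h
  exact ⟨F, hF.1, fun g g' s s' hs hs' => h g g' s s' hs hs'⟩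

/-- Membership of the restriction in `Abs.B2 (localLevel r)`, unfolded. -/
theorem exists_of_mem_B2 (M : Rep.{0} k Gq) {H : Type} [Group H] (r : H →* Gq)
    {a : Gq × Gq → M}
    (h : (fun p : H × H => a (r p.1, r p.2)) ∈ Abs.B2 (Abs.localLevel r) (Rep.res r M)) :
    ∃ b : H → M, IsLevelConstant₁ r b ∧
      ∀ x x' : H, a (r x, r x') = M.ρ (r x) (b x') - b (x * x') + b x := by
  obtain ⟨b, hb, hd⟩ := h
  refine ⟨b, (Abs.isLevelConstant₁_iff r b).2 hb, fun x x' => ?_⟩
  have := congrFun hd (x, x')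
  rw [d₁₂_hom_apply] at this
  exact this.symm

variable (U : Subgroup Gq) (A : Rep.{0} k U)

/-- **(HPQ), local half, `Abs` form.** For `a ∈ Z²` of level `S` with values in `coind_U A` whose
restriction to the Prelude's local group at `q` is a level coboundary, `sh₂ a` is a level
coboundary on `D(Av) ⊓ U` for every place `Av` of `Qb` over `q`. -/
theorem sh₂_locTriv_of_mem_B2 (S : Finset Nat.Primes) {a : Gq × Gq → Rep.coind U.subtype A}
    (ha : a ∈ Abs.Z2 (Abs.globalLevel S) (Rep.coind U.subtype A)) (q : Nat.Primes)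
    (hq : (fun p : primeLocalGaloisGroup q × primeLocalGaloisGroup q =>
        a (primeLocalToGlobal q p.1, primeLocalToGlobal q p.2)) ∈
      Abs.B2 (Abs.localLevel (primeLocalToGlobal q))
        (Rep.res (primeLocalToGlobal q) (Rep.coind U.subtype A)))
    (Av : ValuationSubring Qb) (hAv : Av.LiesOverPrime (q : ℕ)) :
    ∃ t : ↥(Av.decompositionSubgroup ℚ ⊓ U) → A,
      IsLevelConstant₁ (Subgroup.subtype (Av.decompositionSubgroup ℚ ⊓ U)) t ∧
      ∀ s s' : ↥(Av.decompositionSubgroup ℚ ⊓ U), sh₂ U A a (⟨s, s.2.2⟩, ⟨s', s'.2.2⟩) =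
        A.ρ ⟨s, s.2.2⟩ (t s') - t (s * s') + t s :=
  sh₂_locTriv U A ha.2 (isLevelConstant₂_of_isLev₂ S ha.1) q
    (exists_of_mem_B2 (Rep.coind U.subtype A) (primeLocalToGlobal q) hq) Av hAv

/-- The hypothesis of `sh₂_locTriv_of_mem_B2` is literally the cone condition of the abstract
layer at a place `v ∈ S`. -/
example (S : Finset Nat.Primes) (a : Gq × Gq → Rep.coind U.subtype A) (v : ↥S)
    (h : Abs.res₂ (fun q : ↥S => primeLocalToGlobal q.1) (Rep.coind U.subtype A) v a ∈
      Abs.B2 (Abs.localLevel (primeLocalToGlobal v.1))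
        (Rep.res (primeLocalToGlobal v.1) (Rep.coind U.subtype A))) :
    (fun p : primeLocalGaloisGroup v.1 × primeLocalGaloisGroup v.1 =>
        a (primeLocalToGlobal v.1 p.1, primeLocalToGlobal v.1 p.2)) ∈
      Abs.B2 (Abs.localLevel (primeLocalToGlobal v.1))
        (Rep.res (primeLocalToGlobal v.1) (Rep.coind U.subtype A)) := h

end AbsForm

end Fermat.Agent.S55.Shapiro.HPQLocal
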