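import Mathlib
import Fermat.Agent.S55.Shapiro.Mackey

/-!
# UNR3-Q, generic part: Mackey–Shapiro for `H¹` with trivial coefficients

`G` a group, `U ≤ G`, `X` a `k`-module with trivial `U`-action, `N = coind_U^G X`, `r : H →* G` a
"local" group, `D : DRep U r J` double coset representatives.  A 1-cocycle `c` of `H` with values
in `Res_r N` has *components* `mk₁ (τ j) c : H_j → X` (`H_j = conjSub U r (τ j)`), which are
additive characters, and `c` is cohomologous to `unmk₁ (mk₁ c)`.

* `mk₁_mul`, `mk₁_one`, `mk₁_d₀₁_eq_zero` : components of cocycles are characters, components of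
  coboundaries vanish;
* `theta D R κ j` : the cocycle with components `κ j` at `j` and `0` elsewhere; `mk₁_theta`,
  `theta_mem_cocycles₁`, `rinv₁_theta`, `mk₁_sum_theta`;
* `eq_unmk₁_sub` : `c = unmk₁ (mk₁ c) - d (mhom₀ c)` for a cocycle `c`;
* `exists_rinv_add_d₀₁` : if all components of a cocycle are right-invariant under a normal
  subgroup `V ≤ H_j`, the cocycle is (right-`V`-invariant cocycle) + (coboundary);
* `mk₁_apply_eq_zero_of_rinv` : the converse;
* `mk₁_ind₁_res` : the components of the restriction of `ind₁ β` are `β ∘ conjHom`.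
-/

set_option autoImplicit false

open groupCohomology CategoryTheory

namespace Fermat.Agent.S55.Shapiro.Unr3Q

open Fermat.Agent.S55.Shapiro

variable {k : Type} [CommRing k] {G : Type} [Group G] (U : Subgroup G)
  (X : Type) [AddCommGroup X] [Module k X] {H : Type} [Group H] (r : H →* G)

/-- The trivial `U`-module `X`. -/
noncomputable abbrev triv : Rep.{0} k U := Rep.trivial k U X

/-- `N = coind_U^G X`. -/
noncomputable abbrev coindTriv : Rep.{0} k G := Rep.coind U.subtype (triv (k := k) U X)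

variable {U} {X} {r}

theorem triv_ρ (u : U) (x : X) : (triv (k := k) U X).ρ u x = x := rfl

theorem locRep_ρ (g : G) (h : conjSub U r g) (x : X) :
    (locRep U (triv (k := k) U X) r g).ρ h x = x := rfl

/-- Components of a cocycle are additive characters. -/
theorem mk₁_mul (g : G) {c : H → coindTriv (k := k) U X}
    (hc : c ∈ cocycles₁ (Rep.res r (coindTriv (k := k) U X))) (h h' : conjSub U r g) :
    mk₁ U (triv (k := k) U X) r g c (h * h') =
      mk₁ U (triv (k := k) U X) r g c h + mk₁ U (triv (k := k) U X) r g c h' := by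
  have h1 := (mem_cocycles₁_iff (mk₁ U (triv (k := k) U X) r g c)).1 (mk₁_mem_cocycles₁ g hc) h h'
  rw [h1, add_comm]
  rfl

theorem mk₁_one (g : G) {c : H → coindTriv (k := k) U X}
    (hc : c ∈ cocycles₁ (Rep.res r (coindTriv (k := k) U X))) :
    mk₁ U (triv (k := k) U X) r g c 1 = 0 := by
  have h := mk₁_mul g hc 1 1
  rw [mul_one] at h
  exact left_eq_add.mp h

/-- Components of coboundaries vanish (trivial coefficients). -/
theorem mk₁_d₀₁_eq_zero (g : G) (m : coindTriv (k := k) U X) :
    mk₁ U (triv (k := k) U X) r g ((d₀₁ (Rep.res r (coindTriv (k := k) U X))).hom m) = 0 := by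
  rw [mk₁_d₀₁]
  funext h
  rw [d₀₁_hom_apply]
  show mk₀ U (triv (k := k) U X) r g m - mk₀ U (triv (k := k) U X) r g m = 0
  rw [sub_self]

section Glue

variable {J : Type} (D : DRep U r J) (R : ∀ j : J, Retr (conjSub U r (D.τ j)))

/-- Gluing local cocycles gives a cocycle. -/
theorem unmk₁_mem_cocycles₁
    {b : ∀ j : J, conjSub U r (D.τ j) → locRep U (triv (k := k) U X) r (D.τ j)}
    (hb : ∀ j, b j ∈ cocycles₁ (locRep U (triv (k := k) U X) r (D.τ j))) :
    unmk₁ (triv (k := k) U X) D R b ∈ cocycles₁ (Rep.res r (coindTriv (k := k) U X)) := by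
  refine LinearMap.mem_ker.mpr ?_
  rw [← unmk₂_d₁₂]
  have h0 : (fun j => (d₁₂ (locRep U (triv (k := k) U X) r (D.τ j))).hom (b j)) = 0 := by
    funext j
    exact LinearMap.mem_ker.mp (hb j)
  rw [h0, map_zero]

/-- An additive function on `H_j` is a cocycle (trivial coefficients). -/
theorem mem_cocycles₁_of_add (g : G) {b : conjSub U r g → X}
    (hb : ∀ h h', b (h * h') = b h + b h') :
    b ∈ cocycles₁ (locRep U (triv (k := k) U X) r g) := by
  rw [mem_cocycles₁_iff]
  intro h h'
  rw [hb, add_comm]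
  rfl

/-- A cocycle is cohomologous to the gluing of its components. -/
theorem eq_unmk₁_sub {c : H → coindTriv (k := k) U X}
    (hc : c ∈ cocycles₁ (Rep.res r (coindTriv (k := k) U X))) :
    c = unmk₁ (triv (k := k) U X) D R (fun j => mk₁ U (triv (k := k) U X) r (D.τ j) c)
      - (d₀₁ (Rep.res r (coindTriv (k := k) U X))).hom (mhom₀ (triv (k := k) U X) D R c) := by
  have h1 := unmk₁_mk₁_sub D R c
  have hd : (d₁₂ (Rep.res r (coindTriv (k := k) U X))).hom c = 0 := LinearMap.mem_ker.mp hc
  rw [hd, map_zero, add_zero] at h1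
  rw [← h1]
  abel

/-- **Criterion.** If all components of a cocycle are right-invariant under a normal subgroup
`V` contained in all `H_j`, the cocycle is a right-`V`-invariant cocycle plus a coboundary. -/
theorem exists_rinv_add_d₀₁ {V : Subgroup H} [V.Normal]
    (hV : ∀ j, V ≤ conjSub U r (D.τ j)) {c : H → coindTriv (k := k) U X}
    (hc : c ∈ cocycles₁ (Rep.res r (coindTriv (k := k) U X)))
    (hcV : ∀ j, RInv₁ (V.subgroupOf (conjSub U r (D.τ j)))
      (mk₁ U (triv (k := k) U X) r (D.τ j) c)) :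
    ∃ (u : H → coindTriv (k := k) U X) (m : coindTriv (k := k) U X), RInv₁ V u ∧
      u ∈ cocycles₁ (Rep.res r (coindTriv (k := k) U X)) ∧
      c = u + (d₀₁ (Rep.res r (coindTriv (k := k) U X))).hom m := by
  have R : ∀ j : J, Retr (conjSub U r (D.τ j)) := fun j => (Retr.nonempty _).some
  refine ⟨unmk₁ (triv (k := k) U X) D R (fun j => mk₁ U (triv (k := k) U X) r (D.τ j) c),
    - mhom₀ (triv (k := k) U X) D R c, rinv₁_unmk₁ D R hV hcV, ?_, ?_⟩
  · exact unmk₁_mem_cocycles₁ D R (fun j => mk₁_mem_cocycles₁ (D.τ j) hc)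
  · rw [map_neg, ← sub_eq_add_neg]
    exact eq_unmk₁_sub D R hc

end Glue

/-- **Converse.** The components of (right-`V`-invariant cocycle) + (coboundary) vanish on `V`. -/
theorem mk₁_apply_eq_zero_of_rinv (g : G) {V : Subgroup H} {u : H → coindTriv (k := k) U X}
    (m : coindTriv (k := k) U X) (hu : RInv₁ V u)
    (hu1 : u ∈ cocycles₁ (Rep.res r (coindTriv (k := k) U X)))
    (s : conjSub U r g) (hs : (s : H) ∈ V) :
    mk₁ U (triv (k := k) U X) r g
      (u + (d₀₁ (Rep.res r (coindTriv (k := k) U X))).hom m) s = 0 := by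
  rw [map_add, mk₁_d₀₁_eq_zero, add_zero]
  have h1 : u (s : H) = u 1 := by
    have := hu 1 (s : H) hs
    rwa [one_mul] at this
  have h2 : mk₁ U (triv (k := k) U X) r g u 1 = 0 := mk₁_one g hu1
  show (u (s : H)).1 g = 0
  rw [h1]
  exact h2

section Theta

variable {J : Type} [DecidableEq J] (D : DRep U r J) (R : ∀ j : J, Retr (conjSub U r (D.τ j)))
  (κ : ∀ j : J, conjSub U r (D.τ j) → X)

/-- The cochain of `H` with values in `Res_r coind_U^G X` whose component at `j` is `κ j` and
whose other components vanish. -/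
noncomputable def theta (j : J) : H → coindTriv (k := k) U X :=
  unmk₁ (triv (k := k) U X) D R (Pi.single j (κ j))

theorem mk₁_theta (i j : J) :
    mk₁ U (triv (k := k) U X) r (D.τ i) (theta (k := k) D R κ j) =
      (Pi.single j (κ j) : ∀ j : J, conjSub U r (D.τ j) → X) i :=
  mk₁_unmk₁ D R _ i

theorem mk₁_theta_self (j : J) :
    mk₁ U (triv (k := k) U X) r (D.τ j) (theta (k := k) D R κ j) = κ j := by
  rw [mk₁_theta, Pi.single_eq_same]

theorem mk₁_theta_of_ne {i j : J} (h : i ≠ j) :
    mk₁ U (triv (k := k) U X) r (D.τ i) (theta (k := k) D R κ j) = 0 := by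
  rw [mk₁_theta, Pi.single_eq_of_ne h]

theorem theta_mem_cocycles₁ (hκ : ∀ j (h h' : conjSub U r (D.τ j)), κ j (h * h') = κ j h + κ j h')
    (j : J) :
    theta (k := k) D R κ j ∈ cocycles₁ (Rep.res r (coindTriv (k := k) U X)) := by
  refine unmk₁_mem_cocycles₁ D R (fun i => ?_)
  by_cases h : i = j
  · subst h
    rw [Pi.single_eq_same]
    exact mem_cocycles₁_of_add (D.τ i) (hκ i)
  · rw [Pi.single_eq_of_ne h]
    exact Submodule.zero_mem _

theorem rinv₁_theta {V : Subgroup H} [V.Normal] (hV : ∀ j, V ≤ conjSub U r (D.τ j)) (j : J)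
    (hκV : RInv₁ (V.subgroupOf (conjSub U r (D.τ j))) (κ j)) :
    RInv₁ V (theta (k := k) D R κ j) := by
  refine rinv₁_unmk₁ D R hV (fun i => ?_)
  by_cases h : i = j
  · subst h
    rw [Pi.single_eq_same]
    exact hκV
  · rw [Pi.single_eq_of_ne h]
    intro _ _ _
    rfl

theorem mk₁_sum_theta [Fintype J] (e : J → k) (i : J) :
    mk₁ U (triv (k := k) U X) r (D.τ i) (∑ j, e j • theta (k := k) D R κ j) = e i • κ i := by
  rw [map_sum]
  rw [Finset.sum_eq_single i]
  · rw [map_smul, mk₁_theta_self]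
  · intro j _ hj
    rw [map_smul, mk₁_theta_of_ne D R κ (Ne.symm hj), smul_zero]
  · intro h
    exact absurd (Finset.mem_univ i) h

/-- **Criterion with `θ`.** If the `j`-th component of a cocycle `c` agrees with `e j • κ j` on
a normal subgroup `V` contained in all `H_j`, then `c = ∑ e j • θ_j` plus a right-`V`-invariant
cocycle plus a coboundary. -/
theorem exists_rinv_of_tame [Fintype J]
    (hκ : ∀ j (h h' : conjSub U r (D.τ j)), κ j (h * h') = κ j h + κ j h')
    {V : Subgroup H} [V.Normal] (hV : ∀ j, V ≤ conjSub U r (D.τ j))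
    {c : H → coindTriv (k := k) U X}
    (hc : c ∈ cocycles₁ (Rep.res r (coindTriv (k := k) U X))) (e : J → k)
    (he : ∀ (j : J) (s : conjSub U r (D.τ j)), (s : H) ∈ V →
      mk₁ U (triv (k := k) U X) r (D.τ j) c s = e j • κ j s) :
    ∃ (u : H → coindTriv (k := k) U X) (m : coindTriv (k := k) U X), RInv₁ V u ∧
      u ∈ cocycles₁ (Rep.res r (coindTriv (k := k) U X)) ∧
      c = ∑ j, e j • theta (k := k) D R κ j + u
        + (d₀₁ (Rep.res r (coindTriv (k := k) U X))).hom m := by
  have hc'coc : c - ∑ j, e j • theta (k := k) D R κ j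
      ∈ cocycles₁ (Rep.res r (coindTriv (k := k) U X)) :=
    Submodule.sub_mem _ hc (Submodule.sum_mem _ fun j _ =>
      Submodule.smul_mem _ _ (theta_mem_cocycles₁ D R κ hκ j))
  have hinv : ∀ j, RInv₁ (V.subgroupOf (conjSub U r (D.τ j)))
      (mk₁ U (triv (k := k) U X) r (D.τ j) (c - ∑ j, e j • theta (k := k) D R κ j)) := by
    intro j h s hs
    rw [mk₁_mul (D.τ j) hc'coc]
    have h3 : mk₁ U (triv (k := k) U X) r (D.τ j)
        (c - ∑ j, e j • theta (k := k) D R κ j) s = 0 := by
      rw [map_sub, mk₁_sum_theta]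
      have h4 := he j s (Subgroup.mem_subgroupOf.mp hs)
      show mk₁ U (triv (k := k) U X) r (D.τ j) c s - e j • κ j s = 0
      rw [h4, sub_self]
    rw [h3, add_zero]
  obtain ⟨u, m, huV, hucoc, hcu⟩ := exists_rinv_add_d₀₁ D hV hc'coc hinv
  refine ⟨u, m, huV, hucoc, ?_⟩
  rw [add_assoc, ← hcu]
  abel

end Theta

section Ind

variable (R₀ : Retr U)

/-- The components of the restriction to `H` of `ind₁ β`, `β` an additive character of `U`,
are `β ∘ conjHom`. -/
theorem mk₁_ind₁_res (g : G) {β : U → X} (hβ : ∀ u v, β (u * v) = β u + β v) :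
    mk₁ U (triv (k := k) U X) r g (fun h => ind₁ (triv (k := k) U X) R₀ β (r h)) =
      fun h => β (conjHom U r g h) := by
  funext h
  show (triv (k := k) U X).ρ (R₀.r g) (β (R₀.uu g (r (h : H)))) = β (conjHom U r g h)
  rw [triv_ρ]
  have e : R₀.r (g * r (h : H)) = conjHom U r g h * R₀.r g := by
    rw [← R₀.map_mul']
    congr 1
    rw [conjHom_coe]
    group
  have huu : R₀.uu g (r (h : H)) = (R₀.r g)⁻¹ * (conjHom U r g h * R₀.r g) := by
    rw [← e]
    rfl
  have hβ1 : β 1 = 0 := by
    have := hβ 1 1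
    rw [mul_one] at this
    exact left_eq_add.mp this
  have hβinv : ∀ u, β u⁻¹ = - β u := by
    intro u
    have := hβ u u⁻¹
    rw [mul_inv_cancel, hβ1] at this
    exact eq_neg_of_add_eq_zero_right this.symm
  rw [huu, hβ, hβ, hβinv]
  abel

end Ind

end Fermat.Agent.S55.Shapiro.Unr3Q
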