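import Mathlib
import Fermat.Agent.S55.Shapiro.Unr3Q
import Fermat.Agent.S55.Arith.UnramLocal
import Fermat.Agent.S55.Glue.PlacesAbove
import Fermat.Agent.S55.Glue.LocalLevel

/-!
# UNR3-Q, arithmetic part (tasks row 390)

`K ≤ Qb` finite over `ℚ`, unramified outside `S ∋ p`, `l ∉ S` a prime, `H = primeLocalGaloisGroup l`,
`r = primeLocalToGlobal l`, `N = NK p K = coind_{Fix K}^{G_ℚ} 𝔽_p` (`= CountQ.MK p K`).
For `g : G_ℚ` the place `plc l g = g • primeLocalPlace l` of `Qb`, and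
`H_g = conjSub (Fix K) r g ≃* DK K (plc l g) = D_{gA} ⊓ Fix K` (`locEquiv`), `h ↦ g * r h * g⁻¹`.

K-side inputs, as explicit hypotheses in the literal shape of `CFT/LocalBr/Unram.lean`:
* `HypU K A`    : (U) `exists_generator_mod_inertia` at the place `A`;
* `HypT p K A κ`: (UNR-3) `existsUnique_tame_coeff` at `A` for the character `κ` (`M = ZMod p`).

Output (`D : DRep (Fix K) r J`, `κ j` additive level-constant characters of `DK K (plc l (D.τ j))`):
* `thetaQ p K l D R κ j` : the 1-cocycle of `H` with values in `Res_r N` with component `κ j` at `j`;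
* `exists_isUnram_of_tame` (**criterion**): `c` a level-constant cocycle whose `j`-th component
  agrees with `e j • κ j` on inertia  ⇒  `c = ∑ e j • θ_j + (unramified cocycle) + (coboundary)`;
* `exists_tame_decomp` (**generation**): under (UNR-3) every level-constant cocycle is of this form;
* `eq_zero_of_sum_theta_unram` (**θ is ramified / uniqueness**).
-/

set_option autoImplicit false

open groupCohomology CategoryTheory ExtCitation
open scoped Pointwise

namespace Fermat.Agent.S55.Shapiro.Unr3Q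

local notation "Qb" => AlgebraicClosure ℚ
local notation "GQ" => (AlgebraicClosure ℚ ≃ₐ[ℚ] AlgebraicClosure ℚ)

open Fermat.Agent.S55.Shapiro Fermat.Agent.S55.Glue Fermat.Agent.S55.Arith.Unram

attribute [local instance] Glue.isAlgebraicQbar_lg Glue.isAlgClosureQbar_lg Glue.normalQbar_lg

variable (K : IntermediateField ℚ Qb) (l : Nat.Primes)

/-- The place `g • (distinguished place over l)` of `Qb`. -/
noncomputable abbrev plc (g : GQ) : ValuationSubring Qb := g • primeLocalPlace l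

/-- The local group of `K` at a valuation subring `A`: `D_A ⊓ G_K`
(`= CFT.LocalBr.Unram.Dloc K A`). -/
noncomputable abbrev DK (A : ValuationSubring Qb) : Subgroup GQ :=
  A.decompositionSubgroup ℚ ⊓ K.fixingSubgroup

/-- `H_g = {h | g * r h * g⁻¹ ∈ Fix K}`. -/
noncomputable abbrev Hg (g : GQ) : Subgroup (primeLocalGaloisGroup l) :=
  conjSub K.fixingSubgroup (primeLocalToGlobal l) g

/-- The base module `N = coind_{Fix K}^{G_ℚ} 𝔽_p` (`= CountQ.MK p K`). -/
noncomputable abbrev NK (p : ℕ) [Fact p.Prime] : Rep.{0} (ZMod p) GQ :=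
  coindTriv (k := ZMod p) K.fixingSubgroup (ZMod p)

/-! ### The dictionary `H_g ≃* D_{gA} ⊓ Fix K` -/

theorem primeLocalToGlobal_injective : Function.Injective (primeLocalToGlobal l) := by
  have : Fact (l : ℕ).Prime := ⟨l.2⟩
  exact Glue.localGaloisToGlobal_injective (l : ℕ)

theorem liesOverPrime_plc (g : GQ) : (plc l g).LiesOverPrime (l : ℕ) :=
  Glue.liesOverPrime_smul (liesOverPrime_primeLocalPlace l) g

theorem inertia_le_decomposition (A : ValuationSubring Qb) :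
    A.inertiaSubgroupIn ℚ ≤ A.decompositionSubgroup ℚ := by
  rintro g ⟨x, -, rfl⟩
  exact x.2

variable {K} {l}

theorem conjHom_mem_DK (g : GQ) (h : Hg K l g) :
    ((conjHom K.fixingSubgroup (primeLocalToGlobal l) g h : K.fixingSubgroup) : GQ)
      ∈ DK K (plc l g) := by
  refine ⟨(PlacesAbove.mem_decompositionSubgroup_smul_iff _ g _).2 ?_,
    (conjHom K.fixingSubgroup (primeLocalToGlobal l) g h).2⟩
  rw [conjHom_coe]
  have e : g⁻¹ * (g * primeLocalToGlobal l h * g⁻¹) * g = primeLocalToGlobal l h := by group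
  rw [e, ← LocalRange.range_primeLocalToGlobal]
  exact ⟨h, rfl⟩

theorem exists_conjHom_eq (g : GQ) {σ : GQ} (hσ : σ ∈ DK K (plc l g)) :
    ∃ h : Hg K l g,
      ((conjHom K.fixingSubgroup (primeLocalToGlobal l) g h : K.fixingSubgroup) : GQ) = σ := by
  have h1 := (PlacesAbove.mem_decompositionSubgroup_smul_iff _ g σ).1 hσ.1
  rw [← LocalRange.range_primeLocalToGlobal] at h1
  obtain ⟨h₀, hh₀⟩ := h1
  have e : g * primeLocalToGlobal l h₀ * g⁻¹ = σ := by rw [hh₀]; group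
  exact ⟨⟨h₀, by rw [mem_conjSub, e]; exact hσ.2⟩, by rw [conjHom_coe]; exact e⟩

variable (K) (l) in
/-- The homomorphism `H_g → D_{gA} ⊓ Fix K`, `h ↦ g * r h * g⁻¹`. -/
noncomputable def locHom (g : GQ) : Hg K l g →* ↥(DK K (plc l g)) where
  toFun h := ⟨(conjHom K.fixingSubgroup (primeLocalToGlobal l) g h : K.fixingSubgroup),
    conjHom_mem_DK g h⟩
  map_one' := by
    apply Subtype.ext
    simp
  map_mul' a b := by
    apply Subtype.ext
    simp

theorem locHom_coe (g : GQ) (h : Hg K l g) :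
    ((locHom K l g h : ↥(DK K (plc l g))) : GQ) = g * primeLocalToGlobal l h * g⁻¹ := rfl

theorem locHom_bijective (g : GQ) : Function.Bijective (locHom K l g) := by
  constructor
  · intro a b hab
    have h1 : g * primeLocalToGlobal l a * g⁻¹ = g * primeLocalToGlobal l b * g⁻¹ := by
      rw [← locHom_coe, ← locHom_coe, hab]
    have h2 : primeLocalToGlobal l a = primeLocalToGlobal l b :=
      mul_left_cancel (mul_right_cancel h1)
    exact Subtype.ext (primeLocalToGlobal_injective l h2)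
  · intro σ
    obtain ⟨h, hh⟩ := exists_conjHom_eq g σ.2
    exact ⟨h, Subtype.ext hh⟩

variable (K) (l) in
/-- The group isomorphism `H_g ≃* D_{gA} ⊓ Fix K`. -/
noncomputable def locEquiv (g : GQ) : Hg K l g ≃* ↥(DK K (plc l g)) :=
  MulEquiv.ofBijective (locHom K l g) (locHom_bijective g)

theorem locEquiv_coe (g : GQ) (h : Hg K l g) :
    ((locEquiv K l g h : ↥(DK K (plc l g))) : GQ) = g * primeLocalToGlobal l h * g⁻¹ := rfl

theorem map_locEquiv_symm (g : GQ) (σ : ↥(DK K (plc l g))) :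
    primeLocalToGlobal l ((locEquiv K l g).symm σ : primeLocalGaloisGroup l) = g⁻¹ * σ * g := by
  have h := locEquiv_coe g ((locEquiv K l g).symm σ)
  rw [MulEquiv.apply_symm_apply] at h
  rw [h]
  group

/-- Inertia corresponds to inertia, `→`. -/
theorem locEquiv_mem_inertia (g : GQ) (h : Hg K l g)
    (hh : primeLocalToGlobal l h ∈ (primeLocalPlace l).inertiaSubgroupIn ℚ) :
    ((locEquiv K l g h : ↥(DK K (plc l g))) : GQ) ∈ (plc l g).inertiaSubgroupIn ℚ := by
  rw [locEquiv_coe]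
  exact Glue.conj_mem_inertiaSubgroupIn hh g

/-- Inertia corresponds to inertia, `←`. -/
theorem map_locEquiv_symm_mem_inertia (g : GQ) (σ : ↥(DK K (plc l g)))
    (hσ : (σ : GQ) ∈ (plc l g).inertiaSubgroupIn ℚ) :
    primeLocalToGlobal l ((locEquiv K l g).symm σ : primeLocalGaloisGroup l)
      ∈ (primeLocalPlace l).inertiaSubgroupIn ℚ := by
  rw [map_locEquiv_symm]
  have h := Glue.conj_mem_inertiaSubgroupIn hσ g⁻¹
  rw [inv_inv] at h
  have e : g⁻¹ • plc l g = primeLocalPlace l := inv_smul_smul g _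
  rw [e] at h
  exact h

/-! ### The K-side inputs -/

variable (K) in
/-- (U) at the place `A`: the literal conclusion of
`CFT.LocalBr.Unram.exists_generator_mod_inertia` for every finite level `F`. -/
def HypU (A : ValuationSubring Qb) : Prop :=
  ∀ F : IntermediateField ℚ Qb, FiniteDimensional ℚ F →
    ∃ ρ : GQ, ρ ∈ DK K A ∧ ∀ σ : GQ, σ ∈ DK K A → ∃ (a : ℕ) (ι : GQ),
      ι ∈ A.inertiaSubgroupIn ℚ ∧ ι ∈ K.fixingSubgroup ∧
        ι⁻¹ * ((ρ ^ a)⁻¹ * σ) ∈ F.fixingSubgroup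

variable (K) in
/-- (UNR-3) at the place `A` for the character `κ`: the literal conclusion of
`CFT.LocalBr.Unram.existsUnique_tame_coeff` with `M = ZMod p`. -/
def HypT (p : ℕ) (A : ValuationSubring Qb) (κ : ↥(DK K A) → ZMod p) : Prop :=
  ∀ η : ↥(DK K A) → ZMod p, (∀ s t, η (s * t) = η s + η t) →
    IsLevelConstant₁ (DK K A).subtype η →
    ∃! d : ZMod p, ∀ s : ↥(DK K A), (s : GQ) ∈ A.inertiaSubgroupIn ℚ → η s - κ s • d = 0

/-! ### Unramified characters vanish on a uniform unramified level -/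

/-- An additive function to `ZMod p` as a monoid homomorphism. -/
noncomputable def addChar {Γ : Type*} [Group Γ] {p : ℕ} (β : Γ → ZMod p)
    (hβ : ∀ s t, β (s * t) = β s + β t) : Γ →* Multiplicative (ZMod p) :=
  MonoidHom.mk' (fun x => Multiplicative.ofAdd (β x)) (fun a b => congrArg _ (hβ a b))

theorem apply_pow_of_add {Γ : Type*} [Group Γ] {p : ℕ} (β : Γ → ZMod p)
    (hβ : ∀ s t, β (s * t) = β s + β t) (x : Γ) (a : ℕ) : β (x ^ a) = a • β x := by
  have h := map_pow (addChar β hβ) x a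
  exact congrArg Multiplicative.toAdd h

theorem apply_one_of_add {Γ : Type*} [Group Γ] {p : ℕ} (β : Γ → ZMod p)
    (hβ : ∀ s t, β (s * t) = β s + β t) : β 1 = 0 := by
  have h := map_one (addChar β hβ)
  exact congrArg Multiplicative.toAdd h

/-- **Lemma U.**  There is one finite Galois extension `F₂ ⊇ K`, unramified at `l`, such that for
every place `gA` over `l` every level-constant character of `D_{gA} ⊓ Fix K` which vanishes on
inertia vanishes on `Fix F₂`. -/
theorem exists_unram_level (p : ℕ) [Fact p.Prime] (S : Finset Nat.Primes)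
    (hK : K.IsUnramifiedOutside S) (hpS : pPrime p ∈ S) (hl : l ∉ S) :
    ∃ (S' : Finset Nat.Primes) (F₂ : IntermediateField ℚ Qb), l ∉ S' ∧
      F₂.IsUnramifiedOutside S' ∧ Normal ℚ F₂ ∧ K ≤ F₂ ∧
      ∀ g : GQ, HypU K (plc l g) → ∀ β : ↥(DK K (plc l g)) → ZMod p,
        (∀ s t, β (s * t) = β s + β t) → IsLevelConstant₁ (DK K (plc l g)).subtype β →
        (∀ s : ↥(DK K (plc l g)), (s : GQ) ∈ (plc l g).inertiaSubgroupIn ℚ → β s = 0) →
        ∀ s : ↥(DK K (plc l g)), (s : GQ) ∈ F₂.fixingSubgroup → β s = 0 := by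
  classical
  have hlp : (l : ℕ) ≠ p := by
    intro h
    apply hl
    have h1 : l = pPrime p := Subtype.ext h
    rw [h1]
    exact hpS
  have hN := Glue.isUnramifiedOutside_normalClosure hK
  have : Normal ℚ (IntermediateField.normalClosure ℚ K Qb) := normalClosure.normal ℚ _ _
  obtain ⟨φ, m, F₂, hF12, hF₂, hF₂n, hφm, -, htow⟩ :=
    exists_tower p l hlp S hl (IntermediateField.normalClosure ℚ K Qb) hN
  have hl' : l ∉ S ∪ {pPrime p} := by
    rw [Finset.mem_union, Finset.mem_singleton]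
    rintro (h | h)
    · exact hl h
    · exact hl (h ▸ hpS)
  have hKF₂ : K ≤ F₂ := (IntermediateField.le_normalClosure K).trans hF12
  refine ⟨S ∪ {pPrime p}, F₂, hl', hF₂, hF₂n, hKF₂, ?_⟩
  intro g hU β hadd hlev hin s hs
  have := hF₂n
  have hfd₂ : FiniteDimensional ℚ F₂ := hF₂.1
  obtain ⟨Fβ, hFβ, hβ⟩ := hlev
  have := hFβ
  have hβ0 : ∀ t : ↥(DK K (plc l g)), (t : GQ) ∈ Fβ.fixingSubgroup → β t = 0 := by
    intro t ht
    have h1 := hβ 1 t ht
    rw [one_mul, apply_one_of_add β hadd] at h1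
    exact h1
  obtain ⟨ρ, hρ, hgen⟩ := hU (F₂ ⊔ Fβ) inferInstance
  have hL₂ : (F₂ ⊔ Fβ).fixingSubgroup ≤ F₂.fixingSubgroup :=
    IntermediateField.fixingSubgroup_antitone le_sup_left
  have hLβ : (F₂ ⊔ Fβ).fixingSubgroup ≤ Fβ.fixingSubgroup :=
    IntermediateField.fixingSubgroup_antitone le_sup_right
  have hI₂ : (plc l g).inertiaSubgroupIn ℚ ≤ F₂.fixingSubgroup :=
    hF₂.2 l hl' _ (liesOverPrime_plc l g)
  have hNorm : (F₂.fixingSubgroup).Normal :=
    ⟨fun n hn x => Glue.conj_mem_fixingSubgroup F₂ hn x⟩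
  have key : ∀ σ : GQ, ∀ hσ : σ ∈ DK K (plc l g), ∃ a : ℕ,
      β ⟨σ, hσ⟩ = a • β ⟨ρ, hρ⟩ ∧ (ρ ^ a)⁻¹ * σ ∈ F₂.fixingSubgroup := by
    intro σ hσ
    obtain ⟨a, ι, hιI, hιK, ht⟩ := hgen σ hσ
    have hιD : ι ∈ DK K (plc l g) := ⟨inertia_le_decomposition _ hιI, hιK⟩
    have htD : ι⁻¹ * ((ρ ^ a)⁻¹ * σ) ∈ DK K (plc l g) :=
      mul_mem (inv_mem hιD) (mul_mem (inv_mem (pow_mem hρ a)) hσ)
    refine ⟨a, ?_, ?_⟩
    · have e : (⟨σ, hσ⟩ : ↥(DK K (plc l g))) =
          (⟨ρ, hρ⟩ : ↥(DK K (plc l g))) ^ a * ⟨ι, hιD⟩ * ⟨_, htD⟩ := by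
        apply Subtype.ext
        show σ = ρ ^ a * ι * (ι⁻¹ * ((ρ ^ a)⁻¹ * σ))
        group
      rw [e, hadd, hadd, apply_pow_of_add β hadd, hin ⟨ι, hιD⟩ hιI, hβ0 ⟨_, htD⟩ (hLβ ht),
        add_zero, add_zero]
    · have h1 : (ρ ^ a)⁻¹ * σ = ι * (ι⁻¹ * ((ρ ^ a)⁻¹ * σ)) := by group
      rw [h1]
      exact mul_mem (hI₂ hιI) (hL₂ ht)
  obtain ⟨a, hβs, haF⟩ := key s s.2
  have hρa : ρ ^ a ∈ F₂.fixingSubgroup := by
    have h1 : ρ ^ a = (s : GQ) * ((ρ ^ a)⁻¹ * (s : GQ))⁻¹ := by group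
    rw [h1]
    exact mul_mem hs (inv_mem haF)
  set φ₀ : GQ := g * primeLocalToGlobal l (φ ^ m) * g⁻¹ with hφ₀
  have hφ₀D : φ₀ ∈ DK K (plc l g) := by
    refine ⟨(PlacesAbove.mem_decompositionSubgroup_smul_iff _ g _).2 ?_, ?_⟩
    · have e : g⁻¹ * φ₀ * g = primeLocalToGlobal l (φ ^ m) := by rw [hφ₀]; group
      rw [e, ← LocalRange.range_primeLocalToGlobal]
      exact ⟨_, rfl⟩
    · exact IntermediateField.fixingSubgroup_antitone (IntermediateField.le_normalClosure K)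
        (Glue.conj_mem_fixingSubgroup _ hφm g)
  obtain ⟨c, -, hcF⟩ := key φ₀ hφ₀D
  have hφ₀a : φ₀ ^ a ∈ F₂.fixingSubgroup := by
    have h1 : (QuotientGroup.mk' F₂.fixingSubgroup) φ₀ =
        (QuotientGroup.mk' F₂.fixingSubgroup) (ρ ^ c) := by
      rw [eq_comm, QuotientGroup.mk'_eq_mk']
      exact ⟨_, hcF, by group⟩
    have h2 : (QuotientGroup.mk' F₂.fixingSubgroup) (φ₀ ^ a) = 1 := by
      have h3 : (QuotientGroup.mk' F₂.fixingSubgroup) (ρ ^ a) = 1 :=
        (QuotientGroup.eq_one_iff _).2 hρa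
      rw [map_pow, h1, map_pow, ← pow_mul, mul_comm, pow_mul, ← map_pow, h3, one_pow]
    exact (QuotientGroup.eq_one_iff _).1 h2
  have hφma : primeLocalToGlobal l (φ ^ (m * a)) ∈ F₂.fixingSubgroup := by
    have e : primeLocalToGlobal l (φ ^ (m * a)) = g⁻¹ * φ₀ ^ a * g⁻¹⁻¹ := by
      rw [hφ₀, conj_pow, pow_mul, map_pow]
      group
    rw [e]
    exact Glue.conj_mem_fixingSubgroup F₂ hφ₀a g⁻¹
  have hpa : p ∣ a := htow a hφma
  have hs' : β s = a • β ⟨ρ, hρ⟩ := hβs
  rw [hs', nsmul_eq_mul, (ZMod.natCast_eq_zero_iff a p).2 hpa, zero_mul]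

end Fermat.Agent.S55.Shapiro.Unr3Q
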