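import Mathlib
import Fermat.Agent.S55.Shapiro.Unr3QArith

/-!
# UNR3-Q: the cocycles `θ_j` and the three statements (tasks row 390)

See `Unr3QArith.lean` for the setting (`K`, `l ∉ S`, `NK K p = coind_{Fix K} 𝔽_p`, `plc l g`,
`DK K A`, `Hg K l g`, `locEquiv`, `HypU`, `HypT`).

`D : DRep (Fix K) (primeLocalToGlobal l) J`, `κ j` additive level-constant characters of
`DK K (plc l (D.τ j))` (in the application: Kummer characters of uniformisers):
* `pull p D κ j`, `thetaQ p D R κ j`, `mk₁_thetaQ_self`, `mk₁_thetaQ_of_ne`, `mk₁_sum_thetaQ`,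
  `thetaQ_mem_cocycles₁`, `isLevelConstant₁_thetaQ`;
* `exists_isUnram_of_tame` (**criterion**);
* `exists_tame_decomp` (**generation**, UNR3-Q (i));
* `eq_zero_of_sum_theta_unram` (**uniqueness**, UNR3-Q (ii)).
-/

set_option autoImplicit false

open groupCohomology CategoryTheory ExtCitation
open scoped Pointwise

namespace Fermat.Agent.S55.Shapiro.Unr3Q

local notation "Qb" => AlgebraicClosure ℚ
local notation "GQ" => (AlgebraicClosure ℚ ≃ₐ[ℚ] AlgebraicClosure ℚ)

open Fermat.Agent.S55.Shapiro Fermat.Agent.S55.Glue Fermat.Agent.S55.Arith.Unram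

attribute [local instance] Glue.isAlgebraicQbar_lg Glue.isAlgClosureQbar_lg Glue.normalQbar_lg

variable {K : IntermediateField ℚ Qb} {l : Nat.Primes}

section Main

variable (p : ℕ) [Fact p.Prime] {J : Type}
  (D : DRep K.fixingSubgroup (primeLocalToGlobal l) J)
  (R : ∀ j : J, Retr (Hg K l (D.τ j)))
  (κ : ∀ j : J, ↥(DK K (plc l (D.τ j))) → ZMod p)

/-- The character `κ j` transported to `H_{τ j}`. -/
noncomputable def pull (j : J) : Hg K l (D.τ j) → ZMod p :=
  fun h => κ j (locEquiv K l (D.τ j) h)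

omit [Fact p.Prime] in
theorem pull_apply (j : J) (h : Hg K l (D.τ j)) :
    pull p D κ j h = κ j (locEquiv K l (D.τ j) h) := rfl

omit [Fact p.Prime] in
theorem pull_locEquiv_symm (j : J) (σ : ↥(DK K (plc l (D.τ j)))) :
    pull p D κ j ((locEquiv K l (D.τ j)).symm σ) = κ j σ := by
  rw [pull_apply, MulEquiv.apply_symm_apply]

theorem pull_mul (hκadd : ∀ j s t, κ j (s * t) = κ j s + κ j t) (j : J)
    (h h' : Hg K l (D.τ j)) : pull p D κ j (h * h') = pull p D κ j h + pull p D κ j h' := by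
  rw [pull_apply, pull_apply, pull_apply, map_mul, hκadd]

variable [DecidableEq J]

/-- `θ_j`: the 1-cocycle of the local group at `l` with values in `Res N` whose `j`-th Mackey
component is (the transport of) `κ j` and whose other components vanish. -/
noncomputable def thetaQ (j : J) : primeLocalGaloisGroup l → NK K p :=
  theta (k := ZMod p) D R (pull p D κ) j

local notation "mkc" =>
  mk₁ K.fixingSubgroup (triv (k := ZMod p) K.fixingSubgroup (ZMod p)) (primeLocalToGlobal l)

theorem mk₁_thetaQ_self (j : J) : mkc (D.τ j) (thetaQ p D R κ j) = pull p D κ j :=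
  mk₁_theta_self D R (pull p D κ) j

theorem mk₁_thetaQ_of_ne {i j : J} (h : i ≠ j) : mkc (D.τ i) (thetaQ p D R κ j) = 0 :=
  mk₁_theta_of_ne D R (pull p D κ) h

theorem mk₁_sum_thetaQ [Fintype J] (e : J → ZMod p) (i : J) :
    mkc (D.τ i) (∑ j, e j • thetaQ p D R κ j) = e i • pull p D κ i :=
  mk₁_sum_theta D R (pull p D κ) e i

theorem thetaQ_mem_cocycles₁ (hκadd : ∀ j s t, κ j (s * t) = κ j s + κ j t) (j : J) :
    thetaQ p D R κ j ∈ cocycles₁ (Rep.res (primeLocalToGlobal l) (NK K p)) :=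
  theta_mem_cocycles₁ D R (pull p D κ) (pull_mul p D κ hκadd) j

omit [DecidableEq J] in
/-- Components of a level-constant cocycle vanish, on the `K`-side, on the fixing subgroup of a
finite extension. -/
theorem exists_level_component (g : GQ) {c : primeLocalGaloisGroup l → NK K p}
    (hc : c ∈ cocycles₁ (Rep.res (primeLocalToGlobal l) (NK K p)))
    (hclev : IsLevelConstant₁ (primeLocalToGlobal l) c) :
    ∃ F : IntermediateField ℚ Qb, FiniteDimensional ℚ F ∧
      ∀ s : ↥(DK K (plc l g)), (s : GQ) ∈ F.fixingSubgroup →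
        mkc g c ((locEquiv K l g).symm s) = 0 := by
  obtain ⟨Fc, hFc, hcF⟩ := hclev
  have := hFc
  have hn : Normal ℚ (IntermediateField.normalClosure ℚ Fc Qb) := normalClosure.normal ℚ _ _
  refine ⟨IntermediateField.normalClosure ℚ Fc Qb, inferInstance, fun s hs => ?_⟩
  have h1 : primeLocalToGlobal l ((locEquiv K l g).symm s : primeLocalGaloisGroup l)
      ∈ Fc.fixingSubgroup := by
    rw [map_locEquiv_symm]
    have h2 := Glue.conj_mem_fixingSubgroup _ hs g⁻¹
    rw [inv_inv] at h2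
    exact IntermediateField.fixingSubgroup_antitone (IntermediateField.le_normalClosure Fc) h2
  have h3 := hcF 1 _ h1
  rw [one_mul] at h3
  show (c ((locEquiv K l g).symm s : primeLocalGaloisGroup l)).1 g = 0
  rw [h3]
  exact mk₁_one g hc

omit [DecidableEq J] in
/-- The `K`-side form of a component of a level-constant cocycle is a level-constant
character. -/
theorem isLevelConstant₁_component (g : GQ) {c : primeLocalGaloisGroup l → NK K p}
    (hc : c ∈ cocycles₁ (Rep.res (primeLocalToGlobal l) (NK K p)))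
    (hclev : IsLevelConstant₁ (primeLocalToGlobal l) c) :
    IsLevelConstant₁ (DK K (plc l g)).subtype
      (fun σ : ↥(DK K (plc l g)) => mkc g c ((locEquiv K l g).symm σ)) := by
  obtain ⟨F, hF, h⟩ := exists_level_component p g hc hclev
  refine ⟨F, hF, fun x s hs => ?_⟩
  show mkc g c ((locEquiv K l g).symm (x * s)) = mkc g c ((locEquiv K l g).symm x)
  rw [map_mul, mk₁_mul g hc, h s hs, add_zero]

omit [DecidableEq J] in
/-- The key local step of the criterion, at one place. -/
theorem component_eq_of_tame (g : GQ)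
    (κ₀ : ↥(DK K (plc l g)) → ZMod p) (hκadd : ∀ s t, κ₀ (s * t) = κ₀ s + κ₀ t)
    (hκlev : IsLevelConstant₁ (DK K (plc l g)).subtype κ₀)
    {F₂ : IntermediateField ℚ Qb}
    (hLU : ∀ β : ↥(DK K (plc l g)) → ZMod p,
        (∀ s t, β (s * t) = β s + β t) → IsLevelConstant₁ (DK K (plc l g)).subtype β →
        (∀ s : ↥(DK K (plc l g)), (s : GQ) ∈ (plc l g).inertiaSubgroupIn ℚ → β s = 0) →
        ∀ s : ↥(DK K (plc l g)), (s : GQ) ∈ F₂.fixingSubgroup → β s = 0)
    {c : primeLocalGaloisGroup l → NK K p}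
    (hc : c ∈ cocycles₁ (Rep.res (primeLocalToGlobal l) (NK K p)))
    (hclev : IsLevelConstant₁ (primeLocalToGlobal l) c) (d : ZMod p)
    (he : ∀ h : Hg K l g, primeLocalToGlobal l h ∈ (primeLocalPlace l).inertiaSubgroupIn ℚ →
        (mkc g c h : ZMod p) = d * κ₀ (locEquiv K l g h))
    (σ : ↥(DK K (plc l g))) (hσ : (σ : GQ) ∈ F₂.fixingSubgroup) :
    (mkc g c ((locEquiv K l g).symm σ) : ZMod p) = d * κ₀ σ := by
  obtain ⟨F₁, hF₁, h1⟩ := exists_level_component p g hc hclev
  obtain ⟨Fκ, hFκ, h2⟩ := hκlev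
  have := hF₁
  have := hFκ
  have hκ1 : κ₀ 1 = 0 := apply_one_of_add κ₀ hκadd
  have h := hLU (fun σ => (mkc g c ((locEquiv K l g).symm σ) : ZMod p) - d * κ₀ σ)
    (fun s t => by
      show (mkc g c ((locEquiv K l g).symm (s * t)) : ZMod p) - d * κ₀ (s * t) = _
      rw [map_mul, mk₁_mul g hc, hκadd]
      ring)
    ⟨F₁ ⊔ Fκ, inferInstance, fun x s hs => by
      have hs1 : (s : GQ) ∈ F₁.fixingSubgroup :=
        IntermediateField.fixingSubgroup_antitone le_sup_left hs
      have hs2 : (s : GQ) ∈ Fκ.fixingSubgroup :=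
        IntermediateField.fixingSubgroup_antitone le_sup_right hs
      show (mkc g c ((locEquiv K l g).symm (x * s)) : ZMod p) - d * κ₀ (x * s) = _
      rw [map_mul, mk₁_mul g hc, h1 s hs1, add_zero, h2 x s hs2]⟩
    (fun s hs => by
      have h3 := he ((locEquiv K l g).symm s) (map_locEquiv_symm_mem_inertia g s hs)
      rw [MulEquiv.apply_symm_apply] at h3
      show (mkc g c ((locEquiv K l g).symm s) : ZMod p) - d * κ₀ s = 0
      rw [h3, sub_self])
    σ hσ
  exact sub_eq_zero.mp h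

variable [Fintype J]

/-- **Criterion.** A level-constant cocycle whose `j`-th component agrees with `e j • κ j` on
inertia (all `j`) is `∑ e j • θ_j` plus an unramified cocycle plus a coboundary. -/
theorem exists_isUnram_of_tame (S : Finset Nat.Primes)
    (hK : K.IsUnramifiedOutside S) (hpS : pPrime p ∈ S) (hl : l ∉ S)
    (hU : ∀ j, HypU K (plc l (D.τ j)))
    (hκadd : ∀ j s t, κ j (s * t) = κ j s + κ j t)
    (hκlev : ∀ j, IsLevelConstant₁ (DK K (plc l (D.τ j))).subtype (κ j))
    (c : primeLocalGaloisGroup l → NK K p)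
    (hc : c ∈ cocycles₁ (Rep.res (primeLocalToGlobal l) (NK K p)))
    (hclev : IsLevelConstant₁ (primeLocalToGlobal l) c) (e : J → ZMod p)
    (he : ∀ (j : J) (h : Hg K l (D.τ j)),
      primeLocalToGlobal l h ∈ (primeLocalPlace l).inertiaSubgroupIn ℚ →
        mk₁ K.fixingSubgroup (triv (k := ZMod p) K.fixingSubgroup (ZMod p))
          (primeLocalToGlobal l) (D.τ j) c h = e j • pull p D κ j h) :
    ∃ (u : primeLocalGaloisGroup l → NK K p) (m : NK K p), IsUnram₁ l u ∧
      u ∈ cocycles₁ (Rep.res (primeLocalToGlobal l) (NK K p)) ∧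
      c = ∑ j, e j • thetaQ p D R κ j + u
        + (d₀₁ (Rep.res (primeLocalToGlobal l) (NK K p))).hom m := by
  obtain ⟨S', F₂, hl', hF₂, hF₂n, hKF₂, hLU⟩ := exists_unram_level (K := K) (l := l) p S hK hpS hl
  have := hF₂n
  have hNorm : (F₂.fixingSubgroup).Normal :=
    ⟨fun n hn x => Glue.conj_mem_fixingSubgroup F₂ hn x⟩
  have hVn : (F₂.fixingSubgroup.comap (primeLocalToGlobal l)).Normal :=
    Subgroup.Normal.comap hNorm _
  have hVle : ∀ j, F₂.fixingSubgroup.comap (primeLocalToGlobal l) ≤ Hg K l (D.τ j) := by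
    intro j s hs
    rw [mem_conjSub]
    exact IntermediateField.fixingSubgroup_antitone hKF₂
      (Glue.conj_mem_fixingSubgroup F₂ hs (D.τ j))
  obtain ⟨u, m, huV, hucoc, hcu⟩ := exists_rinv_of_tame D R (pull p D κ)
    (pull_mul p D κ hκadd) hVle hc e (fun j s hs => by
      have h1 := component_eq_of_tame p (D.τ j) (κ j) (hκadd j) (hκlev j)
        (hLU (D.τ j) (hU j)) hc hclev (e j) (fun h hh => he j h hh)
        (locEquiv K l (D.τ j) s) (by
          rw [locEquiv_coe]
          exact Glue.conj_mem_fixingSubgroup F₂ hs (D.τ j))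
      rw [MulEquiv.symm_apply_apply] at h1
      exact h1)
  exact ⟨u, m, ⟨S', hl', F₂, hF₂, fun g s hs => huV g s hs⟩, hucoc, hcu⟩

/-- **Generation (UNR3-Q (i)).** Under (U) and (UNR-3), every level-constant 1-cocycle of the
local group at `l ∉ S` with values in `Res N` is `∑ e j • θ_j` plus an unramified cocycle plus a
coboundary. -/
theorem exists_tame_decomp (S : Finset Nat.Primes)
    (hK : K.IsUnramifiedOutside S) (hpS : pPrime p ∈ S) (hl : l ∉ S)
    (hU : ∀ j, HypU K (plc l (D.τ j)))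
    (hT : ∀ j, HypT K p (plc l (D.τ j)) (κ j))
    (hκadd : ∀ j s t, κ j (s * t) = κ j s + κ j t)
    (hκlev : ∀ j, IsLevelConstant₁ (DK K (plc l (D.τ j))).subtype (κ j))
    (c : primeLocalGaloisGroup l → NK K p)
    (hc : c ∈ cocycles₁ (Rep.res (primeLocalToGlobal l) (NK K p)))
    (hclev : IsLevelConstant₁ (primeLocalToGlobal l) c) :
    ∃ (e : J → ZMod p) (u : primeLocalGaloisGroup l → NK K p) (m : NK K p), IsUnram₁ l u ∧
      u ∈ cocycles₁ (Rep.res (primeLocalToGlobal l) (NK K p)) ∧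
      c = ∑ j, e j • thetaQ p D R κ j + u
        + (d₀₁ (Rep.res (primeLocalToGlobal l) (NK K p))).hom m := by
  have hex : ∀ j, ∃ d : ZMod p, ∀ h : Hg K l (D.τ j),
      primeLocalToGlobal l h ∈ (primeLocalPlace l).inertiaSubgroupIn ℚ →
        mkc (D.τ j) c h = d • pull p D κ j h := by
    intro j
    obtain ⟨d, hd, -⟩ := hT j
      (fun σ => mkc (D.τ j) c ((locEquiv K l (D.τ j)).symm σ))
      (fun s t => by
        show mkc (D.τ j) c ((locEquiv K l (D.τ j)).symm (s * t)) = _
        rw [map_mul, mk₁_mul (D.τ j) hc])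
      (isLevelConstant₁_component p (D.τ j) hc hclev)
    refine ⟨d, fun h hh => ?_⟩
    have h1 := hd (locEquiv K l (D.τ j) h) (locEquiv_mem_inertia (D.τ j) h hh)
    have h3 : (mkc (D.τ j) c h : ZMod p) - κ j (locEquiv K l (D.τ j) h) • d = 0 := by
      have h2 : mkc (D.τ j) c ((locEquiv K l (D.τ j)).symm (locEquiv K l (D.τ j) h)) =
          mkc (D.τ j) c h := by
        rw [MulEquiv.symm_apply_apply]
      rw [← h2]
      exact h1
    rw [sub_eq_zero] at h3
    rw [h3, smul_eq_mul, smul_eq_mul, mul_comm, pull_apply]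
  choose e he using hex
  obtain ⟨u, m, hu, hucoc, hcu⟩ :=
    exists_isUnram_of_tame p D R κ S hK hpS hl hU hκadd hκlev c hc hclev e he
  exact ⟨e, u, m, hu, hucoc, hcu⟩

/-- **Uniqueness (UNR3-Q (ii): the `θ_j` are ramified and independent).** -/
theorem eq_zero_of_sum_theta_unram
    (hT : ∀ j, HypT K p (plc l (D.τ j)) (κ j))
    (hκadd : ∀ j s t, κ j (s * t) = κ j s + κ j t)
    (e : J → ZMod p) (u : primeLocalGaloisGroup l → NK K p) (m : NK K p) (hu : IsUnram₁ l u)
    (h : ∑ j, e j • thetaQ p D R κ j = u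
      + (d₀₁ (Rep.res (primeLocalToGlobal l) (NK K p))).hom m) : e = 0 := by
  funext i
  have hucoc : u ∈ cocycles₁ (Rep.res (primeLocalToGlobal l) (NK K p)) := by
    have h1 : u = ∑ j, e j • thetaQ p D R κ j
        - (d₀₁ (Rep.res (primeLocalToGlobal l) (NK K p))).hom m := by
      rw [h]
      abel
    rw [h1]
    refine Submodule.sub_mem _ (Submodule.sum_mem _ fun j _ =>
      Submodule.smul_mem _ _ (thetaQ_mem_cocycles₁ p D R κ hκadd j)) ?_
    exact coboundaries₁_le_cocycles₁ _ (LinearMap.mem_range_self _ m)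
  obtain ⟨S'', hl'', F, hF, huF⟩ := hu
  have hcomp : ∀ s : Hg K l (D.τ i),
      primeLocalToGlobal l s ∈ (primeLocalPlace l).inertiaSubgroupIn ℚ →
        e i * pull p D κ i s = 0 := by
    intro s hs
    have h1 := mk₁_apply_eq_zero_of_rinv (D.τ i)
      (V := F.fixingSubgroup.comap (primeLocalToGlobal l)) m (fun g s hs => huF g s hs) hucoc s
      (hF.2 l hl'' _ (liesOverPrime_primeLocalPlace l) hs)
    rw [← h, mk₁_sum_thetaQ] at h1
    exact h1
  obtain ⟨d, -, huniq⟩ := hT i (fun _ => 0) (fun _ _ => (add_zero 0).symm)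
    ⟨⊥, inferInstance, fun _ _ _ => rfl⟩
  have h0 : (0 : ZMod p) = d := huniq 0 (fun s _ => by simp)
  have h1 : - e i = d := huniq (- e i) (fun s hs => by
    have h2 := hcomp ((locEquiv K l (D.τ i)).symm s) (map_locEquiv_symm_mem_inertia (D.τ i) s hs)
    rw [pull_locEquiv_symm] at h2
    rw [zero_sub, smul_eq_mul, mul_neg, neg_neg, mul_comm]
    exact h2)
  show e i = 0
  rw [← neg_eq_zero, h1, ← h0]

end Main

end Fermat.Agent.S55.Shapiro.Unr3Q
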