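import Mathlib
import Fermat.Agent.S55.Shapiro.Unr3QMain
import Fermat.Agent.CFT.LocalBr.Unram

/-!
# UNR3-Q, final form (tasks row 390): no K-side hypothesis left

`K ≤ Qb` unramified outside `S ∋ p`, `ζ ∈ K` a primitive `p`-th root of unity, `l ∉ S`,
`D : DRep (Fix K) (primeLocalToGlobal l) J`, and for every `j` a uniformiser `π j ∈ K` at the
place `plc l (D.τ j) = D.τ j • primeLocalPlace l`, a `p`-th root `θ j` of it and its Kummer
character `κ j` on `DK K (plc l (D.τ j)) = D_A ⊓ Fix K` (`= LocalBr.Unram.Dloc`).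
`thetaQ p D R κ j` is the 1-cocycle of the local group at `l` with values in
`Res (NK K p)`, `NK K p = coind_{Fix K} 𝔽_p`, whose only non-zero Mackey component is `κ j`.

* `gen_kummer` (**GEN**): every level-constant 1-cocycle of the local group at `l` with values in
  `Res (NK K p)` is `∑ e j • θ_j + (unramified cocycle) + (coboundary)`;
* `kum_kummer` (**KUM**): for `γ ∈ Kˣ` with Kummer character `κγ` on `Fix K`, the restriction at
  `l` of the global cocycle `ind₁ κγ` is `∑ ord_j(γ) • θ_j + (unramified cocycle) + (coboundary)`,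
  where `v_j(γ) = v_j(π j) ^ n j`;
* `ram_kummer` (**RAM**): the coefficients `e j` are unique.

Inputs: `Unr3QMain` and helper255's `CFT/LocalBr/Unram.lean` ((U), (UNR-3), (UNR-5)).
-/

set_option autoImplicit false

open groupCohomology CategoryTheory ExtCitation
open scoped Pointwise

namespace Fermat.Agent.S55.Shapiro.Unr3Q

local notation "Qb" => AlgebraicClosure ℚ
local notation "GQ" => (AlgebraicClosure ℚ ≃ₐ[ℚ] AlgebraicClosure ℚ)

open Fermat.Agent.S55.Shapiro Fermat.Agent.S55.Glue Fermat.Agent.S55.Arith.Unram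
open Fermat.Agent.CFT.LocalBr

attribute [local instance] Glue.isAlgebraicQbar_lg Glue.isAlgClosureQbar_lg Glue.normalQbar_lg

variable {K : IntermediateField ℚ Qb} {l : Nat.Primes}

/-- (U) holds at every place over `l`. -/
theorem hypU_plc [FiniteDimensional ℚ K] (g : GQ) : HypU K (plc l g) := fun F hF => by
  have := hF
  exact Unram.exists_generator_mod_inertia l.2 (liesOverPrime_plc l g) F

theorem ne_of_notMem (p : ℕ) [Fact p.Prime] (S : Finset Nat.Primes) (hpS : pPrime p ∈ S)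
    (hl : l ∉ S) : p ≠ (l : ℕ) := by
  intro h
  apply hl
  have h1 : l = pPrime p := Subtype.ext h.symm
  rw [h1]
  exact hpS

section Final

variable (p : ℕ) [Fact p.Prime] {J : Type} [Fintype J] [DecidableEq J]
  (D : DRep K.fixingSubgroup (primeLocalToGlobal l) J)
  (R : ∀ j : J, Retr (Hg K l (D.τ j)))
  (S : Finset Nat.Primes) (hK : K.IsUnramifiedOutside S) (hpS : pPrime p ∈ S) (hl : l ∉ S)
  (ζ : K) (hζ : IsPrimitiveRoot ζ p)
  (π : J → K) (hπ : ∀ j, Unram.IsUniformizerAt K (plc l (D.τ j)) (π j))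
  (θ : J → Qb) (hθ : ∀ j, θ j ^ p = (π j : Qb))
  (κ : ∀ j : J, ↥(DK K (plc l (D.τ j))) → ZMod p)
  (hκ : ∀ (j : J) (σ : ↥(DK K (plc l (D.τ j)))), (σ : GQ) (θ j) = (ζ : Qb) ^ (κ j σ).val * θ j)

include hK hpS hl hζ hπ hθ hκ

omit [Fintype J] [DecidableEq J] hK hpS hl in
theorem kappa_add (j : J) (s t : ↥(DK K (plc l (D.τ j)))) : κ j (s * t) = κ j s + κ j t :=
  Unram.kummer_uniformizer_add l.2 (liesOverPrime_plc l (D.τ j)) ζ hζ (π j) (hπ j) (θ j) (hθ j)
    (κ j) (hκ j) s t

omit [Fintype J] [DecidableEq J] hK hpS hl in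
theorem kappa_isLevelConstant (j : J) :
    IsLevelConstant₁ (DK K (plc l (D.τ j))).subtype (κ j) :=
  Unram.kummer_uniformizer_isLevelConstant l.2 (liesOverPrime_plc l (D.τ j)) ζ hζ (π j) (hπ j)
    (θ j) (hθ j) (κ j) (hκ j)

omit [Fintype J] [DecidableEq J] in
theorem hypT_kappa (j : J) : HypT K p (plc l (D.τ j)) (κ j) := by
  have := hK.1
  intro η hη hηl
  exact Unram.existsUnique_tame_coeff l.2 (liesOverPrime_plc l (D.τ j))
    (ne_of_notMem p S hpS hl) ζ hζ (π j) (hπ j) (θ j) (hθ j)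
    (κ j) (hκ j) η hη hηl

/-- **(GEN), final form.**  Every level-constant 1-cocycle of the local group at `l ∉ S` with
values in `Res (coind_{Fix K} 𝔽_p)` is `∑ e j • θ_j` plus an unramified cocycle plus a
coboundary. -/
theorem gen_kummer (c : primeLocalGaloisGroup l → NK K p)
    (hc : c ∈ cocycles₁ (Rep.res (primeLocalToGlobal l) (NK K p)))
    (hclev : IsLevelConstant₁ (primeLocalToGlobal l) c) :
    ∃ (e : J → ZMod p) (u : primeLocalGaloisGroup l → NK K p) (m : NK K p), IsUnram₁ l u ∧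
      u ∈ cocycles₁ (Rep.res (primeLocalToGlobal l) (NK K p)) ∧
      c = ∑ j, e j • thetaQ p D R κ j + u
        + (d₀₁ (Rep.res (primeLocalToGlobal l) (NK K p))).hom m := by
  have := hK.1
  exact exists_tame_decomp p D R κ S hK hpS hl (fun j => hypU_plc (D.τ j))
    (hypT_kappa p D S hK hpS hl ζ hζ π hπ θ hθ κ hκ)
    (kappa_add p D ζ hζ π hπ θ hθ κ hκ) (kappa_isLevelConstant p D ζ hζ π hπ θ hθ κ hκ)
    c hc hclev

/-- **(RAM), final form.**  The `θ_j` are independent modulo unramified cocycles and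
coboundaries. -/
theorem ram_kummer (e : J → ZMod p) (u : primeLocalGaloisGroup l → NK K p) (m : NK K p)
    (hu : IsUnram₁ l u)
    (h : ∑ j, e j • thetaQ p D R κ j = u
      + (d₀₁ (Rep.res (primeLocalToGlobal l) (NK K p))).hom m) : e = 0 :=
  eq_zero_of_sum_theta_unram p D R κ (hypT_kappa p D S hK hpS hl ζ hζ π hπ θ hθ κ hκ)
    (kappa_add p D ζ hζ π hπ θ hθ κ hκ) e u m hu h

/-- **(KUM), final form.**  For `γ ∈ Kˣ` with `p`-th root `β` and Kummer character `κγ` on
`Fix K`, and exponents `n j` with `v_j(γ) = v_j(π j) ^ n j`, the restriction at `l` of the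
global Kummer cocycle `ind₁ κγ` is `∑ n j • θ_j` plus an unramified cocycle plus a
coboundary. -/
theorem kum_kummer (R₀ : Retr K.fixingSubgroup) (γ : K) (hγ : γ ≠ 0) (β : Qb)
    (hβ : β ^ p = (γ : Qb)) (κγ : ↥K.fixingSubgroup → ZMod p)
    (hκγ : ∀ σ : ↥K.fixingSubgroup, (σ : GQ) β = (ζ : Qb) ^ (κγ σ).val * β)
    (n : J → ℤ)
    (hn : ∀ j, (plc l (D.τ j)).valuation (γ : Qb) = (plc l (D.τ j)).valuation (π j : Qb) ^ n j) :
    ∃ (u : primeLocalGaloisGroup l → NK K p) (m : NK K p), IsUnram₁ l u ∧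
      u ∈ cocycles₁ (Rep.res (primeLocalToGlobal l) (NK K p)) ∧
      (fun h => ind₁ (triv (k := ZMod p) K.fixingSubgroup (ZMod p)) R₀ κγ
          (primeLocalToGlobal l h)) =
        ∑ j, (n j : ZMod p) • thetaQ p D R κ j + u
          + (d₀₁ (Rep.res (primeLocalToGlobal l) (NK K p))).hom m := by
  have hfd := hK.1
  have hp : p.Prime := Fact.out
  have hβ0 : β ≠ 0 := by
    intro h0
    rw [h0, zero_pow hp.ne_zero] at hβ
    exact hγ (Subtype.ext hβ.symm)
  have hadd : ∀ u v : ↥K.fixingSubgroup, κγ (u * v) = κγ u + κγ v :=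
    Unram.kummer_add (D := K.fixingSubgroup) le_rfl hζ hβ0 hκγ
  obtain ⟨F, hF, hκF⟩ := Unram.kummer_isLevelConstant (D := K.fixingSubgroup) le_rfl hζ hβ0 hκγ
  have := hF
  -- the global cocycle
  have hcocU : κγ ∈ cocycles₁ (triv (k := ZMod p) K.fixingSubgroup (ZMod p)) := by
    rw [mem_cocycles₁_iff]
    intro u v
    rw [hadd, add_comm]
    rfl
  have hind := ind₁_mem_cocycles₁ R₀ hcocU
  have hc : (fun h => ind₁ (triv (k := ZMod p) K.fixingSubgroup (ZMod p)) R₀ κγ
      (primeLocalToGlobal l h)) ∈ cocycles₁ (Rep.res (primeLocalToGlobal l) (NK K p)) := by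
    rw [mem_cocycles₁_iff]
    intro g h
    have h1 := (mem_cocycles₁_iff _).1 hind (primeLocalToGlobal l g) (primeLocalToGlobal l h)
    show ind₁ (triv (k := ZMod p) K.fixingSubgroup (ZMod p)) R₀ κγ (primeLocalToGlobal l (g * h))
      = _
    rw [map_mul, h1]
    rfl
  -- its level
  have hnc : Normal ℚ (IntermediateField.normalClosure ℚ (K ⊔ F : IntermediateField ℚ Qb) Qb) :=
    normalClosure.normal ℚ _ _
  have hVn : (IntermediateField.normalClosure ℚ (K ⊔ F : IntermediateField ℚ Qb)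
      Qb).fixingSubgroup.Normal :=
    ⟨fun n hn x => Glue.conj_mem_fixingSubgroup _ hn x⟩
  have hVK : (IntermediateField.normalClosure ℚ (K ⊔ F : IntermediateField ℚ Qb)
      Qb).fixingSubgroup ≤ K.fixingSubgroup :=
    IntermediateField.fixingSubgroup_antitone
      (le_sup_left.trans (IntermediateField.le_normalClosure _))
  have hVF : (IntermediateField.normalClosure ℚ (K ⊔ F : IntermediateField ℚ Qb)
      Qb).fixingSubgroup ≤ F.fixingSubgroup :=
    IntermediateField.fixingSubgroup_antitone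
      (le_sup_right.trans (IntermediateField.le_normalClosure _))
  have hrinv := rinv₁_ind₁ (A := triv (k := ZMod p) K.fixingSubgroup (ZMod p)) R₀ hVK
    (β := κγ) (fun g s hs => hκF g s (hVF (Subgroup.mem_subgroupOf.mp hs)))
  have hclev : IsLevelConstant₁ (primeLocalToGlobal l)
      (fun h => ind₁ (triv (k := ZMod p) K.fixingSubgroup (ZMod p)) R₀ κγ
        (primeLocalToGlobal l h)) := by
    refine ⟨IntermediateField.normalClosure ℚ (K ⊔ F : IntermediateField ℚ Qb) Qb,
      inferInstance, fun g s hs => ?_⟩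
    show ind₁ (triv (k := ZMod p) K.fixingSubgroup (ZMod p)) R₀ κγ (primeLocalToGlobal l (g * s))
      = _
    rw [map_mul]
    exact hrinv _ _ hs
  -- the criterion
  refine exists_isUnram_of_tame p D R κ S hK hpS hl (fun j => hypU_plc (D.τ j))
    (kappa_add p D ζ hζ π hπ θ hθ κ hκ) (kappa_isLevelConstant p D ζ hζ π hπ θ hθ κ hκ)
    _ hc hclev (fun j => (n j : ZMod p)) (fun j h hh => ?_)
  rw [mk₁_ind₁_res R₀ (D.τ j) hadd]
  have h1 := Unram.kummer_tame_coeff l.2 (liesOverPrime_plc l (D.τ j))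
    (ne_of_notMem p S hpS hl) ζ hζ (π j) (hπ j) (θ j) (hθ j)
    (κ j) (hκ j) γ β hβ (fun σ => κγ ⟨σ, σ.2.2⟩) (fun σ => hκγ ⟨σ, σ.2.2⟩) (n j) (hn j)
    (locEquiv K l (D.τ j) h) (locEquiv_mem_inertia (D.τ j) h hh)
  have h2 : κγ (conjHom K.fixingSubgroup (primeLocalToGlobal l) (D.τ j) h)
      - κ j (locEquiv K l (D.τ j) h) * (n j : ZMod p) = 0 := h1
  rw [sub_eq_zero] at h2
  show κγ (conjHom K.fixingSubgroup (primeLocalToGlobal l) (D.τ j) h) =
    (n j : ZMod p) • pull p D κ j h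
  rw [h2, smul_eq_mul, mul_comm, pull_apply]

end Final

end Fermat.Agent.S55.Shapiro.Unr3Q
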