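import Mathlib
import Fermat.Agent.S55.Shapiro.Unr3QFinal

/-!
# UNR3-Q in the normalisation `θ_j = res_l (ind₁ (Kummer character of π_j))` (tasks row 390)

Same setting as `Unr3QFinal.lean`.  `χ j : Fix K → ZMod p` is a (global) Kummer character of the
uniformiser `π j` at the place `plc l (D.τ j)`, and `π j` is a unit at the other places
`plc l (D.τ i)`, `i ≠ j`, over `l`.  Then the restrictions at `l` of the global cocycles
`ind₁ (χ j)` generate the level-constant 1-cocycles of the local group at `l` with values in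
`Res (coind_{Fix K} 𝔽_p)` modulo unramified cochains and coboundaries:

* `isUnram₁_sum_smul`, `isUnram₁_sub` : closure properties of unramified cochains;
* `res_ind_eq_theta` : `res_l (ind₁ (χ j)) = θ_j + (unramified cocycle) + (coboundary)`;
* `gen_res_ind` (**(G\*)**) : every level-constant cocycle is
  `∑ e j • res_l (ind₁ (χ j)) + (unramified cochain) + (coboundary)`;
* `kum_res_ind` (**KD**) : for `γ ∈ Kˣ`, `res_l (ind₁ κγ) = ∑ ord_j(γ) • res_l (ind₁ (χ j))
  + (unramified cochain) + (coboundary)`.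
-/

set_option autoImplicit false

open groupCohomology CategoryTheory ExtCitation
open scoped Pointwise

namespace Fermat.Agent.S55.Shapiro.Unr3Q

local notation "Qb" => AlgebraicClosure ℚ
local notation "GQ" => (AlgebraicClosure ℚ ≃ₐ[ℚ] AlgebraicClosure ℚ)

open Fermat.Agent.S55.Shapiro Fermat.Agent.S55.Glue Fermat.Agent.S55.Arith.Unram
open Fermat.Agent.CFT.LocalBr

attribute [local instance] Glue.isAlgebraicQbar_lg Glue.isAlgClosureQbar_lg Glue.normalQbar_lg

variable {K : IntermediateField ℚ Qb} {l : Nat.Primes}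

/-! ### Closure properties of unramified cochains -/

theorem isUnram₁_neg {X : Type*} [Neg X] {f : primeLocalGaloisGroup l → X} (hf : IsUnram₁ l f) :
    IsUnram₁ l (-f) :=
  hf.comp (fun x => -x)

theorem isUnram₁_sub {X : Type*} [AddGroup X] {f f' : primeLocalGaloisGroup l → X}
    (hf : IsUnram₁ l f) (hf' : IsUnram₁ l f') : IsUnram₁ l (f - f') := by
  rw [sub_eq_add_neg]
  exact hf.add (isUnram₁_neg hf')

theorem isUnram₁_smul {k X : Type*} [SMul k X] (a : k) {f : primeLocalGaloisGroup l → X}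
    (hf : IsUnram₁ l f) : IsUnram₁ l (a • f) :=
  hf.comp (fun x => a • x)

theorem isUnram₁_sum_smul {k X J : Type*} [Semiring k] [AddCommMonoid X] [Module k X]
    (s : Finset J) (e : J → k) (u : J → primeLocalGaloisGroup l → X)
    (hu : ∀ j ∈ s, IsUnram₁ l (u j)) : IsUnram₁ l (∑ j ∈ s, e j • u j) := by
  classical
  induction s using Finset.induction_on with
  | empty =>
    rw [Finset.sum_empty]
    exact isUnram₁_const l (0 : X)
  | insert a s ha ih =>
    rw [Finset.sum_insert ha]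
    exact (isUnram₁_smul (e a) (hu a (Finset.mem_insert_self a s))).add
      (ih fun j hj => hu j (Finset.mem_insert_of_mem hj))

section Gen

variable (p : ℕ) [Fact p.Prime] {J : Type} [Fintype J]
  (D : DRep K.fixingSubgroup (primeLocalToGlobal l) J)
  (S : Finset Nat.Primes) (hK : K.IsUnramifiedOutside S) (hpS : pPrime p ∈ S) (hl : l ∉ S)
  (ζ : K) (hζ : IsPrimitiveRoot ζ p)
  (π : J → K) (hπ : ∀ j, Unram.IsUniformizerAt K (plc l (D.τ j)) (π j))
  (hunit : ∀ i j, i ≠ j → (plc l (D.τ i)).valuation (π j : Qb) = 1)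
  (θ : J → Qb) (hθ : ∀ j, θ j ^ p = (π j : Qb))
  (χ : J → ↥K.fixingSubgroup → ZMod p)
  (hχ : ∀ (j : J) (σ : ↥K.fixingSubgroup), (σ : GQ) (θ j) = (ζ : Qb) ^ (χ j σ).val * θ j)
  (R₀ : Retr K.fixingSubgroup)

/-- The restriction at `l` of the global Kummer cocycle `ind₁ (χ j)` of `π j`. -/
noncomputable def resInd (j : J) : primeLocalGaloisGroup l → NK K p :=
  fun h => ind₁ (triv (k := ZMod p) K.fixingSubgroup (ZMod p)) R₀ (χ j) (primeLocalToGlobal l h)

omit [Fintype J] in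
theorem resInd_apply (j : J) (h : primeLocalGaloisGroup l) :
    resInd p χ R₀ j h =
      ind₁ (triv (k := ZMod p) K.fixingSubgroup (ZMod p)) R₀ (χ j) (primeLocalToGlobal l h) := rfl

include hK hpS hl hζ hπ hunit hθ hχ

/-- `res_l (ind₁ (χ j₀)) = θ_{j₀} + (unramified cocycle) + (coboundary)`, where `θ` is built
from the restrictions `κ j` of the `χ j` to the local groups. -/
theorem res_ind_eq_theta [DecidableEq J] (R : ∀ j : J, Retr (Hg K l (D.τ j))) (j₀ : J) :
    ∃ (u : primeLocalGaloisGroup l → NK K p) (m : NK K p), IsUnram₁ l u ∧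
      u ∈ cocycles₁ (Rep.res (primeLocalToGlobal l) (NK K p)) ∧
      resInd p χ R₀ j₀ =
        thetaQ p D R (fun j σ => χ j ⟨σ, σ.2.2⟩) j₀ + u
          + (d₀₁ (Rep.res (primeLocalToGlobal l) (NK K p))).hom m := by
  have hπ0 : π j₀ ≠ 0 := Unram.uniformizer_ne_zero l.2 (liesOverPrime_plc l (D.τ j₀)) (hπ j₀)
  obtain ⟨u, m, hu, hucoc, h⟩ := kum_kummer p D R S hK hpS hl ζ hζ π hπ θ hθ
    (fun j σ => χ j ⟨σ, σ.2.2⟩) (fun j σ => hχ j ⟨σ, σ.2.2⟩) R₀ (π j₀) hπ0 (θ j₀) (hθ j₀)
    (χ j₀) (hχ j₀) (fun j => if j = j₀ then 1 else 0) (fun j => by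
      by_cases hj : j = j₀
      · subst hj
        rw [if_pos rfl, zpow_one]
      · rw [if_neg hj, zpow_zero]
        exact hunit j j₀ hj)
  refine ⟨u, m, hu, hucoc, ?_⟩
  have hsum : ∑ j, (((if j = j₀ then (1 : ℤ) else 0 : ℤ) : ZMod p)) •
      thetaQ p D R (fun j σ => χ j ⟨σ, σ.2.2⟩) j =
      thetaQ p D R (fun j σ => χ j ⟨σ, σ.2.2⟩) j₀ := by
    rw [Finset.sum_eq_single j₀]
    · rw [if_pos rfl, Int.cast_one, one_smul]
    · intro j _ hj
      rw [if_neg hj, Int.cast_zero, zero_smul]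
    · intro hj
      exact absurd (Finset.mem_univ j₀) hj
  rw [← hsum]
  exact h

/-- **(G\*)**: generation by the restrictions of the global Kummer cocycles of uniformisers.
Every level-constant 1-cocycle of the local group at `l ∉ S` with values in
`Res (coind_{Fix K} 𝔽_p)` is `∑ e j • res_l (ind₁ (χ j))` plus an unramified cochain plus a
coboundary. -/
theorem gen_res_ind (c : primeLocalGaloisGroup l → NK K p)
    (hc : c ∈ cocycles₁ (Rep.res (primeLocalToGlobal l) (NK K p)))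
    (hclev : IsLevelConstant₁ (primeLocalToGlobal l) c) :
    ∃ (e : J → ZMod p) (u : primeLocalGaloisGroup l → NK K p) (m : NK K p), IsUnram₁ l u ∧
      c = ∑ j, e j • resInd p χ R₀ j + u
        + (d₀₁ (Rep.res (primeLocalToGlobal l) (NK K p))).hom m := by
  classical
  have R : ∀ j : J, Retr (Hg K l (D.τ j)) := fun j => (Retr.nonempty _).some
  obtain ⟨e, u, m, hu, -, hcu⟩ := gen_kummer p D R S hK hpS hl ζ hζ π hπ θ hθ
    (fun j σ => χ j ⟨σ, σ.2.2⟩) (fun j σ => hχ j ⟨σ, σ.2.2⟩) c hc hclev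
  choose u' m' hu' _ h' using
    res_ind_eq_theta p D S hK hpS hl ζ hζ π hπ hunit θ hθ χ hχ R₀ R
  refine ⟨e, u - ∑ j, e j • u' j, m - ∑ j, e j • m' j,
    isUnram₁_sub hu (isUnram₁_sum_smul Finset.univ e u' fun j _ => hu' j), ?_⟩
  have h1 : ∑ j, e j • resInd p χ R₀ j =
      ∑ j, e j • thetaQ p D R (fun j σ => χ j ⟨σ, σ.2.2⟩) j + ∑ j, e j • u' j
        + (d₀₁ (Rep.res (primeLocalToGlobal l) (NK K p))).hom (∑ j, e j • m' j) := by
    rw [map_sum, ← Finset.sum_add_distrib, ← Finset.sum_add_distrib]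
    refine Finset.sum_congr rfl fun j _ => ?_
    rw [h' j, smul_add, smul_add, map_smul]
  rw [hcu, h1, map_sub]
  abel

/-- **(KD)** in the same normalisation: for `γ ∈ Kˣ` with Kummer character `κγ` on `Fix K`
and `v_j(γ) = v_j(π j) ^ n j`, the restriction at `l` of `ind₁ κγ` is
`∑ n j • res_l (ind₁ (χ j))` plus an unramified cochain plus a coboundary. -/
theorem kum_res_ind (γ : K) (hγ : γ ≠ 0) (β : Qb)
    (hβ : β ^ p = (γ : Qb)) (κγ : ↥K.fixingSubgroup → ZMod p)
    (hκγ : ∀ σ : ↥K.fixingSubgroup, (σ : GQ) β = (ζ : Qb) ^ (κγ σ).val * β)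
    (n : J → ℤ)
    (hn : ∀ j, (plc l (D.τ j)).valuation (γ : Qb) = (plc l (D.τ j)).valuation (π j : Qb) ^ n j) :
    ∃ (u : primeLocalGaloisGroup l → NK K p) (m : NK K p), IsUnram₁ l u ∧
      (fun h => ind₁ (triv (k := ZMod p) K.fixingSubgroup (ZMod p)) R₀ κγ
          (primeLocalToGlobal l h)) =
        ∑ j, (n j : ZMod p) • resInd p χ R₀ j + u
          + (d₀₁ (Rep.res (primeLocalToGlobal l) (NK K p))).hom m := by
  classical
  have R : ∀ j : J, Retr (Hg K l (D.τ j)) := fun j => (Retr.nonempty _).some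
  obtain ⟨u, m, hu, -, hcu⟩ := kum_kummer p D R S hK hpS hl ζ hζ π hπ θ hθ
    (fun j σ => χ j ⟨σ, σ.2.2⟩) (fun j σ => hχ j ⟨σ, σ.2.2⟩) R₀ γ hγ β hβ κγ hκγ n hn
  choose u' m' hu' _ h' using
    res_ind_eq_theta p D S hK hpS hl ζ hζ π hπ hunit θ hθ χ hχ R₀ R
  refine ⟨u - ∑ j, (n j : ZMod p) • u' j, m - ∑ j, (n j : ZMod p) • m' j,
    isUnram₁_sub hu (isUnram₁_sum_smul Finset.univ (fun j => (n j : ZMod p)) u'
      fun j _ => hu' j), ?_⟩
  have h1 : ∑ j, (n j : ZMod p) • resInd p χ R₀ j =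
      ∑ j, (n j : ZMod p) • thetaQ p D R (fun j σ => χ j ⟨σ, σ.2.2⟩) j
        + ∑ j, (n j : ZMod p) • u' j
        + (d₀₁ (Rep.res (primeLocalToGlobal l) (NK K p))).hom (∑ j, (n j : ZMod p) • m' j) := by
    rw [map_sum, ← Finset.sum_add_distrib, ← Finset.sum_add_distrib]
    refine Finset.sum_congr rfl fun j _ => ?_
    rw [h' j, smul_add, smul_add, map_smul]
  rw [hcu, h1, map_sub]
  abel

end Gen

end Fermat.Agent.S55.Shapiro.Unr3Q
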