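import Fermat.Agent.S55.Base.ConeKer
import Fermat.Agent.CFT.Global.G4Q
import Fermat.Agent.S55.Abs.Reduce

/-!
# (G4Q) in the shape of the cone route

`ConeKer.G4 I.datum N` for `N = M0(K)` and `N = M0(K).dualTwist (cycloChar p)`, for the
evaluation datum of ANY arithmetic input `I : EvalQ.ArithInput p S`: a level-`S` 1-cocycle of
`G_ℚ` which restricts to a coboundary on the local group at every prime is a coboundary.
From `CFT.Global.G4Q.coboundary_of_locally_coboundary[_dualTwist]` and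
`Glue.LocalRange.range_primeLocalToGlobal`.
-/

set_option autoImplicit false

open CategoryTheory groupCohomology ExtCitation

namespace Fermat.Agent.S55.Shapiro.AdapterG4

open Fermat.Agent.S55.Abs Fermat.Agent.S55.Base Fermat.Agent.S55.Base.EvalQ

attribute [local instance] Glue.isAlgebraicQbar_lg Glue.isAlgClosureQbar_lg Glue.normalQbar_lg

variable {p : ℕ} [Fact p.Prime] {S : Finset Nat.Primes}

/-- `μ_p ⊂ K` gives a primitive `p`-th root of unity in `K`. -/
theorem exists_primitiveRoot (K : IntermediateField ℚ (AlgebraicClosure ℚ))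
    (hcyc : Glue.cycloField p ≤ K) : ∃ ζ : K, IsPrimitiveRoot ζ p := by
  have : NeZero p := ⟨(Fact.out : p.Prime).ne_zero⟩
  obtain ⟨ζ, hζ⟩ := HasEnoughRootsOfUnity.exists_primitiveRoot (AlgebraicClosure ℚ) p
  have hmem : ζ ∈ K := hcyc (IntermediateField.subset_adjoin ℚ _ hζ.pow_eq_one)
  exact ⟨⟨ζ, hmem⟩, IsPrimitiveRoot.of_map_of_injective (f := K.val) hζ K.val.injective⟩

/-- A level cochain for `globalLevel S` is level-constant in the Prelude's sense. -/
theorem isLevelConstant₁_of_isLev₁ (S : Finset Nat.Primes) {X : Type*} {y : GQ → X}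
    (h : IsLev₁ (globalLevel S) y) : IsLevelConstant₁ (MonoidHom.id GQ) y := by
  obtain ⟨_, ⟨F, hF, rfl⟩, h⟩ := h
  exact ⟨F, hF.1, fun g s hs => h g s hs⟩

/-- A coboundary on the Prelude's local group at `q` is a coboundary on the decomposition group
of the distinguished place over `q`. -/
theorem exists_of_res₁_mem_coboundaries₁ (N : Rep.{0} (ZMod p) GQ) (y : GQ → N) (q : Nat.Primes)
    (h : res₁ (fun w : Nat.Primes => primeLocalToGlobal w) N q y
      ∈ coboundaries₁ (Rep.res (primeLocalToGlobal q) N)) :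
    ∃ A : ValuationSubring (AlgebraicClosure ℚ), A.LiesOverPrime (q : ℕ) ∧
      ∃ m : N, ∀ σ ∈ A.decompositionSubgroup ℚ, y σ = N.ρ σ m - m := by
  obtain ⟨m, hm⟩ := h
  refine ⟨primeLocalPlace q, CFT.Global.G4Q.liesOverPrime_primeLocalPlace q, m, fun σ hσ => ?_⟩
  rw [← Glue.LocalRange.range_primeLocalToGlobal] at hσ
  obtain ⟨x, rfl⟩ := hσ
  have := congrFun hm x
  rw [d₀₁_hom_apply] at this
  exact this.symm

variable (I : ArithInput p S) (K : IntermediateField ℚ (AlgebraicClosure ℚ))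
  (hK : K.IsUnramifiedOutside S) (hcyc : Glue.cycloField p ≤ K)

include hK hcyc

/-- **(G4Q)**, cone-route shape, `N = M0(K)`. -/
theorem g4_M0 : ConeKer.G4 I.datum (M0 (ZMod p) K.fixingSubgroup) := by
  intro y hy hloc
  have hfd : FiniteDimensional ℚ K := hK.1
  obtain ⟨ζ, hζ⟩ := exists_primitiveRoot (p := p) K hcyc
  exact CFT.Global.G4Q.coboundary_of_locally_coboundary K ζ hζ y hy.2
    (isLevelConstant₁_of_isLev₁ S hy.1) ∅ fun ℓ hℓ _ =>
      exists_of_res₁_mem_coboundaries₁ _ y ⟨ℓ, hℓ⟩ (hloc ⟨ℓ, hℓ⟩)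

/-- **(G4Q)**, cone-route shape, `N = M0(K)'`. -/
theorem g4_M0_dualTwist :
    ConeKer.G4 I.datum ((M0 (ZMod p) K.fixingSubgroup).dualTwist (cycloChar p)) := by
  intro y hy hloc
  have hfd : FiniteDimensional ℚ K := hK.1
  obtain ⟨ζ, hζ⟩ := exists_primitiveRoot (p := p) K hcyc
  exact CFT.Global.G4Q.coboundary_of_locally_coboundary_dualTwist K ζ hζ y hy.2
    (isLevelConstant₁_of_isLev₁ S hy.1) ∅ fun ℓ hℓ _ =>
      exists_of_res₁_mem_coboundaries₁ _ y ⟨ℓ, hℓ⟩ (hloc ⟨ℓ, hℓ⟩)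

end Fermat.Agent.S55.Shapiro.AdapterG4
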