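import Mathlib
import Fermat.Agent.S55.Shapiro.Norm
import Fermat.Agent.S55.Abs.CupLow

/-!
# Shapiro's lemma and cup products (CFT brick [SH-product])

`G` a group, `U ≤ G`, `A B D : Rep k U`, `φ : A →ₗ B →ₗ D` an equivariant pairing
(`Abs.CupLow.Equivariant`).  Cup products are those of `Abs/CupLow.lean` (`cup₀₁ … cup₃₀`).

* `coindMul φ hφ` : the pointwise product `coind A →ₗ coind B →ₗ coind D`; it is equivariant
  (`coindMul_equivariant`).
* `ind` is multiplicative **on the nose** in every bidegree `i + j ≤ 3`: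
  `ind₀_pairing`, `ind₁_cup₀₁`, `ind₁_cup₁₀`, `ind₂_cup₁₁`, `ind₂_cup₀₂`, `ind₂_cup₂₀`,
  `ind₃_cup₁₂`, `ind₃_cup₂₁`, `ind₃_cup₀₃`, `ind₃_cup₃₀`.
* `sh` is multiplicative on the nose in every bidegree `i + j ≤ 3`:
  `sh₀_coindMul`, `sh₁_cup₀₁`, `sh₁_cup₁₀`, `sh₂_cup₁₁`, `sh₂_cup₀₂`, `sh₂_cup₂₀`,
  `sh₃_cup₁₂`, `sh₃_cup₂₁`, `sh₃_cup₀₃`, `sh₃_cup₃₀`.
* for `U` of finite index, `C : Rep k G` and `φ : A →ₗ B →ₗ Rep.res U.subtype C`:
  `coindPair φ hφ := (coindMul φ hφ).compr₂ (nrm U C)` is an equivariant pairing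
  `coind A →ₗ coind B →ₗ C`, its cup products are the norms of those of `coindMul`
  (`cup₁₁_coindPair`, …), and on induced cochains they are corestrictions:
  `cup₁₁ (coindPair φ hφ) (ind₁ A R a) (ind₁ B R b) = cores₂ C R (cup₁₁ φ a b)`
  (`coindPair_ind₀`, `cup₀₁_coindPair_ind`, …, `cup₃₀_coindPair_ind`).
-/

set_option autoImplicit false

open groupCohomology
open Fermat.Agent.S55.Abs.CupLow

namespace Fermat.Agent.S55.Shapiro

variable {k : Type} [CommRing k] {G : Type} [Group G]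

section Mul

variable {U : Subgroup G} {A B D : Rep.{0} k U}

/-- The pointwise product of coinduced modules attached to an equivariant pairing. -/
def coindMul (φ : A →ₗ[k] B →ₗ[k] D) (hφ : Equivariant φ) :
    Rep.coind U.subtype A →ₗ[k] Rep.coind U.subtype B →ₗ[k] Rep.coind U.subtype D :=
  LinearMap.mk₂ k
    (fun f f' => ⟨fun x => φ (f.1 x) (f'.1 x), fun u x => by
      show φ (f.1 ((u : G) * x)) (f'.1 ((u : G) * x)) = D.ρ u (φ (f.1 x) (f'.1 x))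
      rw [coind_apply_smul, coind_apply_smul, hφ]⟩)
    (fun f₁ f₂ f' => Subtype.ext (funext fun x => by
      show φ ((f₁ + f₂).1 x) (f'.1 x) = φ (f₁.1 x) (f'.1 x) + φ (f₂.1 x) (f'.1 x)
      rw [coind_add_apply, map_add, LinearMap.add_apply]))
    (fun c f f' => Subtype.ext (funext fun x => by
      show φ (c • f.1 x) (f'.1 x) = c • φ (f.1 x) (f'.1 x)
      rw [map_smul, LinearMap.smul_apply]))
    (fun f f₁ f₂ => Subtype.ext (funext fun x => by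
      show φ (f.1 x) ((f₁ + f₂).1 x) = φ (f.1 x) (f₁.1 x) + φ (f.1 x) (f₂.1 x)
      rw [coind_add_apply, map_add]))
    (fun c f f' => Subtype.ext (funext fun x => by
      show φ (f.1 x) (c • f'.1 x) = c • φ (f.1 x) (f'.1 x)
      rw [map_smul]))

variable (φ : A →ₗ[k] B →ₗ[k] D) (hφ : Equivariant φ)

theorem coindMul_apply (f : Rep.coind U.subtype A) (f' : Rep.coind U.subtype B) (x : G) :
    (coindMul φ hφ f f').1 x = φ (f.1 x) (f'.1 x) := rfl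

/-- The pointwise product is `G`-equivariant. -/
theorem coindMul_equivariant : Equivariant (coindMul φ hφ) :=
  fun _ _ _ => Subtype.ext (funext fun _ => rfl)

/-! ### `ind` is multiplicative -/

variable (R : Retr U)

/-- `ind` is multiplicative, bidegree `(0, 0)`. -/
theorem ind₀_pairing (a : A) (b : B) :
    ind₀ D R (φ a b) = coindMul φ hφ (ind₀ A R a) (ind₀ B R b) :=
  Subtype.ext (funext fun x => hφ.apply_ρ (R.r x) a b)

/-- `ind` is multiplicative, bidegree `(0, 1)`. -/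
theorem ind₁_cup₀₁ (a : A) (y : U → B) :
    ind₁ D R (cup₀₁ φ a y) = cup₀₁ (coindMul φ hφ) (ind₀ A R a) (ind₁ B R y) :=
  funext fun g => Subtype.ext (funext fun x => hφ.apply_ρ (R.r x) a (y (R.uu x g)))

/-- `ind` is multiplicative, bidegree `(1, 0)`. -/
theorem ind₁_cup₁₀ (x : U → A) (b : B) :
    ind₁ D R (cup₁₀ φ x b) = cup₁₀ (coindMul φ hφ) (ind₁ A R x) (ind₀ B R b) := by
  refine funext fun g => Subtype.ext (funext fun z => ?_)
  show D.ρ (R.r z) (φ (x (R.uu z g)) (B.ρ (R.uu z g) b)) =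
    φ (A.ρ (R.r z) (x (R.uu z g))) (B.ρ (R.r (z * g)) b)
  rw [hφ.apply_ρ, ← R.r_mul_uu z g, map_mul]
  rfl

/-- `ind` is multiplicative, bidegree `(1, 1)`. -/
theorem ind₂_cup₁₁ (x : U → A) (y : U → B) :
    ind₂ D R (cup₁₁ φ x y) = cup₁₁ (coindMul φ hφ) (ind₁ A R x) (ind₁ B R y) := by
  refine funext fun p => Subtype.ext (funext fun z => ?_)
  show D.ρ (R.r z) (φ (x (R.uu z p.1)) (B.ρ (R.uu z p.1) (y (R.uu (z * p.1) p.2)))) =
    φ (A.ρ (R.r z) (x (R.uu z p.1))) (B.ρ (R.r (z * p.1)) (y (R.uu (z * p.1) p.2)))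
  rw [hφ.apply_ρ, ← R.r_mul_uu z p.1, map_mul]
  rfl

/-- `ind` is multiplicative, bidegree `(0, 2)`. -/
theorem ind₂_cup₀₂ (a : A) (y : U × U → B) :
    ind₂ D R (cup₀₂ φ a y) = cup₀₂ (coindMul φ hφ) (ind₀ A R a) (ind₂ B R y) :=
  funext fun p => Subtype.ext (funext fun z =>
    hφ.apply_ρ (R.r z) a (y (R.uu z p.1, R.uu (z * p.1) p.2)))

/-- `ind` is multiplicative, bidegree `(2, 0)`. -/
theorem ind₂_cup₂₀ (x : U × U → A) (b : B) :
    ind₂ D R (cup₂₀ φ x b) = cup₂₀ (coindMul φ hφ) (ind₂ A R x) (ind₀ B R b) := by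
  refine funext fun p => Subtype.ext (funext fun z => ?_)
  show D.ρ (R.r z) (φ (x (R.uu z p.1, R.uu (z * p.1) p.2))
      (B.ρ (R.uu z p.1 * R.uu (z * p.1) p.2) b)) =
    φ (A.ρ (R.r z) (x (R.uu z p.1, R.uu (z * p.1) p.2))) (B.ρ (R.r (z * (p.1 * p.2))) b)
  rw [hφ.apply_ρ, R.uu_mul_uu, ← R.r_mul_uu z (p.1 * p.2), map_mul]
  rfl

/-- `ind` is multiplicative, bidegree `(1, 2)`. -/
theorem ind₃_cup₁₂ (x : U → A) (y : U × U → B) :
    ind₃ D R (cup₁₂ φ x y) = cup₁₂ (coindMul φ hφ) (ind₁ A R x) (ind₂ B R y) := by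
  refine funext fun p => Subtype.ext (funext fun z => ?_)
  show D.ρ (R.r z) (φ (x (R.uu z p.1))
      (B.ρ (R.uu z p.1) (y (R.uu (z * p.1) p.2.1, R.uu (z * p.1 * p.2.1) p.2.2)))) =
    φ (A.ρ (R.r z) (x (R.uu z p.1)))
      (B.ρ (R.r (z * p.1)) (y (R.uu (z * p.1) p.2.1, R.uu (z * p.1 * p.2.1) p.2.2)))
  rw [hφ.apply_ρ, ← R.r_mul_uu z p.1, map_mul]
  rfl

/-- `ind` is multiplicative, bidegree `(2, 1)`. -/
theorem ind₃_cup₂₁ (x : U × U → A) (y : U → B) :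
    ind₃ D R (cup₂₁ φ x y) = cup₂₁ (coindMul φ hφ) (ind₂ A R x) (ind₁ B R y) := by
  refine funext fun p => Subtype.ext (funext fun z => ?_)
  show D.ρ (R.r z) (φ (x (R.uu z p.1, R.uu (z * p.1) p.2.1))
      (B.ρ (R.uu z p.1 * R.uu (z * p.1) p.2.1) (y (R.uu (z * p.1 * p.2.1) p.2.2)))) =
    φ (A.ρ (R.r z) (x (R.uu z p.1, R.uu (z * p.1) p.2.1)))
      (B.ρ (R.r (z * (p.1 * p.2.1))) (y (R.uu (z * (p.1 * p.2.1)) p.2.2)))
  rw [hφ.apply_ρ, R.uu_mul_uu, ← R.r_mul_uu z (p.1 * p.2.1), map_mul, mul_assoc z p.1 p.2.1]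
  rfl

/-- `ind` is multiplicative, bidegree `(0, 3)`. -/
theorem ind₃_cup₀₃ (a : A) (y : U × U × U → B) :
    ind₃ D R (cup₀₃ φ a y) = cup₀₃ (coindMul φ hφ) (ind₀ A R a) (ind₃ B R y) :=
  funext fun p => Subtype.ext (funext fun z =>
    hφ.apply_ρ (R.r z) a (y (R.uu z p.1, R.uu (z * p.1) p.2.1, R.uu (z * p.1 * p.2.1) p.2.2)))

/-- `ind` is multiplicative, bidegree `(3, 0)`. -/
theorem ind₃_cup₃₀ (x : U × U × U → A) (b : B) :
    ind₃ D R (cup₃₀ φ x b) = cup₃₀ (coindMul φ hφ) (ind₃ A R x) (ind₀ B R b) := by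
  refine funext fun p => Subtype.ext (funext fun z => ?_)
  show D.ρ (R.r z) (φ (x (R.uu z p.1, R.uu (z * p.1) p.2.1, R.uu (z * p.1 * p.2.1) p.2.2))
      (B.ρ (R.uu z p.1 * R.uu (z * p.1) p.2.1 * R.uu (z * p.1 * p.2.1) p.2.2) b)) =
    φ (A.ρ (R.r z) (x (R.uu z p.1, R.uu (z * p.1) p.2.1, R.uu (z * p.1 * p.2.1) p.2.2)))
      (B.ρ (R.r (z * (p.1 * p.2.1 * p.2.2))) b)
  rw [hφ.apply_ρ, R.uu_mul_uu, mul_assoc z p.1 p.2.1, R.uu_mul_uu,
    ← R.r_mul_uu z (p.1 * p.2.1 * p.2.2), map_mul]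
  rfl

/-! ### `sh` is multiplicative -/

/-- `sh` is multiplicative, bidegree `(0, 0)`. -/
theorem sh₀_coindMul (f : Rep.coind U.subtype A) (f' : Rep.coind U.subtype B) :
    sh₀ U D (coindMul φ hφ f f') = φ (sh₀ U A f) (sh₀ U B f') := rfl

/-- `sh` is multiplicative, bidegree `(0, 1)`. -/
theorem sh₁_cup₀₁ (m : Rep.coind U.subtype A) (y : G → Rep.coind U.subtype B) :
    sh₁ U D (cup₀₁ (coindMul φ hφ) m y) = cup₀₁ φ (sh₀ U A m) (sh₁ U B y) := rfl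

/-- `sh` is multiplicative, bidegree `(1, 0)`. -/
theorem sh₁_cup₁₀ (x : G → Rep.coind U.subtype A) (m : Rep.coind U.subtype B) :
    sh₁ U D (cup₁₀ (coindMul φ hφ) x m) = cup₁₀ φ (sh₁ U A x) (sh₀ U B m) := by
  refine funext fun u => ?_
  show φ ((x (u : G)).1 1) (m.1 (1 * (u : G))) = φ ((x (u : G)).1 1) (B.ρ u (m.1 1))
  rw [one_mul, coind_apply_coe]

/-- `sh` is multiplicative, bidegree `(1, 1)`. -/
theorem sh₂_cup₁₁ (x : G → Rep.coind U.subtype A) (y : G → Rep.coind U.subtype B) :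
    sh₂ U D (cup₁₁ (coindMul φ hφ) x y) = cup₁₁ φ (sh₁ U A x) (sh₁ U B y) := by
  refine funext fun p => ?_
  show φ ((x (p.1 : G)).1 1) ((y (p.2 : G)).1 (1 * (p.1 : G))) =
    φ ((x (p.1 : G)).1 1) (B.ρ p.1 ((y (p.2 : G)).1 1))
  rw [one_mul, coind_apply_coe]

/-- `sh` is multiplicative, bidegree `(0, 2)`. -/
theorem sh₂_cup₀₂ (m : Rep.coind U.subtype A) (y : G × G → Rep.coind U.subtype B) :
    sh₂ U D (cup₀₂ (coindMul φ hφ) m y) = cup₀₂ φ (sh₀ U A m) (sh₂ U B y) := rfl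

/-- `sh` is multiplicative, bidegree `(2, 0)`. -/
theorem sh₂_cup₂₀ (x : G × G → Rep.coind U.subtype A) (m : Rep.coind U.subtype B) :
    sh₂ U D (cup₂₀ (coindMul φ hφ) x m) = cup₂₀ φ (sh₂ U A x) (sh₀ U B m) := by
  refine funext fun p => ?_
  show φ ((x ((p.1 : G), (p.2 : G))).1 1) (m.1 (1 * (((p.1 * p.2 : U) : G)))) =
    φ ((x ((p.1 : G), (p.2 : G))).1 1) (B.ρ (p.1 * p.2) (m.1 1))
  rw [one_mul, coind_apply_coe]

/-- `sh` is multiplicative, bidegree `(1, 2)`. -/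
theorem sh₃_cup₁₂ (x : G → Rep.coind U.subtype A) (y : G × G → Rep.coind U.subtype B) :
    sh₃ U D (cup₁₂ (coindMul φ hφ) x y) = cup₁₂ φ (sh₁ U A x) (sh₂ U B y) := by
  refine funext fun p => ?_
  show φ ((x (p.1 : G)).1 1) ((y ((p.2.1 : G), (p.2.2 : G))).1 (1 * (p.1 : G))) =
    φ ((x (p.1 : G)).1 1) (B.ρ p.1 ((y ((p.2.1 : G), (p.2.2 : G))).1 1))
  rw [one_mul, coind_apply_coe]

/-- `sh` is multiplicative, bidegree `(2, 1)`. -/
theorem sh₃_cup₂₁ (x : G × G → Rep.coind U.subtype A) (y : G → Rep.coind U.subtype B) :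
    sh₃ U D (cup₂₁ (coindMul φ hφ) x y) = cup₂₁ φ (sh₂ U A x) (sh₁ U B y) := by
  refine funext fun p => ?_
  show φ ((x ((p.1 : G), (p.2.1 : G))).1 1) ((y (p.2.2 : G)).1 (1 * ((p.1 * p.2.1 : U) : G))) =
    φ ((x ((p.1 : G), (p.2.1 : G))).1 1) (B.ρ (p.1 * p.2.1) ((y (p.2.2 : G)).1 1))
  rw [one_mul, coind_apply_coe]

/-- `sh` is multiplicative, bidegree `(0, 3)`. -/
theorem sh₃_cup₀₃ (m : Rep.coind U.subtype A) (y : G × G × G → Rep.coind U.subtype B) :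
    sh₃ U D (cup₀₃ (coindMul φ hφ) m y) = cup₀₃ φ (sh₀ U A m) (sh₃ U B y) := rfl

/-- `sh` is multiplicative, bidegree `(3, 0)`. -/
theorem sh₃_cup₃₀ (x : G × G × G → Rep.coind U.subtype A) (m : Rep.coind U.subtype B) :
    sh₃ U D (cup₃₀ (coindMul φ hφ) x m) = cup₃₀ φ (sh₃ U A x) (sh₀ U B m) := by
  refine funext fun p => ?_
  show φ ((x ((p.1 : G), (p.2.1 : G), (p.2.2 : G))).1 1)
      (m.1 (1 * ((p.1 * p.2.1 * p.2.2 : U) : G))) =
    φ ((x ((p.1 : G), (p.2.1 : G), (p.2.2 : G))).1 1) (B.ρ (p.1 * p.2.1 * p.2.2) (m.1 1))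
  rw [one_mul, coind_apply_coe]

end Mul

/-! ### The norm pairing and corestriction -/

section Pair

variable {U : Subgroup G} [U.FiniteIndex] {A B : Rep.{0} k U} {C : Rep.{0} k G}

/-- The pairing `coind A × coind B → C` attached to an equivariant pairing
`A × B → Res_U C`: the norm of the pointwise product. -/
noncomputable def coindPair (φ : A →ₗ[k] B →ₗ[k] Rep.res U.subtype C) (hφ : Equivariant φ) :
    Rep.coind U.subtype A →ₗ[k] Rep.coind U.subtype B →ₗ[k] C :=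
  (coindMul φ hφ).compr₂ (nrm U C)

variable (φ : A →ₗ[k] B →ₗ[k] Rep.res U.subtype C) (hφ : Equivariant φ)

theorem coindPair_apply (f : Rep.coind U.subtype A) (f' : Rep.coind U.subtype B) :
    coindPair φ hφ f f' = nrm U C (coindMul φ hφ f f') := rfl

/-- The norm pairing is `G`-equivariant. -/
theorem coindPair_equivariant : Equivariant (coindPair φ hφ) := fun g f f' => by
  rw [coindPair_apply, coindPair_apply, coindMul_equivariant φ hφ g f f', nrm_ρ]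

/-! Cup products for the norm pairing are the norms of the cup products for the pointwise
product. -/

theorem cup₀₁_coindPair (m : Rep.coind U.subtype A) (y : G → Rep.coind U.subtype B) :
    cup₀₁ (coindPair φ hφ) m y = nrm₁ U C (cup₀₁ (coindMul φ hφ) m y) := rfl

theorem cup₁₀_coindPair (x : G → Rep.coind U.subtype A) (m : Rep.coind U.subtype B) :
    cup₁₀ (coindPair φ hφ) x m = nrm₁ U C (cup₁₀ (coindMul φ hφ) x m) := rfl

theorem cup₁₁_coindPair (x : G → Rep.coind U.subtype A) (y : G → Rep.coind U.subtype B) :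
    cup₁₁ (coindPair φ hφ) x y = nrm₂ U C (cup₁₁ (coindMul φ hφ) x y) := rfl

theorem cup₀₂_coindPair (m : Rep.coind U.subtype A) (y : G × G → Rep.coind U.subtype B) :
    cup₀₂ (coindPair φ hφ) m y = nrm₂ U C (cup₀₂ (coindMul φ hφ) m y) := rfl

theorem cup₂₀_coindPair (x : G × G → Rep.coind U.subtype A) (m : Rep.coind U.subtype B) :
    cup₂₀ (coindPair φ hφ) x m = nrm₂ U C (cup₂₀ (coindMul φ hφ) x m) := rfl

theorem cup₁₂_coindPair (x : G → Rep.coind U.subtype A) (y : G × G → Rep.coind U.subtype B) :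
    cup₁₂ (coindPair φ hφ) x y = nrm₃ U C (cup₁₂ (coindMul φ hφ) x y) := rfl

theorem cup₂₁_coindPair (x : G × G → Rep.coind U.subtype A) (y : G → Rep.coind U.subtype B) :
    cup₂₁ (coindPair φ hφ) x y = nrm₃ U C (cup₂₁ (coindMul φ hφ) x y) := rfl

theorem cup₀₃_coindPair (m : Rep.coind U.subtype A) (y : G × G × G → Rep.coind U.subtype B) :
    cup₀₃ (coindPair φ hφ) m y = nrm₃ U C (cup₀₃ (coindMul φ hφ) m y) := rfl

theorem cup₃₀_coindPair (x : G × G × G → Rep.coind U.subtype A) (m : Rep.coind U.subtype B) :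
    cup₃₀ (coindPair φ hφ) x m = nrm₃ U C (cup₃₀ (coindMul φ hφ) x m) := rfl

/-! On induced cochains the norm pairing computes the corestriction of the cup product. -/

variable (R : Retr U)

theorem coindPair_ind₀ (a : A) (b : B) :
    coindPair φ hφ (ind₀ A R a) (ind₀ B R b) = cores₀ C R (φ a b) := by
  rw [coindPair_apply, ← ind₀_pairing]
  rfl

theorem cup₀₁_coindPair_ind (a : A) (y : U → B) :
    cup₀₁ (coindPair φ hφ) (ind₀ A R a) (ind₁ B R y) = cores₁ C R (cup₀₁ φ a y) := by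
  rw [cup₀₁_coindPair, ← ind₁_cup₀₁, cores₁_apply]

theorem cup₁₀_coindPair_ind (x : U → A) (b : B) :
    cup₁₀ (coindPair φ hφ) (ind₁ A R x) (ind₀ B R b) = cores₁ C R (cup₁₀ φ x b) := by
  rw [cup₁₀_coindPair, ← ind₁_cup₁₀, cores₁_apply]

theorem cup₁₁_coindPair_ind (x : U → A) (y : U → B) :
    cup₁₁ (coindPair φ hφ) (ind₁ A R x) (ind₁ B R y) = cores₂ C R (cup₁₁ φ x y) := by
  rw [cup₁₁_coindPair, ← ind₂_cup₁₁, cores₂_apply]

theorem cup₀₂_coindPair_ind (a : A) (y : U × U → B) :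
    cup₀₂ (coindPair φ hφ) (ind₀ A R a) (ind₂ B R y) = cores₂ C R (cup₀₂ φ a y) := by
  rw [cup₀₂_coindPair, ← ind₂_cup₀₂, cores₂_apply]

theorem cup₂₀_coindPair_ind (x : U × U → A) (b : B) :
    cup₂₀ (coindPair φ hφ) (ind₂ A R x) (ind₀ B R b) = cores₂ C R (cup₂₀ φ x b) := by
  rw [cup₂₀_coindPair, ← ind₂_cup₂₀, cores₂_apply]

theorem cup₁₂_coindPair_ind (x : U → A) (y : U × U → B) :
    cup₁₂ (coindPair φ hφ) (ind₁ A R x) (ind₂ B R y) = cores₃ C R (cup₁₂ φ x y) := by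
  rw [cup₁₂_coindPair, ← ind₃_cup₁₂, cores₃_apply]

theorem cup₂₁_coindPair_ind (x : U × U → A) (y : U → B) :
    cup₂₁ (coindPair φ hφ) (ind₂ A R x) (ind₁ B R y) = cores₃ C R (cup₂₁ φ x y) := by
  rw [cup₂₁_coindPair, ← ind₃_cup₂₁, cores₃_apply]

theorem cup₀₃_coindPair_ind (a : A) (y : U × U × U → B) :
    cup₀₃ (coindPair φ hφ) (ind₀ A R a) (ind₃ B R y) = cores₃ C R (cup₀₃ φ a y) := by
  rw [cup₀₃_coindPair, ← ind₃_cup₀₃, cores₃_apply]

theorem cup₃₀_coindPair_ind (x : U × U × U → A) (b : B) :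
    cup₃₀ (coindPair φ hφ) (ind₃ A R x) (ind₀ B R b) = cores₃ C R (cup₃₀ φ x b) := by
  rw [cup₃₀_coindPair, ← ind₃_cup₃₀, cores₃_apply]

end Pair

end Fermat.Agent.S55.Shapiro
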