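import Mathlib
import Fermat.Agent.S55.Shapiro.AbsLevel
import Fermat.Agent.S55.Shapiro.Mackey

/-!
# Mackey's decomposition on level cohomology (vocabulary of the abstract layer)

`r : H →* G` a homomorphism from a "local" group, `𝒱 : Abs.LevelFamily H` ANY level family on
`H`, `U ≤ G`, `A : Rep k U`, `M := coind_U^G A`, `D : DRep U r J` a system of representatives of
`U \ G / r(H)`, `V_j := conjSub U r (D.τ j)`, `A_j := locRep U A r (D.τ j)`.

* `isLev_i_mk_i` : evaluation at `g` maps level cochains of `H` to level cochains of `V_g`;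
* `isLev_i_unmk_i`, `isLev_i_mhom_i` : gluing and the Mackey homotopy preserve level cochains
  (`J` finite and all `V_j` open);
* `mk₁_mem_Z1`, `mk₂_mem_Z2`, `mk₂_mem_B2`, `unmk₁_mem_Z1`, `unmk₂_mem_Z2`, `unmk₂_mem_B2`;
* `mem_B2_iff_mk₂` : the level criterion in degree 2;
* `mkH1`, `mkH2` : `H^i_𝒱(H, Res_r M) → ∏_j H^i(V_j, A_j)`; `mkH1` is always injective;
  `mackeyEquivH1`, `mackeyEquivH2` : the **Mackey isomorphisms** on level cohomology.
-/

set_option autoImplicit false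

open groupCohomology

namespace Fermat.Agent.S55.Shapiro

open Fermat.Agent.S55.Abs

variable {k : Type} [Field k] {G : Type} [Group G] {H : Type} [Group H] {𝒱 : LevelFamily H}
  {U : Subgroup G} {A : Rep.{0} k U} {r : H →* G}

/-! ### Finite intersections in a level family -/

section Finite

theorem exists_le_forall {J : Type} [Finite J] (𝒱 : LevelFamily H) (W : J → Subgroup H)
    (hW : ∀ j, W j ∈ 𝒱.sets) : ∃ N ∈ 𝒱.sets, ∀ j, N ≤ W j := by
  classical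
  have := Fintype.ofFinite J
  have key : ∀ s : Finset J, ∃ N ∈ 𝒱.sets, ∀ j ∈ s, N ≤ W j := by
    intro s
    induction s using Finset.induction_on with
    | empty =>
      obtain ⟨N, hN⟩ := 𝒱.nonempty
      exact ⟨N, hN, fun j hj => absurd hj (Finset.notMem_empty j)⟩
    | insert a s _ ih =>
      obtain ⟨N, hN, h⟩ := ih
      obtain ⟨N', hN', hle⟩ := 𝒱.inter N hN (W a) (hW a)
      refine ⟨N', hN', fun j hj => ?_⟩
      rcases Finset.mem_insert.mp hj with rfl | hj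
      · exact hle.trans inf_le_right
      · exact (hle.trans inf_le_left).trans (h j hj)
  obtain ⟨N, hN, h⟩ := key Finset.univ
  exact ⟨N, hN, fun j => h j (Finset.mem_univ j)⟩

/-- A normal member of the family below finitely many open subgroups `V j` and finitely many
members `W j`. -/
theorem exists_normal_le_forall {J : Type} [Finite J] (𝒱 : LevelFamily H) {V : J → Subgroup H}
    (hopen : ∀ j, ∃ W ∈ 𝒱.sets, W ≤ V j) (W : J → Subgroup H) (hW : ∀ j, W j ∈ 𝒱.sets) :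
    ∃ N ∈ 𝒱.sets, N.Normal ∧ (∀ j, N ≤ V j) ∧ ∀ j, N ≤ W j := by
  choose W₀ hW₀ hW₀V using hopen
  obtain ⟨N₁, hN₁, h₁⟩ := exists_le_forall 𝒱 W₀ hW₀
  obtain ⟨N₂, hN₂, h₂⟩ := exists_le_forall 𝒱 W hW
  obtain ⟨N₃, hN₃, hle⟩ := 𝒱.inter N₁ hN₁ N₂ hN₂
  obtain ⟨N, hN, hNN₃, hn⟩ := 𝒱.normal N₃ hN₃
  exact ⟨N, hN, hn,
    fun j => ((hNN₃.trans hle).trans inf_le_left).trans ((h₁ j).trans (hW₀V j)),
    fun j => ((hNN₃.trans hle).trans inf_le_right).trans (h₂ j)⟩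

end Finite

/-! ### Levels -/

section LevelsMk

theorem isLev₁_mk₁ (g : G) {c : H → Rep.coind U.subtype A} (hc : IsLev₁ 𝒱 c) :
    IsLev₁ (subLevel 𝒱 (conjSub U r g)) (mk₁ U A r g c) := by
  obtain ⟨W, hW, h⟩ := hc
  exact ⟨_, ⟨W, hW, rfl⟩, rinv₁_mk₁ g h⟩

theorem isLev₂_mk₂ (g : G) {c : H × H → Rep.coind U.subtype A} (hc : IsLev₂ 𝒱 c) :
    IsLev₂ (subLevel 𝒱 (conjSub U r g)) (mk₂ U A r g c) := by
  obtain ⟨W, hW, h⟩ := hc
  exact ⟨_, ⟨W, hW, rfl⟩, rinv₂_mk₂ g h⟩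

end LevelsMk

section LevelsUnmk

variable {J : Type} [Finite J] (D : DRep U r J) (R : ∀ j : J, Retr (conjSub U r (D.τ j)))
  (hopen : ∀ j, ∃ W ∈ 𝒱.sets, W ≤ conjSub U r (D.τ j))

include hopen

theorem isLev₁_unmk₁ {b : ∀ j : J, conjSub U r (D.τ j) → locRep U A r (D.τ j)}
    (hb : ∀ j, IsLev₁ (subLevel 𝒱 (conjSub U r (D.τ j))) (b j)) :
    IsLev₁ 𝒱 (unmk₁ A D R b) := by
  have hb' : ∀ j, ∃ W ∈ 𝒱.sets, RInv₁ (W.subgroupOf (conjSub U r (D.τ j))) (b j) := fun j => by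
    obtain ⟨_, ⟨W, hW, rfl⟩, h⟩ := hb j
    exact ⟨W, hW, h⟩
  choose W hW hWb using hb'
  obtain ⟨N, hN, hNn, hNV, hNW⟩ := exists_normal_le_forall 𝒱 hopen W hW
  have := hNn
  refine ⟨N, hN, rinv₁_unmk₁ D R hNV fun j => ?_⟩
  intro g s hs
  exact hWb j g s (Subgroup.mem_subgroupOf.mpr (hNW j (Subgroup.mem_subgroupOf.mp hs)))

theorem isLev₂_unmk₂
    {b : ∀ j : J, conjSub U r (D.τ j) × conjSub U r (D.τ j) → locRep U A r (D.τ j)}
    (hb : ∀ j, IsLev₂ (subLevel 𝒱 (conjSub U r (D.τ j))) (b j)) :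
    IsLev₂ 𝒱 (unmk₂ A D R b) := by
  have hb' : ∀ j, ∃ W ∈ 𝒱.sets, RInv₂ (W.subgroupOf (conjSub U r (D.τ j))) (b j) := fun j => by
    obtain ⟨_, ⟨W, hW, rfl⟩, h⟩ := hb j
    exact ⟨W, hW, h⟩
  choose W hW hWb using hb'
  obtain ⟨N, hN, hNn, hNV, hNW⟩ := exists_normal_le_forall 𝒱 hopen W hW
  have := hNn
  refine ⟨N, hN, rinv₂_unmk₂ D R hNV fun j => ?_⟩
  intro g g' s s' hs hs'
  exact hWb j g g' s s' (Subgroup.mem_subgroupOf.mpr (hNW j (Subgroup.mem_subgroupOf.mp hs)))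
    (Subgroup.mem_subgroupOf.mpr (hNW j (Subgroup.mem_subgroupOf.mp hs')))

theorem isLev₁_mhom₁ {c : H × H → Rep.coind U.subtype A} (hc : IsLev₂ 𝒱 c) :
    IsLev₁ 𝒱 (mhom₁ A D R c) := by
  obtain ⟨W, hW, h⟩ := hc
  obtain ⟨N, hN, hNn, hNV, hNW⟩ := exists_normal_le_forall 𝒱 hopen (fun _ : J => W) (fun _ => hW)
  have := hNn
  refine ⟨N, hN, rinv₁_mhom₁ D R hNV ?_⟩
  intro g g' s s' hs hs'
  exact h g g' s s' (hNW (D.idx 1) hs) (hNW (D.idx 1) hs')

theorem isLev₂_mhom₂ {c : H × H × H → Rep.coind U.subtype A} (hc : IsLev₃ 𝒱 c) :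
    IsLev₂ 𝒱 (mhom₂ A D R c) := by
  obtain ⟨W, hW, h⟩ := hc
  obtain ⟨N, hN, hNn, hNV, hNW⟩ := exists_normal_le_forall 𝒱 hopen (fun _ : J => W) (fun _ => hW)
  have := hNn
  refine ⟨N, hN, rinv₂_mhom₂ D R hNV ?_⟩
  intro g g' g'' s s' s'' hs hs' hs''
  exact h g g' g'' s s' s'' (hNW (D.idx 1) hs) (hNW (D.idx 1) hs') (hNW (D.idx 1) hs'')

end LevelsUnmk

/-! ### Cocycles and coboundaries -/

section CocyclesMk

theorem mk₁_mem_coboundaries₁ (g : G) {c : H → Rep.coind U.subtype A}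
    (hc : c ∈ coboundaries₁ (Rep.res r (Rep.coind U.subtype A))) :
    mk₁ U A r g c ∈ coboundaries₁ (locRep U A r g) := by
  obtain ⟨m, rfl⟩ := hc
  exact ⟨mk₀ U A r g m, (mk₁_d₀₁ g m).symm⟩

theorem mk₁_mem_Z1 (g : G) {c : H → Rep.coind U.subtype A}
    (hc : c ∈ Z1 𝒱 (Rep.res r (Rep.coind U.subtype A))) :
    mk₁ U A r g c ∈ Z1 (subLevel 𝒱 (conjSub U r g)) (locRep U A r g) :=
  ⟨isLev₁_mk₁ g hc.1, mk₁_mem_cocycles₁ g hc.2⟩

theorem mk₂_mem_Z2 (g : G) {c : H × H → Rep.coind U.subtype A}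
    (hc : c ∈ Z2 𝒱 (Rep.res r (Rep.coind U.subtype A))) :
    mk₂ U A r g c ∈ Z2 (subLevel 𝒱 (conjSub U r g)) (locRep U A r g) :=
  ⟨isLev₂_mk₂ g hc.1, mk₂_mem_cocycles₂ g hc.2⟩

theorem mk₂_mem_B2 (g : G) {c : H × H → Rep.coind U.subtype A}
    (hc : c ∈ B2 𝒱 (Rep.res r (Rep.coind U.subtype A))) :
    mk₂ U A r g c ∈ B2 (subLevel 𝒱 (conjSub U r g)) (locRep U A r g) := by
  obtain ⟨φ, hφ, rfl⟩ := hc
  exact ⟨mk₁ U A r g φ, isLev₁_mk₁ g hφ, (mk₂_d₁₂ g φ).symm⟩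

end CocyclesMk

section CocyclesUnmk

variable {J : Type} (D : DRep U r J) (R : ∀ j : J, Retr (conjSub U r (D.τ j)))

theorem unmk₁_mem_cocycles₁ {b : ∀ j : J, conjSub U r (D.τ j) → locRep U A r (D.τ j)}
    (hb : ∀ j, b j ∈ cocycles₁ (locRep U A r (D.τ j))) :
    unmk₁ A D R b ∈ cocycles₁ (Rep.res r (Rep.coind U.subtype A)) := by
  refine LinearMap.mem_ker.mpr ?_
  rw [← unmk₂_d₁₂]
  have h0 : (fun j => (d₁₂ (locRep U A r (D.τ j))).hom (b j)) = 0 := by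
    funext j
    exact LinearMap.mem_ker.mp (hb j)
  rw [h0, map_zero]

theorem unmk₂_mem_cocycles₂
    {b : ∀ j : J, conjSub U r (D.τ j) × conjSub U r (D.τ j) → locRep U A r (D.τ j)}
    (hb : ∀ j, b j ∈ cocycles₂ (locRep U A r (D.τ j))) :
    unmk₂ A D R b ∈ cocycles₂ (Rep.res r (Rep.coind U.subtype A)) := by
  refine LinearMap.mem_ker.mpr ?_
  funext q
  apply coind_ext_proj D
  intro j
  have h1 := congrFun (projLin_d₂₃ (r := r) (D.τ j) (unmk₂ A D R b)) q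
  rw [projLin_unmk₂, ← ind₃_d₂₃] at h1
  have h0 : (d₂₃ (locRep U A r (D.τ j))).hom (b j) = 0 := LinearMap.mem_ker.mp (hb j)
  rw [h0, map_zero] at h1
  rw [h1]
  exact (map_zero (projLin U A r (D.τ j))).symm

variable [Finite J] (hopen : ∀ j, ∃ W ∈ 𝒱.sets, W ≤ conjSub U r (D.τ j))

include hopen

theorem unmk₁_mem_Z1 {b : ∀ j : J, conjSub U r (D.τ j) → locRep U A r (D.τ j)}
    (hb : ∀ j, b j ∈ Z1 (subLevel 𝒱 (conjSub U r (D.τ j))) (locRep U A r (D.τ j))) :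
    unmk₁ A D R b ∈ Z1 𝒱 (Rep.res r (Rep.coind U.subtype A)) :=
  ⟨isLev₁_unmk₁ D R hopen fun j => (hb j).1, unmk₁_mem_cocycles₁ D R fun j => (hb j).2⟩

theorem unmk₂_mem_Z2
    {b : ∀ j : J, conjSub U r (D.τ j) × conjSub U r (D.τ j) → locRep U A r (D.τ j)}
    (hb : ∀ j, b j ∈ Z2 (subLevel 𝒱 (conjSub U r (D.τ j))) (locRep U A r (D.τ j))) :
    unmk₂ A D R b ∈ Z2 𝒱 (Rep.res r (Rep.coind U.subtype A)) :=
  ⟨isLev₂_unmk₂ D R hopen fun j => (hb j).1, unmk₂_mem_cocycles₂ D R fun j => (hb j).2⟩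

theorem unmk₂_mem_B2
    {b : ∀ j : J, conjSub U r (D.τ j) × conjSub U r (D.τ j) → locRep U A r (D.τ j)}
    (hb : ∀ j, b j ∈ B2 (subLevel 𝒱 (conjSub U r (D.τ j))) (locRep U A r (D.τ j))) :
    unmk₂ A D R b ∈ B2 𝒱 (Rep.res r (Rep.coind U.subtype A)) := by
  choose γ hγ hγb using hb
  refine ⟨unmk₁ A D R γ, isLev₁_unmk₁ D R hopen hγ, ?_⟩
  rw [← unmk₂_d₁₂]
  congr 1
  funext j
  exact hγb j

omit R in
/-- **Mackey–Shapiro in degree 2, level form**: a level 2-cocycle of the local group with values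
in `Res_r coind_U^G A` is a level coboundary iff its evaluations at the double coset
representatives are level coboundaries. -/
theorem mem_B2_iff_mk₂ {c : H × H → Rep.coind U.subtype A}
    (hc : c ∈ Z2 𝒱 (Rep.res r (Rep.coind U.subtype A))) :
    c ∈ B2 𝒱 (Rep.res r (Rep.coind U.subtype A)) ↔
      ∀ j, mk₂ U A r (D.τ j) c ∈
        B2 (subLevel 𝒱 (conjSub U r (D.τ j))) (locRep U A r (D.τ j)) := by
  refine ⟨fun h j => mk₂_mem_B2 (D.τ j) h, ?_⟩
  intro h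
  choose γ hγ hγc using h
  have R : ∀ j : J, Retr (conjSub U r (D.τ j)) := fun j => (Retr.nonempty _).some
  have hd : (d₂₃ (Rep.res r (Rep.coind U.subtype A))).hom c = 0 := LinearMap.mem_ker.mp hc.2
  have h1 := unmk₂_mk₂_sub D R c
  rw [hd, map_zero, add_zero] at h1
  have h2 : unmk₂ A D R (fun j => mk₂ U A r (D.τ j) c) =
      (d₁₂ (Rep.res r (Rep.coind U.subtype A))).hom (unmk₁ A D R γ) := by
    rw [← unmk₂_d₁₂]
    congr 1
    funext j
    exact (hγc j).symm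
  refine ⟨unmk₁ A D R γ - mhom₁ A D R c,
    (C1 𝒱 (Rep.res r (Rep.coind U.subtype A))).sub_mem (isLev₁_unmk₁ D R hopen hγ)
      (isLev₁_mhom₁ D R hopen hc.1), ?_⟩
  rw [map_sub, ← h2, ← h1]
  abel

end CocyclesUnmk

/-! ### The maps on level cohomology -/

section Cohomology

variable {J : Type} (𝒱) (D : DRep U r J)

/-- Mackey's map on level `H¹`: evaluation at the double coset representatives. -/
noncomputable def mkH1 :
    H1 𝒱 (Rep.res r (Rep.coind U.subtype A)) →ₗ[k]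
      ∀ j : J, H1 (subLevel 𝒱 (conjSub U r (D.τ j))) (locRep U A r (D.τ j)) :=
  LinearMap.pi fun j =>
    Submodule.mapQ _ _ ((mk₁ U A r (D.τ j)).restrict fun _ hc => mk₁_mem_Z1 (D.τ j) hc)
      fun _ hc => mk₁_mem_coboundaries₁ (D.τ j) hc

/-- Mackey's map on level `H²`: evaluation at the double coset representatives. -/
noncomputable def mkH2 :
    H2 𝒱 (Rep.res r (Rep.coind U.subtype A)) →ₗ[k]
      ∀ j : J, H2 (subLevel 𝒱 (conjSub U r (D.τ j))) (locRep U A r (D.τ j)) :=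
  LinearMap.pi fun j =>
    Submodule.mapQ _ _ ((mk₂ U A r (D.τ j)).restrict fun _ hc => mk₂_mem_Z2 (D.τ j) hc)
      fun _ hc => mk₂_mem_B2 (D.τ j) hc

variable {𝒱}

@[simp] theorem mkH1_mk (c : ↥(Z1 𝒱 (Rep.res r (Rep.coind U.subtype A)))) (j : J) :
    mkH1 𝒱 D (Submodule.Quotient.mk c) j =
      Submodule.Quotient.mk ⟨mk₁ U A r (D.τ j) c.1, mk₁_mem_Z1 (D.τ j) c.2⟩ := rfl

@[simp] theorem mkH2_mk (c : ↥(Z2 𝒱 (Rep.res r (Rep.coind U.subtype A)))) (j : J) :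
    mkH2 𝒱 D (Submodule.Quotient.mk c) j =
      Submodule.Quotient.mk ⟨mk₂ U A r (D.τ j) c.1, mk₂_mem_Z2 (D.τ j) c.2⟩ := rfl

/-- The Mackey map on level `H¹` is injective (no hypothesis). -/
theorem mkH1_injective : Function.Injective (mkH1 (A := A) 𝒱 D) := by
  rw [injective_iff_map_eq_zero]
  intro x hx
  induction x using Submodule.Quotient.induction_on with
  | _ c =>
    rw [Submodule.Quotient.mk_eq_zero]
    refine (mem_coboundaries₁_iff_mk₁ D c.2.2).2 fun j => ?_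
    have hj : mkH1 𝒱 D (Submodule.Quotient.mk c) j = 0 := by rw [hx]; rfl
    rw [mkH1_mk, Submodule.Quotient.mk_eq_zero] at hj
    exact hj

variable [Finite J] (hopen : ∀ j, ∃ W ∈ 𝒱.sets, W ≤ conjSub U r (D.τ j))

include hopen

theorem mkH1_surjective : Function.Surjective (mkH1 (A := A) 𝒱 D) := by
  intro y
  have R : ∀ j : J, Retr (conjSub U r (D.τ j)) := fun j => (Retr.nonempty _).some
  have hy : ∀ j, ∃ b : ↥(Z1 (subLevel 𝒱 (conjSub U r (D.τ j))) (locRep U A r (D.τ j))),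
      Submodule.Quotient.mk b = y j := fun j => Submodule.Quotient.mk_surjective _ (y j)
  choose b hb using hy
  refine ⟨Submodule.Quotient.mk ⟨unmk₁ A D R (fun j => (b j).1),
    unmk₁_mem_Z1 D R hopen fun j => (b j).2⟩, ?_⟩
  funext j
  rw [mkH1_mk, ← hb j]
  congr 1
  exact Subtype.ext (mk₁_unmk₁ D R (fun j => (b j).1) j)

theorem mkH2_injective : Function.Injective (mkH2 (A := A) 𝒱 D) := by
  rw [injective_iff_map_eq_zero]
  intro x hx
  induction x using Submodule.Quotient.induction_on with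
  | _ c =>
    rw [Submodule.Quotient.mk_eq_zero]
    refine (mem_B2_iff_mk₂ D hopen c.2).2 fun j => ?_
    have hj : mkH2 𝒱 D (Submodule.Quotient.mk c) j = 0 := by rw [hx]; rfl
    rw [mkH2_mk, Submodule.Quotient.mk_eq_zero] at hj
    exact hj

theorem mkH2_surjective : Function.Surjective (mkH2 (A := A) 𝒱 D) := by
  intro y
  have R : ∀ j : J, Retr (conjSub U r (D.τ j)) := fun j => (Retr.nonempty _).some
  have hy : ∀ j, ∃ b : ↥(Z2 (subLevel 𝒱 (conjSub U r (D.τ j))) (locRep U A r (D.τ j))),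
      Submodule.Quotient.mk b = y j := fun j => Submodule.Quotient.mk_surjective _ (y j)
  choose b hb using hy
  refine ⟨Submodule.Quotient.mk ⟨unmk₂ A D R (fun j => (b j).1),
    unmk₂_mem_Z2 D R hopen fun j => (b j).2⟩, ?_⟩
  funext j
  rw [mkH2_mk, ← hb j]
  congr 1
  exact Subtype.ext (mk₂_unmk₂ D R (fun j => (b j).1) j)

variable (𝒱) (A)

/-- **Mackey's isomorphism on level `H¹`.** -/
noncomputable def mackeyEquivH1 :
    H1 𝒱 (Rep.res r (Rep.coind U.subtype A)) ≃ₗ[k]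
      ∀ j : J, H1 (subLevel 𝒱 (conjSub U r (D.τ j))) (locRep U A r (D.τ j)) :=
  LinearEquiv.ofBijective (mkH1 𝒱 D) ⟨mkH1_injective D, mkH1_surjective D hopen⟩

/-- **Mackey's isomorphism on level `H²`.** -/
noncomputable def mackeyEquivH2 :
    H2 𝒱 (Rep.res r (Rep.coind U.subtype A)) ≃ₗ[k]
      ∀ j : J, H2 (subLevel 𝒱 (conjSub U r (D.τ j))) (locRep U A r (D.τ j)) :=
  LinearEquiv.ofBijective (mkH2 𝒱 D) ⟨mkH2_injective D hopen, mkH2_surjective D hopen⟩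

variable {𝒱} {A}

@[simp] theorem mackeyEquivH1_apply (x : H1 𝒱 (Rep.res r (Rep.coind U.subtype A))) :
    mackeyEquivH1 𝒱 A D hopen x = mkH1 𝒱 D x := rfl

@[simp] theorem mackeyEquivH2_apply (x : H2 𝒱 (Rep.res r (Rep.coind U.subtype A))) :
    mackeyEquivH2 𝒱 A D hopen x = mkH2 𝒱 D x := rfl

theorem mackeyEquivH1_symm_mk (R : ∀ j : J, Retr (conjSub U r (D.τ j)))
    (b : ∀ j, ↥(Z1 (subLevel 𝒱 (conjSub U r (D.τ j))) (locRep U A r (D.τ j)))) :
    (mackeyEquivH1 𝒱 A D hopen).symm (fun j => Submodule.Quotient.mk (b j)) =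
      Submodule.Quotient.mk ⟨unmk₁ A D R (fun j => (b j).1),
        unmk₁_mem_Z1 D R hopen fun j => (b j).2⟩ := by
  rw [LinearEquiv.symm_apply_eq]
  funext j
  rw [mackeyEquivH1_apply, mkH1_mk]
  congr 1
  exact Subtype.ext (mk₁_unmk₁ D R (fun j => (b j).1) j).symm

theorem mackeyEquivH2_symm_mk (R : ∀ j : J, Retr (conjSub U r (D.τ j)))
    (b : ∀ j, ↥(Z2 (subLevel 𝒱 (conjSub U r (D.τ j))) (locRep U A r (D.τ j)))) :
    (mackeyEquivH2 𝒱 A D hopen).symm (fun j => Submodule.Quotient.mk (b j)) =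
      Submodule.Quotient.mk ⟨unmk₂ A D R (fun j => (b j).1),
        unmk₂_mem_Z2 D R hopen fun j => (b j).2⟩ := by
  rw [LinearEquiv.symm_apply_eq]
  funext j
  rw [mackeyEquivH2_apply, mkH2_mk]
  congr 1
  exact Subtype.ext (mk₂_unmk₂ D R (fun j => (b j).1) j).symm

end Cohomology

end Fermat.Agent.S55.Shapiro
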