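import Fermat.Agent.S55.Shapiro.HPQLocal
import Fermat.Agent.S55.Shapiro.AbsLevel
import Fermat.Agent.S55.Arith.UrEval
import Fermat.Agent.S55.Glue.CoindDual
import Fermat.Agent.S55.Glue.DualTwist
import Fermat.Agent.S55.Abs.Reduce
import Fermat.Agent.CFT.Global.HPKFinal
import Fermat.Agent.Lib.FiniteRamification

/-!
# (HPQ-AD): the Hasse principle in degree 2 for `M0(K)` and its twisted dual, over `ℚ`

`p` an odd prime, `S ∋ p` a finite set of primes, `K ⊂ ℚ̄` finite over `ℚ`, unramified outside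
`S`, containing `μ_p`; `M0(K) = coind_{G_K}^{G_ℚ} 𝔽_p` (`Abs.M0 (ZMod p) K.fixingSubgroup`).

* `locRes_mem_B2` : for ANY discrete coefficient module of level `S`, a level-`S` 2-cocycle
  which is a local level coboundary at the primes of `S` is one at every prime ((UR) outside
  `S`).
* `hasse_M0` : **(HPQ)**: a level-`S` 2-cocycle with values in `M0(K)` which is a local level
  coboundary at the primes of `S` is the coboundary of a 1-cochain of some finite level `T ⊇ S`.
  Proof: all primes by `locRes_mem_B2`; the conjugation/descent/evaluation-at-`1` lemma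
  `HPQLocal.sh₂_locTriv_of_mem_B2` gives local triviality of `sh₂ a` on every `D(Av) ⊓ G_K`;
  HP-K (`CFT.Global.HPK.hp_K_triv`); Shapiro in level form (`mem_B2_iff_sh₂`).
* `HasseAt S N` : the statement as a predicate on the coefficient module `N`, literally the
  shape of the base case (for the evaluation datum of `Base/EvalQ`); `HasseAt.of_iso`,
  `HasseAt.of_forall`.
* `hasseAt_M0`, `hasseAt_M0_dualTwist` : (HPQ) for `N = M0(K)` and for
  `N' = M0(K).dualTwist (cycloChar p)` (self-duality `Glue.CoindDual.dualTwistIso`).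
-/

set_option autoImplicit false

open CategoryTheory groupCohomology ExtCitation

namespace Fermat.Agent.S55.Shapiro.AdapterHPQ

open Fermat.Agent.S55.Abs Fermat.Agent.S55.Base.EvalQ

attribute [local instance] Glue.isAlgebraicQbar_lg Glue.isAlgClosureQbar_lg Glue.normalQbar_lg

variable {p : ℕ} [Fact p.Prime] {S : Finset Nat.Primes}

/-- The restriction of a 2-cochain of `G_ℚ` to the local group at `q`, as a plain function
(definitionally `Abs.res₂ primeLocalToGlobal N q a`). -/
noncomputable abbrev locRes {X : Type*} (a : GQ × GQ → X) (q : Nat.Primes) :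
    primeLocalGaloisGroup q × primeLocalGaloisGroup q → X :=
  fun x => a (primeLocalToGlobal q x.1, primeLocalToGlobal q x.2)

/-- A level-`S` 2-cocycle with values in a discrete module of level `S ∋ p` which is a local
level coboundary at the primes of `S` is a local level coboundary at every prime. -/
theorem locRes_mem_B2 (hpS : pPrime p ∈ S) (N : Rep.{0} (ZMod p) GQ)
    (hN : IsDisc (globalLevel S) N) {a : GQ × GQ → N} (ha : a ∈ Z2 (globalLevel S) N)
    (hloc : ∀ v : Nat.Primes, v ∈ S →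
      locRes a v ∈ B2 (localLevel (primeLocalToGlobal v)) (Rep.res (primeLocalToGlobal v) N))
    (q : Nat.Primes) :
    locRes a q ∈ B2 (localLevel (primeLocalToGlobal q)) (Rep.res (primeLocalToGlobal q) N) := by
  by_cases hq : q ∈ S
  · exact hloc q hq
  · exact Arith.UrEval.Z2_urLevel_le_B2 hpS N hN hq
      ⟨IsLev₂.precomp (isLevelMap_urLevel hq) ha.1, (res₂_mem_Z2 q ha).2⟩

/-- **(HPQ) for `M0(K)`.**  `p` odd, `p ∈ S`, `K` finite, unramified outside `S`, `μ_p ⊂ K`.
A level-`S` 2-cocycle of `G_ℚ` with values in `M0(K)` whose restriction to the local group at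
every `v ∈ S` is a local level coboundary is the coboundary of a 1-cochain of some finite level
`T ⊇ S`. -/
theorem hasse_M0 (hp2 : p ≠ 2) (hpS : pPrime p ∈ S)
    (K : IntermediateField ℚ (AlgebraicClosure ℚ)) (hK : K.IsUnramifiedOutside S)
    (hcyc : Glue.cycloField p ≤ K)
    {a : GQ × GQ → M0 (ZMod p) K.fixingSubgroup}
    (ha : a ∈ Z2 (globalLevel S) (M0 (ZMod p) K.fixingSubgroup))
    (hloc : ∀ v : Nat.Primes, v ∈ S →
      locRes a v ∈ B2 (localLevel (primeLocalToGlobal v))
        (Rep.res (primeLocalToGlobal v) (M0 (ZMod p) K.fixingSubgroup))) :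
    ∃ T : Finset Nat.Primes, S ⊆ T ∧ ∃ c ∈ C1 (globalLevel T) (M0 (ZMod p) K.fixingSubgroup),
      (d₁₂ (M0 (ZMod p) K.fixingSubgroup)).hom c = a := by
  have hfd : FiniteDimensional ℚ K := hK.1
  have hN : IsDisc (globalLevel S) (M0 (ZMod p) K.fixingSubgroup) :=
    isDisc_coindTriv (globalLevel S) K.fixingSubgroup ⟨_, ⟨K, hK, rfl⟩, le_rfl⟩ (ZMod p)
  have hall := locRes_mem_B2 hpS _ hN ha hloc
  have hχ : ∀ g ∈ K.fixingSubgroup, cycloChar p g = 1 := fun g hg =>
    Glue.cycloChar_eq_one_of_mem_fixingSubgroup p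
      (IntermediateField.fixingSubgroup_antitone hcyc hg)
  -- the cocycle `sh₂ a` of `G_K` with values in `𝔽_p`
  have hcoc := (mem_cocycles₂_iff _).1
    (sh₂_mem_cocycles₂ (U := K.fixingSubgroup)
      (A := Rep.trivial (ZMod p) K.fixingSubgroup (ZMod p)) ha.2)
  obtain ⟨W, ⟨F₀, hF₀, rfl⟩, hlevW⟩ := (isLev₂_subLevel_iff _).1
    (isLev₂_sh₂ (U := K.fixingSubgroup)
      (A := Rep.trivial (ZMod p) K.fixingSubgroup (ZMod p)) ha.1)
  -- HP-K
  obtain ⟨c, ⟨F, hF, hcF⟩, hd⟩ := CFT.Global.HPK.hp_K_triv hp2 K hχ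
    (sh₂ K.fixingSubgroup (Rep.trivial (ZMod p) K.fixingSubgroup (ZMod p)) a)
    (fun g h j => hcoc g h j)
    ⟨F₀, hF₀.1, fun g g' s s' hs hs' => hlevW g g' s s' hs hs'⟩
    (fun q hq Av hAv => HPQLocal.sh₂_locTriv_of_mem_B2 K.fixingSubgroup
      (Rep.trivial (ZMod p) K.fixingSubgroup (ZMod p)) S ha ⟨q, hq⟩ (hall ⟨q, hq⟩) Av hAv)
  -- the level of the primitive
  have := hF
  obtain ⟨T, hST, hT⟩ := Lib.FiniteRamification.exists_superset_isUnramifiedOutside S F
  refine ⟨T, hST, ?_⟩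
  have haT : a ∈ Z2 (globalLevel T) (M0 (ZMod p) K.fixingSubgroup) := by
    obtain ⟨W, hW, h⟩ := ha.1
    exact ⟨⟨W, globalSets_mono hST hW, h⟩, ha.2⟩
  have hU : ∃ W ∈ (globalLevel T).sets, W ≤ K.fixingSubgroup :=
    ⟨_, ⟨K, hK.mono hST, rfl⟩, le_rfl⟩
  -- Shapiro
  refine (mem_B2_iff_sh₂ hU haT).2 ⟨c, (isLev₁_subLevel_iff c).2
    ⟨F.fixingSubgroup, ⟨F, hT, rfl⟩, fun g s hs => hcF g s hs⟩, ?_⟩
  funext ⟨g, h⟩
  rw [d₁₂_hom_apply]
  exact (hd g h).symm

/-! ### The statement as a predicate on the coefficient module -/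

/-- **The Hasse property** for the level `S` and the coefficient module `N`, in the shape
consumed by the base case: a level-`S` 2-cocycle whose restrictions to the local groups at the
primes of `S` are local level coboundaries is the coboundary of a 1-cochain of some finite level
`T ⊇ S`. -/
def HasseAt (S : Finset Nat.Primes) (N : Rep.{0} (ZMod p) GQ) : Prop :=
  ∀ a ∈ Z2 (globalLevel S) N,
    (∀ v : ↥S, res₂ (fun w : Nat.Primes => primeLocalToGlobal w) N v.1 a
      ∈ B2 (localLevel (primeLocalToGlobal v.1)) (Rep.res (primeLocalToGlobal v.1) N)) →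
    ∃ T : Finset Nat.Primes, S ⊆ T ∧ ∃ c ∈ C1 (globalLevel T) N, (d₁₂ N).hom c = a

/-- The Hasse property is invariant under isomorphisms of the coefficient module. -/
theorem HasseAt.of_iso {N N' : Rep.{0} (ZMod p) GQ} (e : N ≅ N') (h : HasseAt S N) :
    HasseAt S N' := by
  intro a' ha' hloc'
  have hinv : ∀ x : N', e.hom.hom (e.inv.hom x) = x := fun x =>
    congrArg (fun φ : N' ⟶ N' => φ.hom x) e.inv_hom_id
  obtain ⟨T, hST, c, hc, hdc⟩ := h (cmap₂ e.inv a') (cmap₂_mem_Z2 e.inv ha') (fun v =>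
    cmap₂_mem_B2 (Rep.resMap (primeLocalToGlobal v.1) e.inv) (hloc' v))
  refine ⟨T, hST, cmap₁ e.hom c, hc.comp _, ?_⟩
  rw [← cmap₂_d₁₂, hdc]
  funext x
  exact hinv (a' x)

/-- The weaker form with local triviality assumed at EVERY prime (primitives given
explicitly). -/
theorem HasseAt.of_forall {N : Rep.{0} (ZMod p) GQ} (h : HasseAt S N)
    {a : GQ × GQ → N} (ha : a ∈ Z2 (globalLevel S) N)
    (hloc : ∀ w : Nat.Primes, ∃ t ∈ C1 (localLevel (primeLocalToGlobal w))
        (Rep.res (primeLocalToGlobal w) N),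
      (d₁₂ (Rep.res (primeLocalToGlobal w) N)).hom t
        = res₂ (fun w : Nat.Primes => primeLocalToGlobal w) N w a) :
    ∃ T : Finset Nat.Primes, S ⊆ T ∧ ∃ c ∈ C1 (globalLevel T) N, (d₁₂ N).hom c = a :=
  h a ha fun v => hloc v.1

/-- The same with the local condition in the vocabulary of the Poitou–Tate context `ctxS`
(localisation maps indexed by `↥S`). -/
theorem HasseAt.of_ctx {N : Rep.{0} (ZMod p) GQ} (h : HasseAt S N)
    {a : GQ × GQ → N} (ha : a ∈ Z2 (globalLevel S) N)
    (hloc : ∀ v : ↥S, res₂ (fun q : ↥S => primeLocalToGlobal q.1) N v a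
      ∈ B2 (localLevel (primeLocalToGlobal v.1)) (Rep.res (primeLocalToGlobal v.1) N)) :
    ∃ T : Finset Nat.Primes, S ⊆ T ∧ ∃ c ∈ C1 (globalLevel T) N, (d₁₂ N).hom c = a :=
  h a ha fun v => hloc v

/-- **(HPQ) for `M0(K)`**, in the shape of the base case. -/
theorem hasseAt_M0 (hp2 : p ≠ 2) (hpS : pPrime p ∈ S)
    (K : IntermediateField ℚ (AlgebraicClosure ℚ)) (hK : K.IsUnramifiedOutside S)
    (hcyc : Glue.cycloField p ≤ K) : HasseAt S (M0 (ZMod p) K.fixingSubgroup) :=
  fun _ ha hloc => hasse_M0 hp2 hpS K hK hcyc ha fun v hv => hloc ⟨v, hv⟩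

/-- **(HPQ) for the twisted dual `M0(K)' = M0(K)^∨(1)`**, in the shape of the base case. -/
theorem hasseAt_M0_dualTwist (hp2 : p ≠ 2) (hpS : pPrime p ∈ S)
    (K : IntermediateField ℚ (AlgebraicClosure ℚ)) (hK : K.IsUnramifiedOutside S)
    (hcyc : Glue.cycloField p ≤ K) :
    HasseAt S ((M0 (ZMod p) K.fixingSubgroup).dualTwist (cycloChar p)) := by
  have hfi : K.fixingSubgroup.FiniteIndex := (globalLevel S).finiteIndex _ ⟨K, hK, rfl⟩
  have hχ : ∀ g ∈ K.fixingSubgroup, cycloChar p g = 1 := fun g hg =>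
    Glue.cycloChar_eq_one_of_mem_fixingSubgroup p
      (IntermediateField.fixingSubgroup_antitone hcyc hg)
  exact (hasseAt_M0 hp2 hpS K hK hcyc).of_iso (Glue.CoindDual.dualTwistIso (cycloChar p) hχ)

end Fermat.Agent.S55.Shapiro.AdapterHPQ
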