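import Fermat.Agent.S55.Shapiro.AdapterHPQ
import Fermat.Agent.S55.Base.AsmCore
import Fermat.Agent.S55.Base.Assemble

/-!
# (HPQ-AD), instances for the assembly of the base case

The Hasse principle of `Shapiro/AdapterHPQ` in the two literal shapes consumed by the assembly,
for the evaluation datum `I.datum` of an arithmetic input `I : EvalQ.ArithInput p S`:

* `AsmCore.Hasse I.datum N` (local triviality at the places of `S`),
* `AsmG.HasHP I.datum N` (local triviality at every place),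

for `N = M0(K)` and `N = M0(K).dualTwist (cycloChar p)`.  No property of `I` is used.
-/

set_option autoImplicit false

open CategoryTheory groupCohomology ExtCitation

namespace Fermat.Agent.S55.Shapiro.AdapterHPQ

open Fermat.Agent.S55.Abs Fermat.Agent.S55.Base Fermat.Agent.S55.Base.EvalQ

variable {p : ℕ} [Fact p.Prime] {S : Finset Nat.Primes}

/-- `HasseAt S N` is literally `AsmCore.Hasse I.datum N`. -/
theorem HasseAt.hasse {N : Rep.{0} (ZMod p) GQ} (h : HasseAt S N) (I : ArithInput p S) :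
    AsmCore.Hasse I.datum N := h

/-- `HasseAt S N` implies `AsmG.HasHP I.datum N`. -/
theorem HasseAt.hasHP {N : Rep.{0} (ZMod p) GQ} (h : HasseAt S N) (I : ArithInput p S) :
    AsmG.HasHP I.datum N := fun _ ha hloc => h.of_forall ha hloc

variable (I : ArithInput p S) (hp2 : p ≠ 2) (hpS : pPrime p ∈ S)
  (K : IntermediateField ℚ (AlgebraicClosure ℚ)) (hK : K.IsUnramifiedOutside S)
  (hcyc : Glue.cycloField p ≤ K)

include hp2 hpS hK hcyc

/-- **(HPQ)**, `AsmCore` shape, `N = M0(K)`. -/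
theorem asmCore_hasse_M0 : AsmCore.Hasse I.datum (M0 (ZMod p) K.fixingSubgroup) :=
  (hasseAt_M0 hp2 hpS K hK hcyc).hasse I

/-- **(HPQ)**, `AsmCore` shape, `N = M0(K)'`. -/
theorem asmCore_hasse_M0_dualTwist :
    AsmCore.Hasse I.datum ((M0 (ZMod p) K.fixingSubgroup).dualTwist (cycloChar p)) :=
  (hasseAt_M0_dualTwist hp2 hpS K hK hcyc).hasse I

/-- **(HPQ)**, `AsmG` shape (field `hpA` of `AsmG.Hyp`), `N = M0(K)`. -/
theorem asmG_hasHP_M0 : AsmG.HasHP I.datum (M0 (ZMod p) K.fixingSubgroup) :=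
  (hasseAt_M0 hp2 hpS K hK hcyc).hasHP I

/-- **(HPQ)**, `AsmG` shape (field `hpB` of `AsmG.Hyp`), `N = M0(K)'`. -/
theorem asmG_hasHP_M0_dualTwist :
    AsmG.HasHP I.datum ((M0 (ZMod p) K.fixingSubgroup).dualTwist (cycloChar p)) :=
  (hasseAt_M0_dualTwist hp2 hpS K hK hcyc).hasHP I

end Fermat.Agent.S55.Shapiro.AdapterHPQ
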