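import Mathlib
import Fermat.Agent.S55.Shapiro.AbsLevel
import Fermat.Agent.S55.Abs.TopGlue

/-!
# Shapiro's lemma for `Gal(ℚ̄/ℚ)` with the level-`S` structure of the Prelude

`K` a finite extension of `ℚ` inside `ℚ̄`, unramified outside `S`, `U := Gal(ℚ̄/K)`,
`A : Rep k U`, `M := coind_U^{G_ℚ} A`.

* generic part: `levelHoms 𝒱 V` (level additive maps `H → V`) and
  `h1TrivEquiv : H¹_𝒱(H, V) ≃ levelHoms 𝒱 V` for trivial coefficients;
* `IsLevS₁ S K`, `IsLevS₂ S K` : level-`S` cochains of `U` (right-invariant under `Gal(ℚ̄/F) ∩ U`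
  for some `F` finite unramified outside `S`), `= IsLev (subLevel (globalLevel S) U)`;
* `isLevS₁_sh₁`, `isLevelConstantS₁_ind₁`, ... : `sh`, `ind`, `hom` preserve level-`S` cochains;
* `mem_levelCoboundariesS₂_iff_sh₂` : Shapiro for the Prelude's level-`S` coboundaries;
* `H1π_mem_continuousH1S_iff` : Shapiro for the Prelude's `continuousH1S`;
* `h1Equiv : H¹_{lev S}(G_ℚ, A) ≃ continuousH1S S A` (from `Abs.TopGlue.nu1`);
* `charS S K k` : level-`S` additive characters `U → k`;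
  `shapiroH1S : continuousH1S S (M0 k U) ≃ₗ[k] charS S K k`.
-/

set_option autoImplicit false

open groupCohomology

namespace Fermat.Agent.S55.Shapiro

open Fermat.Agent.S55.Abs

/-! ### Trivial coefficients -/

section TrivialCoeff

variable {k : Type} [Field k] {H : Type} [Group H] (𝒱 : LevelFamily H)
  (V : Type) [AddCommGroup V] [Module k V]

/-- Level additive maps `H → V`: the level `H¹` with trivial coefficients. -/
def levelHoms : Submodule k (H → V) where
  carrier := {c | (∀ σ τ, c (σ * τ) = c σ + c τ) ∧ IsLev₁ 𝒱 c}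
  add_mem' := by
    rintro c c' ⟨hc, hl⟩ ⟨hc', hl'⟩
    refine ⟨fun σ τ => ?_, hl.add hl'⟩
    simp only [Pi.add_apply, hc, hc']
    abel
  zero_mem' := ⟨fun _ _ => by simp, isLev₁_const 𝒱 (0 : V)⟩
  smul_mem' := by
    rintro a c ⟨hc, hl⟩
    exact ⟨fun σ τ => by simp only [Pi.smul_apply, hc, smul_add], hl.comp (a • ·)⟩

variable {𝒱 V}

theorem mem_levelHoms_iff (c : H → V) :
    c ∈ levelHoms (k := k) 𝒱 V ↔ (∀ σ τ, c (σ * τ) = c σ + c τ) ∧ IsLev₁ 𝒱 c := Iff.rfl

theorem mem_Z1_trivial_iff (c : H → V) :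
    c ∈ Z1 𝒱 (Rep.trivial k H V) ↔ c ∈ levelHoms (k := k) 𝒱 V := by
  constructor
  · rintro ⟨hl, hc⟩
    refine ⟨fun σ τ => ?_, hl⟩
    have h := (mem_cocycles₁_iff (A := Rep.trivial k H V) c).1 hc σ τ
    rw [h]
    exact add_comm _ _
  · rintro ⟨hc, hl⟩
    refine ⟨hl, (mem_cocycles₁_iff (A := Rep.trivial k H V) c).2 fun σ τ => ?_⟩
    rw [hc σ τ]
    exact add_comm _ _

theorem coboundaries₁_trivial_eq_bot : coboundaries₁ (Rep.trivial k H V) = ⊥ := by
  rw [eq_bot_iff]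
  rintro _ ⟨a, rfl⟩
  rw [Submodule.mem_bot]
  funext g
  rw [d₀₁_hom_apply]
  exact sub_self a

variable (𝒱 V)

/-- The level `H¹` with trivial coefficients is the space of level additive maps. -/
noncomputable def h1TrivEquiv : H1 𝒱 (Rep.trivial k H V) ≃ₗ[k] ↥(levelHoms (k := k) 𝒱 V) :=
  LinearEquiv.ofBijective
    (Submodule.liftQ _
      ({ toFun := fun c => ⟨c.1, (mem_Z1_trivial_iff c.1).1 c.2⟩
         map_add' := fun _ _ => rfl
         map_smul' := fun _ _ => rfl } :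
        ↥(Z1 𝒱 (Rep.trivial k H V)) →ₗ[k] ↥(levelHoms (k := k) 𝒱 V))
      (by
        intro c hc
        have h0 : c.1 ∈ coboundaries₁ (Rep.trivial k H V) := hc
        rw [coboundaries₁_trivial_eq_bot, Submodule.mem_bot] at h0
        rw [LinearMap.mem_ker]
        exact Subtype.ext h0))
    (by
      constructor
      · rw [injective_iff_map_eq_zero]
        intro x hx
        induction x using Submodule.Quotient.induction_on with
        | _ c =>
          have h0 : c.1 = 0 := congrArg Subtype.val hx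
          have h1 : c = 0 := Subtype.ext h0
          rw [h1]
          rfl
      · intro y
        exact ⟨Submodule.Quotient.mk ⟨y.1, (mem_Z1_trivial_iff y.1).2 y.2⟩, rfl⟩)

variable {𝒱 V}

@[simp] theorem h1TrivEquiv_mk (c : ↥(Z1 𝒱 (Rep.trivial k H V))) :
    (h1TrivEquiv (k := k) 𝒱 V (Submodule.Quotient.mk c) : H → V) = c.1 := rfl

theorem h1TrivEquiv_symm_apply (χ : ↥(levelHoms (k := k) 𝒱 V)) :
    (h1TrivEquiv (k := k) 𝒱 V).symm χ =
      Submodule.Quotient.mk ⟨χ.1, (mem_Z1_trivial_iff χ.1).2 χ.2⟩ := by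
  rw [LinearEquiv.symm_apply_eq]
  rfl

end TrivialCoeff

/-! ### The global level-`S` structure -/

section Global

local notation "Qb" => AlgebraicClosure ℚ

variable (S : Finset Nat.Primes) (K : IntermediateField ℚ Qb)

/-- `Gal(ℚ̄/K)` is open for the level-`S` structure when `K` is unramified outside `S`. -/
theorem exists_le_fixingSubgroup {S : Finset Nat.Primes} {K : IntermediateField ℚ Qb}
    (hK : K.IsUnramifiedOutside S) : ∃ W ∈ (globalLevel S).sets, W ≤ K.fixingSubgroup :=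
  ⟨_, ⟨K, hK, rfl⟩, le_rfl⟩

/-- Level-`S` 1-cochains of `Gal(ℚ̄/K)`. -/
def IsLevS₁ {X : Type*} (β : ↥K.fixingSubgroup → X) : Prop :=
  ∃ F : IntermediateField ℚ Qb, F.IsUnramifiedOutside S ∧
    ∀ g s : ↥K.fixingSubgroup, (s : GQ) ∈ F.fixingSubgroup → β (g * s) = β g

/-- Level-`S` 2-cochains of `Gal(ℚ̄/K)`. -/
def IsLevS₂ {X : Type*} (β : ↥K.fixingSubgroup × ↥K.fixingSubgroup → X) : Prop :=
  ∃ F : IntermediateField ℚ Qb, F.IsUnramifiedOutside S ∧
    ∀ g g' s s' : ↥K.fixingSubgroup, (s : GQ) ∈ F.fixingSubgroup →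
      (s' : GQ) ∈ F.fixingSubgroup → β (g * s, g' * s') = β (g, g')

theorem isLev₁_subLevel_globalLevel_iff {X : Type*} (β : ↥K.fixingSubgroup → X) :
    IsLev₁ (subLevel (globalLevel S) K.fixingSubgroup) β ↔ IsLevS₁ S K β := by
  rw [isLev₁_subLevel_iff]
  constructor
  · rintro ⟨_, ⟨F, hF, rfl⟩, h⟩
    exact ⟨F, hF, h⟩
  · rintro ⟨F, hF, h⟩
    exact ⟨_, ⟨F, hF, rfl⟩, h⟩

theorem isLev₂_subLevel_globalLevel_iff {X : Type*}
    (β : ↥K.fixingSubgroup × ↥K.fixingSubgroup → X) :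
    IsLev₂ (subLevel (globalLevel S) K.fixingSubgroup) β ↔ IsLevS₂ S K β := by
  rw [isLev₂_subLevel_iff]
  constructor
  · rintro ⟨_, ⟨F, hF, rfl⟩, h⟩
    exact ⟨F, hF, h⟩
  · rintro ⟨F, hF, h⟩
    exact ⟨_, ⟨F, hF, rfl⟩, h⟩

/-- Restriction to `Gal(ℚ̄/K)` of a level-`S` cochain of `G_ℚ`. -/
theorem isLevS₁_restrict {X : Type*} {f : GQ → X} (hf : IsLevelConstantS₁ S f) :
    IsLevS₁ S K (fun u : ↥K.fixingSubgroup => f (u : GQ)) :=
  (isLev₁_subLevel_globalLevel_iff S K _).1 (isLev₁_restrict ((isLevelConstantS₁_iff S f).1 hf))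

theorem isLevS₂_restrict {X : Type*} {f : GQ × GQ → X} (hf : IsLevelConstantS₂ S f) :
    IsLevS₂ S K (fun p : ↥K.fixingSubgroup × ↥K.fixingSubgroup => f ((p.1 : GQ), (p.2 : GQ))) :=
  (isLev₂_subLevel_globalLevel_iff S K _).1 (isLev₂_restrict ((isLevelConstantS₂_iff S f).1 hf))

section Coefficients

variable {k : Type} [Field k] {S K} {A : Rep.{0} k ↥K.fixingSubgroup}

theorem isLevS₁_sh₁ {c : GQ → Rep.coind K.fixingSubgroup.subtype A}
    (hc : IsLevelConstantS₁ S c) : IsLevS₁ S K (sh₁ K.fixingSubgroup A c) :=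
  (isLev₁_subLevel_globalLevel_iff S K _).1 (isLev₁_sh₁ ((isLevelConstantS₁_iff S c).1 hc))

theorem isLevS₂_sh₂ {c : GQ × GQ → Rep.coind K.fixingSubgroup.subtype A}
    (hc : IsLevelConstantS₂ S c) : IsLevS₂ S K (sh₂ K.fixingSubgroup A c) :=
  (isLev₂_subLevel_globalLevel_iff S K _).1 (isLev₂_sh₂ ((isLevelConstantS₂_iff S c).1 hc))

variable (R : Retr K.fixingSubgroup) (hK : K.IsUnramifiedOutside S)

include hK

theorem isLevelConstantS₁_ind₁ {β : ↥K.fixingSubgroup → A} (hβ : IsLevS₁ S K β) :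
    IsLevelConstantS₁ S (ind₁ A R β) :=
  (isLevelConstantS₁_iff S _).2 (isLev₁_ind₁ R (exists_le_fixingSubgroup hK)
    ((isLev₁_subLevel_globalLevel_iff S K β).2 hβ))

theorem isLevelConstantS₂_ind₂ {β : ↥K.fixingSubgroup × ↥K.fixingSubgroup → A}
    (hβ : IsLevS₂ S K β) : IsLevelConstantS₂ S (ind₂ A R β) :=
  (isLevelConstantS₂_iff S _).2 (isLev₂_ind₂ R (exists_le_fixingSubgroup hK)
    ((isLev₂_subLevel_globalLevel_iff S K β).2 hβ))

theorem isLevelConstantS₁_hom₁ {c : GQ × GQ → Rep.coind K.fixingSubgroup.subtype A}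
    (hc : IsLevelConstantS₂ S c) : IsLevelConstantS₁ S (hom₁ A R c) :=
  (isLevelConstantS₁_iff S _).2 (isLev₁_hom₁ R (exists_le_fixingSubgroup hK)
    ((isLevelConstantS₂_iff S c).1 hc))

theorem isLevelConstantS₁_ind₁_sub_hom₁ {c : GQ × GQ → Rep.coind K.fixingSubgroup.subtype A}
    (hc : IsLevelConstantS₂ S c) {γ : ↥K.fixingSubgroup → A} (hγ : IsLevS₁ S K γ) :
    IsLevelConstantS₁ S (ind₁ A R γ - hom₁ A R c) :=
  (isLevelConstantS₁_iff S _).2 (ind₁_sub_hom₁_mem_C1 R (exists_le_fixingSubgroup hK)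
    ((isLevelConstantS₂_iff S c).1 hc) ((isLev₁_subLevel_globalLevel_iff S K γ).2 hγ))

omit R in
/-- **Shapiro for the Prelude's level-`S` 2-coboundaries**: a level-`S` 2-cocycle of `G_ℚ` with
values in `coind_{G_K}^{G_ℚ} A` is the coboundary of a level-`S` cochain iff its evaluation at `1`
is the coboundary of a level-`S` cochain of `G_K`. -/
theorem mem_levelCoboundariesS₂_iff_sh₂ {c : GQ × GQ → Rep.coind K.fixingSubgroup.subtype A}
    (hc : c ∈ levelCocyclesS₂ S (Rep.coind K.fixingSubgroup.subtype A)) :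
    c ∈ levelCoboundariesS₂ S (Rep.coind K.fixingSubgroup.subtype A) ↔
      ∃ γ : ↥K.fixingSubgroup → A, IsLevS₁ S K γ ∧
        (d₁₂ A).hom γ = sh₂ K.fixingSubgroup A c := by
  constructor
  · intro h
    obtain ⟨x, hx, rfl⟩ := (mem_levelCoboundariesS₂_iff S _ c).1 h
    exact ⟨sh₁ K.fixingSubgroup A x, isLevS₁_sh₁ hx, (sh₂_d₁₂ x).symm⟩
  · rintro ⟨γ, hγ, hγc⟩
    obtain ⟨R⟩ := Retr.nonempty K.fixingSubgroup
    exact (mem_levelCoboundariesS₂_iff S _ c).2
      ⟨ind₁ A R γ - hom₁ A R c, isLevelConstantS₁_ind₁_sub_hom₁ R hK hc.2 hγ,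
        d₁₂_ind₁_sub_hom₁ R hc.1 hγc⟩

omit R in
/-- **Shapiro for the Prelude's `continuousH1S`**: the class of a 1-cocycle `c` of `G_ℚ` with
values in `coind_{G_K}^{G_ℚ} A` is a level-`S` class iff its evaluation at `1` is cohomologous to
a level-`S` cocycle of `G_K`. -/
theorem H1π_mem_continuousH1S_iff (c : cocycles₁ (Rep.coind K.fixingSubgroup.subtype A)) :
    (H1π (Rep.coind K.fixingSubgroup.subtype A)).hom c ∈
        continuousH1S S (Rep.coind K.fixingSubgroup.subtype A) ↔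
      ∃ β : ↥K.fixingSubgroup → A, IsLevS₁ S K β ∧ β ∈ cocycles₁ A ∧
        sh₁ K.fixingSubgroup A c - β ∈ coboundaries₁ A := by
  constructor
  · intro h
    obtain ⟨c', hc', hcc'⟩ := (mem_continuousH1S_iff S _ _).1 h
    have h1 : (⇑c' - ⇑c : GQ → Rep.coind K.fixingSubgroup.subtype A) ∈
        coboundaries₁ (Rep.coind K.fixingSubgroup.subtype A) := (H1π_eq_iff c' c).1 hcc'
    refine ⟨sh₁ K.fixingSubgroup A c', isLevS₁_sh₁ hc', sh₁_mem_cocycles₁ c'.2, ?_⟩
    have h2 := sh₁_mem_coboundaries₁ h1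
    rw [map_sub] at h2
    have h3 := (coboundaries₁ A).neg_mem h2
    rwa [neg_sub] at h3
  · rintro ⟨β, hβ, hβc, hsub⟩
    obtain ⟨R⟩ := Retr.nonempty K.fixingSubgroup
    have hc' : ind₁ A R β ∈ cocycles₁ (Rep.coind K.fixingSubgroup.subtype A) :=
      ind₁_mem_cocycles₁ R hβc
    refine (mem_continuousH1S_iff S _ _).2 ⟨⟨ind₁ A R β, hc'⟩, isLevelConstantS₁_ind₁ R hK hβ, ?_⟩
    refine (H1π_eq_iff _ c).2 ?_
    have hcoc : (ind₁ A R β - ⇑c : GQ → Rep.coind K.fixingSubgroup.subtype A) ∈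
        cocycles₁ (Rep.coind K.fixingSubgroup.subtype A) :=
      (cocycles₁ _).sub_mem hc' c.2
    refine (mem_coboundaries₁_iff_sh₁ hcoc).2 ?_
    rw [map_sub, sh₁_ind₁]
    have h3 := (coboundaries₁ A).neg_mem hsub
    rwa [neg_sub] at h3

end Coefficients

/-! ### Level cohomology versus the Prelude's `continuousH1S` -/

section Comparison

variable {k : Type} [Field k] (A : Rep.{0} k GQ)

/-- The level `H¹` of the abstract layer is the Prelude's `continuousH1S`. -/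
noncomputable def h1Equiv : Abs.H1 (globalLevel S) A ≃ₗ[k] ↥(continuousH1S S A) :=
  LinearEquiv.ofBijective
    ((TopGlue.nu1 S A).codRestrict (continuousH1S S A) (TopGlue.nu1_mem_continuousH1S S A))
    ⟨fun _ _ h => TopGlue.nu1_injective S A (congrArg Subtype.val h), fun x => by
      obtain ⟨y, hy⟩ := TopGlue.exists_nu1_eq S A x.2
      exact ⟨y, Subtype.ext hy⟩⟩

@[simp] theorem h1Equiv_mk (c : ↥(Z1 (globalLevel S) A)) :
    (h1Equiv S A (Submodule.Quotient.mk c) : groupCohomology.H1 A) =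
      (H1π A).hom ⟨c.1, c.2.2⟩ := rfl

end Comparison

/-! ### `H¹(G_{ℚ,S}, coind k) = ` level-`S` characters of `G_K` -/

section Characters

variable (k : Type) [Field k]

/-- Level-`S` additive characters `Gal(ℚ̄/K) → k`. -/
noncomputable abbrev charS : Submodule k (↥K.fixingSubgroup → k) :=
  levelHoms (k := k) (subLevel (globalLevel S) K.fixingSubgroup) k

variable {S K k}

theorem mem_charS_iff (c : ↥K.fixingSubgroup → k) :
    c ∈ charS S K k ↔ (∀ σ τ, c (σ * τ) = c σ + c τ) ∧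
      ∃ F : IntermediateField ℚ Qb, F.IsUnramifiedOutside S ∧
        ∀ g s : ↥K.fixingSubgroup, (s : GQ) ∈ F.fixingSubgroup → c (g * s) = c g := by
  show (_ ∧ IsLev₁ (subLevel (globalLevel S) K.fixingSubgroup) c) ↔ _
  rw [isLev₁_subLevel_globalLevel_iff]
  rfl

variable (k) in
/-- **Shapiro for `H¹(G_{ℚ,S}, -)`**: the level-`S` classes with values in
`M0 = coind_{G_K}^{G_ℚ} k` are the level-`S` additive characters of `G_K`. -/
noncomputable def shapiroH1S (hK : K.IsUnramifiedOutside S) :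
    ↥(continuousH1S S (M0 k K.fixingSubgroup)) ≃ₗ[k] ↥(charS S K k) :=
  (h1Equiv S (M0 k K.fixingSubgroup)).symm ≪≫ₗ
    (shEquivH1 (globalLevel S) K.fixingSubgroup (Rep.trivial k ↥K.fixingSubgroup k)
      (exists_le_fixingSubgroup hK) ≪≫ₗ
    h1TrivEquiv (k := k) (subLevel (globalLevel S) K.fixingSubgroup) k)

/-- On the class of a level-`S` cocycle `c`, `shapiroH1S` is `u ↦ c(u)(1)`. -/
theorem shapiroH1S_apply (hK : K.IsUnramifiedOutside S)
    (c : cocycles₁ (M0 k K.fixingSubgroup)) (hc : IsLevelConstantS₁ S c) :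
    (shapiroH1S k hK ⟨(H1π (M0 k K.fixingSubgroup)).hom c,
        (mem_continuousH1S_iff S _ _).2 ⟨c, hc, rfl⟩⟩ : ↥K.fixingSubgroup → k) =
      fun u : ↥K.fixingSubgroup => (c (u : GQ)).1 1 := by
  have h1 : (h1Equiv S (M0 k K.fixingSubgroup)).symm
      ⟨(H1π (M0 k K.fixingSubgroup)).hom c, (mem_continuousH1S_iff S _ _).2 ⟨c, hc, rfl⟩⟩ =
      Submodule.Quotient.mk ⟨c.1, (isLevelConstantS₁_iff S _).1 hc, c.2⟩ := by
    rw [LinearEquiv.symm_apply_eq]
    rfl
  have h2 : ∀ x, shapiroH1S k hK x =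
      h1TrivEquiv (k := k) (subLevel (globalLevel S) K.fixingSubgroup) k
        (shEquivH1 (globalLevel S) K.fixingSubgroup (Rep.trivial k ↥K.fixingSubgroup k)
          (exists_le_fixingSubgroup hK) ((h1Equiv S (M0 k K.fixingSubgroup)).symm x)) :=
    fun _ => rfl
  rw [h2, h1]
  rfl

/-- The inverse of `shapiroH1S` is induced by `ind₁`. -/
theorem shapiroH1S_symm_apply (hK : K.IsUnramifiedOutside S) (R : Retr K.fixingSubgroup)
    (χ : ↥(charS S K k)) :
    ((shapiroH1S k hK).symm χ : groupCohomology.H1 (M0 k K.fixingSubgroup)) =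
      (H1π (M0 k K.fixingSubgroup)).hom
        ⟨ind₁ (Rep.trivial k ↥K.fixingSubgroup k) R χ.1,
          ind₁_mem_cocycles₁ R ((mem_Z1_trivial_iff χ.1).2 χ.2).2⟩ := by
  have h1 : (shapiroH1S k hK).symm χ =
      h1Equiv S (M0 k K.fixingSubgroup)
        ((shEquivH1 (globalLevel S) K.fixingSubgroup (Rep.trivial k ↥K.fixingSubgroup k)
          (exists_le_fixingSubgroup hK)).symm
          ((h1TrivEquiv (k := k) (subLevel (globalLevel S) K.fixingSubgroup) k).symm χ)) := rfl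
  rw [h1, h1TrivEquiv_symm_apply, shEquivH1_symm_mk (exists_le_fixingSubgroup hK) R]
  rfl

theorem finrank_continuousH1S_M0 (hK : K.IsUnramifiedOutside S) :
    Module.finrank k ↥(continuousH1S S (M0 k K.fixingSubgroup)) =
      Module.finrank k ↥(charS S K k) :=
  (shapiroH1S k hK).finrank_eq

end Characters

end Global

end Fermat.Agent.S55.Shapiro
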