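import Mathlib
import Fermat.Agent.S55.Shapiro.GlobalS
import Fermat.Agent.S55.Shapiro.ArithFacts
import Fermat.Agent.S55.Shapiro.HPQLocal

/-!
# Shapiro adapters for the `(BE)` assembly

The cochains of the `(BrS)` step are functions on all of `G_ℚ` whose restriction to
`U = Gal(ℚ̄/K)` is a level cocycle.  This file lifts them to cochains of `G_ℚ` with values in
`M0 = coind_U^{G_ℚ} k` and records the three facts the assembly needs:

* `lift₂_mem_Z2` : the lift of a level-`S` cocycle on `U` is a level-`S` cocycle of `G_ℚ`;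
* `lift₂_comp_mem_B2` : if the cochain is the coboundary on `U` of a level-constant function, the
  restriction of the lift to any local group is a level coboundary;
* `exists_cup_primitive` : if the restriction of the lift to the local group at `q` is a level
  coboundary then on every `D_A ⊓ U`, `A` above `q`, the cup product part of the cochain is the
  coboundary of a level-constant function.
-/

set_option autoImplicit false

open groupCohomology ExtCitation

namespace Fermat.Agent.S55.Shapiro.BELift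

open Fermat.Agent.S55.Abs Fermat.Agent.S55.Shapiro

local notation "Qb" => AlgebraicClosure ℚ
local notation "GQ" => (AlgebraicClosure ℚ ≃ₐ[ℚ] AlgebraicClosure ℚ)

variable {k : Type} [Field k] (K : IntermediateField ℚ Qb)

/-- Restriction of a function on `G_ℚ × G_ℚ` to `U × U`, `U = Gal(ℚ̄/K)`. -/
def resU₂ : (GQ × GQ → k) →ₗ[k] (↥K.fixingSubgroup × ↥K.fixingSubgroup → k) :=
  LinearMap.funLeft k k
    (fun x : ↥K.fixingSubgroup × ↥K.fixingSubgroup => ((x.1 : GQ), (x.2 : GQ)))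

@[simp] theorem resU₂_apply (y : GQ × GQ → k) (x : ↥K.fixingSubgroup × ↥K.fixingSubgroup) :
    resU₂ K y x = y ((x.1 : GQ), (x.2 : GQ)) := rfl

/-- The Shapiro lift of a function on `G_ℚ × G_ℚ` (only its values on `U × U` matter) to a
2-cochain of `G_ℚ` with values in `coind_U^{G_ℚ} k`. -/
noncomputable def lift₂ (R : Retr K.fixingSubgroup) :
    (GQ × GQ → k) →ₗ[k]
      (GQ × GQ → Rep.coind K.fixingSubgroup.subtype (Rep.trivial k ↥K.fixingSubgroup k)) :=
  (ind₂ (Rep.trivial k ↥K.fixingSubgroup k) R).comp (resU₂ K)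

theorem lift₂_apply (R : Retr K.fixingSubgroup) (y : GQ × GQ → k) :
    lift₂ K R y = ind₂ (Rep.trivial k ↥K.fixingSubgroup k) R (resU₂ K y) := rfl

theorem sh₂_lift₂ (R : Retr K.fixingSubgroup) (y : GQ × GQ → k) :
    sh₂ K.fixingSubgroup (Rep.trivial k ↥K.fixingSubgroup k) (lift₂ K R y) = resU₂ K y :=
  sh₂_ind₂ R _

/-- The cocycle condition on `U`, in terms of the function on `G_ℚ`. -/
theorem resU₂_mem_cocycles₂ {y : GQ × GQ → k}
    (hcoc : ∀ g ∈ K.fixingSubgroup, ∀ h ∈ K.fixingSubgroup, ∀ l ∈ K.fixingSubgroup,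
      y (h, l) - y (g * h, l) + y (g, h * l) - y (g, h) = 0) :
    resU₂ K y ∈ cocycles₂ (Rep.trivial k ↥K.fixingSubgroup k) := by
  rw [cocycles₂, LinearMap.mem_ker]
  funext x
  exact hcoc x.1 x.1.2 x.2.1 x.2.1.2 x.2.2 x.2.2.2

/-- A cup product of additive characters plus a coboundary is a cocycle on `U`. -/
theorem cup_add_d_cocycle {y : GQ × GQ → k} {κ χ u : GQ → k}
    (hκ : ∀ g ∈ K.fixingSubgroup, ∀ h ∈ K.fixingSubgroup, κ (g * h) = κ g + κ h)
    (hχ : ∀ g ∈ K.fixingSubgroup, ∀ h ∈ K.fixingSubgroup, χ (g * h) = χ g + χ h)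
    (hy : ∀ g ∈ K.fixingSubgroup, ∀ h ∈ K.fixingSubgroup,
      y (g, h) = κ g * χ h + (u g + u h - u (g * h))) :
    ∀ g ∈ K.fixingSubgroup, ∀ h ∈ K.fixingSubgroup, ∀ l ∈ K.fixingSubgroup,
      y (h, l) - y (g * h, l) + y (g, h * l) - y (g, h) = 0 := by
  intro g hg h hh l hl
  rw [hy h hh l hl, hy (g * h) (mul_mem hg hh) l hl, hy g hg (h * l) (mul_mem hh hl),
    hy g hg h hh, hκ g hg h hh, hχ h hh l hl, mul_assoc g h l]
  ring

section Global

variable (S : Finset Nat.Primes)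

/-- **(Sh)(a)** The lift of a level-`S` cocycle on `U` is a level-`S` cocycle of `G_ℚ`. -/
theorem lift₂_mem_Z2 {S : Finset Nat.Primes} (hK : K.IsUnramifiedOutside S)
    (R : Retr K.fixingSubgroup) (y : GQ × GQ → k)
    (hlev : ∃ F' : IntermediateField ℚ Qb, F'.IsUnramifiedOutside S ∧ K ≤ F' ∧
      ∀ g₁ ∈ K.fixingSubgroup, ∀ g₂ ∈ K.fixingSubgroup,
      ∀ s₁ ∈ F'.fixingSubgroup, ∀ s₂ ∈ F'.fixingSubgroup,
        y (g₁ * s₁, g₂ * s₂) = y (g₁, g₂))
    (hcoc : ∀ g ∈ K.fixingSubgroup, ∀ h ∈ K.fixingSubgroup, ∀ l ∈ K.fixingSubgroup,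
      y (h, l) - y (g * h, l) + y (g, h * l) - y (g, h) = 0) :
    lift₂ K R y ∈ Z2 (globalLevel S)
      (Rep.coind K.fixingSubgroup.subtype (Rep.trivial k ↥K.fixingSubgroup k)) := by
  refine ind₂_mem_Z2 R (exists_le_fixingSubgroup hK) ⟨?_, resU₂_mem_cocycles₂ K hcoc⟩
  refine (isLev₂_subLevel_globalLevel_iff S K _).2 ?_
  obtain ⟨F', hF', -, h⟩ := hlev
  exact ⟨F', hF', fun g g' s s' hs hs' => h g g.2 g' g'.2 s hs s' hs'⟩

end Global

section Local

/-- Any homomorphism to `G_ℚ` is a level map from its own local level family to the full level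
family of `G_ℚ`. -/
theorem isLevelMap_localLevel_id {H : Type} [Group H] (r : H →* GQ) :
    IsLevelMap (localLevel r) (localLevel (MonoidHom.id GQ)) r := by
  rintro U ⟨F, hF, rfl⟩
  exact ⟨_, ⟨F, hF, rfl⟩, le_rfl⟩

/-- **(Sh)(b)** If `y = d u` on `U` with `u` level-constant, then the restriction of the lift of
`y` to any local group is a level coboundary. -/
theorem lift₂_comp_mem_B2 [FiniteDimensional ℚ K] (R : Retr K.fixingSubgroup)
    (y : GQ × GQ → k) (u : GQ → k)
    (hu : ∃ F'' : IntermediateField ℚ Qb, FiniteDimensional ℚ F'' ∧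
      ∀ g s, s ∈ F''.fixingSubgroup → u (g * s) = u g)
    (hy : ∀ g ∈ K.fixingSubgroup, ∀ h ∈ K.fixingSubgroup, y (g, h) = u g + u h - u (g * h))
    {H : Type} [Group H] (r : H →* GQ) :
    (fun x : H × H => lift₂ K R y (r x.1, r x.2)) ∈ B2 (localLevel r)
      (Rep.res r (Rep.coind K.fixingSubgroup.subtype (Rep.trivial k ↥K.fixingSubgroup k))) := by
  have hU : ∃ W ∈ (localLevel (MonoidHom.id GQ)).sets, W ≤ K.fixingSubgroup :=
    ⟨_, ⟨K, inferInstance, rfl⟩, le_rfl⟩
  have hw : IsLev₁ (subLevel (localLevel (MonoidHom.id GQ)) K.fixingSubgroup)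
      (fun v : ↥K.fixingSubgroup => u (v : GQ)) := by
    obtain ⟨F'', hF'', h⟩ := hu
    exact isLev₁_restrict ⟨_, ⟨F'', hF'', rfl⟩, fun g s hs => h g s hs⟩
  have key := ArithFacts.ind₂_d₁₂_comp_mem_B2 (A := Rep.trivial k ↥K.fixingSubgroup k)
    (isLevelMap_localLevel_id r) R hU hw
  have hyd : resU₂ K y = (d₁₂ (Rep.trivial k ↥K.fixingSubgroup k)).hom
      (fun v : ↥K.fixingSubgroup => u (v : GQ)) := by
    funext x
    have h1 := hy x.1 x.1.2 x.2 x.2.2
    show y ((x.1 : GQ), (x.2 : GQ)) = u (x.2 : GQ) - u ((x.1 : GQ) * (x.2 : GQ)) + u (x.1 : GQ)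
    rw [h1]
    ring
  rw [lift₂_apply, hyd]
  exact key

end Local

section Cup

/-- **(Sh)(d)** If the restriction of the lift of `y` to the local group at `q` is a level
coboundary, then on every `D_A ⊓ U`, `A` above `q`, `y` is the coboundary of a level-constant
function. -/
theorem exists_primitive (S : Finset Nat.Primes) (R : Retr K.fixingSubgroup) (y : GQ × GQ → k)
    (ha : lift₂ K R y ∈ Z2 (globalLevel S)
      (Rep.coind K.fixingSubgroup.subtype (Rep.trivial k ↥K.fixingSubgroup k)))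
    (q : Nat.Primes)
    (hq : (fun x : primeLocalGaloisGroup q × primeLocalGaloisGroup q =>
        lift₂ K R y (primeLocalToGlobal q x.1, primeLocalToGlobal q x.2)) ∈
      B2 (localLevel (primeLocalToGlobal q)) (Rep.res (primeLocalToGlobal q)
        (Rep.coind K.fixingSubgroup.subtype (Rep.trivial k ↥K.fixingSubgroup k))))
    (A : ValuationSubring Qb) (hA : A.LiesOverPrime (q : ℕ)) :
    ∃ t : ↥(A.decompositionSubgroup ℚ ⊓ K.fixingSubgroup) → k,
      IsLevelConstant₁ (Subgroup.subtype (A.decompositionSubgroup ℚ ⊓ K.fixingSubgroup)) t ∧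
      ∀ g h : ↥(A.decompositionSubgroup ℚ ⊓ K.fixingSubgroup),
        y ((g : GQ), (h : GQ)) = t g + t h - t (g * h) := by
  obtain ⟨t, ht, h⟩ := HPQLocal.sh₂_locTriv_of_mem_B2 K.fixingSubgroup
    (Rep.trivial k ↥K.fixingSubgroup k) S ha q hq A hA
  refine ⟨t, ht, fun g h' => ?_⟩
  have h1 := h g h'
  rw [sh₂_lift₂] at h1
  have h2 : y ((g : GQ), (h' : GQ)) = t h' - t (g * h') + t g := h1
  rw [h2]
  ring

/-- **(Sh)(d), cup form.** If moreover `y = κ ∪ χ + d u` on `U` with `u` level-constant, then on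
every `D_A ⊓ U` the cup product `κ ∪ χ` is the coboundary of a level-constant function. -/
theorem exists_cup_primitive (S : Finset Nat.Primes) (R : Retr K.fixingSubgroup)
    (y : GQ × GQ → k)
    (ha : lift₂ K R y ∈ Z2 (globalLevel S)
      (Rep.coind K.fixingSubgroup.subtype (Rep.trivial k ↥K.fixingSubgroup k)))
    (q : Nat.Primes)
    (hq : (fun x : primeLocalGaloisGroup q × primeLocalGaloisGroup q =>
        lift₂ K R y (primeLocalToGlobal q x.1, primeLocalToGlobal q x.2)) ∈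
      B2 (localLevel (primeLocalToGlobal q)) (Rep.res (primeLocalToGlobal q)
        (Rep.coind K.fixingSubgroup.subtype (Rep.trivial k ↥K.fixingSubgroup k))))
    (κ χ u : GQ → k)
    (hu : ∃ F'' : IntermediateField ℚ Qb, FiniteDimensional ℚ F'' ∧
      ∀ g s, s ∈ F''.fixingSubgroup → u (g * s) = u g)
    (hy : ∀ g ∈ K.fixingSubgroup, ∀ h ∈ K.fixingSubgroup,
      y (g, h) = κ g * χ h + (u g + u h - u (g * h)))
    (A : ValuationSubring Qb) (hA : A.LiesOverPrime (q : ℕ)) :
    ∃ c : ↥(A.decompositionSubgroup ℚ ⊓ K.fixingSubgroup) → k,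
      IsLevelConstant₁ (Subgroup.subtype (A.decompositionSubgroup ℚ ⊓ K.fixingSubgroup)) c ∧
      ∀ g h : ↥(A.decompositionSubgroup ℚ ⊓ K.fixingSubgroup),
        κ (g : GQ) * χ (h : GQ) = c g + c h - c (g * h) := by
  obtain ⟨t, ht, h⟩ := exists_primitive K S R y ha q hq A hA
  obtain ⟨F'', hF'', hu'⟩ := hu
  obtain ⟨F, hF, ht'⟩ := ht
  have := hF
  have := hF''
  refine ⟨fun g => t g - u (g : GQ), ⟨F ⊔ F'', inferInstance, fun g s hs => ?_⟩, fun g h' => ?_⟩
  · have hs' : (s : GQ) ∈ F.fixingSubgroup ⊓ F''.fixingSubgroup := by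
      rw [← IntermediateField.fixingSubgroup_sup]
      exact hs
    show t (g * s) - u ((g : GQ) * (s : GQ)) = t g - u (g : GQ)
    rw [ht' g s hs'.1, hu' _ _ hs'.2]
  · have h1 := h g h'
    rw [hy (g : GQ) g.2.2 (h' : GQ) h'.2.2] at h1
    show κ (g : GQ) * χ (h' : GQ) =
      (t g - u (g : GQ)) + (t h' - u (h' : GQ)) - (t (g * h') - u ((g : GQ) * (h' : GQ)))
    linear_combination h1

end Cup

end Fermat.Agent.S55.Shapiro.BELift
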