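import Mathlib
import Fermat.Agent.S55.Shapiro.BELift
import Fermat.Agent.S55.Count.Top

/-!
# Shapiro adapters for the `(BE)` assembly: class level (`CData` vocabulary)

* `loc2_mk_eq_zero_iff` : a class of `H²(G, M)` is killed by `loc²` iff its restrictions to the
  local groups are level coboundaries (generic `CData`);
* `loc2_lift₂_eq_zero_iff`, `loc2_lift₂_add`, `exists_primitive_of_loc2_eq_zero` : the map
  `y ↦ loc² [lift₂ y]` for `dataS`: it vanishes iff all local restrictions are coboundaries, it is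
  additive modulo coboundaries on `U` of level-constant functions, and on its kernel `y` has a
  level-constant primitive on every `D_A ⊓ U`, `A` above a prime of `S`.
-/

set_option autoImplicit false

open groupCohomology ExtCitation

namespace Fermat.Agent.S55.Shapiro.BELift

open Fermat.Agent.S55.Abs Fermat.Agent.S55.Shapiro Fermat.Agent.S55.Count

local notation "Qb" => AlgebraicClosure ℚ
local notation "GQ" => (AlgebraicClosure ℚ ≃ₐ[ℚ] AlgebraicClosure ℚ)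

section Generic

variable {k G : Type} [Field k] [Group G] (D : CData k G) (M : Rep.{0} k G)

/-- A class of `H²(G, M)` is killed by `loc²` iff its restriction to every local group is a level
coboundary. -/
theorem loc2_mk_eq_zero_iff (a : ↥(Z2 D.𝒰 M)) :
    D.loc2 M (Submodule.Quotient.mk a) = 0 ↔
      ∀ v, res₂ D.loc M v a.1 ∈ B2 (D.𝒰v v) (Rep.res (D.loc v) M) := by
  constructor
  · intro h v
    have h1 := congrFun h v
    have h2 : (Submodule.Quotient.mk (⟨res₂ D.loc M v a.1,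
        res₂_mem_Z2 D.𝒰 D.loc D.𝒰v D.hloc M v a.2⟩ : ↥(Z2 (D.𝒰v v) (Rep.res (D.loc v) M))) :
        Abs.H2 (D.𝒰v v) (Rep.res (D.loc v) M)) = 0 := h1
    rw [Submodule.Quotient.mk_eq_zero] at h2
    exact h2
  · intro h
    funext v
    show (Submodule.Quotient.mk (⟨res₂ D.loc M v a.1,
        res₂_mem_Z2 D.𝒰 D.loc D.𝒰v D.hloc M v a.2⟩ : ↥(Z2 (D.𝒰v v) (Rep.res (D.loc v) M))) :
        Abs.H2 (D.𝒰v v) (Rep.res (D.loc v) M)) = 0
    rw [Submodule.Quotient.mk_eq_zero]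
    exact h v

end Generic

section Generic2

variable {k G : Type} [Field k] [Group G] (D : CData k G) (M : Rep.{0} k G)

/-- A class of `H²(G, M)` lies in `Ш²` iff its restriction to every local group is a level
coboundary. -/
theorem mk_mem_sha2_iff (a : ↥(Z2 D.𝒰 M)) :
    (Submodule.Quotient.mk a : Abs.H2 D.𝒰 M) ∈ D.sha2 M ↔
      ∀ v, res₂ D.loc M v a.1 ∈ B2 (D.𝒰v v) (Rep.res (D.loc v) M) := by
  rw [← loc2_mk_eq_zero_iff]
  exact LinearMap.mem_ker

/-- `loc²` is additive modulo `Ш²`. -/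
theorem loc2_eq_add_of_sub_mem_sha2 {a₁₂ a₁ a₂ : Abs.H2 D.𝒰 M}
    (h : a₁₂ - a₁ - a₂ ∈ D.sha2 M) : D.loc2 M a₁₂ = D.loc2 M a₁ + D.loc2 M a₂ := by
  funext v
  have h0 : D.r2 M v (a₁₂ - a₁ - a₂) = 0 := congrFun (LinearMap.mem_ker.1 h) v
  show D.r2 M v a₁₂ = D.r2 M v a₁ + D.r2 M v a₂
  rw [map_sub, map_sub, sub_eq_zero] at h0
  exact sub_eq_iff_eq_add'.1 h0

end Generic2

section DataS

variable {p : ℕ} [Fact p.Prime] {S : Finset Nat.Primes} (hpS : pPrime p ∈ S) (inv : InvS p S)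
  (K : IntermediateField ℚ Qb) (R : Retr K.fixingSubgroup)

/-- `[lift₂ y] ∈ Ш²` iff every local restriction of `lift₂ y` is a level coboundary. -/
theorem mk_lift₂_mem_sha2_iff (y : GQ × GQ → ZMod p)
    (ha : lift₂ K R y ∈ Z2 (globalLevel S) (M0 (ZMod p) K.fixingSubgroup)) :
    (Submodule.Quotient.mk (⟨lift₂ K R y, ha⟩ :
        ↥(Z2 (globalLevel S) (M0 (ZMod p) K.fixingSubgroup))) :
        Abs.H2 (globalLevel S) (M0 (ZMod p) K.fixingSubgroup)) ∈
        (dataS p S hpS inv).sha2 (M0 (ZMod p) K.fixingSubgroup) ↔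
      ∀ q : ↥S, (fun x : primeLocalGaloisGroup q.1 × primeLocalGaloisGroup q.1 =>
          lift₂ K R y (primeLocalToGlobal q.1 x.1, primeLocalToGlobal q.1 x.2)) ∈
        B2 (localLevel (primeLocalToGlobal q.1)) (Rep.res (primeLocalToGlobal q.1)
          (M0 (ZMod p) K.fixingSubgroup)) :=
  mk_mem_sha2_iff (dataS p S hpS inv) (M0 (ZMod p) K.fixingSubgroup) ⟨lift₂ K R y, ha⟩

/-- Additivity of `y ↦ [lift₂ y]` modulo `Ш²`, when `y₁₂ = y₁ + y₂ + d u` on `U` with `u`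
level-constant.  With `loc2_eq_add_of_sub_mem_sha2` this is the additivity of
`y ↦ loc² [lift₂ y]`. -/
theorem mk_lift₂_sub_mem_sha2 [FiniteDimensional ℚ K] (y₁ y₂ y₁₂ : GQ × GQ → ZMod p)
    (ha₁ : lift₂ K R y₁ ∈ Z2 (globalLevel S) (M0 (ZMod p) K.fixingSubgroup))
    (ha₂ : lift₂ K R y₂ ∈ Z2 (globalLevel S) (M0 (ZMod p) K.fixingSubgroup))
    (ha₁₂ : lift₂ K R y₁₂ ∈ Z2 (globalLevel S) (M0 (ZMod p) K.fixingSubgroup))
    (u : GQ → ZMod p)
    (hu : ∃ F'' : IntermediateField ℚ Qb, FiniteDimensional ℚ F'' ∧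
      ∀ g s, s ∈ F''.fixingSubgroup → u (g * s) = u g)
    (hy : ∀ g ∈ K.fixingSubgroup, ∀ h ∈ K.fixingSubgroup,
      y₁₂ (g, h) = y₁ (g, h) + y₂ (g, h) + (u g + u h - u (g * h))) :
    (Submodule.Quotient.mk (⟨lift₂ K R y₁₂, ha₁₂⟩ :
        ↥(Z2 (globalLevel S) (M0 (ZMod p) K.fixingSubgroup))) :
        Abs.H2 (globalLevel S) (M0 (ZMod p) K.fixingSubgroup)) -
      Submodule.Quotient.mk ⟨lift₂ K R y₁, ha₁⟩ - Submodule.Quotient.mk ⟨lift₂ K R y₂, ha₂⟩ ∈
        (dataS p S hpS inv).sha2 (M0 (ZMod p) K.fixingSubgroup) := by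
  have hz : lift₂ K R (y₁₂ - y₁ - y₂) ∈ Z2 (globalLevel S) (M0 (ZMod p) K.fixingSubgroup) := by
    rw [map_sub, map_sub]
    exact Submodule.sub_mem _ (Submodule.sub_mem _ ha₁₂ ha₁) ha₂
  have h0 : (Submodule.Quotient.mk (⟨lift₂ K R (y₁₂ - y₁ - y₂), hz⟩ :
        ↥(Z2 (globalLevel S) (M0 (ZMod p) K.fixingSubgroup))) :
        Abs.H2 (globalLevel S) (M0 (ZMod p) K.fixingSubgroup)) ∈
        (dataS p S hpS inv).sha2 (M0 (ZMod p) K.fixingSubgroup) := by
    rw [mk_lift₂_mem_sha2_iff]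
    intro q
    refine lift₂_comp_mem_B2 K R (y₁₂ - y₁ - y₂) u hu (fun g hg h hh => ?_)
      (primeLocalToGlobal q.1)
    have h1 := hy g hg h hh
    show y₁₂ (g, h) - y₁ (g, h) - y₂ (g, h) = u g + u h - u (g * h)
    rw [h1]
    ring
  have hmk : (Submodule.Quotient.mk (⟨lift₂ K R (y₁₂ - y₁ - y₂), hz⟩ :
      ↥(Z2 (globalLevel S) (M0 (ZMod p) K.fixingSubgroup))) :
      Abs.H2 (globalLevel S) (M0 (ZMod p) K.fixingSubgroup)) =
      Submodule.Quotient.mk ⟨lift₂ K R y₁₂, ha₁₂⟩ - Submodule.Quotient.mk ⟨lift₂ K R y₁, ha₁⟩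
        - Submodule.Quotient.mk ⟨lift₂ K R y₂, ha₂⟩ := by
    rw [← Submodule.Quotient.mk_sub, ← Submodule.Quotient.mk_sub]
    refine congrArg _ (Subtype.ext ?_)
    show lift₂ K R (y₁₂ - y₁ - y₂) = lift₂ K R y₁₂ - lift₂ K R y₁ - lift₂ K R y₂
    rw [map_sub, map_sub]
  rw [← hmk]
  exact h0

/-- If `[lift₂ y] ∈ Ш²`, `y` has a level-constant primitive on every `D_A ⊓ U`, `A` above a prime
of `S` (in the literal shape of `BECup.cup_of_brS`). -/
theorem exists_primitive_of_mem_sha2 (y : GQ × GQ → ZMod p)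
    (ha : lift₂ K R y ∈ Z2 (globalLevel S) (M0 (ZMod p) K.fixingSubgroup))
    (h0 : (Submodule.Quotient.mk (⟨lift₂ K R y, ha⟩ :
        ↥(Z2 (globalLevel S) (M0 (ZMod p) K.fixingSubgroup))) :
        Abs.H2 (globalLevel S) (M0 (ZMod p) K.fixingSubgroup)) ∈
        (dataS p S hpS inv).sha2 (M0 (ZMod p) K.fixingSubgroup))
    (q : Nat.Primes) (hq : q ∈ S) (A : ValuationSubring Qb) (hA : A.LiesOverPrime (q : ℕ)) :
    ∃ t : ↥(A.decompositionSubgroup ℚ ⊓ K.fixingSubgroup) → ZMod p,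
      IsLevelConstant₁ (Subgroup.subtype (A.decompositionSubgroup ℚ ⊓ K.fixingSubgroup)) t ∧
      ∀ g h : ↥(A.decompositionSubgroup ℚ ⊓ K.fixingSubgroup),
        y ((g : GQ), (h : GQ)) = t h - t (g * h) + t g := by
  have h1 := (mk_lift₂_mem_sha2_iff hpS inv K R y ha).1 h0 ⟨q, hq⟩
  obtain ⟨t, ht, h⟩ := exists_primitive K S R y ha q h1 A hA
  refine ⟨t, ht, fun g h' => ?_⟩
  rw [h g h']
  ring

/-- Cup form of `exists_primitive_of_mem_sha2`: the conclusion wanted by the `Ψ`-hypothesis of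
`BECup.be_K_cup` (with `χ` a function on `G_ℚ`). -/
theorem exists_cup_primitive_of_mem_sha2 (y : GQ × GQ → ZMod p)
    (ha : lift₂ K R y ∈ Z2 (globalLevel S) (M0 (ZMod p) K.fixingSubgroup))
    (h0 : (Submodule.Quotient.mk (⟨lift₂ K R y, ha⟩ :
        ↥(Z2 (globalLevel S) (M0 (ZMod p) K.fixingSubgroup))) :
        Abs.H2 (globalLevel S) (M0 (ZMod p) K.fixingSubgroup)) ∈
        (dataS p S hpS inv).sha2 (M0 (ZMod p) K.fixingSubgroup))
    (κ χ u : GQ → ZMod p)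
    (hu : ∃ F'' : IntermediateField ℚ Qb, FiniteDimensional ℚ F'' ∧
      ∀ g s, s ∈ F''.fixingSubgroup → u (g * s) = u g)
    (hy : ∀ g ∈ K.fixingSubgroup, ∀ h ∈ K.fixingSubgroup,
      y (g, h) = κ g * χ h + (u g + u h - u (g * h)))
    (q : Nat.Primes) (hq : q ∈ S) (A : ValuationSubring Qb) (hA : A.LiesOverPrime (q : ℕ)) :
    ∃ c : ↥(A.decompositionSubgroup ℚ ⊓ K.fixingSubgroup) → ZMod p,
      IsLevelConstant₁ (Subgroup.subtype (A.decompositionSubgroup ℚ ⊓ K.fixingSubgroup)) c ∧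
      ∀ g h : ↥(A.decompositionSubgroup ℚ ⊓ K.fixingSubgroup),
        κ (g : GQ) * χ (h : GQ) = c g + c h - c (g * h) :=
  exists_cup_primitive K S R y ha q
    ((mk_lift₂_mem_sha2_iff hpS inv K R y ha).1 h0 ⟨q, hq⟩) κ χ u hu hy A hA

end DataS

end Fermat.Agent.S55.Shapiro.BELift
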