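import Mathlib
import Fermat.Agent.S55.Shapiro.Conj

/-!
# Mackey transfer of global cochains to a local group (CFT brick [SH-transfer])

`G` a group, `U ≤ G`, `A : Rep k U`, `M = Rep.coind U.subtype A`, `r : H →* G` a local group,
`D : DRep U r J` representatives `τ j` of `U \ G / r(H)`, `R j` retractions of the local groups
`conjSub U r (τ j)`.

* `comp_r_eq_unmk₁` : for ANY global `1`-cochain `c : G → M`, the restriction `c ∘ r` to `H` is
  `unmk₁ (j ↦ (sh₁ c) ∘ conjHom_j)` up to an explicit coboundary and an explicit error term built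
  from `d c` (which is right invariant as soon as `d c` is).
* `theta D R j κ` : the local `1`-cochain of `H` supported on the double coset `j` with component
  `κ` (`unmk₁` of `Pi.single j κ`); `mk₁_theta_self`, `mk₁_theta_of_ne`, `theta_mem_cocycles₁`,
  `rinv₁_theta`, `unmk₁_eq_sum_theta`.
* `exists_decomp_of_local`, `exists_decomp_of_global` : a decomposition "`e_j • κ_j` + right
  invariant + coboundary" of all the components on the groups `conjSub U r (τ j)` gives the
  decomposition "`∑ e_j • theta j κ_j` + right invariant + coboundary" on `H`.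
-/

set_option autoImplicit false

open groupCohomology

namespace Fermat.Agent.S55.Shapiro

variable {k : Type} [CommRing k] {G : Type} [Group G] {U : Subgroup G} {A : Rep.{0} k U}
  {H : Type} [Group H] {r : H →* G} {J : Type} (D : DRep U r J)
  (R : ∀ j : J, Retr (conjSub U r (D.τ j)))

theorem d₁₂_comp_r (c : G → Rep.coind U.subtype A) :
    (d₁₂ (Rep.res r (Rep.coind U.subtype A))).hom (fun h => c (r h)) =
      fun p : H × H => (d₁₂ (Rep.coind U.subtype A)).hom c (r p.1, r p.2) := by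
  funext p
  show (Rep.coind U.subtype A).ρ (r p.1) (c (r p.2)) - c (r (p.1 * p.2)) + c (r p.1) =
    (Rep.coind U.subtype A).ρ (r p.1) (c (r p.2)) - c (r p.1 * r p.2) + c (r p.1)
  rw [map_mul]

/-- **Mackey transfer of a global `1`-cochain.** -/
theorem comp_r_eq_unmk₁ (c : G → Rep.coind U.subtype A) :
    (fun h => c (r h)) =
      unmk₁ A D R (fun j => lc₁ U A r (D.τ j) (sh₁ U A c))
      - (d₀₁ (Rep.res r (Rep.coind U.subtype A))).hom
          (unmk₀ A D R (fun j => cjh₀ U A (D.τ j) c) + mhom₀ A D R (fun h => c (r h)))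
      - (unmk₁ A D R (fun j => lc₁ U A r (D.τ j)
            (cjh₁ U A (D.τ j) ((d₁₂ (Rep.coind U.subtype A)).hom c)))
          + mhom₁ A D R
            (fun p : H × H => (d₁₂ (Rep.coind U.subtype A)).hom c (r p.1, r p.2))) := by
  have h1 := unmk₁_mk₁_sub D R (fun h => c (r h))
  rw [d₁₂_comp_r] at h1
  have h2 : (fun j => mk₁ U A r (D.τ j) (fun h => c (r h))) =
      (fun j => lc₁ U A r (D.τ j) (sh₁ U A c))
        - (fun j => (d₀₁ (locRep U A r (D.τ j))).hom (cjh₀ U A (D.τ j) c))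
        - (fun j => lc₁ U A r (D.τ j)
            (cjh₁ U A (D.τ j) ((d₁₂ (Rep.coind U.subtype A)).hom c))) := by
    funext j
    have := lc₁_sh₁ (r := r) (D.τ j) c
    show mk₁ U A r (D.τ j) (fun h => c (r h)) =
      lc₁ U A r (D.τ j) (sh₁ U A c) - (d₀₁ (locRep U A r (D.τ j))).hom (cjh₀ U A (D.τ j) c)
        - lc₁ U A r (D.τ j) (cjh₁ U A (D.τ j) ((d₁₂ (Rep.coind U.subtype A)).hom c))
    rw [this]; abel
  rw [h2, map_sub, map_sub, unmk₁_d₀₁] at h1
  rw [map_add]
  have key : ∀ (x y z p q w : H → Rep.coind U.subtype A),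
      x - y - z - w = p + q → w = x - (y + p) - (z + q) := by
    intro x y z p q w h
    have hw : w = x - y - z - (p + q) := by rw [← h]; abel
    rw [hw]; abel
  exact key _ _ _ _ _ _ h1

section Level

variable {N : Subgroup G} [hN : N.Normal] (hNU : N ≤ U) {V : Subgroup H} [hVn : V.Normal]
  (hVN : V ≤ N.comap r)

include hN hNU hVn hVN

omit hVn in
theorem le_conjSub_of_le_comap (g : G) : V ≤ conjSub U r g := fun _ hv =>
  hNU (hN.conj_mem _ (Subgroup.mem_comap.mp (hVN hv)) g)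

/-- The error term of `comp_r_eq_unmk₁` is right invariant as soon as `d c` is. -/
theorem rinv₁_transfer_error {a : G × G → Rep.coind U.subtype A} (ha : RInv₂ N a) :
    RInv₁ V (unmk₁ A D R (fun j => lc₁ U A r (D.τ j) (cjh₁ U A (D.τ j) a))
      + mhom₁ A D R (fun p : H × H => a (r p.1, r p.2))) := by
  have hV : ∀ j, V ≤ conjSub U r (D.τ j) := fun j => le_conjSub_of_le_comap hNU hVN (D.τ j)
  have h1 : RInv₁ V (unmk₁ A D R (fun j => lc₁ U A r (D.τ j) (cjh₁ U A (D.τ j) a))) := by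
    refine rinv₁_unmk₁ D R hV (fun j h s hs => ?_)
    exact rinv₁_lc₁ (r := r) (D.τ j) (rinv₁_cjh₁ (U := U) (A := A) (D.τ j) ha) h s
      (Subgroup.mem_subgroupOf.mpr (hVN (Subgroup.mem_subgroupOf.mp hs)))
  have h2 : RInv₁ V (mhom₁ A D R (fun p : H × H => a (r p.1, r p.2))) :=
    rinv₁_mhom₁ D R hV (rinv₂_mono hVN (rinv₂_comp ha))
  intro h s hs
  show unmk₁ A D R (fun j => lc₁ U A r (D.τ j) (cjh₁ U A (D.τ j) a)) (h * s)
      + mhom₁ A D R (fun p : H × H => a (r p.1, r p.2)) (h * s) =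
    unmk₁ A D R (fun j => lc₁ U A r (D.τ j) (cjh₁ U A (D.τ j) a)) h
      + mhom₁ A D R (fun p : H × H => a (r p.1, r p.2)) h
  rw [h1 h s hs, h2 h s hs]

/-- **Mackey transfer, level form.**  If `d c` is right invariant under the normal subgroup
`N ≤ U`, then `c ∘ r = unmk₁ (j ↦ (sh₁ c) ∘ conjHom_j) + d m + u` with `u` right invariant under
`V ≤ r⁻¹ N`. -/
theorem exists_comp_r_eq (c : G → Rep.coind U.subtype A)
    (hc : RInv₂ N ((d₁₂ (Rep.coind U.subtype A)).hom c)) :
    ∃ (m : Rep.coind U.subtype A) (u : H → Rep.coind U.subtype A), RInv₁ V u ∧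
      (fun h => c (r h)) = unmk₁ A D R (fun j => lc₁ U A r (D.τ j) (sh₁ U A c))
        + (d₀₁ (Rep.res r (Rep.coind U.subtype A))).hom m + u := by
  refine ⟨-(unmk₀ A D R (fun j => cjh₀ U A (D.τ j) c) + mhom₀ A D R (fun h => c (r h))),
    -(unmk₁ A D R (fun j => lc₁ U A r (D.τ j)
        (cjh₁ U A (D.τ j) ((d₁₂ (Rep.coind U.subtype A)).hom c)))
      + mhom₁ A D R (fun p : H × H => (d₁₂ (Rep.coind U.subtype A)).hom c (r p.1, r p.2))),
    ?_, ?_⟩
  · have h := rinv₁_transfer_error D R hNU hVN hc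
    intro x s hs
    show -(_ : H → Rep.coind U.subtype A) (x * s) = -(_ : H → Rep.coind U.subtype A) x
    rw [h x s hs]
  · conv_lhs => rw [comp_r_eq_unmk₁ D R c]
    rw [map_neg]
    abel

end Level

/-- A local `1`-cocycle is `unmk₁` of its Mackey components up to a coboundary. -/
theorem eq_unmk₁_mk₁_of_mem_cocycles₁ {η : H → Rep.coind U.subtype A}
    (hη : η ∈ cocycles₁ (Rep.res r (Rep.coind U.subtype A))) :
    η = unmk₁ A D R (fun j => mk₁ U A r (D.τ j) η)
      - (d₀₁ (Rep.res r (Rep.coind U.subtype A))).hom (mhom₀ A D R η) := by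
  have h1 := unmk₁_mk₁_sub D R η
  have hd : (d₁₂ (Rep.res r (Rep.coind U.subtype A))).hom η = 0 := hη
  rw [hd, map_zero, add_zero] at h1
  rw [← h1]; abel

/-! ### The cochains supported on one double coset -/

section Theta

variable [DecidableEq J]

/-- The local `1`-cochain of `H` with Mackey component `κ` at the double coset `j` and `0` at the
other double cosets. -/
noncomputable def theta (j : J) :
    (conjSub U r (D.τ j) → locRep U A r (D.τ j)) →ₗ[k] (H → Rep.coind U.subtype A) :=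
  unmk₁ A D R ∘ₗ
    LinearMap.single k (fun j : J => conjSub U r (D.τ j) → locRep U A r (D.τ j)) j

theorem theta_apply (j : J) (κ : conjSub U r (D.τ j) → locRep U A r (D.τ j)) :
    theta D R j κ = unmk₁ A D R (Pi.single j κ) := rfl

theorem mk₁_theta_self (j : J) (κ : conjSub U r (D.τ j) → locRep U A r (D.τ j)) :
    mk₁ U A r (D.τ j) (theta D R j κ) = κ := by
  rw [theta_apply, mk₁_unmk₁, Pi.single_eq_same]

theorem mk₁_theta_of_ne {j j' : J} (h : j' ≠ j)
    (κ : conjSub U r (D.τ j) → locRep U A r (D.τ j)) :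
    mk₁ U A r (D.τ j') (theta D R j κ) = 0 := by
  rw [theta_apply, mk₁_unmk₁, Pi.single_eq_of_ne h]

theorem theta_mem_cocycles₁ (j : J) {κ : conjSub U r (D.τ j) → locRep U A r (D.τ j)}
    (hκ : κ ∈ cocycles₁ (locRep U A r (D.τ j))) :
    theta D R j κ ∈ cocycles₁ (Rep.res r (Rep.coind U.subtype A)) := by
  show (d₁₂ (Rep.res r (Rep.coind U.subtype A))).hom (theta D R j κ) = 0
  rw [theta_apply, ← unmk₂_d₁₂]
  have h0 : (fun j' => (d₁₂ (locRep U A r (D.τ j'))).hom
      ((Pi.single j κ : ∀ j : J, conjSub U r (D.τ j) → locRep U A r (D.τ j)) j')) = 0 := by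
    funext j'
    by_cases h : j' = j
    · subst h
      rw [Pi.single_eq_same]
      exact hκ
    · rw [Pi.single_eq_of_ne h, map_zero]; rfl
  rw [h0, map_zero]

theorem rinv₁_theta {V : Subgroup H} [V.Normal] (hV : ∀ j, V ≤ conjSub U r (D.τ j)) (j : J)
    {κ : conjSub U r (D.τ j) → locRep U A r (D.τ j)}
    (hκ : RInv₁ (V.subgroupOf (conjSub U r (D.τ j))) κ) : RInv₁ V (theta D R j κ) := by
  rw [theta_apply]
  refine rinv₁_unmk₁ D R hV (fun j' => ?_)
  by_cases h : j' = j
  · subst h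
    rw [Pi.single_eq_same]
    exact hκ
  · rw [Pi.single_eq_of_ne h]
    intro _ _ _
    rfl

theorem unmk₁_eq_sum_theta [Fintype J]
    (b : ∀ j : J, conjSub U r (D.τ j) → locRep U A r (D.τ j)) :
    unmk₁ A D R b = ∑ j, theta D R j (b j) := by
  conv_lhs => rw [← Finset.univ_sum_single b]
  rw [map_sum]
  rfl

variable [Fintype J]

/-- The components `e_j • κ_j + u_j + d a_j` glue to `∑ e_j • theta j κ_j + u + d m`. -/
theorem unmk₁_decomp {V : Subgroup H} [V.Normal] (hV : ∀ j, V ≤ conjSub U r (D.τ j))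
    (e : J → k) (κ u : ∀ j : J, conjSub U r (D.τ j) → locRep U A r (D.τ j))
    (a : ∀ j : J, locRep U A r (D.τ j))
    (hu : ∀ j, RInv₁ (V.subgroupOf (conjSub U r (D.τ j))) (u j))
    (b : ∀ j : J, conjSub U r (D.τ j) → locRep U A r (D.τ j))
    (hb : ∀ j, b j = e j • κ j + u j + (d₀₁ (locRep U A r (D.τ j))).hom (a j)) :
    RInv₁ V (unmk₁ A D R u) ∧
      unmk₁ A D R b = ∑ j, e j • theta D R j (κ j) + unmk₁ A D R u
        + (d₀₁ (Rep.res r (Rep.coind U.subtype A))).hom (unmk₀ A D R a) := by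
  refine ⟨rinv₁_unmk₁ D R hV hu, ?_⟩
  have hb' : b = (fun j => e j • κ j) + u
      + (fun j => (d₀₁ (locRep U A r (D.τ j))).hom (a j)) := funext hb
  rw [hb', map_add, map_add, unmk₁_d₀₁, unmk₁_eq_sum_theta D R (fun j => e j • κ j)]
  congr 2
  refine Finset.sum_congr rfl (fun j _ => ?_)
  rw [map_smul]

/-- **From the local groups `conjSub U r (τ j)` to `H`, local cocycles.** -/
theorem exists_decomp_of_local {V : Subgroup H} [V.Normal]
    (hV : ∀ j, V ≤ conjSub U r (D.τ j)) {η : H → Rep.coind U.subtype A}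
    (hη : η ∈ cocycles₁ (Rep.res r (Rep.coind U.subtype A)))
    (e : J → k) (κ u : ∀ j : J, conjSub U r (D.τ j) → locRep U A r (D.τ j))
    (a : ∀ j : J, locRep U A r (D.τ j))
    (hu : ∀ j, RInv₁ (V.subgroupOf (conjSub U r (D.τ j))) (u j))
    (h : ∀ j, mk₁ U A r (D.τ j) η = e j • κ j + u j + (d₀₁ (locRep U A r (D.τ j))).hom (a j)) :
    ∃ (u' : H → Rep.coind U.subtype A) (m : Rep.coind U.subtype A), RInv₁ V u' ∧
      η = ∑ j, e j • theta D R j (κ j) + u'
        + (d₀₁ (Rep.res r (Rep.coind U.subtype A))).hom m := by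
  obtain ⟨h1, h2⟩ := unmk₁_decomp D R hV e κ u a hu _ h
  refine ⟨unmk₁ A D R u, unmk₀ A D R a - mhom₀ A D R η, h1, ?_⟩
  conv_lhs => rw [eq_unmk₁_mk₁_of_mem_cocycles₁ D R hη, h2]
  rw [map_sub]
  abel

/-- **From the local groups `conjSub U r (τ j)` to `H`, restrictions of global cochains.**
Let `c` be a global `1`-cochain whose coboundary is right invariant under the normal subgroup
`N ≤ U`.  If the restriction of `sh₁ c` to every `conjSub U r (τ j)` is
`e_j • κ_j + u_j + d a_j` with `u_j` right invariant, then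
`c ∘ r = ∑ e_j • theta j κ_j + u' + d m` with `u'` right invariant. -/
theorem exists_decomp_of_global {N : Subgroup G} [hN : N.Normal] (hNU : N ≤ U)
    {V : Subgroup H} [V.Normal] (hVN : V ≤ N.comap r) (c : G → Rep.coind U.subtype A)
    (hc : RInv₂ N ((d₁₂ (Rep.coind U.subtype A)).hom c))
    (e : J → k) (κ u : ∀ j : J, conjSub U r (D.τ j) → locRep U A r (D.τ j))
    (a : ∀ j : J, locRep U A r (D.τ j))
    (hu : ∀ j, RInv₁ (V.subgroupOf (conjSub U r (D.τ j))) (u j))
    (h : ∀ j, lc₁ U A r (D.τ j) (sh₁ U A c) =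
      e j • κ j + u j + (d₀₁ (locRep U A r (D.τ j))).hom (a j)) :
    ∃ (u' : H → Rep.coind U.subtype A) (m : Rep.coind U.subtype A), RInv₁ V u' ∧
      (fun x => c (r x)) = ∑ j, e j • theta D R j (κ j) + u'
        + (d₀₁ (Rep.res r (Rep.coind U.subtype A))).hom m := by
  have hV : ∀ j, V ≤ conjSub U r (D.τ j) := fun j => le_conjSub_of_le_comap hNU hVN (D.τ j)
  obtain ⟨h1, h2⟩ := unmk₁_decomp D R hV e κ u a hu _ h
  obtain ⟨m, w, hw, hcw⟩ := exists_comp_r_eq D R hNU hVN c hc
  refine ⟨unmk₁ A D R u + w, unmk₀ A D R a + m, ?_, ?_⟩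
  · intro x s hs
    show unmk₁ A D R u (x * s) + w (x * s) = unmk₁ A D R u x + w x
    rw [h1 x s hs, hw x s hs]
  · rw [hcw, h2, map_add]
    abel

end Theta

end Fermat.Agent.S55.Shapiro
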