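import Mathlib
import Fermat.Agent.S55.Shapiro.LocalTransfer
import Fermat.Agent.S55.Glue.UnramIntrinsic
import Fermat.Agent.S55.Arith.UnramLocal

/-!
# UNR3-Q, the non-formal core: "tame components killed on inertia ⇒ unramified" (CFT row 390)

`l` a prime, `r = primeLocalToGlobal l : G_l →* G_ℚ`, `A₀ = primeLocalPlace l`,
`I = r⁻¹ (inertia of A₀)`.

* `isUnram₁_of_inertia_invariant` : a local cochain (any values) which is level-constant and
  right invariant under `I` is unramified in the sense of `Arith.Unram.IsUnram₁`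
  (constant modulo `r⁻¹ (Fix F)`, `F/ℚ` finite and unramified at `l`: `F = ℚ(μ_{l^N - 1})`).
* `eq_zero_of_mk₁_eq_zero` (generic Mackey): a `1`-cocycle of `H` with values in
  `Res_r coind_U^G A` whose Mackey components `mk₁ (τ j)` vanish on a normal subgroup `I ≤ H`
  acting trivially on the coefficients, vanishes on `I`.
* `isUnram₁_of_mk₁_inertia` : `K/ℚ` unramified at `l`; a level-constant `1`-cocycle of `G_l` with
  values in `coind_{Fix K} X` (trivial coefficients `X`) whose Mackey components vanish on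
  inertia is unramified.
* `exists_isUnram_decomp` **(CRIT)** : if on inertia the Mackey components of the level-constant
  cocycle `c` agree with those of `∑ e_j • θ_j` (`θ_j` level-constant cocycles), then
  `c = ∑ e_j • θ_j + u + d m` with `u` an unramified cocycle (indeed `m = 0`).
* `exists_isUnram_decomp_theta` : the same for `θ_j = theta D R j (κ j)`.
-/

set_option autoImplicit false

open groupCohomology ExtCitation
open scoped Pointwise

namespace Fermat.Agent.S55.Shapiro.Unr3Crit

open Fermat.Agent.S55.Shapiro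

local notation "Qb" => AlgebraicClosure ℚ
local notation "Gq" => (AlgebraicClosure ℚ ≃ₐ[ℚ] AlgebraicClosure ℚ)

attribute [local instance] Fermat.Agent.S55.Glue.isAlgebraicQbar_lg
  Fermat.Agent.S55.Glue.isAlgClosureQbar_lg Fermat.Agent.S55.Glue.normalQbar_lg

/-! ### Generic Mackey part -/

section Generic

variable {k : Type} [CommRing k] {G : Type} [Group G] {U : Subgroup G} {A : Rep.{0} k U}
  {H : Type} [Group H] {r : H →* G} {J : Type} (D : DRep U r J)

/-- A normal subgroup `I` of `H` all of whose conjugates in `G` lie in `U` and act trivially on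
`A` acts trivially on `Res_r coind_U^G A`. -/
theorem coind_ρ_eq_self_of_conj_mem (I : Subgroup H)
    (hIU : ∀ i ∈ I, ∀ g : G, g * r i * g⁻¹ ∈ U)
    (hIA : ∀ i ∈ I, ∀ (g : G) (hg : g * r i * g⁻¹ ∈ U) (a : A), A.ρ ⟨g * r i * g⁻¹, hg⟩ a = a)
    {i : H} (hi : i ∈ I) (f : Rep.coind U.subtype A) :
    (Rep.coind U.subtype A).ρ (r i) f = f := by
  apply Subtype.ext
  funext x
  rw [coind_ρ_apply]
  have e : x * r i = ((⟨x * r i * x⁻¹, hIU i hi x⟩ : U) : G) * x := by
    show x * r i = x * r i * x⁻¹ * x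
    group
  rw [e, coind_apply_smul, hIA i hi x]

/-- **Mackey components detect vanishing on a normal subgroup acting trivially.** -/
theorem eq_zero_of_mk₁_eq_zero (I : Subgroup H) [hIn : I.Normal]
    (hIU : ∀ i ∈ I, ∀ g : G, g * r i * g⁻¹ ∈ U)
    (hIA : ∀ i ∈ I, ∀ (g : G) (hg : g * r i * g⁻¹ ∈ U) (a : A), A.ρ ⟨g * r i * g⁻¹, hg⟩ a = a)
    {c : H → Rep.coind U.subtype A} (hc : c ∈ cocycles₁ (Rep.res r (Rep.coind U.subtype A)))
    (h0 : ∀ j, ∀ i ∈ I, (c i).1 (D.τ j) = 0) {i : H} (hi : i ∈ I) : c i = 0 := by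
  have hcoc : ∀ g h : H, c (g * h) = (Rep.coind U.subtype A).ρ (r g) (c h) + c g := by
    rw [mem_cocycles₁_iff] at hc
    exact hc
  have key : ∀ x : G, (c i).1 x = 0 := by
    intro x
    have hx := D.spec x
    have hi' : D.hOf x * i * (D.hOf x)⁻¹ ∈ I := hIn.conj_mem i hi (D.hOf x)
    have h1 : (c i).1 (D.τ (D.idx x) * r (D.hOf x)) =
        ((Rep.coind U.subtype A).ρ (r (D.hOf x)) (c i)).1 (D.τ (D.idx x)) :=
      (coind_ρ_apply _ _ _).symm
    have h2 : (Rep.coind U.subtype A).ρ (r (D.hOf x)) (c i) = c (D.hOf x * i) - c (D.hOf x) := by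
      rw [hcoc (D.hOf x) i]; abel
    have h3 : c (D.hOf x * i) = c (D.hOf x) + c (D.hOf x * i * (D.hOf x)⁻¹) := by
      have h := hcoc (D.hOf x * i * (D.hOf x)⁻¹) (D.hOf x)
      rw [inv_mul_cancel_right] at h
      rw [h, coind_ρ_eq_self_of_conj_mem I hIU hIA hi']
    rw [hx, mul_assoc, coind_apply_smul, h1, h2, h3, add_sub_cancel_left,
      h0 (D.idx x) _ hi', map_zero]
  apply Subtype.ext
  funext x
  exact key x

end Generic

/-! ### Arithmetic part -/

section Arith

variable (l : Nat.Primes)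

/-- **Level-constant and invariant under inertia ⇒ unramified.** -/
theorem isUnram₁_of_inertia_invariant {X : Type*} (f : primeLocalGaloisGroup l → X)
    (hlev : IsLevelConstant₁ (primeLocalToGlobal l) f)
    (hI : ∀ g i : primeLocalGaloisGroup l,
      primeLocalToGlobal l i ∈ (primeLocalPlace l).inertiaSubgroupIn ℚ → f (g * i) = f g) :
    Fermat.Agent.S55.Arith.Unram.IsUnram₁ l f := by
  classical
  obtain ⟨F₀, hF₀, hf⟩ := hlev
  have := hF₀
  have hA : (primeLocalPlace l).LiesOverPrime (l : ℕ) :=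
    Fermat.Agent.S55.Arith.Unram.liesOverPrime_primeLocalPlace l
  obtain ⟨φ, hφ⟩ := Fermat.Agent.Lib.Frobenius.exists_isFrobeniusAt (primeLocalPlace l) l.2 hA
  let L : IntermediateField ℚ Qb := IntermediateField.normalClosure ℚ F₀ Qb
  have hLn : Normal ℚ L := normalClosure.normal ℚ _ _
  have hLf : FiniteDimensional ℚ L := inferInstance
  have hker : L.fixingSubgroup = (AlgEquiv.restrictNormalHom (F := ℚ) (K₁ := Qb) L).ker :=
    Fermat.Agent.S55.Glue.fixingSubgroup_eq_ker L
  set N := orderOf (AlgEquiv.restrictNormalHom (F := ℚ) (K₁ := Qb) L φ) with hN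
  have hN0 : 0 < N := orderOf_pos _
  have hφN : φ ^ N ∈ L.fixingSubgroup := by
    rw [hker, MonoidHom.mem_ker, map_pow, hN, pow_orderOf_eq_one]
  set m := (l : ℕ) ^ N - 1 with hm
  have hm0 : m ≠ 0 := by
    have h1 : 1 < (l : ℕ) ^ N := Nat.one_lt_pow hN0.ne' l.2.one_lt
    omega
  have hcop : Nat.Coprime m (l : ℕ) :=
    Fermat.Agent.S55.Glue.UnramLevel.coprime_pow_sub_one l.2.pos N hN0.ne'
  have hF := Fermat.Agent.S55.Glue.UnramLevel.isUnramifiedOutside_sup_cycloField
    (IntermediateField.isUnramifiedOutside_bot ∅) hm0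
  refine ⟨_, ?_, _, hF, fun g s hs => ?_⟩
  · rw [Finset.empty_union, Fermat.Agent.S55.Glue.UnramLevel.mem_primesDvd hm0]
    intro hdvd
    exact l.2.one_lt.ne' (Nat.Coprime.eq_one_of_dvd hcop.symm hdvd)
  · have hsD : primeLocalToGlobal l s ∈ (primeLocalPlace l).decompositionSubgroup ℚ := by
      rw [← Fermat.Agent.S55.Glue.LocalRange.range_primeLocalToGlobal]
      exact ⟨s, rfl⟩
    have hsμ : primeLocalToGlobal l s ∈ (Fermat.Agent.S55.Glue.cycloField m).fixingSubgroup :=
      IntermediateField.fixingSubgroup_antitone le_sup_right hs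
    obtain ⟨ι, hι, hιL⟩ :=
      Fermat.Agent.S55.Glue.UnramIntrinsic.exists_inertia_mul_of_fixes_roots
        (primeLocalPlace l) l.2 hA hφ L hN0 hφN hsD hsμ
    have hιD : ι ∈ (primeLocalToGlobal l).range := by
      rw [Fermat.Agent.S55.Glue.LocalRange.range_primeLocalToGlobal]
      exact Fermat.Agent.S55.Glue.UnramIntrinsic.inertia_le_decomposition _ hι
    obtain ⟨i, rfl⟩ := hιD
    have e : g * s = g * (s * i⁻¹) * i := by group
    rw [e, hI _ i hι]
    apply hf
    rw [map_mul, map_inv]
    exact IntermediateField.fixingSubgroup_antitone (IntermediateField.le_normalClosure F₀) hιL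

/-- The preimage of the inertia group in the local Galois group. -/
noncomputable def inertiaLoc : Subgroup (primeLocalGaloisGroup l) :=
  ((primeLocalPlace l).inertiaSubgroupIn ℚ).comap (primeLocalToGlobal l)

theorem mem_inertiaLoc {i : primeLocalGaloisGroup l} :
    i ∈ inertiaLoc l ↔ primeLocalToGlobal l i ∈ (primeLocalPlace l).inertiaSubgroupIn ℚ :=
  Iff.rfl

instance inertiaLoc_normal : (inertiaLoc l).Normal := by
  refine ⟨fun i hi h => ?_⟩
  rw [mem_inertiaLoc] at hi ⊢
  have hD : primeLocalToGlobal l h ∈ (primeLocalPlace l).decompositionSubgroup ℚ := by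
    rw [← Fermat.Agent.S55.Glue.LocalRange.range_primeLocalToGlobal]
    exact ⟨h, rfl⟩
  have hsm : primeLocalToGlobal l h • primeLocalPlace l = primeLocalPlace l := hD
  have h1 := Fermat.Agent.S55.Glue.conj_mem_inertiaSubgroupIn hi (primeLocalToGlobal l h)
  rw [hsm] at h1
  rw [map_mul, map_mul, map_inv]
  exact h1

variable {l}

/-- For `K` unramified at `l`, all conjugates of inertia at `l` lie in `Fix K`. -/
theorem conj_mem_fixingSubgroup_of_mem_inertiaLoc {K : IntermediateField ℚ Qb}
    {S : Finset Nat.Primes} (hK : K.IsUnramifiedOutside S) (hl : l ∉ S)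
    {i : primeLocalGaloisGroup l} (hi : i ∈ inertiaLoc l) (g : Gq) :
    g * primeLocalToGlobal l i * g⁻¹ ∈ K.fixingSubgroup := by
  have hA : (primeLocalPlace l).LiesOverPrime (l : ℕ) :=
    Fermat.Agent.S55.Arith.Unram.liesOverPrime_primeLocalPlace l
  exact hK.2 l hl (g • primeLocalPlace l) (Fermat.Agent.S55.Glue.liesOverPrime_smul hA g)
    (Fermat.Agent.S55.Glue.conj_mem_inertiaSubgroupIn hi g)

variable {k : Type} [CommRing k] {X : Type} [AddCommGroup X] [Module k X]
  {K : IntermediateField ℚ Qb} {S : Finset Nat.Primes} {J : Type}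

/-- A `1`-cocycle with values in `coind_{Fix K} X`, `K` unramified at `l`, whose Mackey
components vanish on inertia, vanishes on inertia. -/
theorem eq_zero_of_mk₁_inertia (hK : K.IsUnramifiedOutside S) (hl : l ∉ S)
    (D : DRep K.fixingSubgroup (primeLocalToGlobal l) J)
    {c : primeLocalGaloisGroup l →
      Rep.coind K.fixingSubgroup.subtype (Rep.trivial k K.fixingSubgroup X)}
    (hc : c ∈ cocycles₁ (Rep.res (primeLocalToGlobal l)
      (Rep.coind K.fixingSubgroup.subtype (Rep.trivial k K.fixingSubgroup X))))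
    (h0 : ∀ j (h : conjSub K.fixingSubgroup (primeLocalToGlobal l) (D.τ j)),
      primeLocalToGlobal l h ∈ (primeLocalPlace l).inertiaSubgroupIn ℚ →
      mk₁ K.fixingSubgroup (Rep.trivial k K.fixingSubgroup X) (primeLocalToGlobal l) (D.τ j) c h
        = 0)
    {i : primeLocalGaloisGroup l}
    (hi : primeLocalToGlobal l i ∈ (primeLocalPlace l).inertiaSubgroupIn ℚ) : c i = 0 := by
  refine eq_zero_of_mk₁_eq_zero D (inertiaLoc l)
    (fun i hi g => conj_mem_fixingSubgroup_of_mem_inertiaLoc hK hl hi g)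
    (fun _ _ _ _ _ => rfl) hc (fun j i hi => ?_) hi
  have hmem : i ∈ conjSub K.fixingSubgroup (primeLocalToGlobal l) (D.τ j) :=
    conj_mem_fixingSubgroup_of_mem_inertiaLoc hK hl hi (D.τ j)
  exact h0 j ⟨i, hmem⟩ hi

/-- **Vanishing tame components ⇒ unramified.** -/
theorem isUnram₁_of_mk₁_inertia (hK : K.IsUnramifiedOutside S) (hl : l ∉ S)
    (D : DRep K.fixingSubgroup (primeLocalToGlobal l) J)
    {c : primeLocalGaloisGroup l →
      Rep.coind K.fixingSubgroup.subtype (Rep.trivial k K.fixingSubgroup X)}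
    (hc : c ∈ cocycles₁ (Rep.res (primeLocalToGlobal l)
      (Rep.coind K.fixingSubgroup.subtype (Rep.trivial k K.fixingSubgroup X))))
    (hlev : IsLevelConstant₁ (primeLocalToGlobal l) c)
    (h0 : ∀ j (h : conjSub K.fixingSubgroup (primeLocalToGlobal l) (D.τ j)),
      primeLocalToGlobal l h ∈ (primeLocalPlace l).inertiaSubgroupIn ℚ →
      mk₁ K.fixingSubgroup (Rep.trivial k K.fixingSubgroup X) (primeLocalToGlobal l) (D.τ j) c h
        = 0) :
    Fermat.Agent.S55.Arith.Unram.IsUnram₁ l c := by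
  refine isUnram₁_of_inertia_invariant l c hlev (fun g i hi => ?_)
  have hcoc : c (g * i) = (Rep.coind K.fixingSubgroup.subtype
      (Rep.trivial k K.fixingSubgroup X)).ρ (primeLocalToGlobal l g) (c i) + c g := by
    have hc' := hc
    rw [mem_cocycles₁_iff] at hc'
    exact hc' g i
  rw [hcoc, eq_zero_of_mk₁_inertia hK hl D hc h0 hi, map_zero, zero_add]

/-- A finite linear combination of level-constant cochains is level-constant. -/
theorem isLevelConstant₁_sum_smul {Y : Type*} [AddCommGroup Y] [Module k Y] [Fintype J]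
    (e : J → k) (θ : J → primeLocalGaloisGroup l → Y)
    (hθ : ∀ j, IsLevelConstant₁ (primeLocalToGlobal l) (θ j)) :
    IsLevelConstant₁ (primeLocalToGlobal l) (∑ j, e j • θ j) := by
  classical
  have key : ∀ s : Finset J, IsLevelConstant₁ (primeLocalToGlobal l) (∑ j ∈ s, e j • θ j) := by
    intro s
    induction s using Finset.induction_on with
    | empty =>
      rw [Finset.sum_empty]
      exact ⟨⊥, inferInstance, fun _ _ _ => rfl⟩
    | insert a s ha ih =>
      rw [Finset.sum_insert ha]
      exact ((hθ a).comp (fun y => e a • y)).add ih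
  exact key Finset.univ

/-- **(CRIT)** If on inertia the Mackey components of the level-constant cocycle `c` agree with
those of `∑ e_j • θ_j`, then `c = ∑ e_j • θ_j + u + d m` with `u` an unramified cocycle. -/
theorem exists_isUnram_decomp [Fintype J] (hK : K.IsUnramifiedOutside S) (hl : l ∉ S)
    (D : DRep K.fixingSubgroup (primeLocalToGlobal l) J)
    (θ : J → primeLocalGaloisGroup l →
      Rep.coind K.fixingSubgroup.subtype (Rep.trivial k K.fixingSubgroup X))
    (hθ : ∀ j, θ j ∈ cocycles₁ (Rep.res (primeLocalToGlobal l)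
      (Rep.coind K.fixingSubgroup.subtype (Rep.trivial k K.fixingSubgroup X))))
    (hθlev : ∀ j, IsLevelConstant₁ (primeLocalToGlobal l) (θ j))
    {c : primeLocalGaloisGroup l →
      Rep.coind K.fixingSubgroup.subtype (Rep.trivial k K.fixingSubgroup X)}
    (hc : c ∈ cocycles₁ (Rep.res (primeLocalToGlobal l)
      (Rep.coind K.fixingSubgroup.subtype (Rep.trivial k K.fixingSubgroup X))))
    (hclev : IsLevelConstant₁ (primeLocalToGlobal l) c) (e : J → k)
    (he : ∀ j (h : conjSub K.fixingSubgroup (primeLocalToGlobal l) (D.τ j)),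
      primeLocalToGlobal l h ∈ (primeLocalPlace l).inertiaSubgroupIn ℚ →
      mk₁ K.fixingSubgroup (Rep.trivial k K.fixingSubgroup X) (primeLocalToGlobal l) (D.τ j) c h
        = ∑ i, e i • mk₁ K.fixingSubgroup (Rep.trivial k K.fixingSubgroup X)
            (primeLocalToGlobal l) (D.τ j) (θ i) h) :
    ∃ (u : primeLocalGaloisGroup l →
        Rep.coind K.fixingSubgroup.subtype (Rep.trivial k K.fixingSubgroup X))
      (m : Rep.coind K.fixingSubgroup.subtype (Rep.trivial k K.fixingSubgroup X)),
      Fermat.Agent.S55.Arith.Unram.IsUnram₁ l u ∧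
      u ∈ cocycles₁ (Rep.res (primeLocalToGlobal l)
        (Rep.coind K.fixingSubgroup.subtype (Rep.trivial k K.fixingSubgroup X))) ∧
      c = ∑ j, e j • θ j + u + (d₀₁ (Rep.res (primeLocalToGlobal l)
        (Rep.coind K.fixingSubgroup.subtype (Rep.trivial k K.fixingSubgroup X)))).hom m := by
  have hsum : (∑ j, e j • θ j) ∈ cocycles₁ (Rep.res (primeLocalToGlobal l)
      (Rep.coind K.fixingSubgroup.subtype (Rep.trivial k K.fixingSubgroup X))) :=
    Submodule.sum_mem _ (fun j _ => Submodule.smul_mem _ _ (hθ j))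
  have hu : c - ∑ j, e j • θ j ∈ cocycles₁ (Rep.res (primeLocalToGlobal l)
      (Rep.coind K.fixingSubgroup.subtype (Rep.trivial k K.fixingSubgroup X))) :=
    Submodule.sub_mem _ hc hsum
  have hulev : IsLevelConstant₁ (primeLocalToGlobal l) (c - ∑ j, e j • θ j) := by
    have h1 := (isLevelConstant₁_sum_smul e θ hθlev).comp
      (fun y : Rep.coind K.fixingSubgroup.subtype (Rep.trivial k K.fixingSubgroup X) => -y)
    have h2 := hclev.add h1
    have e2 : c - ∑ j, e j • θ j = c + (fun y : Rep.coind K.fixingSubgroup.subtype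
        (Rep.trivial k K.fixingSubgroup X) => -y) ∘ (∑ j, e j • θ j) := by
      funext x
      show c x - (∑ j, e j • θ j) x = c x + -((∑ j, e j • θ j) x)
      abel
    rw [e2]
    exact h2
  refine ⟨c - ∑ j, e j • θ j, 0, isUnram₁_of_mk₁_inertia hK hl D hu hulev (fun j h hh => ?_), hu, ?_⟩
  · rw [map_sub, map_sum, Pi.sub_apply, he j h hh, Finset.sum_apply, sub_eq_zero]
    refine Finset.sum_congr rfl (fun i _ => ?_)
    rw [map_smul, Pi.smul_apply]
  · rw [map_zero, add_zero]; abel

/-- **(CRIT), `theta` form.** `κ j` cocycles of the groups `conjSub (Fix K) r (τ j)`,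
`theta D R j (κ j)` level-constant; if the Mackey components of `c` are `e j • κ j` on inertia
then `c = ∑ e_j • theta D R j (κ j) + u + d m` with `u` an unramified cocycle. -/
theorem exists_isUnram_decomp_theta [Fintype J] [DecidableEq J] (hK : K.IsUnramifiedOutside S)
    (hl : l ∉ S) (D : DRep K.fixingSubgroup (primeLocalToGlobal l) J)
    (R : ∀ j : J, Retr (conjSub K.fixingSubgroup (primeLocalToGlobal l) (D.τ j)))
    (κ : ∀ j : J, conjSub K.fixingSubgroup (primeLocalToGlobal l) (D.τ j) →
      locRep K.fixingSubgroup (Rep.trivial k K.fixingSubgroup X) (primeLocalToGlobal l) (D.τ j))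
    (hκ : ∀ j, κ j ∈ cocycles₁ (locRep K.fixingSubgroup (Rep.trivial k K.fixingSubgroup X)
      (primeLocalToGlobal l) (D.τ j)))
    (hθlev : ∀ j, IsLevelConstant₁ (primeLocalToGlobal l) (theta D R j (κ j)))
    {c : primeLocalGaloisGroup l →
      Rep.coind K.fixingSubgroup.subtype (Rep.trivial k K.fixingSubgroup X)}
    (hc : c ∈ cocycles₁ (Rep.res (primeLocalToGlobal l)
      (Rep.coind K.fixingSubgroup.subtype (Rep.trivial k K.fixingSubgroup X))))
    (hclev : IsLevelConstant₁ (primeLocalToGlobal l) c) (e : J → k)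
    (he : ∀ j (h : conjSub K.fixingSubgroup (primeLocalToGlobal l) (D.τ j)),
      primeLocalToGlobal l h ∈ (primeLocalPlace l).inertiaSubgroupIn ℚ →
      mk₁ K.fixingSubgroup (Rep.trivial k K.fixingSubgroup X) (primeLocalToGlobal l) (D.τ j) c h
        = e j • κ j h) :
    ∃ (u : primeLocalGaloisGroup l →
        Rep.coind K.fixingSubgroup.subtype (Rep.trivial k K.fixingSubgroup X))
      (m : Rep.coind K.fixingSubgroup.subtype (Rep.trivial k K.fixingSubgroup X)),
      Fermat.Agent.S55.Arith.Unram.IsUnram₁ l u ∧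
      u ∈ cocycles₁ (Rep.res (primeLocalToGlobal l)
        (Rep.coind K.fixingSubgroup.subtype (Rep.trivial k K.fixingSubgroup X))) ∧
      c = ∑ j, e j • theta D R j (κ j) + u + (d₀₁ (Rep.res (primeLocalToGlobal l)
        (Rep.coind K.fixingSubgroup.subtype (Rep.trivial k K.fixingSubgroup X)))).hom m := by
  refine exists_isUnram_decomp hK hl D (fun j => theta D R j (κ j))
    (fun j => theta_mem_cocycles₁ D R j (hκ j)) hθlev hc hclev e (fun j h hh => ?_)
  rw [he j h hh, Finset.sum_eq_single j]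
  · rw [mk₁_theta_self]
  · intro i _ hij
    rw [mk₁_theta_of_ne D R (Ne.symm hij), Pi.zero_apply, smul_zero]
  · intro hj
    exact absurd (Finset.mem_univ j) hj

end Arith

end Fermat.Agent.S55.Shapiro.Unr3Crit
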